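import Mathlib
import Fermat.Prelude.Def_ModularCurve_ReductionModL
import Fermat.Prelude.Def_AlgebraicCurve_Repartitions
import Fermat.Prelude.Def_EllipticCurve_FrobeniusTrace

/-!
# S18 (item 87): contract (architect: helper6)

Route: tame auxiliary level `N' = lcm(N, M0)`, `M0 = 4` (`ℓ` odd) or `9` (`ℓ = 2`).

TOP LEVEL (fixed): `GlueStatement` (P8), `CTModular` (P1..P6), `DescentStatement` (P7),
`s18_of_pieces` (P9, proved here).

ABSTRACT LAYER (for the owners of P4, P5, P6; any valued pair `F ⊂ L((q))`, `Fb ⊂ k((q))`):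
`RedQ` (q-integral reduction), `RedV` (reduction for the Gauss valuation = quotients of q-integral
elements; helper2's warning: q-integral elements are NOT the whole valuation ring), `RiemannThm`,
`GoodPair`, `InfData`, `DivCompat`, `SurjRed`, `LatticeStatement`.
-/

set_option autoImplicit false

noncomputable section

open HahnSeries AlgebraicCurve ModularCurve

namespace Fermat.Agent.S18

section Abstract

variable {L : Type*} [Field L] (A : ValuationSubring L) {k : Type*} [Field k] (π : A →+* k)

/-- `y ∈ L((q))` has all its coefficients in `A` and reduces to `yb ∈ k((q))`. -/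
def RedQ (y : LaurentSeries L) (yb : LaurentSeries k) : Prop :=
  ∃ y' : LaurentSeries A, coeffMap A.subtype y' = y ∧ coeffMap π y' = yb

variable (F : IntermediateField L (LaurentSeries L)) (Fb : IntermediateField k (LaurentSeries k))

/-- reduction for the Gauss valuation of `F`: `y = u / v` with `u, v ∈ F` q-integral, `v` with
nonzero reduction, reductions in `Fb`, and `yb = ub / vb`. -/
def RedV (y : F) (yb : Fb) : Prop :=
  ∃ (u v : F) (ub vb : Fb), RedQ A π (u : LaurentSeries L) (ub : LaurentSeries k) ∧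
    RedQ A π (v : LaurentSeries L) (vb : LaurentSeries k) ∧ vb ≠ 0 ∧ y * v = u ∧ yb * vb = ub

/-- Riemann's theorem with genus `g` for the function field `E / K`. -/
structure RiemannThm (K : Type*) (E : Type*) [Field K] [Field E] [Algebra K E] (g : ℕ) : Prop where
  finite : ∀ D : Divisor K E, Module.Finite K (riemannRochSpace D)
  ineq : ∀ D : Divisor K E,
    Divisor.degree D + 1 - (g : ℤ) ≤ (Module.finrank K (riemannRochSpace D) : ℤ)
  eq_of_lt : ∀ D : Divisor K E, 2 * (g : ℤ) - 2 < Divisor.degree D →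
    (Module.finrank K (riemannRochSpace D) : ℤ) = Divisor.degree D + 1 - (g : ℤ)
  zero : ∀ f : E, f ∈ riemannRochSpace (0 : Divisor K E) → ∃ c : K, f = algebraMap K E c
  neg : ∀ D : Divisor K E, Divisor.degree D < 0 → riemannRochSpace D = ⊥
  deg_one : ∀ P : Place K E, P.deg = 1
  principal : HasPrincipalDivisors K E

/-- The valued pair `(F, Fb)` has "good reduction of genus `g`":
every nonzero element of `F` can be scaled to a unit of the Gauss valuation with reduction in `Fb`,
and both fields satisfy Riemann's theorem with THE SAME genus. -/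
structure GoodPair (g : ℕ) : Prop where
  scal : ∀ y : F, y ≠ 0 → ∃ c : L, c ≠ 0 ∧ ∃ yb : Fb, yb ≠ 0 ∧ RedV A π F Fb (c • y) yb
  riemL : RiemannThm L F g
  riemk : RiemannThm k Fb g

/-- the places "at infinity" (`q = 0`) of both fields: `ord = q`-order. -/
structure InfData : Prop where
  infL : ∃ P : Place L F, ∀ y : F, y ≠ 0 → (P.ord y : WithTop ℤ) = (y : LaurentSeries L).orderTop
  infk : ∃ Q : Place k Fb, ∀ y : Fb, y ≠ 0 → (Q.ord y : WithTop ℤ) = (y : LaurentSeries k).orderTop

/-- compatibility of `r` with divisors of units of the Gauss valuation. -/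
def DivCompat (r : Place L F → Place k Fb) : Prop :=
  ∀ (y : F) (yb : Fb), RedV A π F Fb y yb → yb ≠ 0 →
    ∀ D : Divisor L F, (∀ P, D P = P.ord y) → ∀ Q, Finsupp.mapDomain r D Q = Q.ord yb

/-- (F3): reduction `L(E)_int → L_k(r_* E)` is onto for `deg E > 2g - 2`. -/
def SurjRed (g : ℕ) (r : Place L F → Place k Fb) : Prop :=
  ∀ E : Divisor L F, 2 * (g : ℤ) - 2 < Divisor.degree E →
    ∀ yb : Fb, yb ∈ riemannRochSpace (Finsupp.mapDomain r E) →
      ∃ y : F, y ∈ riemannRochSpace E ∧ RedV A π F Fb y yb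

/-- **87-P4** lattice lemma: the Gauss-integral elements of a finite dimensional `L`-subspace of
`F` form a free `A`-module with a basis whose reductions are `k`-linearly independent. -/
def LatticeStatement : Prop :=
  (∀ y : F, y ≠ 0 → ∃ c : L, c ≠ 0 ∧ ∃ yb : Fb, yb ≠ 0 ∧ RedV A π F Fb (c • y) yb) →
  ∀ S : Submodule L F, Module.Finite L S →
    ∃ (n : ℕ) (w : Fin n → F) (wb : Fin n → Fb), Module.finrank L S = n ∧
      (∀ i, w i ∈ S) ∧ (∀ i, RedV A π F Fb (w i) (wb i)) ∧
      LinearIndependent k wb ∧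
      ∀ y : F, y ∈ S → ∀ yb : Fb, RedV A π F Fb y yb →
        ∃ a : Fin n → A, y = ∑ i, ((a i : L) • w i) ∧ yb = ∑ i, (π (a i) • wb i)

/-- **87-P5** the reduction map on places, from equality of genera. -/
def ReductionStatement (g : ℕ) : Prop :=
  GoodPair A π F Fb g → ∃ r : Place L F → Place k Fb, DivCompat A π F Fb r ∧ SurjRed A π F Fb g r

end Abstract

section Modular

variable (N : ℕ) [NeZero N] (A : ValuationSubring (AlgebraicClosure ℚ))

/-- the auxiliary level: `4` for odd `ℓ`, `9` for `ℓ = 2`. -/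
def auxLevel (ℓ : ℕ) : ℕ := if ℓ = 2 then 9 else 4

/-- the tame level `N' = lcm(N, M0)`. -/
def tameLevel (ℓ : ℕ) : ℕ := Nat.lcm N (auxLevel ℓ)

/-- **87-P1 + P2 + P3 + P4b** (the modular input at level `N'`): good pair + places at infinity. -/
def ModularGoodPair (N' : ℕ) : Prop :=
  (∃ g : ℕ, GoodPair A (IsLocalRing.residue A) (modularFunctionFieldBar N')
      (modularFunctionFieldFullC (IsLocalRing.ResidueField A) N') g) ∧
    InfData (modularFunctionFieldBar N') (modularFunctionFieldFullC (IsLocalRing.ResidueField A) N')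

/-- **CT at level `N'`** (= P1..P6 together): a unit `f` of the Gauss valuation with reduction `1`
whose divisor is divisible by `m` (`m` prime to the residue characteristic) is an `m`-th power. -/
def CTModular (N' : ℕ) : Prop :=
  ∀ (f : modularFunctionFieldBar N') (m : ℕ), ((m : ℕ) : IsLocalRing.ResidueField A) ≠ 0 →
    RedV A (IsLocalRing.residue A) (modularFunctionFieldBar N')
      (modularFunctionFieldFullC (IsLocalRing.ResidueField A) N') f 1 →
    (∀ P : Place (AlgebraicClosure ℚ) (modularFunctionFieldBar N'), (m : ℤ) ∣ P.ord f) →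
    ∃ h : modularFunctionFieldBar N', h ^ m = f

/-- **87-P7** descent from level `N'` to level `N ∣ N'`. -/
def DescentStatement (N' : ℕ) : Prop :=
  ∀ (f : LaurentSeries (AlgebraicClosure ℚ)) (hf : f ∈ modularFunctionFieldBar N)
    (hf' : f ∈ modularFunctionFieldBar N') (m : ℕ), 0 < m →
    (∀ v : Place (AlgebraicClosure ℚ) (modularFunctionFieldBar N), (m : ℤ) ∣ v.ord ⟨f, hf⟩) →
    (∀ w : Place (AlgebraicClosure ℚ) (modularFunctionFieldBar N'), (m : ℤ) ∣ w.ord ⟨f, hf'⟩) ∧
    ((∃ h : modularFunctionFieldBar N', h ^ m = ⟨f, hf'⟩) →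
      ∃ h₀ : modularFunctionFieldBar N, h₀ ^ m = ⟨f, hf⟩)

/-- **87-P8** glue with the prelude: a torsion class with trivial reduction is represented by
`D` with `m D = div f`, `f` a unit of the Gauss valuation with reduction `1`. -/
def GlueStatement (ℓ : ℕ) : Prop :=
  A.LiesOverPrime ℓ → ModularCurve.ReductionInputsModL A N →
  ∀ (m : ℕ), ¬ ℓ ∣ m → ∀ z : ModularCurve.JZero N, m • z = 0 →
    ModularCurve.reductionModL A N z = 0 →
    ∃ f : modularFunctionFieldBar N,
      RedV A (IsLocalRing.residue A) (modularFunctionFieldBar N)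
        (modularFunctionFieldFullC (IsLocalRing.ResidueField A) N) f 1 ∧
      (∀ v : Place (AlgebraicClosure ℚ) (modularFunctionFieldBar N), (m : ℤ) ∣ v.ord f) ∧
      ((∃ h₀ : modularFunctionFieldBar N, h₀ ^ m = f) → z = 0)

/-- transport of `RedV` from level `N` to level `N'` (`N ∣ N'`): part of P7. -/
def RedVMono (N' : ℕ) : Prop :=
  ∀ (f : LaurentSeries (AlgebraicClosure ℚ)) (hf : f ∈ modularFunctionFieldBar N)
    (hf' : f ∈ modularFunctionFieldBar N'),
    RedV A (IsLocalRing.residue A) (modularFunctionFieldBar N)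
      (modularFunctionFieldFullC (IsLocalRing.ResidueField A) N) ⟨f, hf⟩ 1 →
    RedV A (IsLocalRing.residue A) (modularFunctionFieldBar N')
      (modularFunctionFieldFullC (IsLocalRing.ResidueField A) N') ⟨f, hf'⟩ 1

omit [NeZero N] in
/-- **final assembly** (P9): S18 from the pieces, for ANY auxiliary level `N'`
(the pieces are proved for `N' = tameLevel N ℓ`). -/
theorem s18_of_pieces {ℓ : ℕ} (N' : ℕ)
    (hglue : GlueStatement N A ℓ)
    (hchar : ∀ m : ℕ, ¬ ℓ ∣ m → ((m : ℕ) : IsLocalRing.ResidueField A) ≠ 0)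
    (hCT : CTModular A N')
    (hle : modularFunctionFieldBar N ≤ modularFunctionFieldBar N')
    (hmono : RedVMono N A N')
    (hdesc : DescentStatement N N')
    (hA : A.LiesOverPrime ℓ) (h : ModularCurve.ReductionInputsModL A N) (m : ℕ) (hm : ¬ ℓ ∣ m)
    (z : ModularCurve.JZero N) (hmz : m • z = 0) (hz : ModularCurve.reductionModL A N z = 0) :
    z = 0 := by
  obtain ⟨f, hf1, hfm, hfin⟩ := hglue hA h m hm z hmz hz
  apply hfin
  have hm0 : 0 < m := by
    rcases Nat.eq_zero_or_pos m with h0 | h0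
    · exact absurd (h0 ▸ dvd_zero ℓ) hm
    · exact h0
  obtain ⟨hdiv', hback⟩ := hdesc (f : LaurentSeries (AlgebraicClosure ℚ)) f.2 (hle f.2) m hm0 hfm
  obtain ⟨h', hh'⟩ := hCT ⟨(f : LaurentSeries (AlgebraicClosure ℚ)), hle f.2⟩ m
    (hchar m hm) (hmono _ f.2 (hle f.2) hf1) hdiv'
  exact hback ⟨h', hh'⟩

end Modular

end Fermat.Agent.S18
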