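/-
S18 swarm, piece 87-P7 (helper2), part 1: the easy halves of the descent `N' → N`.

* `Descent.redVMono`      : `RedVMono N A N'` for `N ∣ N'`;
* `Descent.dvd_ord_of_le` : divisibility of all orders passes from `F_N` to `F_N'`
  (the restriction of a place of `F_N'` to `F_N` is a multiple of a place of `F_N`).
-/
import Mathlib
import Fermat.Agent.S18.Defs
import Fermat.Agent.FF.OrdFnBasic
import Fermat.Agent.FF.ModRealAlg

set_option autoImplicit false

noncomputable section

open HahnSeries AlgebraicCurve ModularCurve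

namespace Fermat.Agent.S18.Descent

open Fermat.Agent.FF

/-- `F_N ≤ F_N'` for `N ∣ N'`. -/
theorem modularFunctionFieldBar_mono {N N' : ℕ} [NeZero N] [NeZero N'] (h : N ∣ N') :
    modularFunctionFieldBar N ≤ modularFunctionFieldBar N' := by
  show laurentBaseChange _ _ ≤ laurentBaseChange _ _
  rw [laurentBaseChange, IntermediateField.adjoin_le_iff]
  rintro x ⟨y, hy, rfl⟩
  exact coeffEmb_mem_laurentBaseChange _ (full_degeneracy_le h hy)

/-- transport of `RedV` along `F_N ≤ F_N'`. -/
theorem redVMono (N : ℕ) [NeZero N] (A : ValuationSubring (AlgebraicClosure ℚ)) (N' : ℕ)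
    [NeZero N'] (h : N ∣ N') : RedVMono N A N' := by
  intro f hf hf' hred
  obtain ⟨u, v, ub, vb, hu, hv, hvb, huv, hb⟩ := hred
  have hle := modularFunctionFieldBar_mono h
  have hleC := full_degeneracyC_le (IsLocalRing.ResidueField A) h
  refine ⟨⟨u, hle u.2⟩, ⟨v, hle v.2⟩, ⟨ub, hleC ub.2⟩, ⟨vb, hleC vb.2⟩, hu, hv, ?_, ?_, ?_⟩
  · intro h0
    apply hvb
    rw [← ZeroMemClass.coe_eq_zero] at h0 ⊢
    exact h0
  · rw [Subtype.ext_iff, MulMemClass.coe_mul] at huv ⊢
    exact huv
  · rw [Subtype.ext_iff, MulMemClass.coe_mul, OneMemClass.coe_one] at hb ⊢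
    exact hb

section Restrict

variable {K : Type*} [Field K] {E : Type*} [Field E] [Algebra K E]

/-- the restriction of an order function along an inclusion of intermediate fields. -/
def restrictOrd {F F' : IntermediateField K E} (hle : F ≤ F') (w : OrdFn K F') : OrdFn K F where
  toFun f := w (IntermediateField.inclusion hle f)
  map_mul' f g hf hg := by
    rw [map_mul]
    exact w.map_mul' _ _ (fun h => hf ((map_eq_zero _).mp h)) (fun h => hg ((map_eq_zero _).mp h))
  map_add' f g hf hg hfg := by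
    rw [map_add]
    refine w.map_add' _ _ (fun h => hf ((map_eq_zero _).mp h)) (fun h => hg ((map_eq_zero _).mp h))
      (fun h => hfg ?_)
    rw [← map_add] at h
    exact (map_eq_zero _).mp h
  map_const' c hc := by
    have : IntermediateField.inclusion hle (algebraMap K F c) = algebraMap K F' c := rfl
    rw [this]
    exact w.map_const' c hc

theorem restrictOrd_apply {F F' : IntermediateField K E} (hle : F ≤ F') (w : OrdFn K F') (f : F) :
    restrictOrd hle w f = w (IntermediateField.inclusion hle f) := rfl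

/-- **divisibility passes to the bigger field.** -/
theorem dvd_ord_of_le {F F' : IntermediateField K E} (hle : F ≤ F') (m : ℤ) (f : E) (hf : f ∈ F)
    (hdiv : ∀ v : Place K F, m ∣ v.ord ⟨f, hf⟩) (w : Place K F') :
    m ∣ w.ord ⟨f, hle hf⟩ := by
  by_cases hf0 : f = 0
  · subst hf0
    have : (⟨0, hle hf⟩ : F') = 0 := rfl
    rw [this, Place.ord_zero]
    exact dvd_zero m
  have hfF : (⟨f, hf⟩ : F) ≠ 0 := fun h => hf0 (congrArg Subtype.val h)
  set ω : OrdFn K F := restrictOrd hle (H6.ofPlace w) with hω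
  have hval : w.ord ⟨f, hle hf⟩ = ω ⟨f, hf⟩ := rfl
  by_cases htriv : ∃ g : F, g ≠ 0 ∧ 0 < ω g
  · obtain ⟨t, -, -, ht⟩ := H6.exists_mul_ord ω htriv
    rw [hval, ht _ hfF]
    exact Dvd.dvd.mul_left (hdiv _) t
  · -- trivial restriction: all orders vanish
    have h0 : ω ⟨f, hf⟩ = 0 := by
      rcases lt_trichotomy (ω ⟨f, hf⟩) 0 with hlt | heq | hgt
      · exfalso
        apply htriv
        refine ⟨(⟨f, hf⟩ : F)⁻¹, inv_ne_zero hfF, ?_⟩
        rw [H6.w_inv ω hfF]
        linarith
      · exact heq
      · exact absurd ⟨_, hfF, hgt⟩ htriv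
    rw [hval, h0]
    exact dvd_zero m

end Restrict

end Fermat.Agent.S18.Descent
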