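/-
S18 swarm, piece 87-P7 (helper2), part 4: the descent `N' → N` at the cusp `1/c`.

`Ψ = σ_γ ∘ Φ_{N'}`, `γ = lowMat c`, `θ = σ_{T^W}`, `G = fixField = {f ∈ F_N' | θ(Ψ f) = Ψ f}`.
* `mem_fixField_of_pow`  : `h ∈ F_N'`, `h^m ∈ F_N`, `m ∣ ord_P (h^m)` for all places `P` of `F_N`
                           ⟹ `h ∈ G`;
* `le_finrank_fixField`  : `e ≤ [F_N' : G]` (the `e` conjugates `θ^k Ψ(j(dτ))` are distinct).
-/
import Mathlib
import Fermat.Agent.S18.DescentBasic
import Fermat.Agent.S18.DescentCusp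
import Fermat.Agent.FF.ModData
import Fermat.Agent.FF.CosetIndex

set_option autoImplicit false

noncomputable section

open UpperHalfPlane hiding I
open Function Complex AlgebraicCurve
open scoped Real MatrixGroups Manifold

namespace Fermat.Agent.S18.Descent

open Fermat.Agent.FF

section Fix

variable (N' : ℕ) [NeZero N']

/-- the field of the `f ∈ F_N'` with `θ (Ψ f) = Ψ f`. -/
def fixField (c : ℤ) (W : ℕ) : IntermediateField Kbar (FN N') where
  carrier := {f | sigmaL N' (ModularGroup.T ^ W) (Psi N' c f) = Psi N' c f}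
  mul_mem' := fun {a b} ha hb => by
    show sigmaL N' (ModularGroup.T ^ W) (Psi N' c (a * b)) = Psi N' c (a * b)
    rw [RingHom.map_mul (Psi N' c) a b, RingHom.map_mul (sigmaL N' (ModularGroup.T ^ W)), ha, hb]
  one_mem' := by
    show sigmaL N' (ModularGroup.T ^ W) (Psi N' c 1) = Psi N' c 1
    rw [RingHom.map_one (Psi N' c), RingHom.map_one]
  add_mem' := fun {a b} ha hb => by
    show sigmaL N' (ModularGroup.T ^ W) (Psi N' c (a + b)) = Psi N' c (a + b)
    rw [RingHom.map_add (Psi N' c) a b, RingHom.map_add (sigmaL N' (ModularGroup.T ^ W)), ha, hb]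
  zero_mem' := by
    show sigmaL N' (ModularGroup.T ^ W) (Psi N' c 0) = Psi N' c 0
    rw [RingHom.map_zero (Psi N' c), RingHom.map_zero]
  algebraMap_mem' := fun a => by
    show sigmaL N' (ModularGroup.T ^ W) (Psi N' c (algebraMap Kbar (FN N') a)) = _
    rw [Psi_const, sigmaL_const]
  inv_mem' := fun a ha => by
    show sigmaL N' (ModularGroup.T ^ W) (Psi N' c a⁻¹) = Psi N' c a⁻¹
    rw [map_inv₀ (Psi N' c) a, map_inv₀ (sigmaL N' (ModularGroup.T ^ W)), ha]

theorem mem_fixField {c : ℤ} {W : ℕ} {f : FN N'} :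
    f ∈ fixField N' c W ↔ sigmaL N' (ModularGroup.T ^ W) (Psi N' c f) = Psi N' c f := Iff.rfl

/-- elements of the fixed field are fixed by all powers of `θ`. -/
theorem sigmaL_pow_of_mem {c : ℤ} {W : ℕ} {f : FN N'} (hf : f ∈ fixField N' c W) (k : ℕ) :
    sigmaL N' (ModularGroup.T ^ (W * k)) (Psi N' c f) = Psi N' c f := by
  induction k with
  | zero => rw [Nat.mul_zero, pow_zero, sigmaL_one]
  | succ k ih =>
    rw [Nat.mul_succ, pow_add, sigmaL_mul, ih]
    exact hf

end Fix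

section Roots

/-- a root of unity in an extension of an algebraically closed field is a constant. -/
theorem exists_const_of_pow_eq_one {K L : Type*} [Field K] [IsAlgClosed K] [Field L] [Algebra K L]
    (ξ : L) (m : ℕ) (hm : 0 < m) (h : ξ ^ m = 1) : ∃ c : K, ξ = algebraMap K L c := by
  have hint : IsIntegral K ξ := by
    refine ⟨Polynomial.X ^ m - 1, Polynomial.monic_X_pow_sub_C (1 : K) hm.ne', ?_⟩
    simp [h]
  have := hint.mem_range_algebraMap_of_minpoly_splits (K := K)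
    (by rw [Algebra.algebraMap_self, Polynomial.map_id]; exact IsAlgClosed.splits _)
  obtain ⟨c, hc⟩ := this
  exact ⟨c, hc.symm⟩

/-- `exp(2πi k / N')^(r b) = 1` when `N' = W r` and `k = W`. -/
theorem cexp_zpow_eq_one (N' W r : ℕ) (hN' : 0 < N') (hWr : N' = W * r) (b : ℤ) :
    cexp (2 * π * I * W / (N' : ℂ)) ^ ((r : ℤ) * b) = 1 := by
  rw [← Complex.exp_int_mul, Complex.exp_eq_one_iff]
  refine ⟨b, ?_⟩
  have h1 : (N' : ℂ) ≠ 0 := by exact_mod_cast hN'.ne'
  have h2 : (N' : ℂ) = W * r := by exact_mod_cast hWr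
  field_simp
  push_cast
  rw [h2]
  ring

/-- `exp(2πi k / N')^(-e) = 1` with `N' = d e` forces `d ∣ k`. -/
theorem dvd_of_cexp_zpow_eq_one (N' d e k : ℕ) (hd : 0 < d) (he : 0 < e) (hde : N' = d * e)
    (h : cexp (2 * π * I * k / (N' : ℂ)) ^ (-(e : ℤ)) = 1) : d ∣ k := by
  rw [← Complex.exp_int_mul, Complex.exp_eq_one_iff] at h
  obtain ⟨n, hn⟩ := h
  have hN0 : (N' : ℂ) ≠ 0 := by
    rw [hde]
    push_cast
    exact mul_ne_zero (by exact_mod_cast hd.ne') (by exact_mod_cast he.ne')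
  have hpi : (2 * π * I : ℂ) ≠ 0 := by
    simp [Real.pi_ne_zero, Complex.I_ne_zero]
  have he0 : (e : ℂ) ≠ 0 := by exact_mod_cast he.ne'
  have h1 : -((e : ℂ) * k) = n * N' := by
    have h2 : ((-(e : ℤ) : ℤ) : ℂ) * (2 * π * I * k / (N' : ℂ)) * N' = n * (2 * π * I) * N' := by
      rw [hn]
    have h3 : ((-(e : ℤ) : ℤ) : ℂ) * (2 * π * I * k / (N' : ℂ)) * N' =
        -((e : ℂ) * k) * (2 * π * I) := by
      field_simp
      push_cast
      ring
    rw [h3] at h2
    have h4 : (-((e : ℂ) * k) - n * N') * (2 * π * I) = 0 := by linear_combination h2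
    rcases mul_eq_zero.mp h4 with h5 | h5
    · exact sub_eq_zero.mp h5
    · exact absurd h5 hpi
  have h6 : -((e : ℤ) * k) = n * ((d : ℤ) * e) := by
    have : ((-((e : ℤ) * k) : ℤ) : ℂ) = ((n * ((d : ℤ) * e) : ℤ) : ℂ) := by
      push_cast
      rw [h1, hde]
      push_cast
      ring
    exact_mod_cast this
  have he' : (e : ℤ) ≠ 0 := by exact_mod_cast he.ne'
  have h7 : (k : ℤ) = (d : ℤ) * (-n) := by
    have : (e : ℤ) * (k : ℤ) = (e : ℤ) * ((d : ℤ) * (-n)) := by linear_combination -h6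
    exact mul_left_cancel₀ he' this
  exact Int.natCast_dvd_natCast.mp ⟨-n, h7⟩

end Roots

section Core

variable (N N' : ℕ) [NeZero N] [NeZero N']

/-- the order function on `F_N` at the cusp `γ∞` of level `N'`. -/
def omegaCusp (hle : ModularCurve.modularFunctionFieldBar N ≤ ModularCurve.modularFunctionFieldBar N')
    (c : ℤ) : OrdFn Kbar (FN N) :=
  restrictOrd hle (ordCuspPhi N' (lowMat c))

omit [NeZero N] in
theorem omegaCusp_apply
    (hle : ModularCurve.modularFunctionFieldBar N ≤ ModularCurve.modularFunctionFieldBar N')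
    (c : ℤ) (g : FN N) :
    omegaCusp N N' hle c g = ordCusp N' (Psi N' c (IntermediateField.inclusion hle g)) := rfl

theorem inclusion_jBar
    (hle : ModularCurve.modularFunctionFieldBar N ≤ ModularCurve.modularFunctionFieldBar N') :
    IntermediateField.inclusion hle (jBar N) = jBar N' := rfl

theorem omegaCusp_jBar
    (hle : ModularCurve.modularFunctionFieldBar N ≤ ModularCurve.modularFunctionFieldBar N')
    (c : ℤ) : omegaCusp N N' hle c (jBar N) = -(N' : ℤ) := by
  rw [omegaCusp_apply, inclusion_jBar, ← ordCuspPhi_jBar N' (lowMat c), ordCuspPhi_apply, Psi_apply]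

theorem omegaCusp_nontrivial
    (hle : ModularCurve.modularFunctionFieldBar N ≤ ModularCurve.modularFunctionFieldBar N')
    (c : ℤ) : ∃ g : FN N, g ≠ 0 ∧ 0 < omegaCusp N N' hle c g := by
  have hN'pos : 0 < N' := Nat.pos_of_ne_zero (NeZero.ne N')
  have hjne : jBar N ≠ 0 := Realisation.jBar_ne_zero
  refine ⟨(jBar N)⁻¹, inv_ne_zero hjne, ?_⟩
  rw [H6.w_inv _ hjne, omegaCusp_jBar, neg_neg]
  exact_mod_cast hN'pos

/-- `θ` fixes `Ψ(F_N)`, in terms of the inclusion. -/
theorem theta_Psi_inclusion (hNN' : N ∣ N')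
    (hle : ModularCurve.modularFunctionFieldBar N ≤ ModularCurve.modularFunctionFieldBar N')
    (c : ℤ) (W : ℕ) (hc : (N : ℤ) ∣ c * c * W) (g : FN N) :
    sigmaL N' (ModularGroup.T ^ W) (Psi N' c (IntermediateField.inclusion hle g)) =
      Psi N' c (IntermediateField.inclusion hle g) := by
  have hmem : ((IntermediateField.inclusion hle g : FN N') : LaurentSeries Kbar) ∈
      ModularCurve.modularFunctionFieldBar N := by
    rw [IntermediateField.coe_inclusion]
    exact g.2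
  exact theta_Psi_of_mem N N' hNN' c W hc _ hmem

/-- all values of `omegaCusp` are divisible by `r = N'/W`. -/
theorem dvd_omegaCusp (hNN' : N ∣ N')
    (hle : ModularCurve.modularFunctionFieldBar N ≤ ModularCurve.modularFunctionFieldBar N')
    (c : ℤ) (W r : ℕ) (hW : 0 < W) (hWr : N' = W * r) (hc : (N : ℤ) ∣ c * c * W)
    (g : FN N) (hg : g ≠ 0) : (r : ℤ) ∣ omegaCusp N N' hle c g := by
  rw [omegaCusp_apply]
  refine Realisation.dvd_ordCusp_of_invariant hW hWr ?_ (theta_Psi_inclusion N N' hNN' hle c W hc g)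
  exact (map_ne_zero (Psi N' c)).mpr ((map_ne_zero _).mpr hg)

/-- if `m ∣ ord_P f` for all places `P` of `F_N`, then `m r ∣ omegaCusp f`. -/
theorem mul_dvd_omegaCusp (hNN' : N ∣ N')
    (hle : ModularCurve.modularFunctionFieldBar N ≤ ModularCurve.modularFunctionFieldBar N')
    (c : ℤ) (W r : ℕ) (hW : 0 < W) (hWr : N' = W * r) (hc : (N : ℤ) ∣ c * c * W)
    (m : ℕ) (f : FN N) (hf0 : f ≠ 0)
    (hdiv : ∀ P : Place Kbar (FN N), (m : ℤ) ∣ P.ord f) :
    ∃ b : ℤ, omegaCusp N N' hle c f = (m : ℤ) * ((r : ℤ) * b) := by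
  have htriv := omegaCusp_nontrivial N N' hle c
  obtain ⟨t, -, ⟨π₀, hπ₀, hπt⟩, ht⟩ := H6.exists_mul_ord (omegaCusp N N' hle c) htriv
  have hrt : (r : ℤ) ∣ t := by
    rw [← hπt]
    exact dvd_omegaCusp N N' hNN' hle c W r hW hWr hc π₀ hπ₀
  obtain ⟨s, hs⟩ := hrt
  obtain ⟨b, hb⟩ := hdiv (H6.toPlace (omegaCusp N N' hle c) htriv)
  refine ⟨s * b, ?_⟩
  rw [ht f hf0, hb, hs]
  ring

omit [NeZero N] in
theorem inclusion_mk_pow
    (hle : ModularCurve.modularFunctionFieldBar N ≤ ModularCurve.modularFunctionFieldBar N')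
    (h : FN N') (m : ℕ)
    (hf : (h : LaurentSeries Kbar) ^ m ∈ ModularCurve.modularFunctionFieldBar N) :
    IntermediateField.inclusion hle (⟨(h : LaurentSeries Kbar) ^ m, hf⟩ : FN N) = h ^ m :=
  Subtype.ext rfl

/-- a `θ`-eigenvector with a root of unity as eigenvalue and `r ∣ ord_∞` is fixed. -/
theorem theta_eq_of_pow (W r : ℕ) (hWr : N' = W * r) (m : ℕ) (hm : 0 < m)
    (y : LN N') (hy0 : y ≠ 0)
    (hpow : sigmaL N' (ModularGroup.T ^ W) (y ^ m) = y ^ m)
    (b : ℤ) (hord : ordCusp N' y = (r : ℤ) * b) :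
    sigmaL N' (ModularGroup.T ^ W) y = y := by
  have hN'pos : 0 < N' := Nat.pos_of_ne_zero (NeZero.ne N')
  have hpow' : (sigmaL N' (ModularGroup.T ^ W) y / y) ^ m = 1 := by
    rw [div_pow, ← map_pow, hpow]
    exact div_self (pow_ne_zero m hy0)
  obtain ⟨c₀, hc₀⟩ := exists_const_of_pow_eq_one (K := Kbar) _ m hm hpow'
  have hθ : sigmaL N' (ModularGroup.T ^ W) y = algebraMap Kbar (LN N') c₀ * y := by
    rw [← hc₀, div_mul_cancel₀ _ hy0]
  have key := twist_const W hy0 c₀ hθ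
  have hexp : cexp (2 * π * I * W / (N' : ℂ)) ^ (ordCusp N' y) = 1 := by
    rw [hord]
    exact cexp_zpow_eq_one N' W r hN'pos hWr b
  rw [hexp] at key
  have hc1 : c₀ = 1 := iotaK_injective (by rw [key, map_one])
  rw [hθ, hc1, map_one, one_mul]

/-- **Step A**: `h` lies in the fixed field. -/
theorem mem_fixField_of_pow (hNN' : N ∣ N') (c : ℤ) (W r : ℕ) (hW : 0 < W) (hWr : N' = W * r)
    (hc : (N : ℤ) ∣ c * c * W) (m : ℕ) (hm : 0 < m) (h : FN N')
    (hf : (h : LaurentSeries Kbar) ^ m ∈ ModularCurve.modularFunctionFieldBar N)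
    (hdiv : ∀ P : Place Kbar (FN N), (m : ℤ) ∣ P.ord ⟨(h : LaurentSeries Kbar) ^ m, hf⟩) :
    h ∈ fixField N' c W := by
  rw [mem_fixField]
  by_cases h0 : h = 0
  · rw [h0, map_zero, map_zero]
  have hle := modularFunctionFieldBar_mono hNN'
  have hy0 : Psi N' c h ≠ 0 := (map_ne_zero (Psi N' c)).mpr h0
  have hincl := inclusion_mk_pow N N' hle h m hf
  have hf0 : (⟨(h : LaurentSeries Kbar) ^ m, hf⟩ : FN N) ≠ 0 := by
    intro h1
    have := congrArg (IntermediateField.inclusion hle) h1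
    rw [hincl, map_zero] at this
    exact h0 (pow_eq_zero_iff hm.ne' |>.mp this)
  obtain ⟨b, hb⟩ := mul_dvd_omegaCusp N N' hNN' hle c W r hW hWr hc m _ hf0 hdiv
  rw [omegaCusp_apply, hincl, map_pow, H6.w_pow (ordCusp N') hy0 m] at hb
  have hm' : (m : ℤ) ≠ 0 := by exact_mod_cast hm.ne'
  have hord : ordCusp N' (Psi N' c h) = (r : ℤ) * b := mul_left_cancel₀ hm' hb
  have hpow : sigmaL N' (ModularGroup.T ^ W) (Psi N' c h ^ m) = Psi N' c h ^ m := by
    rw [← map_pow, ← hincl]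
    exact theta_Psi_inclusion N N' hNN' hle c W hc _
  exact theta_eq_of_pow N' W r hWr m hm _ hy0 hpow b hord

end Core

end Fermat.Agent.S18.Descent
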