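/-
S18 swarm, piece 87-P7 (helper2), part 5: degrees and the final descent statement.

* `le_finrank_fixField` : `e ≤ [F_N' : G]`;
* `descent_core`        : abstract numerical form of the descent;
* `descentStatement`    : `DescentStatement N (lcm N (p^2))` for every prime `p`.
-/
import Mathlib
import Fermat.Agent.S18.DescentCore

set_option autoImplicit false

noncomputable section

open UpperHalfPlane hiding I
open Function Complex AlgebraicCurve IntermediateField
open scoped Real MatrixGroups Manifold

namespace Fermat.Agent.S18.Descent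

open Fermat.Agent.FF

section Conj

/-- `|I|` embeddings agreeing on `K0` with pairwise distinct values at `θ` force
`|I| ≤ [F : K0]`. -/
theorem card_le_finrank_of_conj {K0 F L : Type*} [Field K0] [Field F] [Field L] [Algebra K0 F]
    [FiniteDimensional K0 F] {I : Type*} [Fintype I] [Nonempty I] (Φ : I → (F →+* L))
    (hK0 : ∀ (i j : I) (c : K0), Φ i (algebraMap K0 F c) = Φ j (algebraMap K0 F c))
    (θ : F) (hθ : Function.Injective (fun i => Φ i θ)) :
    Fintype.card I ≤ Module.finrank K0 F := by
  classical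
  have hint : IsIntegral K0 θ := Algebra.IsIntegral.isIntegral θ
  obtain ⟨i0⟩ := (inferInstance : Nonempty I)
  let ψ : K0 →+* L := (Φ i0).comp (algebraMap K0 F)
  have hψ : ∀ i, (Φ i).comp (algebraMap K0 F) = ψ := fun i => by
    ext c
    exact hK0 i i0 c
  let m := (minpoly K0 θ).map ψ
  have hm0 : m ≠ 0 := (Polynomial.map_ne_zero_iff ψ.injective).mpr (minpoly.ne_zero hint)
  have hmroot : ∀ i, m.IsRoot (Φ i θ) := fun i => by
    show Polynomial.eval (Φ i θ) ((minpoly K0 θ).map ψ) = 0
    rw [← hψ i, Polynomial.eval_map, ← Polynomial.hom_eval₂, ← Polynomial.aeval_def,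
      minpoly.aeval, map_zero]
  have hcard : Fintype.card I ≤ m.natDegree := by
    have h1 : (Finset.univ.image (fun i => Φ i θ)).card = Fintype.card I := by
      rw [Finset.card_image_of_injective _ hθ, Finset.card_univ]
    rw [← h1]
    apply Polynomial.card_le_degree_of_subset_roots
    intro x hx
    rw [Finset.mem_val, Finset.mem_image] at hx
    obtain ⟨i, -, rfl⟩ := hx
    exact (Polynomial.mem_roots hm0).mpr (hmroot i)
  calc Fintype.card I ≤ m.natDegree := hcard
    _ = (minpoly K0 θ).natDegree := Polynomial.natDegree_map _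
    _ ≤ Module.finrank K0 F := minpoly.natDegree_le θ

end Conj

section StepB

variable (N' : ℕ) [NeZero N']

/-- the translates `θ^k Ψ(j(dτ))`, `k < e`, are pairwise distinct. -/
theorem theta_pow_ne (c : ℤ) (W e d e0 : ℕ) [NeZero d] [NeZero e0] (hde : N' = d * e0)
    (hdWe : d = W * e) (hcop : IsCoprime c (d : ℤ)) (k l : ℕ) (hkl : k < l) (hl : l < e) :
    sigmaL N' (ModularGroup.T ^ (W * k)) (Psi N' c (JdF N' d (Dvd.intro e0 hde.symm))) ≠
      sigmaL N' (ModularGroup.T ^ (W * l)) (Psi N' c (JdF N' d (Dvd.intro e0 hde.symm))) := by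
  intro heq
  set y0 := Psi N' c (JdF N' d (Dvd.intro e0 hde.symm)) with hy0def
  have hord : ordCusp N' y0 = -(e0 : ℤ) := ordCusp_Psi_Jd N' c d e0 hde hcop
  have hy0 : y0 ≠ 0 := by
    intro h0
    rw [h0] at hord
    have h3 := (map_eq_zero (Psi N' c)).mp h0
    have h4 : ((JdF N' d (Dvd.intro e0 hde.symm) : FN N') : LaurentSeries Kbar) = 0 := by
      rw [h3]; rfl
    rw [JdF_coe] at h4
    have h5 := expInf_jR N' d (Dvd.intro e0 hde.symm)
    rw [h4, map_zero] at h5
    have h6 : jR N' d (Dvd.intro e0 hde.symm) = 0 :=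
      expInf_injective N' (h5.trans (map_zero _).symm)
    have h7 := (order_expInf_compSL_jR N' c d e0 hde hcop).1
    rw [h6, map_zero] at h7
    exact h7 rfl
  have hl' : l = (l - k) + k := by omega
  have hT : (ModularGroup.T ^ (W * l) : SL(2, ℤ)) =
      ModularGroup.T ^ (W * (l - k)) * ModularGroup.T ^ (W * k) := by
    rw [← pow_add, ← Nat.mul_add, ← hl']
  rw [hT, sigmaL_mul] at heq
  have hfix : sigmaL N' (ModularGroup.T ^ (W * (l - k))) y0 = y0 :=
    ((sigmaL N' (ModularGroup.T ^ (W * k))).injective heq).symm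
  have key := twist_const (W * (l - k)) hy0 1 (by rw [map_one, one_mul]; exact hfix)
  rw [map_one, hord] at key
  have hdpos : 0 < d := Nat.pos_of_ne_zero (NeZero.ne d)
  have he0pos : 0 < e0 := Nat.pos_of_ne_zero (NeZero.ne e0)
  have hdvd := dvd_of_cexp_zpow_eq_one N' d e0 (W * (l - k)) hdpos he0pos hde key.symm
  rw [hdWe] at hdvd
  have hWpos : 0 < W := by
    rcases Nat.eq_zero_or_pos W with h0 | h0
    · rw [h0, zero_mul] at hdWe
      exact absurd hdWe (NeZero.ne d)
    · exact h0
  have hdvd' : e ∣ l - k := (Nat.mul_dvd_mul_iff_left hWpos).mp hdvd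
  have := Nat.le_of_dvd (by omega) hdvd'
  omega

/-- **Step B**: `e ≤ [F_N' : G]`. -/
theorem le_finrank_fixField (c : ℤ) (W e d e0 : ℕ) [NeZero d] [NeZero e0] (hde : N' = d * e0)
    (hdWe : d = W * e) (he : 0 < e) (hcop : IsCoprime c (d : ℤ))
    [FiniteDimensional (fixField N' c W) (FN N')] :
    e ≤ Module.finrank (fixField N' c W) (FN N') := by
  have : Nonempty (Fin e) := ⟨⟨0, he⟩⟩
  have key := card_le_finrank_of_conj (K0 := fixField N' c W) (F := FN N') (L := LN N')
    (I := Fin e)
    (fun k => (sigmaL N' (ModularGroup.T ^ (W * (k : ℕ)))).comp (Psi N' c))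
    (fun i j g => by
      show sigmaL N' _ (Psi N' c (g : FN N')) = sigmaL N' _ (Psi N' c (g : FN N'))
      rw [sigmaL_pow_of_mem N' g.2, sigmaL_pow_of_mem N' g.2])
    (JdF N' d (Dvd.intro e0 hde.symm))
    (by
      intro i j hij
      by_contra hne
      have hij' : sigmaL N' (ModularGroup.T ^ (W * (i : ℕ)))
          (Psi N' c (JdF N' d (Dvd.intro e0 hde.symm))) =
          sigmaL N' (ModularGroup.T ^ (W * (j : ℕ)))
          (Psi N' c (JdF N' d (Dvd.intro e0 hde.symm))) := hij
      rcases lt_or_gt_of_ne (fun h => hne (Fin.ext h)) with hlt | hlt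
      · exact theta_pow_ne N' c W e d e0 hde hdWe hcop i j hlt j.2 hij'
      · exact theta_pow_ne N' c W e d e0 hde hdWe hcop j i hlt i.2 hij'.symm)
  rwa [Fintype.card_fin] at key

end StepB

section Degrees

variable {K E : Type*} [Field K] [Field E] [Algebra K E]

/-- a simple extension inside `F`, as a comap. -/
theorem adjoin_simple_eq_comap (F : IntermediateField K E) (x : F) :
    K⟮x⟯ = (K⟮(x : E)⟯).comap F.val := by
  ext y
  rw [← IntermediateField.mem_lift, IntermediateField.lift_adjoin_simple]
  rfl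

end Degrees

section Core2

variable (N N' : ℕ) [NeZero N] [NeZero N']

/-- `F_N` as an intermediate field of `F_N'`. -/
def subFN : IntermediateField Kbar (FN N') :=
  (ModularCurve.modularFunctionFieldBar N).comap (ModularCurve.modularFunctionFieldBar N').val

omit [NeZero N] [NeZero N'] in
theorem mem_subFN {f : FN N'} :
    f ∈ subFN N N' ↔ (f : LaurentSeries Kbar) ∈ ModularCurve.modularFunctionFieldBar N := Iff.rfl

/-- `[F_N : ℚ̄(j)]`, computed inside `F_N'`. -/
theorem relfinrank_jBar_subFN (hNN' : N ∣ N') :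
    (Kbar⟮jBar N'⟯).relfinrank (subFN N N') = ModularCurve.dedekindPsi N := by
  have hle := modularFunctionFieldBar_mono hNN'
  have h1 : Kbar⟮jBar N'⟯ = (Kbar⟮((jBar N' : FN N') : LaurentSeries Kbar)⟯).comap
      (ModularCurve.modularFunctionFieldBar N').val :=
    adjoin_simple_eq_comap _ _
  have h2 : Kbar⟮jBar N⟯ = (Kbar⟮((jBar N : FN N) : LaurentSeries Kbar)⟯).comap
      (ModularCurve.modularFunctionFieldBar N).val :=
    adjoin_simple_eq_comap _ _
  have h3 : ((jBar N' : FN N') : LaurentSeries Kbar) = ((jBar N : FN N) : LaurentSeries Kbar) :=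
    rfl
  rw [h1, subFN, IntermediateField.relfinrank_comap_comap_eq_relfinrank_inf,
    IntermediateField.fieldRange_val, inf_eq_left.mpr hle, h3]
  have h4 := IntermediateField.finrank_comap (Kbar⟮((jBar N : FN N) : LaurentSeries Kbar)⟯)
    (ModularCurve.modularFunctionFieldBar N).val
  rw [IntermediateField.fieldRange_val] at h4
  rw [← h4, ← finrank_congr_intermediateField h2, (modularOrdData N).finrank_eq, card_X_eq]

theorem finrank_jBar_top :
    Module.finrank (Kbar⟮jBar N'⟯) (FN N') = ModularCurve.dedekindPsi N' := by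
  rw [(modularOrdData N').finrank_eq, card_X_eq]

omit [NeZero N] in
theorem adjoin_jBar_le_subFN : Kbar⟮jBar N'⟯ ≤ subFN N N' := by
  rw [adjoin_simple_le_iff, mem_subFN]
  exact (jBar N).2

theorem subFN_le_fixField (hNN' : N ∣ N') (c : ℤ) (W : ℕ) (hc : (N : ℤ) ∣ c * c * W) :
    subFN N N' ≤ fixField N' c W := by
  intro f hf
  rw [mem_fixField]
  exact theta_Psi_of_mem N N' hNN' c W hc f hf

/-- **abstract numerical form of the descent.** -/
theorem descent_core (hNN' : N ∣ N') (c : ℤ) (W r d e0 e n0 : ℕ) [NeZero d] [NeZero e0]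
    (hW : 0 < W) (hWr : N' = W * r) (hc : (N : ℤ) ∣ c * c * W)
    (hde : N' = d * e0) (hdWe : d = W * e) (hcop : IsCoprime c (d : ℤ))
    (hψ : ModularCurve.dedekindPsi N' = n0 * ModularCurve.dedekindPsi N) (hn0 : n0 < 2 * e)
    (m : ℕ) (hm : 0 < m) (h : FN N')
    (hf : (h : LaurentSeries Kbar) ^ m ∈ ModularCurve.modularFunctionFieldBar N)
    (hdiv : ∀ P : Place Kbar (FN N), (m : ℤ) ∣ P.ord ⟨(h : LaurentSeries Kbar) ^ m, hf⟩) :
    (h : LaurentSeries Kbar) ∈ ModularCurve.modularFunctionFieldBar N := by
  have he : 0 < e := by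
    rcases Nat.eq_zero_or_pos e with h0 | h0
    · rw [h0, mul_zero] at hdWe
      exact absurd hdWe (NeZero.ne d)
    · exact h0
  have hmem := mem_fixField_of_pow N N' hNN' c W r hW hWr hc m hm h hf hdiv
  have h1 := adjoin_jBar_le_subFN N N'
  have h2 := subFN_le_fixField N N' hNN' c W hc
  have hfd := (modularOrdData N').findim
  have hpos : 0 < Module.finrank (Kbar⟮jBar N'⟯) (FN N') := Module.finrank_pos
  have e1 := IntermediateField.relfinrank_mul_relfinrank h1 h2
  have e2 := IntermediateField.relfinrank_mul_finrank_top (h1.trans h2)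
  rw [relfinrank_jBar_subFN N N' hNN'] at e1
  rw [finrank_jBar_top N'] at e2 hpos
  have hGpos : 0 < Module.finrank (fixField N' c W) (FN N') := by
    rcases Nat.eq_zero_or_pos (Module.finrank (fixField N' c W) (FN N')) with h0 | h0
    · rw [h0, mul_zero] at e2
      omega
    · exact h0
  have : FiniteDimensional (fixField N' c W) (FN N') := FiniteDimensional.of_finrank_pos hGpos
  have hB := le_finrank_fixField N' c W e d e0 hde hdWe he hcop
  have hψN : 0 < ModularCurve.dedekindPsi N := by
    rcases Nat.eq_zero_or_pos (ModularCurve.dedekindPsi N) with h0 | h0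
    · rw [h0, mul_zero] at hψ
      omega
    · exact h0
  -- `ψ(N) * rel * fin = n0 * ψ(N)`
  have e3 : ModularCurve.dedekindPsi N *
      ((subFN N N').relfinrank (fixField N' c W) * Module.finrank (fixField N' c W) (FN N')) =
      ModularCurve.dedekindPsi N * n0 := by
    rw [← mul_assoc, e1, e2, hψ, mul_comm]
  have e4 : (subFN N N').relfinrank (fixField N' c W) *
      Module.finrank (fixField N' c W) (FN N') = n0 := Nat.eq_of_mul_eq_mul_left hψN e3
  have e5 : (subFN N N').relfinrank (fixField N' c W) = 1 := by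
    rcases Nat.lt_or_ge ((subFN N N').relfinrank (fixField N' c W)) 2 with hlt | hge
    · rcases Nat.eq_zero_or_pos ((subFN N N').relfinrank (fixField N' c W)) with h0 | h0
      · rw [h0, zero_mul] at e4
        rw [← e4, zero_mul] at hψ
        omega
      · omega
    · exfalso
      have : 2 * e ≤ (subFN N N').relfinrank (fixField N' c W) *
          Module.finrank (fixField N' c W) (FN N') := Nat.mul_le_mul hge hB
      omega
  have hle' : fixField N' c W ≤ subFN N N' := IntermediateField.relfinrank_eq_one_iff.mp e5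
  exact hle' hmem

end Core2

end Fermat.Agent.S18.Descent
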