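/-
S18 swarm, piece 87-P7 (helper2): DESCENT from the tame level `N' = lcm(N, p²)` to `N`.

* `Descent.descent_lcm`            : `h ∈ F_N'`, `h^m ∈ F_N`, `m ∣ ord_P (h^m)` for all places `P`
                                     of `F_N`  ⟹  `h ∈ F_N`;
* `Descent.descentStatement_lcm`   : `DescentStatement N (lcm N (p^2))`, `p` prime;
* `Descent.descentStatement_tame`  : `DescentStatement N (tameLevel N ℓ)`;
* `Descent.redVMono_tame`, `Descent.le_tame` : the other two inputs of `s18_of_pieces`.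
-/
import Mathlib
import Fermat.Agent.S18.DescentFinal

set_option autoImplicit false

noncomputable section

open AlgebraicCurve ModularCurve

namespace Fermat.Agent.S18.Descent

open Fermat.Agent.FF

section Final

variable (N : ℕ) [NeZero N]

theorem isCoprime_cast_pow (N1 p : ℕ) (hp : p.Prime) (h : ¬ p ∣ N1) :
    IsCoprime (N1 : ℤ) ((p ^ 2 : ℕ) : ℤ) := by
  rw [Nat.isCoprime_iff_coprime]
  exact Nat.Coprime.pow_right 2 ((Nat.Prime.coprime_iff_not_dvd hp).mpr h).symm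

/-- **descent**, case `p ∤ N`. -/
theorem descent_of_not_dvd (p : ℕ) (hp : p.Prime) (hpN : ¬ p ∣ N) (m : ℕ) (hm : 0 < m)
    (h : LaurentSeries Kbar) (hh : h ∈ modularFunctionFieldBar (N * p ^ 2))
    (hf : h ^ m ∈ modularFunctionFieldBar N)
    (hdiv : ∀ P : Place Kbar (FN N), (m : ℤ) ∣ P.ord ⟨h ^ m, hf⟩) :
    h ∈ modularFunctionFieldBar N := by
  have hp0 : p ≠ 0 := hp.ne_zero
  have hN0 : N ≠ 0 := NeZero.ne N
  have : NeZero (p ^ 2) := ⟨pow_ne_zero 2 hp0⟩
  have : NeZero (N * p ^ 2) := ⟨Nat.mul_ne_zero hN0 (pow_ne_zero 2 hp0)⟩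
  have hψ : dedekindPsi (N * p ^ 2) = (p * (p + 1)) * dedekindPsi N := by
    have e : N * p ^ 2 = N * p * p := by ring
    rw [e, dedekindPsi_mul_of_dvd (N * p) p (Nat.mul_ne_zero hN0 hp0) hp (Dvd.intro_left N rfl),
      dedekindPsi_mul_of_not_dvd N p hN0 hp hpN]
    ring
  have hn0 : p * (p + 1) < 2 * p ^ 2 := by
    have := hp.two_le
    nlinarith
  exact descent_core N (N * p ^ 2) (Dvd.intro _ rfl) (N : ℤ) 1 (N * p ^ 2) (p ^ 2) N (p ^ 2)
    (p * (p + 1)) one_pos (by ring) (by push_cast; exact Dvd.intro_left _ (by ring))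
    (by ring) (by ring) (isCoprime_cast_pow N p hp hpN) hψ hn0 m hm ⟨h, hh⟩ hf hdiv

/-- **descent**, case `p ∣ N`, `p² ∤ N`. -/
theorem descent_of_dvd (p N1 : ℕ) (hp : p.Prime) (hN1 : N = p * N1) (hpN1 : ¬ p ∣ N1)
    (m : ℕ) (hm : 0 < m)
    (h : LaurentSeries Kbar) (hh : h ∈ modularFunctionFieldBar (N * p))
    (hf : h ^ m ∈ modularFunctionFieldBar N)
    (hdiv : ∀ P : Place Kbar (FN N), (m : ℤ) ∣ P.ord ⟨h ^ m, hf⟩) :
    h ∈ modularFunctionFieldBar N := by
  have hp0 : p ≠ 0 := hp.ne_zero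
  have hN0 : N ≠ 0 := NeZero.ne N
  have hN10 : N1 ≠ 0 := by
    rintro rfl
    rw [mul_zero] at hN1
    exact hN0 hN1
  have : NeZero N1 := ⟨hN10⟩
  have : NeZero (p ^ 2) := ⟨pow_ne_zero 2 hp0⟩
  have : NeZero (N * p) := ⟨Nat.mul_ne_zero hN0 hp0⟩
  have hψ : dedekindPsi (N * p) = p * dedekindPsi N :=
    dedekindPsi_mul_of_dvd N p hN0 hp (Dvd.intro _ hN1.symm)
  have hn0 : p < 2 * p := by
    have := hp.two_le
    omega
  exact descent_core N (N * p) (Dvd.intro _ rfl) (N1 : ℤ) p N (p ^ 2) N1 p p hp.pos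
    (by ring) (by rw [hN1]; push_cast; exact Dvd.intro N1 (by ring))
    (by rw [hN1]; ring) (by ring) (isCoprime_cast_pow N1 p hp hpN1) hψ hn0 m hm ⟨h, hh⟩ hf hdiv

/-- **87-P7, descent**: an element of `F_{lcm(N, p²)}` whose `m`-th power lies in `F_N` and has
divisor divisible by `m` on `X₀(N)` lies in `F_N`. -/
theorem descent_lcm (p : ℕ) (hp : p.Prime) (m : ℕ) (hm : 0 < m)
    (h : LaurentSeries Kbar) (hh : h ∈ modularFunctionFieldBar (Nat.lcm N (p ^ 2)))
    (hf : h ^ m ∈ modularFunctionFieldBar N)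
    (hdiv : ∀ P : Place Kbar (FN N), (m : ℤ) ∣ P.ord ⟨h ^ m, hf⟩) :
    h ∈ modularFunctionFieldBar N := by
  by_cases hp2 : p ^ 2 ∣ N
  · rw [Nat.lcm_eq_left hp2] at hh
    exact hh
  by_cases hpN : p ∣ N
  · obtain ⟨N1, hN1⟩ := hpN
    have hpN1 : ¬ p ∣ N1 := by
      rintro ⟨k, hk⟩
      apply hp2
      rw [hN1, hk]
      exact ⟨k, by ring⟩
    have hlcm : Nat.lcm N (p ^ 2) = N * p := by
      have hcop : Nat.Coprime N1 p := ((Nat.Prime.coprime_iff_not_dvd hp).mpr hpN1).symm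
      rw [hN1, pow_two, Nat.lcm_mul_left, hcop.lcm_eq_mul]
      ring
    rw [hlcm] at hh
    exact descent_of_dvd N p N1 hp hN1 hpN1 m hm h hh hf hdiv
  · have hlcm : Nat.lcm N (p ^ 2) = N * p ^ 2 := by
      have hcop : Nat.Coprime N (p ^ 2) :=
        Nat.Coprime.pow_right 2 ((Nat.Prime.coprime_iff_not_dvd hp).mpr hpN).symm
      exact hcop.lcm_eq_mul
    rw [hlcm] at hh
    exact descent_of_not_dvd N p hp hpN m hm h hh hf hdiv

/-- **87-P7**: the descent statement of the contract, for `N' = lcm(N, p²)`. -/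
theorem descentStatement_lcm (p : ℕ) (hp : p.Prime) :
    DescentStatement N (Nat.lcm N (p ^ 2)) := by
  intro f hf hf' m hm hdiv
  have hNN' : N ∣ Nat.lcm N (p ^ 2) := Nat.dvd_lcm_left _ _
  have : NeZero (Nat.lcm N (p ^ 2)) :=
    ⟨Nat.lcm_ne_zero (NeZero.ne N) (pow_ne_zero 2 hp.ne_zero)⟩
  refine ⟨fun w => dvd_ord_of_le (modularFunctionFieldBar_mono hNN') (m : ℤ) f hf hdiv w, ?_⟩
  rintro ⟨h, hh⟩
  have hval : (h : LaurentSeries Kbar) ^ m = f := by
    have h1 := congrArg Subtype.val hh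
    rw [SubmonoidClass.coe_pow] at h1
    exact h1
  subst hval
  have hmem := descent_lcm N p hp m hm (h : LaurentSeries Kbar) h.2 hf hdiv
  exact ⟨⟨h, hmem⟩, Subtype.ext (SubmonoidClass.coe_pow _ _)⟩

theorem tameLevel_eq (ℓ : ℕ) :
    tameLevel N ℓ = Nat.lcm N (3 ^ 2) ∨ tameLevel N ℓ = Nat.lcm N (2 ^ 2) := by
  unfold tameLevel auxLevel
  split_ifs
  · left; norm_num
  · right; norm_num

theorem tameLevel_ne_zero (ℓ : ℕ) : tameLevel N ℓ ≠ 0 := by
  unfold tameLevel auxLevel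
  apply Nat.lcm_ne_zero (NeZero.ne N)
  split_ifs <;> norm_num

theorem dvd_tameLevel (ℓ : ℕ) : N ∣ tameLevel N ℓ := Nat.dvd_lcm_left _ _

/-- **87-P7**: the descent statement for the tame level of the contract. -/
theorem descentStatement_tame (ℓ : ℕ) : DescentStatement N (tameLevel N ℓ) := by
  rcases tameLevel_eq N ℓ with h | h
  · rw [h]
    exact descentStatement_lcm N 3 Nat.prime_three
  · rw [h]
    exact descentStatement_lcm N 2 Nat.prime_two

/-- `F_N ≤ F_{N'}` for the tame level. -/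
theorem le_tame (ℓ : ℕ) :
    modularFunctionFieldBar N ≤ modularFunctionFieldBar (tameLevel N ℓ) := by
  have : NeZero (tameLevel N ℓ) := ⟨tameLevel_ne_zero N ℓ⟩
  exact modularFunctionFieldBar_mono (dvd_tameLevel N ℓ)

/-- `RedVMono` for the tame level. -/
theorem redVMono_tame (A : ValuationSubring (AlgebraicClosure ℚ)) (ℓ : ℕ) :
    RedVMono N A (tameLevel N ℓ) := by
  have : NeZero (tameLevel N ℓ) := ⟨tameLevel_ne_zero N ℓ⟩
  exact redVMono N A (tameLevel N ℓ) (dvd_tameLevel N ℓ)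

end Final

end Fermat.Agent.S18.Descent
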