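/-
S18 swarm, piece 87-P8 (lead): lifting elements of the reduced function field.

Every element of `Fbar_N = k(j(q^d) : d ∣ N) ⊂ k((q))` is a quotient `ub / vb` of reductions of
`q`-integral elements `u, v` of `F_N` (polynomials in the `j(q^d)` with coefficients in `A`).
-/
import Mathlib
import Fermat.Prelude.Def_ModularCurve_ReductionModL
import Fermat.Prelude.Thm_ModularCurve_coeffMap_qExpand

set_option autoImplicit false
set_option synthInstance.maxHeartbeats 400000

open HahnSeries AlgebraicCurve ModularCurve

noncomputable section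

namespace Fermat.Agent.S18

section Lift

variable {L : Type*} [Field L] [Algebra ℚ L] (A : ValuationSubring L)
variable {k : Type*} [Field k] (π : A →+* k) (N : ℕ)

/-- the `q`-integral series whose image over `L` lies in `F_N` and whose reduction lies in
`Fbar_N`: a subring of `A((q))`. -/
def glueIntSubring : Subring (LaurentSeries A) :=
  ((laurentBaseChange L (modularFunctionFieldFull N)).toSubring.comap (coeffMap A.subtype)) ⊓
    ((modularFunctionFieldFullC k N).toSubring.comap (coeffMap π))

theorem mem_glueIntSubring {y : LaurentSeries A} :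
    y ∈ glueIntSubring A π N ↔
      coeffMap A.subtype y ∈ laurentBaseChange L (modularFunctionFieldFull N) ∧
        coeffMap π y ∈ modularFunctionFieldFullC k N := Iff.rfl

theorem single_zero_mem_glueIntSubring (a : A) :
    HahnSeries.single (0 : ℤ) a ∈ glueIntSubring A π N := by
  rw [mem_glueIntSubring, coeffMap_single, coeffMap_single]
  constructor
  · rw [← algebraMap_laurentSeries_eq_single]
    exact IntermediateField.algebraMap_mem _ _
  · rw [← algebraMap_laurentSeries_eq_single]
    exact IntermediateField.algebraMap_mem _ _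

theorem coeffMap_jqModC {R S : Type*} [CommRing R] [CommRing S] (f : R →+* S) :
    coeffMap f (jqModC R) = jqModC S := map_jqModC f

theorem jqd_mem_glueIntSubring {d : ℕ} [NeZero d] (hd : d ∣ N) :
    qExpand A d (jqModC A) ∈ glueIntSubring A π N := by
  rw [mem_glueIntSubring, coeffMap_qExpand, coeffMap_qExpand, coeffMap_jqModC, coeffMap_jqModC]
  constructor
  · have h1 : qExpand L d (jqModC L) = coeffEmb L (qExpand ℚ d jq) := by
      rw [coeffEmb, coeffMap_qExpand, ← jqModC_rat, coeffMap_jqModC]
    rw [h1]
    exact coeffEmb_mem_laurentBaseChange L (jqd_mem_full N hd)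
  · exact jqModCd_mem_full k N hd

/-- the reductions of `glueIntSubring` contain the `k`-algebra generated by the `j(q^d)`. -/
theorem exists_lift_of_mem_algebraAdjoin (hπ : Function.Surjective π) {x : LaurentSeries k}
    (hx : x ∈ Algebra.adjoin k (divisorExpansionsC k N)) :
    ∃ y ∈ glueIntSubring A π N, coeffMap π y = x := by
  induction hx using Algebra.adjoin_induction with
  | mem x hx =>
    obtain ⟨d, hne, hd, rfl⟩ := hx
    haveI := hne
    refine ⟨qExpand A d (jqModC A), jqd_mem_glueIntSubring A π N hd, ?_⟩
    rw [coeffMap_qExpand, coeffMap_jqModC]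
  | algebraMap c =>
    obtain ⟨a, rfl⟩ := hπ c
    refine ⟨HahnSeries.single 0 a, single_zero_mem_glueIntSubring A π N a, ?_⟩
    rw [coeffMap_single, algebraMap_laurentSeries_eq_single]
  | add x y _ _ hx hy =>
    obtain ⟨x', hx', rfl⟩ := hx
    obtain ⟨y', hy', rfl⟩ := hy
    exact ⟨x' + y', Subring.add_mem _ hx' hy', map_add _ _ _⟩
  | mul x y _ _ hx hy =>
    obtain ⟨x', hx', rfl⟩ := hx
    obtain ⟨y', hy', rfl⟩ := hy
    exact ⟨x' * y', Subring.mul_mem _ hx' hy', map_mul _ _ _⟩

/-- **lifting**: every element of `Fbar_N` is a quotient of reductions of elements of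
`glueIntSubring`. -/
theorem exists_lift_div (hπ : Function.Surjective π) {g : LaurentSeries k}
    (hg : g ∈ modularFunctionFieldFullC k N) :
    ∃ u ∈ glueIntSubring A π N, ∃ v ∈ glueIntSubring A π N,
      coeffMap π v ≠ 0 ∧ g * coeffMap π v = coeffMap π u := by
  rw [modularFunctionFieldFullC, IntermediateField.mem_adjoin_iff_div] at hg
  obtain ⟨r, hr, s, hs, rfl⟩ := hg
  by_cases hs0 : s = 0
  · refine ⟨0, Subring.zero_mem _, 1, Subring.one_mem _, ?_, ?_⟩
    · rw [map_one]; exact one_ne_zero
    · rw [hs0, div_zero, zero_mul, map_zero]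
  · obtain ⟨u, hu, rfl⟩ := exists_lift_of_mem_algebraAdjoin A π N hπ hr
    obtain ⟨v, hv, rfl⟩ := exists_lift_of_mem_algebraAdjoin A π N hπ hs
    exact ⟨u, hu, v, hv, hs0, div_mul_cancel₀ _ hs0⟩

end Lift

end Fermat.Agent.S18
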