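/-
S18 swarm, piece 87-P8 (lead): `GlueStatement N A ℓ` of the contract, from ONE characteristic `ℓ`
input at level `N`: a nonzero element of `Fbar_N` without zeros and poles is a constant.
-/
import Mathlib
import Fermat.Agent.S18.Defs
import Fermat.Agent.S18.GlueLift

set_option autoImplicit false
set_option synthInstance.maxHeartbeats 400000
set_option maxHeartbeats 1600000

open HahnSeries AlgebraicCurve ModularCurve

noncomputable section

namespace Fermat.Agent.S18

section OrdConst

variable {K F : Type*} [Field K] [Field F] [Algebra K F]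

/-- constants have order `0` at every place. -/
theorem glue_ord_algebraMap (v : Place K F) (c : K) : v.ord (algebraMap K F c) = 0 := by
  rcases eq_or_ne c 0 with rfl | hc
  · rw [map_zero, Place.ord_zero]
  · have h1 : algebraMap K F c ∈ v.toValuationSubring := v.algebraMap_mem' c
    have h2 : algebraMap K F c⁻¹ ∈ v.toValuationSubring := v.algebraMap_mem' c⁻¹
    have hu : IsUnit (⟨algebraMap K F c, h1⟩ : v.toValuationSubring) := by
      refine IsUnit.of_mul_eq_one (⟨algebraMap K F c⁻¹, h2⟩ : v.toValuationSubring) ?_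
      apply Subtype.ext
      show algebraMap K F c * algebraMap K F c⁻¹ = 1
      rw [← map_mul, mul_inv_cancel₀ hc, map_one]
    have := v.ord_coe_unit hu.unit
    simpa using this

theorem glue_ord_pow (v : Place K F) (f : F) (n : ℕ) : v.ord (f ^ n) = n * v.ord f := by
  have := v.ord_zpow f (n : ℤ)
  rwa [zpow_natCast] at this

theorem glue_ord_div (v : Place K F) {f g : F} (hf : f ≠ 0) (hg : g ≠ 0) :
    v.ord (f / g) = v.ord f - v.ord g := by
  rw [div_eq_mul_inv, v.ord_mul hf (inv_ne_zero hg), v.ord_inv, sub_eq_add_neg]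

end OrdConst

section Main

variable (N : ℕ) [NeZero N] (A : ValuationSubring (AlgebraicClosure ℚ))

local notation "kA" => IsLocalRing.ResidueField A
local notation "FN" => modularFunctionFieldBar N
local notation "FbN" => modularFunctionFieldFullC (IsLocalRing.ResidueField A) N

/-- a `q`-integral element of `F_N` with reduction in `Fbar_N`, as a pair of field elements. -/
def gluePairL (y : glueIntSubring A (IsLocalRing.residue A) N) : FN :=
  ⟨coeffMap A.subtype (y : LaurentSeries A), ((mem_glueIntSubring A _ N).1 y.2).1⟩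

def gluePairK (y : glueIntSubring A (IsLocalRing.residue A) N) : FbN :=
  ⟨coeffMap (IsLocalRing.residue A) (y : LaurentSeries A), ((mem_glueIntSubring A _ N).1 y.2).2⟩

theorem gluePairL_mul (y y' : glueIntSubring A (IsLocalRing.residue A) N) :
    gluePairL N A (y * y') = gluePairL N A y * gluePairL N A y' :=
  Subtype.ext (map_mul _ _ _)

theorem gluePairK_mul (y y' : glueIntSubring A (IsLocalRing.residue A) N) :
    gluePairK N A (y * y') = gluePairK N A y * gluePairK N A y' :=
  Subtype.ext (map_mul _ _ _)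

theorem gluePairL_one : gluePairL N A 1 = 1 := Subtype.ext (map_one _)

theorem gluePairK_one : gluePairK N A 1 = 1 := Subtype.ext (map_one _)

theorem gluePairL_pow (y : glueIntSubring A (IsLocalRing.residue A) N) (n : ℕ) :
    gluePairL N A (y ^ n) = gluePairL N A y ^ n :=
  Subtype.ext (map_pow _ _ _)

theorem gluePairK_pow (y : glueIntSubring A (IsLocalRing.residue A) N) (n : ℕ) :
    gluePairK N A (y ^ n) = gluePairK N A y ^ n :=
  Subtype.ext (map_pow _ _ _)

theorem coeffMap_subtype_injective :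
    Function.Injective (coeffMap A.subtype : LaurentSeries A → LaurentSeries (AlgebraicClosure ℚ)) := by
  intro x y hxy
  ext n
  have := congrArg (fun z => z.coeff n) hxy
  simpa using this

theorem gluePairL_ne_zero {y : glueIntSubring A (IsLocalRing.residue A) N}
    (hy : gluePairK N A y ≠ 0) : gluePairL N A y ≠ 0 := by
  intro h
  apply hy
  have h1 : coeffMap A.subtype (y : LaurentSeries A) = 0 := congrArg Subtype.val h
  have h2 : (y : LaurentSeries A) = 0 := by
    apply coeffMap_subtype_injective A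
    rw [h1, map_zero]
  apply Subtype.ext
  show coeffMap (IsLocalRing.residue A) (y : LaurentSeries A) = 0
  rw [h2, map_zero]

theorem redQ_gluePair (y : glueIntSubring A (IsLocalRing.residue A) N) :
    RedQ A (IsLocalRing.residue A) (gluePairL N A y : LaurentSeries (AlgebraicClosure ℚ))
      (gluePairK N A y : LaurentSeries kA) :=
  ⟨y, rfl, rfl⟩

/-- the property propagated along the closure: `E = div (y₁ / y₂)` and
`r_* E = div (y₁bar / y₂bar)`. -/
def GlueRep (r : Place (AlgebraicClosure ℚ) FN → Place kA FbN)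
    (E : Divisor (AlgebraicClosure ℚ) FN) : Prop :=
  ∃ y₁ y₂ : glueIntSubring A (IsLocalRing.residue A) N,
    gluePairK N A y₁ ≠ 0 ∧ gluePairK N A y₂ ≠ 0 ∧
    (∀ v, E v = v.ord (gluePairL N A y₁) - v.ord (gluePairL N A y₂)) ∧
    ∀ Q, Finsupp.mapDomain r E Q = Q.ord (gluePairK N A y₁) - Q.ord (gluePairK N A y₂)

theorem glueRep_of_mem_closure
    (r : Place (AlgebraicClosure ℚ) FN → Place kA FbN)
    (hr : IsPlaceReductionModL A N r) {E : Divisor (AlgebraicClosure ℚ) FN}
    (hE : E ∈ AddSubgroup.closure (integralPrincipalDivisors A (IsLocalRing.residue A) N)) :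
    GlueRep N A r E := by
  induction hE using AddSubgroup.closure_induction with
  | mem E hE =>
    obtain ⟨y, hy, hyk, hne, hDy⟩ := hE
    refine ⟨⟨y, (mem_glueIntSubring A _ N).2 ⟨hy, hyk⟩⟩, 1, ?_, ?_, ?_, ?_⟩
    · intro h; exact hne (congrArg Subtype.val h)
    · rw [gluePairK_one]; exact one_ne_zero
    · intro v
      rw [gluePairL_one, Place.ord_one, sub_zero]
      exact hDy v
    · intro Q
      rw [gluePairK_one, Place.ord_one, sub_zero]
      exact hr.2 y hy hyk hne E hDy Q
  | zero =>
    refine ⟨1, 1, ?_, ?_, ?_, ?_⟩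
    · rw [gluePairK_one]; exact one_ne_zero
    · rw [gluePairK_one]; exact one_ne_zero
    · intro v; simp
    · intro Q; simp
  | add E E' _ _ hE hE' =>
    obtain ⟨y₁, y₂, h1, h2, h3, h4⟩ := hE
    obtain ⟨y₁', y₂', h1', h2', h3', h4'⟩ := hE'
    refine ⟨y₁ * y₁', y₂ * y₂', ?_, ?_, ?_, ?_⟩
    · rw [gluePairK_mul]; exact mul_ne_zero h1 h1'
    · rw [gluePairK_mul]; exact mul_ne_zero h2 h2'
    · intro v
      rw [gluePairL_mul, gluePairL_mul,
        v.ord_mul (gluePairL_ne_zero N A h1) (gluePairL_ne_zero N A h1'),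
        v.ord_mul (gluePairL_ne_zero N A h2) (gluePairL_ne_zero N A h2'),
        Finsupp.add_apply, h3 v, h3' v]
      ring
    · intro Q
      rw [gluePairK_mul, gluePairK_mul, Q.ord_mul h1 h1', Q.ord_mul h2 h2',
        Finsupp.mapDomain_add, Finsupp.add_apply, h4 Q, h4' Q]
      ring
  | neg E _ hE =>
    obtain ⟨y₁, y₂, h1, h2, h3, h4⟩ := hE
    refine ⟨y₂, y₁, h2, h1, ?_, ?_⟩
    · intro v
      rw [Finsupp.neg_apply, h3 v]; ring
    · intro Q
      have : Finsupp.mapDomain r (-E) = -Finsupp.mapDomain r E :=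
        map_neg (Finsupp.mapDomain.addMonoidHom r) E
      rw [this, Finsupp.neg_apply, h4 Q]; ring

/-- **87-P8**: the glue statement of the contract. -/
theorem glueStatement_of_const (ℓ : ℕ)
    (hk0 : ∀ t : FbN, t ≠ 0 → (∀ Q : Place kA FbN, Q.ord t = 0) →
      ∃ c : kA, t = algebraMap kA FbN c) :
    GlueStatement N A ℓ := by
  intro _hA h m hm z hmz hz
  have hm0 : m ≠ 0 := by
    rintro rfl
    exact hm (dvd_zero ℓ)
  obtain ⟨D, rfl⟩ := Pic0.mk_surjective z
  have hr := isPlaceReductionModL_placeReductionModL h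
  have hgen : PrincipalGeneratedByIntegral A (IsLocalRing.residue A) N := h.choose_spec.2
  set r := placeReductionModL h with hrdef
  -- `m D` is principal
  have h1 : Divisor.IsPrincipal (m • (D : Divisor (AlgebraicClosure ℚ) FN)) := by
    have h2 : (Pic0.mk (m • D) : Pic0 (AlgebraicClosure ℚ) FN) = 0 := by
      rw [← hmz]; rfl
    have h3 := (QuotientAddGroup.eq_zero_iff (m • D)).1 h2
    rw [AddSubgroup.mem_addSubgroupOf] at h3
    exact h3
  -- the reduction of `D` is principal
  have h4 : Divisor.IsPrincipal (Finsupp.mapDomain r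
      (D : Divisor (AlgebraicClosure ℚ) FN)) := by
    rw [reductionModL_mk h D] at hz
    have h3 := (QuotientAddGroup.eq_zero_iff _).1 hz
    rw [AddSubgroup.mem_addSubgroupOf] at h3
    exact h3
  obtain ⟨g, hg0, hg⟩ := h4
  obtain ⟨y₁, y₂, hy1, hy2, hE, hrE⟩ := glueRep_of_mem_closure N A r hr (hgen h1)
  -- the constant
  have hrm : ∀ Q, Finsupp.mapDomain r (m • (D : Divisor (AlgebraicClosure ℚ) FN)) Q
      = m * Q.ord g := by
    intro Q
    have : Finsupp.mapDomain r (m • (D : Divisor (AlgebraicClosure ℚ) FN)) =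
        m • Finsupp.mapDomain r (D : Divisor (AlgebraicClosure ℚ) FN) :=
      map_nsmul (Finsupp.mapDomain.addMonoidHom r) _ _
    rw [this, Finsupp.smul_apply, hg Q, nsmul_eq_mul]
  have hgm : g ^ m ≠ 0 := pow_ne_zero _ hg0
  have ht0 : gluePairK N A y₁ / (gluePairK N A y₂ * g ^ m) ≠ 0 :=
    div_ne_zero hy1 (mul_ne_zero hy2 hgm)
  obtain ⟨c, hc⟩ := hk0 _ ht0 (by
    intro Q
    rw [glue_ord_div Q hy1 (mul_ne_zero hy2 hgm), Q.ord_mul hy2 hgm, glue_ord_pow]
    have e1 := hrE Q
    rw [hrm Q] at e1
    linarith)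
  have hc0 : c ≠ 0 := by
    rintro rfl
    rw [map_zero] at hc
    exact ht0 hc
  -- lifts
  obtain ⟨a, rfl⟩ := IsLocalRing.residue_surjective c
  obtain ⟨ug, hug, vg, hvg, hvg0, hgv⟩ :=
    exists_lift_div A (IsLocalRing.residue A) N IsLocalRing.residue_surjective g.2
  set Ug : glueIntSubring A (IsLocalRing.residue A) N := ⟨ug, hug⟩ with hUg
  set Vg : glueIntSubring A (IsLocalRing.residue A) N := ⟨vg, hvg⟩ with hVg
  set Ca : glueIntSubring A (IsLocalRing.residue A) N :=
    ⟨HahnSeries.single 0 a, single_zero_mem_glueIntSubring A _ N a⟩ with hCa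
  have hVg0 : gluePairK N A Vg ≠ 0 := fun h => hvg0 (congrArg Subtype.val h)
  have hgV : g * gluePairK N A Vg = gluePairK N A Ug := Subtype.ext hgv
  have hUg0 : gluePairK N A Ug ≠ 0 := by
    rw [← hgV]; exact mul_ne_zero hg0 hVg0
  have hCaK : gluePairK N A Ca = algebraMap kA FbN (IsLocalRing.residue A a) := by
    apply Subtype.ext
    show coeffMap (IsLocalRing.residue A) (HahnSeries.single 0 a) = _
    rw [coeffMap_single]
    exact (algebraMap_laurentSeries_eq_single kA _).symm
  have hCa0 : gluePairK N A Ca ≠ 0 := by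
    rw [hCaK]
    exact fun h => hc0 ((map_eq_zero _).1 h)
  have hCaL : gluePairL N A Ca = algebraMap (AlgebraicClosure ℚ) FN (a : AlgebraicClosure ℚ) := by
    apply Subtype.ext
    show coeffMap A.subtype (HahnSeries.single 0 a) = _
    rw [coeffMap_single]
    exact (algebraMap_laurentSeries_eq_single (AlgebraicClosure ℚ) _).symm
  -- numerator and denominator
  set U : glueIntSubring A (IsLocalRing.residue A) N := y₁ * Vg ^ m with hU
  set V : glueIntSubring A (IsLocalRing.residue A) N := Ca * y₂ * Ug ^ m with hV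
  have hUK : gluePairK N A U = gluePairK N A y₁ * gluePairK N A Vg ^ m := by
    rw [hU, gluePairK_mul, gluePairK_pow]
  have hVK : gluePairK N A V = gluePairK N A Ca * gluePairK N A y₂ * gluePairK N A Ug ^ m := by
    rw [hV, gluePairK_mul, gluePairK_mul, gluePairK_pow]
  have hUL : gluePairL N A U = gluePairL N A y₁ * gluePairL N A Vg ^ m := by
    rw [hU, gluePairL_mul, gluePairL_pow]
  have hVL : gluePairL N A V = gluePairL N A Ca * gluePairL N A y₂ * gluePairL N A Ug ^ m := by
    rw [hV, gluePairL_mul, gluePairL_mul, gluePairL_pow]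
  have hV0 : gluePairK N A V ≠ 0 := by
    rw [hVK]; exact mul_ne_zero (mul_ne_zero hCa0 hy2) (pow_ne_zero _ hUg0)
  have hU0 : gluePairK N A U ≠ 0 := by
    rw [hUK]; exact mul_ne_zero hy1 (pow_ne_zero _ hVg0)
  have hUV : gluePairK N A U = gluePairK N A V := by
    rw [hUK, hVK, hCaK, ← hc, ← hgV, mul_pow]
    field_simp
  have hVL0 := gluePairL_ne_zero N A hV0
  have hUL0 := gluePairL_ne_zero N A hU0
  have hy1L := gluePairL_ne_zero N A hy1
  have hy2L := gluePairL_ne_zero N A hy2
  have hUgL := gluePairL_ne_zero N A hUg0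
  have hVgL := gluePairL_ne_zero N A hVg0
  have hCaL0 := gluePairL_ne_zero N A hCa0
  -- orders of `f = U / V`
  have hord : ∀ v : Place (AlgebraicClosure ℚ) FN,
      v.ord (gluePairL N A U / gluePairL N A V) =
        m * ((D : Divisor (AlgebraicClosure ℚ) FN) v + v.ord (gluePairL N A Vg)
          - v.ord (gluePairL N A Ug)) := by
    intro v
    rw [glue_ord_div v hUL0 hVL0, hUL, hVL, v.ord_mul hy1L (pow_ne_zero _ hVgL),
      v.ord_mul (mul_ne_zero hCaL0 hy2L) (pow_ne_zero _ hUgL), v.ord_mul hCaL0 hy2L,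
      glue_ord_pow, glue_ord_pow, hCaL, glue_ord_algebraMap]
    have e1 := hE v
    rw [Finsupp.smul_apply, nsmul_eq_mul] at e1
    linarith
  refine ⟨gluePairL N A U / gluePairL N A V, ?_, ?_, ?_⟩
  · refine ⟨gluePairL N A U, gluePairL N A V, gluePairK N A U, gluePairK N A V,
      redQ_gluePair N A U, redQ_gluePair N A V, hV0, div_mul_cancel₀ _ hVL0, ?_⟩
    rw [one_mul, hUV]
  · intro v
    rw [hord v]
    exact dvd_mul_right _ _
  · rintro ⟨h₀, hh₀⟩
    have hh0 : h₀ ≠ 0 := by
      rintro rfl
      rw [zero_pow hm0] at hh₀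
      exact (div_ne_zero hUL0 hVL0) hh₀.symm
    have hD : Divisor.IsPrincipal (D : Divisor (AlgebraicClosure ℚ) FN) := by
      refine ⟨h₀ * gluePairL N A Ug / gluePairL N A Vg,
        div_ne_zero (mul_ne_zero hh0 hUgL) hVgL, fun v => ?_⟩
      rw [glue_ord_div v (mul_ne_zero hh0 hUgL) hVgL, v.ord_mul hh0 hUgL]
      have e1 := hord v
      rw [← hh₀, glue_ord_pow] at e1
      have hm' : (m : ℤ) ≠ 0 := by exact_mod_cast hm0
      have e2 : v.ord h₀ = (D : Divisor (AlgebraicClosure ℚ) FN) v + v.ord (gluePairL N A Vg)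
          - v.ord (gluePairL N A Ug) := mul_left_cancel₀ hm' e1
      linarith
    exact (QuotientAddGroup.eq_zero_iff D).2 (by
      rw [AddSubgroup.mem_addSubgroupOf]; exact hD)

end Main

end Fermat.Agent.S18
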