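import Mathlib

/-!
# S18, piece 87-P3 (helper5): a generic degree / separability criterion

`E / k` a field extension, `j y : E`, `n > 0`.  If
* (`Core`) no nonzero `P ∈ k[X][Y]` of `Y`-degree `< n` has `P(j, y) = 0`,
* (`MPoly`) there is a monic `Φ ∈ k[X][Y]` of `Y`-degree `n` with `Φ(j, y) = 0` and `Φ(j, Y)`
  separable,
* `E = k(j)(y)`,
then `j` is transcendental over `k`, `[E : k(j)] = n` and `E / k(j)` is separable.
-/

set_option autoImplicit false
set_option linter.style.haveILetI false
set_option linter.unusedSectionVars false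

open Polynomial IntermediateField

noncomputable section

namespace Fermat.Agent.S18.RedGen

variable (k : Type*) {E : Type*} [Field k] [Field E] [Algebra k E] (j y : E) (n : ℕ)

/-- evaluation of `k[X]` at `j` -/
def ev : Polynomial k →+* E := (Polynomial.aeval j).toRingHom

theorem ev_apply (p : Polynomial k) : ev k j p = Polynomial.aeval j p := rfl

theorem ev_X : ev k j X = j := by simp [ev]

theorem ev_C (c : k) : ev k j (C c) = algebraMap k E c := by simp [ev]

/-- **CORE**: `1, y, …, y^(n-1)` are linearly independent over `k[j]`. -/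
def Core : Prop :=
  ∀ P : Polynomial (Polynomial k), P.natDegree < n → P.eval₂ (ev k j) y = 0 → P = 0

/-- the modular polynomial -/
structure MPoly (Φ : Polynomial (Polynomial k)) : Prop where
  monic : Φ.Monic
  natDegree : Φ.natDegree = n
  root : Φ.eval₂ (ev k j) y = 0
  separable : (Φ.map (ev k j)).Separable

variable {k j y n}

theorem ev_injective (hn : 0 < n) (hc : Core k j y n) : Function.Injective (ev k j) := by
  rw [injective_iff_map_eq_zero]
  intro p hp
  have h := hc (C p) (by rw [natDegree_C]; exact hn) (by rw [eval₂_C]; exact hp)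
  exact C_eq_zero.mp h

theorem transcendental_of_core (hn : 0 < n) (hc : Core k j y n) : Transcendental k j := by
  rw [transcendental_iff_injective]
  exact ev_injective hn hc

variable (k j) in
/-- evaluation of `k[X]` at `j`, with values in `k(j)` -/
def evK : Polynomial k →+* k⟮j⟯ := (Polynomial.aeval (AdjoinSimple.gen k j)).toRingHom

variable (k j) in
theorem algebraMap_comp_evK : (algebraMap k⟮j⟯ E).comp (evK k j) = ev k j := by
  apply Polynomial.ringHom_ext
  · intro c
    simp [evK, ev]
  · simp [evK, ev]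

variable (k j) in
theorem coe_evK (p : Polynomial k) : ((evK k j p : k⟮j⟯) : E) = ev k j p := by
  have := congrArg (fun f => f p) (algebraMap_comp_evK k j)
  exact this

theorem evK_injective_of (hinj : Function.Injective (ev k j)) :
    Function.Injective (evK k j) := by
  intro p q h
  apply hinj
  rw [← coe_evK, ← coe_evK, h]

theorem evK_injective (hn : 0 < n) (hc : Core k j y n) : Function.Injective (evK k j) :=
  evK_injective_of (ev_injective hn hc)

/-- every element of `k(j)` is a quotient of polynomials in `j`. -/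
theorem exists_evK_mul_eq (hinj : Function.Injective (ev k j)) (x : k⟮j⟯) :
    ∃ r s : Polynomial k, s ≠ 0 ∧ evK k j s * x = evK k j r := by
  obtain ⟨r, s, h⟩ := (IntermediateField.mem_adjoin_simple_iff k (x : E)).mp x.2
  by_cases hs : s = 0
  · refine ⟨0, 1, one_ne_zero, ?_⟩
    have hx : (x : E) = 0 := by rw [h, hs]; simp
    have hx' : x = 0 := Subtype.ext hx
    rw [hx']
    simp
  · refine ⟨r, s, hs, ?_⟩
    apply Subtype.ext
    have hs' : ev k j s ≠ 0 := fun h0 => hs (hinj (by rw [h0, map_zero]))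
    rw [MulMemClass.coe_mul, coe_evK, coe_evK, h]
    have e1 : (Polynomial.aeval j) r = ev k j r := rfl
    have e2 : (Polynomial.aeval j) s = ev k j s := rfl
    rw [e1, e2, mul_div_cancel₀ _ hs']

/-- clearing denominators of a polynomial over `k(j)` -/
theorem exists_clear (hinj : Function.Injective (ev k j)) (q : Polynomial k⟮j⟯) :
    ∃ (b : Polynomial k) (P : Polynomial (Polynomial k)),
      b ≠ 0 ∧ P.map (evK k j) = C (evK k j b) * q := by
  induction q using Polynomial.induction_on' with
  | add q₁ q₂ h₁ h₂ =>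
    obtain ⟨b₁, P₁, hb₁, hP₁⟩ := h₁
    obtain ⟨b₂, P₂, hb₂, hP₂⟩ := h₂
    refine ⟨b₁ * b₂, C b₂ * P₁ + C b₁ * P₂, mul_ne_zero hb₁ hb₂, ?_⟩
    rw [Polynomial.map_add, Polynomial.map_mul, Polynomial.map_mul, Polynomial.map_C,
      Polynomial.map_C, hP₁, hP₂, map_mul, C_mul]
    ring
  | monomial m x =>
    obtain ⟨r, s, hs, h⟩ := exists_evK_mul_eq hinj x
    refine ⟨s, monomial m r, hs, ?_⟩
    rw [Polynomial.map_monomial, ← h, C_mul_monomial]

theorem evK_ne_zero (hn : 0 < n) (hc : Core k j y n) {b : Polynomial k} (hb : b ≠ 0) :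
    evK k j b ≠ 0 :=
  fun h0 => hb (evK_injective hn hc (by rw [h0, map_zero]))

/-- **linear independence over `k(j)`**: a polynomial over `k(j)` of degree `< n` vanishing
at `y` is zero. -/
theorem eq_zero_of_aeval_eq_zero (hn : 0 < n) (hc : Core k j y n) (q : Polynomial k⟮j⟯)
    (hdeg : q.natDegree < n) (hq : Polynomial.aeval y q = 0) : q = 0 := by
  obtain ⟨b, P, hb, hP⟩ := exists_clear (ev_injective hn hc) q
  have hb' := evK_ne_zero hn hc hb
  have hdegP : P.natDegree < n := by
    rw [← Polynomial.natDegree_map_eq_of_injective (evK_injective hn hc) P, hP,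
      Polynomial.natDegree_C_mul hb']
    exact hdeg
  have hroot : P.eval₂ (ev k j) y = 0 := by
    rw [← algebraMap_comp_evK, ← Polynomial.eval₂_map, hP, Polynomial.eval₂_mul,
      Polynomial.eval₂_C]
    have : Polynomial.eval₂ (algebraMap k⟮j⟯ E) y q = 0 := hq
    rw [this, mul_zero]
  have hP0 := hc P hdegP hroot
  rw [hP0, Polynomial.map_zero] at hP
  rcases mul_eq_zero.mp hP.symm with h | h
  · exact absurd (Polynomial.C_eq_zero.mp h) hb'
  · exact h

/-- `Φ(j, Y)` as a polynomial over `k(j)` -/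
def PhiK (j : E) (Φ : Polynomial (Polynomial k)) : Polynomial k⟮j⟯ := Φ.map (evK k j)

section withPhi
variable {Φ : Polynomial (Polynomial k)}

theorem PhiK_monic (h : MPoly k j y n Φ) : (PhiK j Φ).Monic :=
  h.monic.map _

theorem PhiK_natDegree (hn : 0 < n) (hc : Core k j y n) (h : MPoly k j y n Φ) :
    (PhiK j Φ).natDegree = n := by
  rw [PhiK, Polynomial.natDegree_map_eq_of_injective (evK_injective hn hc), h.natDegree]

theorem PhiK_aeval (h : MPoly k j y n Φ) : Polynomial.aeval y (PhiK j Φ) = 0 := by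
  have : Polynomial.eval₂ (algebraMap k⟮j⟯ E) y (PhiK j Φ) = 0 := by
    rw [PhiK, Polynomial.eval₂_map, algebraMap_comp_evK]
    exact h.root
  exact this

theorem PhiK_separable (h : MPoly k j y n Φ) : (PhiK j Φ).Separable := by
  have h1 : ((PhiK j Φ).map (algebraMap k⟮j⟯ E)).Separable := by
    rw [PhiK, Polynomial.map_map, algebraMap_comp_evK]
    exact h.separable
  exact (Polynomial.separable_map _).mp h1

/-- the minimal polynomial of `y` over `k(j)` is `Φ(j, Y)`. -/
theorem minpoly_eq (hn : 0 < n) (hc : Core k j y n) (h : MPoly k j y n Φ) :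
    minpoly k⟮j⟯ y = PhiK j Φ := by
  symm
  apply minpoly.unique' k⟮j⟯ y (PhiK_monic h) (PhiK_aeval h)
  intro q hq
  by_cases hq0 : q = 0
  · exact Or.inl hq0
  · right
    intro hroot
    apply hq0
    apply eq_zero_of_aeval_eq_zero hn hc q _ hroot
    have h1 := Polynomial.natDegree_lt_natDegree hq0 hq
    rwa [PhiK_natDegree hn hc h] at h1

theorem isIntegral_y (h : MPoly k j y n Φ) : IsIntegral k⟮j⟯ y :=
  ⟨PhiK j Φ, PhiK_monic h, PhiK_aeval h⟩

/-- `[k(j)(y) : k(j)] = n` -/
theorem finrank_adjoin (hn : 0 < n) (hc : Core k j y n) (h : MPoly k j y n Φ) :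
    Module.finrank k⟮j⟯ (k⟮j⟯⟮y⟯) = n := by
  rw [IntermediateField.adjoin.finrank (isIntegral_y h), minpoly_eq hn hc h,
    PhiK_natDegree hn hc h]

/-- `y` is separable over `k(j)` -/
theorem isSeparable_y (hn : 0 < n) (hc : Core k j y n) (h : MPoly k j y n Φ) :
    IsSeparable k⟮j⟯ y := by
  unfold IsSeparable
  rw [minpoly_eq hn hc h]
  exact PhiK_separable h

/-- `[E : k(j)] = n` if `E = k(j)(y)` -/
theorem finrank_eq (hn : 0 < n) (hc : Core k j y n) (h : MPoly k j y n Φ)
    (hgen : k⟮j⟯⟮y⟯ = ⊤) : Module.finrank k⟮j⟯ E = n := by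
  rw [← finrank_adjoin hn hc h, hgen, IntermediateField.finrank_top']

theorem finiteDimensional (hn : 0 < n) (hc : Core k j y n) (h : MPoly k j y n Φ)
    (hgen : k⟮j⟯⟮y⟯ = ⊤) : FiniteDimensional k⟮j⟯ E := by
  apply Module.finite_of_finrank_pos
  rw [finrank_eq hn hc h hgen]
  exact hn

theorem isSeparable (hn : 0 < n) (hc : Core k j y n) (h : MPoly k j y n Φ)
    (hgen : k⟮j⟯⟮y⟯ = ⊤) : Algebra.IsSeparable k⟮j⟯ E := by
  have h1 : Algebra.IsSeparable k⟮j⟯ (k⟮j⟯⟮y⟯) :=
    (IntermediateField.isSeparable_adjoin_simple_iff_isSeparable k⟮j⟯ E).mpr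
      (isSeparable_y hn hc h)
  rw [hgen] at h1
  exact Algebra.IsSeparable.of_algHom k⟮j⟯ (⊤ : IntermediateField k⟮j⟯ E)
    (IntermediateField.topEquiv (F := k⟮j⟯) (E := E)).symm.toAlgHom

end withPhi

/-- generation, transported along an embedding -/
theorem adjoin_adjoin_eq_top_of_map {E' : Type*} [Field E'] [Algebra k E'] (φ : E →ₐ[k] E')
    (j y : E) (h : ∀ x : E, φ x ∈ IntermediateField.adjoin k {φ j, φ y}) :
    (k⟮j⟯)⟮y⟯ = ⊤ := by
  rw [eq_top_iff]
  intro x _
  have himg : (IntermediateField.adjoin k {j, y}).map φ =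
      IntermediateField.adjoin k {φ j, φ y} := by
    rw [IntermediateField.adjoin_map]
    congr 1
    ext z
    simp only [Set.mem_image, Set.mem_insert_iff, Set.mem_singleton_iff]
    constructor
    · rintro ⟨w, rfl | rfl, rfl⟩
      · exact Or.inl rfl
      · exact Or.inr rfl
    · rintro (rfl | rfl)
      · exact ⟨j, Or.inl rfl, rfl⟩
      · exact ⟨y, Or.inr rfl, rfl⟩
  have hx := h x
  rw [← himg] at hx
  obtain ⟨x', hx', hxx'⟩ := (IntermediateField.mem_map _).mp hx
  have hxe : x' = x := φ.injective hxx'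
  rw [hxe] at hx'
  have h2 : x ∈ ((k⟮j⟯)⟮y⟯).restrictScalars k := by
    rw [IntermediateField.adjoin_simple_adjoin_simple]
    exact hx'
  exact h2

end Fermat.Agent.S18.RedGen
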