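import Fermat.Agent.S18.RedDeg
import Fermat.Agent.S18.RedGeneric
import Fermat.Agent.S18.Defs
import Fermat.Agent.S28.GenBar
import Fermat.Agent.S28.RedBasic
import Fermat.Prelude.Thm_ModularCurve_coeffMap_qExpand

/-!
# S18, piece 87-P3 (helper5): scal, generation, degree and separability in characteristic `ℓ`
-/

set_option autoImplicit false
set_option linter.style.haveILetI false
set_option linter.unusedSectionVars false
open scoped MatrixGroups
open Polynomial IntermediateField

noncomputable section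

namespace Fermat.Agent.S18.RedScal
open Fermat.Agent.FF ModularCurve Fermat.Agent.S28 Fermat.Agent.S18.RedDeg

section Ev
variable (R : Type*) [CommRing R] (N : ℕ) [NeZero N]

/-- evaluation of `R[X]` at `j` (coefficients in any ring) -/
def ev1 : Polynomial R →+* LaurentSeries R :=
  Polynomial.eval₂RingHom (HahnSeries.C : R →+* LaurentSeries R) (jqModC R)

/-- evaluation of `R[X][Y]` at `(j, j_N)` -/
def ev2 : Polynomial (Polynomial R) →+* LaurentSeries R :=
  Polynomial.eval₂RingHom (ev1 R) (jqNModC R N)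

theorem ev1_C (r : R) : ev1 R (C r) = HahnSeries.C r := by simp [ev1]

theorem ev1_X : ev1 R X = jqModC R := by simp [ev1]

theorem ev2_C (p : Polynomial R) : ev2 R N (C p) = ev1 R p := by simp [ev2]

theorem ev2_X : ev2 R N X = jqNModC R N := by simp [ev2]

theorem ev2_apply (P : Polynomial (Polynomial R)) :
    ev2 R N P = P.eval₂ (ev1 R) (jqNModC R N) := rfl

variable {R}
variable {S : Type*} [CommRing S]

theorem coeffMap_hC (f : R →+* S) (r : R) :
    coeffMap f (HahnSeries.C r : LaurentSeries R) = HahnSeries.C (f r) := by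
  rw [HahnSeries.C_apply, HahnSeries.C_apply, coeffMap_single]

theorem coeffMap_comp_ev1 (f : R →+* S) :
    (coeffMap f).comp (ev1 R) = (ev1 S).comp (Polynomial.mapRingHom f) := by
  apply Polynomial.ringHom_ext
  · intro r
    simp only [RingHom.comp_apply, ev1_C, coeffMap_hC, Polynomial.coe_mapRingHom,
      Polynomial.map_C]
  · simp only [RingHom.comp_apply, ev1_X, Polynomial.coe_mapRingHom, Polynomial.map_X,
      coeffMap_jqModC]

theorem coeffMap_ev1 (f : R →+* S) (p : Polynomial R) :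
    coeffMap f (ev1 R p) = ev1 S (p.map f) :=
  congrArg (fun g => g p) (coeffMap_comp_ev1 f)

theorem coeffMap_comp_ev2 (f : R →+* S) :
    (coeffMap f).comp (ev2 R N) =
      (ev2 S N).comp (Polynomial.mapRingHom (Polynomial.mapRingHom f)) := by
  apply Polynomial.ringHom_ext
  · intro p
    simp only [RingHom.comp_apply, ev2_C, Polynomial.coe_mapRingHom,
      Polynomial.map_C, coeffMap_ev1]
  · simp only [RingHom.comp_apply, ev2_X, Polynomial.coe_mapRingHom, Polynomial.map_X,
      coeffMap_jqNModC]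

theorem coeffMap_ev2 (f : R →+* S) (P : Polynomial (Polynomial R)) :
    coeffMap f (ev2 R N P) = ev2 S N (P.map (Polynomial.mapRingHom f)) :=
  congrArg (fun g => g P) (coeffMap_comp_ev2 N f)

end Ev

section Field
variable (k : Type*) [Field k] (N : ℕ) [NeZero N]

theorem ev1_eq_evQ : ev1 k = evQ k := by
  apply Polynomial.ringHom_ext
  · intro c
    rw [ev1_C, evQ_C]
  · rw [ev1_X, evQ_X]

theorem ev1_injective : Function.Injective (ev1 k) := by
  rw [ev1_eq_evQ]
  exact evQ_injective k

theorem ev1_mem_adjoin (p : Polynomial k) :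
    ev1 k p ∈ IntermediateField.adjoin k {jqModC k, jqNModC k N} := by
  induction p using Polynomial.induction_on' with
  | add p q hp hq => rw [map_add]; exact add_mem hp hq
  | monomial n c =>
    rw [← Polynomial.C_mul_X_pow_eq_monomial, map_mul, map_pow, ev1_C, ev1_X]
    refine mul_mem ?_ (pow_mem (IntermediateField.subset_adjoin k _ (by simp)) n)
    have : (HahnSeries.C c : LaurentSeries k) = algebraMap k (LaurentSeries k) c := by
      rw [Key.algebraMap_laurent]
    rw [this]
    exact IntermediateField.algebraMap_mem _ c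

theorem ev2_mem_adjoin (P : Polynomial (Polynomial k)) :
    ev2 k N P ∈ IntermediateField.adjoin k {jqModC k, jqNModC k N} := by
  induction P using Polynomial.induction_on' with
  | add p q hp hq => rw [map_add]; exact add_mem hp hq
  | monomial n c =>
    rw [← Polynomial.C_mul_X_pow_eq_monomial, map_mul, map_pow, ev2_C, ev2_X]
    exact mul_mem (ev1_mem_adjoin k N c)
      (pow_mem (IntermediateField.subset_adjoin k _ (by simp)) n)

variable {k N}

theorem ev2_ne_zero (hc : CoreQ k N) {P : Polynomial (Polynomial k)} (hP : P ≠ 0)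
    (hdeg : P.natDegree < dedekindPsi N) : ev2 k N P ≠ 0 := by
  intro h
  apply hP
  apply hc P hdeg
  rw [← ev1_eq_evQ]
  exact h

end Field

section Scale
variable {L : Type*} [Field L] (A : ValuationSubring L)

/-- primitive scaling of a finite family -/
theorem exists_scale {ι : Type*} (s : Finset ι) (x : ι → L) (h : ∃ i ∈ s, x i ≠ 0) :
    ∃ c : L, c ≠ 0 ∧ (∀ i ∈ s, c * x i ∈ A) ∧ ∃ i ∈ s, c * x i = 1 := by
  have hne : s.Nonempty := by
    obtain ⟨i, hi, -⟩ := h
    exact ⟨i, hi⟩
  obtain ⟨i₀, hi₀, hmax⟩ := Finset.exists_max_image s (fun i => A.valuation (x i)) hne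
  have hx0 : x i₀ ≠ 0 := by
    obtain ⟨i, hi, hxi⟩ := h
    intro h0
    have h1 := hmax i hi
    simp only [h0, map_zero] at h1
    exact hxi ((map_eq_zero _).mp (le_antisymm h1 zero_le))
  have hv0 : A.valuation (x i₀) ≠ 0 := (_root_.map_ne_zero _).mpr hx0
  refine ⟨(x i₀)⁻¹, inv_ne_zero hx0, fun i hi => ?_, i₀, hi₀, inv_mul_cancel₀ hx0⟩
  rw [← A.valuation_le_one_iff, map_mul, map_inv₀]
  calc (A.valuation (x i₀))⁻¹ * A.valuation (x i)
      ≤ (A.valuation (x i₀))⁻¹ * A.valuation (x i₀) := by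
        gcongr
        exact hmax i hi
    _ = 1 := inv_mul_cancel₀ hv0

/-- primitive scaling of a polynomial -/
theorem exists_prim1 {k : Type*} [CommRing k] [Nontrivial k] (π : A →+* k)
    (s : Polynomial L) (hs : s ≠ 0) :
    ∃ c : L, c ≠ 0 ∧ ∃ s' : Polynomial A, s'.map A.subtype = C c * s ∧
      s'.map π ≠ 0 := by
  obtain ⟨n, hn⟩ : ∃ n, s.coeff n ≠ 0 := by
    by_contra hcon
    push Not at hcon
    exact hs (Polynomial.ext fun n => by rw [hcon n, coeff_zero])
  obtain ⟨c, hc, hmem, i₀, -, hi₀⟩ := exists_scale A s.support (fun i => s.coeff i)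
    ⟨n, Polynomial.mem_support_iff.mpr hn, hn⟩
  have hmem' : ∀ i, c * s.coeff i ∈ A := by
    intro i
    by_cases hi : i ∈ s.support
    · exact hmem i hi
    · rw [Polynomial.notMem_support_iff.mp hi, mul_zero]
      exact A.zero_mem
  have hl : C c * s ∈ Polynomial.lifts A.subtype := by
    rw [Polynomial.lifts_iff_coeff_lifts]
    intro i
    rw [Polynomial.coeff_C_mul]
    exact ⟨⟨_, hmem' i⟩, rfl⟩
  obtain ⟨s', hs'⟩ := (Polynomial.mem_lifts _).mp hl
  refine ⟨c, hc, s', hs', fun h0 => ?_⟩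
  have h1 : (s'.coeff i₀ : L) = 1 := by
    have := congrArg (fun p => p.coeff i₀) hs'
    simp only [Polynomial.coeff_map, Polynomial.coeff_C_mul] at this
    rw [← hi₀]
    exact this
  have h2 : s'.coeff i₀ = 1 := Subtype.ext h1
  have h3 := congrArg (fun p => p.coeff i₀) h0
  simp only [Polynomial.coeff_map, h2, map_one, Polynomial.coeff_zero] at h3
  exact one_ne_zero h3

/-- primitive scaling of a polynomial in two variables -/
theorem exists_prim2 {k : Type*} [CommRing k] [Nontrivial k] (π : A →+* k)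
    (P : Polynomial (Polynomial L)) (hP : P ≠ 0) :
    ∃ c : L, c ≠ 0 ∧ ∃ P' : Polynomial (Polynomial A),
      P'.map (Polynomial.mapRingHom A.subtype) = C (C c) * P ∧
      P'.map (Polynomial.mapRingHom π) ≠ 0 := by
  obtain ⟨n, hn⟩ : ∃ n, P.coeff n ≠ 0 := by
    by_contra hcon
    push Not at hcon
    exact hP (Polynomial.ext fun n => by rw [hcon n, coeff_zero])
  obtain ⟨m, hm⟩ : ∃ m, (P.coeff n).coeff m ≠ 0 := by
    by_contra hcon
    push Not at hcon
    exact hn (Polynomial.ext fun m => by rw [hcon m, coeff_zero])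
  obtain ⟨c, hc, hmem, i₀, -, hi₀⟩ := exists_scale A
    (P.support.biUnion fun i => (P.coeff i).support.image fun j => (i, j))
    (fun ij => (P.coeff ij.1).coeff ij.2)
    ⟨(n, m), by
      rw [Finset.mem_biUnion]
      exact ⟨n, Polynomial.mem_support_iff.mpr hn,
        Finset.mem_image.mpr ⟨m, Polynomial.mem_support_iff.mpr hm, rfl⟩⟩, hm⟩
  have hmem' : ∀ i j, c * (P.coeff i).coeff j ∈ A := by
    intro i j
    by_cases hij : (P.coeff i).coeff j = 0
    · rw [hij, mul_zero]
      exact A.zero_mem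
    · apply hmem (i, j)
      rw [Finset.mem_biUnion]
      have hi : P.coeff i ≠ 0 := fun h0 => hij (by rw [h0, coeff_zero])
      exact ⟨i, Polynomial.mem_support_iff.mpr hi,
        Finset.mem_image.mpr ⟨j, Polynomial.mem_support_iff.mpr hij, rfl⟩⟩
  have hl : C (C c) * P ∈ Polynomial.lifts (Polynomial.mapRingHom A.subtype) := by
    rw [Polynomial.lifts_iff_coeff_lifts]
    intro i
    rw [Polynomial.coeff_C_mul]
    have hl1 : C c * P.coeff i ∈ Polynomial.lifts A.subtype := by
      rw [Polynomial.lifts_iff_coeff_lifts]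
      intro j
      rw [Polynomial.coeff_C_mul]
      exact ⟨⟨_, hmem' i j⟩, rfl⟩
    obtain ⟨p', hp'⟩ := (Polynomial.mem_lifts _).mp hl1
    exact ⟨p', hp'⟩
  obtain ⟨P', hP'⟩ := (Polynomial.mem_lifts _).mp hl
  refine ⟨c, hc, P', hP', fun h0 => ?_⟩
  have h1 : (((P'.coeff i₀.1).coeff i₀.2 : A) : L) = 1 := by
    have := congrArg (fun p => (p.coeff i₀.1).coeff i₀.2) hP'
    simp only [Polynomial.coeff_map, Polynomial.coeff_C_mul, Polynomial.coe_mapRingHom] at this
    rw [← hi₀]
    exact this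
  have h2 : (P'.coeff i₀.1).coeff i₀.2 = 1 := Subtype.ext h1
  have h3 := congrArg (fun p => (p.coeff i₀.1).coeff i₀.2) h0
  simp only [Polynomial.coeff_map, Polynomial.coe_mapRingHom, h2, map_one,
    Polynomial.coeff_zero] at h3
  exact one_ne_zero h3

end Scale

section Mem
variable {K : Type*} [Field K] (N : ℕ) [NeZero N]
  (F : IntermediateField K (LaurentSeries K))

theorem ev1_mem (hj : jqModC K ∈ F) (p : Polynomial K) : ev1 K p ∈ F := by
  induction p using Polynomial.induction_on' with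
  | add p q hp hq => rw [map_add]; exact add_mem hp hq
  | monomial n c =>
    rw [← Polynomial.C_mul_X_pow_eq_monomial, map_mul, map_pow, ev1_C, ev1_X]
    refine mul_mem ?_ (pow_mem hj n)
    have : (HahnSeries.C c : LaurentSeries K) = algebraMap K (LaurentSeries K) c := by
      rw [Key.algebraMap_laurent]
    rw [this]
    exact IntermediateField.algebraMap_mem _ c

theorem ev2_mem (hj : jqModC K ∈ F) (hjN : jqNModC K N ∈ F) (P : Polynomial (Polynomial K)) :
    ev2 K N P ∈ F := by
  induction P using Polynomial.induction_on' with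
  | add p q hp hq => rw [map_add]; exact add_mem hp hq
  | monomial n c =>
    rw [← Polynomial.C_mul_X_pow_eq_monomial, map_mul, map_pow, ev2_C, ev2_X]
    exact mul_mem (ev1_mem F hj c) (pow_mem hjN n)

end Mem

section Char0
variable (N : ℕ) [NeZero N]

theorem jqModC_mem_bar : jqModC Kbar ∈ modularFunctionFieldBar N := by
  have h := (jBar N).2
  have e : ((jBar N : FN N) : LaurentSeries Kbar) = jqModC Kbar := coeffEmb_jq
  rwa [e] at h

theorem Jd_eq (d : ℕ) [NeZero d] : Jd d = jqNModC Kbar d := by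
  have h : Jd d = coeffMap (algebraMap ℚ Kbar) (jqNModC ℚ d) := rfl
  rw [h, coeffMap_jqNModC]

theorem jqNModC_mem_bar (d : ℕ) [NeZero d] (hd : d ∣ N) :
    jqNModC Kbar d ∈ modularFunctionFieldBar N := by
  rw [← Jd_eq]
  exact Jd_mem_FN N d hd

/-- the coercion `F_N → ℚ̄((q))` composed with the evaluation at `jBar` -/
theorem val_comp_ev :
    (algebraMap (FN N) (LaurentSeries Kbar)).comp (RedGen.ev Kbar (jBar N)) = ev1 Kbar := by
  apply Polynomial.ringHom_ext
  · intro c
    rw [RingHom.comp_apply, RedGen.ev_C, ev1_C, ← IsScalarTower.algebraMap_apply,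
      Key.algebraMap_laurent]
  · rw [RingHom.comp_apply, RedGen.ev_X, ev1_X]
    exact coeffEmb_jq

theorem ev_jBar_injective : Function.Injective (RedGen.ev Kbar (jBar N)) :=
  transcendental_iff_injective.mp (modularOrdData N).transc

/-- **normal form in characteristic `0`**: `b(j) f = P(j, j_N)`, `deg_Y P < ψ(N)`. -/
theorem exists_normal_form (f : LaurentSeries Kbar) (hf : f ∈ modularFunctionFieldBar N) :
    ∃ b : Polynomial Kbar, b ≠ 0 ∧ ∃ P : Polynomial (Polynomial Kbar),
      P.natDegree < dedekindPsi N ∧ ev1 Kbar b * f = ev2 Kbar N P := by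
  obtain ⟨p, hpdeg, hp⟩ := exists_poly_JdF N (⟨f, hf⟩ : FN N)
  obtain ⟨b, P, hb, hP⟩ := RedGen.exists_clear (ev_jBar_injective N) p
  have hinjK := RedGen.evK_injective_of (ev_jBar_injective N)
  have hb' : RedGen.evK Kbar (jBar N) b ≠ 0 := fun h0 => hb (hinjK (by rw [h0, map_zero]))
  refine ⟨b, hb, P, ?_, ?_⟩
  · rw [← Polynomial.natDegree_map_eq_of_injective hinjK P, hP, Polynomial.natDegree_C_mul hb']
    exact hpdeg
  · have h1 : P.eval₂ (RedGen.ev Kbar (jBar N)) (JdF N N dvd_rfl) =
        RedGen.ev Kbar (jBar N) b * (⟨f, hf⟩ : FN N) := by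
      rw [← RedGen.algebraMap_comp_evK, ← Polynomial.eval₂_map, hP, Polynomial.eval₂_mul,
        Polynomial.eval₂_C, RingHom.comp_apply]
      have : Polynomial.eval₂ (algebraMap ↥Kbar⟮jBar N⟯ (FN N)) (JdF N N dvd_rfl) p =
          (⟨f, hf⟩ : FN N) := hp
      rw [this]
    have h2 := congrArg (algebraMap (FN N) (LaurentSeries Kbar)) h1
    rw [Polynomial.hom_eval₂, val_comp_ev, map_mul] at h2
    have h3 : algebraMap (FN N) (LaurentSeries Kbar) (JdF N N dvd_rfl) = jqNModC Kbar N :=
      Jd_eq N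
    have h4 : algebraMap (FN N) (LaurentSeries Kbar) (⟨f, hf⟩ : FN N) = f := rfl
    have h5 : algebraMap (FN N) (LaurentSeries Kbar) (RedGen.ev Kbar (jBar N) b) =
        ev1 Kbar b := congrArg (fun g => g b) (val_comp_ev N)
    rw [h3, h4, h5] at h2
    rw [ev2_apply, h2]

end Char0

section Residue
variable (N : ℕ) [NeZero N] (A : ValuationSubring Kbar) {k : Type*} [Field k] (π : A →+* k)

theorem coeffMap_subtype_inj : Function.Injective (coeffMap A.subtype) := by
  intro x y h
  ext n
  have := congrArg (fun z => z.coeff n) h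
  simp only [coeffMap_coeff] at this
  exact this

/-- **scal**, polynomial form: `c f b'(j) = P'(j, j_N)` with `b'`, `P'` primitive over `A`. -/
theorem exists_scal_poly (f : LaurentSeries Kbar) (hf : f ∈ modularFunctionFieldBar N)
    (hf0 : f ≠ 0) :
    ∃ c : Kbar, c ≠ 0 ∧ ∃ (b' : Polynomial A) (P' : Polynomial (Polynomial A)),
      b'.map π ≠ 0 ∧ P'.map (Polynomial.mapRingHom π) ≠ 0 ∧
      (P'.map (Polynomial.mapRingHom π)).natDegree < dedekindPsi N ∧
      HahnSeries.C c * f * coeffMap A.subtype (ev1 A b') = coeffMap A.subtype (ev2 A N P') := by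
  obtain ⟨b, hb, P, hPdeg, hP⟩ := exists_normal_form N f hf
  have hb1 : ev1 Kbar b ≠ 0 := fun h0 => hb (ev1_injective Kbar (by rw [h0, map_zero]))
  have hP0 : P ≠ 0 := by
    intro h0
    rw [h0, map_zero] at hP
    exact (mul_ne_zero hb1 hf0) hP
  obtain ⟨c₁, hc₁, b', hb', hb'π⟩ := exists_prim1 A π b hb
  obtain ⟨c₂, hc₂, P', hP', hP'π⟩ := exists_prim2 A π P hP0
  refine ⟨c₂ * c₁⁻¹, mul_ne_zero hc₂ (inv_ne_zero hc₁), b', P', hb'π, hP'π, ?_, ?_⟩
  · have hinj : Function.Injective (Polynomial.mapRingHom A.subtype) :=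
      Polynomial.map_injective _ Subtype.val_injective
    have hCC : (C (C c₂) : Polynomial (Polynomial Kbar)) ≠ 0 := by
      rw [Ne, Polynomial.C_eq_zero, Polynomial.C_eq_zero]
      exact hc₂
    calc (P'.map (Polynomial.mapRingHom π)).natDegree ≤ P'.natDegree := Polynomial.natDegree_map_le
      _ = (P'.map (Polynomial.mapRingHom A.subtype)).natDegree :=
          (Polynomial.natDegree_map_eq_of_injective hinj P').symm
      _ = P.natDegree := by
          rw [hP']
          exact Polynomial.natDegree_C_mul (by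
            rw [Ne, Polynomial.C_eq_zero]
            exact hc₂)
      _ < dedekindPsi N := hPdeg
  · have e1 : coeffMap A.subtype (ev1 A b') = HahnSeries.C c₁ * ev1 Kbar b := by
      rw [coeffMap_ev1, hb', map_mul, ev1_C]
    have e2 : coeffMap A.subtype (ev2 A N P') = HahnSeries.C c₂ * ev2 Kbar N P := by
      rw [coeffMap_ev2]
      show ev2 Kbar N (P'.map (Polynomial.mapRingHom A.subtype)) = _
      rw [hP', map_mul, ev2_C, ev1_C]
    rw [e1, e2, ← hP, map_mul, map_inv₀]
    have hC : (HahnSeries.C c₁ : LaurentSeries Kbar) ≠ 0 := by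
      rw [Ne, map_eq_zero]
      exact hc₁
    field_simp

variable {A π} in
theorem redQ_mul {x y : LaurentSeries Kbar} {xb yb : LaurentSeries k}
    (hx : RedQ A π x xb) (hy : RedQ A π y yb) : RedQ A π (x * y) (xb * yb) := by
  obtain ⟨x', hx1, hx2⟩ := hx
  obtain ⟨y', hy1, hy2⟩ := hy
  exact ⟨x' * y', by rw [map_mul, hx1, hy1], by rw [map_mul, hx2, hy2]⟩

variable {A π} in
theorem redQ_unique {x : LaurentSeries Kbar} {xb xb' : LaurentSeries k}
    (h : RedQ A π x xb) (h' : RedQ A π x xb') : xb = xb' := by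
  obtain ⟨x₁, h1, h2⟩ := h
  obtain ⟨x₂, h3, h4⟩ := h'
  have : x₁ = x₂ := coeffMap_subtype_inj A (h1.trans h3.symm)
  rw [← h2, ← h4, this]

theorem redQ_C (a : A) : RedQ A π (HahnSeries.C (a : Kbar)) (HahnSeries.C (π a)) :=
  ⟨HahnSeries.C a, coeffMap_hC _ _, coeffMap_hC _ _⟩

variable {A π} in
/-- a q-integral element with a Gauss reduction: the two reductions agree. -/
theorem redQ_eq_of_redV {F : IntermediateField Kbar (LaurentSeries Kbar)}
    {Fb : IntermediateField k (LaurentSeries k)} {y : F} {yb : Fb} {y' : LaurentSeries k}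
    (hV : RedV A π F Fb y yb) (hQ : RedQ A π (y : LaurentSeries Kbar) y') :
    y' = (yb : LaurentSeries k) := by
  obtain ⟨u, v, ub, vb, hu, hv, hvb, hyv, hyb⟩ := hV
  have h1 : RedQ A π ((u : F) : LaurentSeries Kbar) (y' * (vb : LaurentSeries k)) := by
    have := redQ_mul hQ hv
    rwa [← MulMemClass.coe_mul, hyv] at this
  have h2 := redQ_unique h1 hu
  have h3 : ((yb * vb : Fb) : LaurentSeries k) = (ub : LaurentSeries k) := by rw [hyb]
  rw [MulMemClass.coe_mul] at h3
  have hvb' : (vb : LaurentSeries k) ≠ 0 := fun h0 => hvb (Subtype.ext h0)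
  exact mul_right_cancel₀ hvb' (h2.trans h3.symm)

/-- **scal** for `(F_N, Fb)`, any `Fb ∋ j̄, j̄_N`. -/
theorem scal_general (hc : CoreQ k N) (Fb : IntermediateField k (LaurentSeries k))
    (hj : jqModC k ∈ Fb) (hjN : jqNModC k N ∈ Fb)
    (y : modularFunctionFieldBar N) (hy : y ≠ 0) :
    ∃ c : Kbar, c ≠ 0 ∧ ∃ yb : Fb, yb ≠ 0 ∧
      RedV A π (modularFunctionFieldBar N) Fb (c • y) yb := by
  have hy0 : (y : LaurentSeries Kbar) ≠ 0 := fun h0 => hy (Subtype.ext h0)
  obtain ⟨c, hc0, b', P', hb', hP', hdeg, heq⟩ := exists_scal_poly N A π _ y.2 hy0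
  have hub : ev2 k N (P'.map (Polynomial.mapRingHom π)) ≠ 0 := ev2_ne_zero hc hP' hdeg
  have hvb : ev1 k (b'.map π) ≠ 0 := fun h0 => hb' (ev1_injective k (by rw [h0, map_zero]))
  let u : modularFunctionFieldBar N := ⟨coeffMap A.subtype (ev2 A N P'), by
    rw [coeffMap_ev2]
    exact ev2_mem N _ (jqModC_mem_bar N) (jqNModC_mem_bar N N dvd_rfl) _⟩
  let v : modularFunctionFieldBar N := ⟨coeffMap A.subtype (ev1 A b'), by
    rw [coeffMap_ev1]
    exact ev1_mem _ (jqModC_mem_bar N) _⟩
  let ub : Fb := ⟨ev2 k N (P'.map (Polynomial.mapRingHom π)), ev2_mem N Fb hj hjN _⟩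
  let vb : Fb := ⟨ev1 k (b'.map π), ev1_mem Fb hj _⟩
  have hvb' : vb ≠ 0 := fun h0 => hvb (congrArg Subtype.val h0)
  have hub' : ub ≠ 0 := fun h0 => hub (congrArg Subtype.val h0)
  refine ⟨c, hc0, ub / vb, div_ne_zero hub' hvb', u, v, ub, vb,
    ⟨ev2 A N P', rfl, coeffMap_ev2 N π P'⟩, ⟨ev1 A b', rfl, coeffMap_ev1 π b'⟩, hvb', ?_,
    div_mul_cancel₀ _ hvb'⟩
  apply Subtype.ext
  rw [MulMemClass.coe_mul]
  show ((c • y : modularFunctionFieldBar N) : LaurentSeries Kbar) * _ = _
  rw [IntermediateField.coe_smul, Algebra.smul_def, Key.algebraMap_laurent]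
  exact heq

/-- the reduction of a q-integral element of `F_N` lies in `Fb`. -/
theorem red_mem (hπ : ∀ a : A, ¬ IsUnit a → π a = 0) (hc : CoreQ k N)
    (Fb : IntermediateField k (LaurentSeries k))
    (hj : jqModC k ∈ Fb) (hjN : jqNModC k N ∈ Fb)
    (f : LaurentSeries Kbar) (hf : f ∈ modularFunctionFieldBar N) (fb : LaurentSeries k)
    (hQ : RedQ A π f fb) : fb ∈ Fb := by
  by_cases hf0 : f = 0
  · obtain ⟨f', h1, h2⟩ := hQ
    have : f' = 0 := coeffMap_subtype_inj A (by rw [h1, hf0, map_zero])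
    rw [← h2, this, map_zero]
    exact zero_mem _
  have hy : (⟨f, hf⟩ : modularFunctionFieldBar N) ≠ 0 := fun h0 => hf0 (congrArg Subtype.val h0)
  obtain ⟨c, hc0, yb, hyb, hV⟩ := scal_general N A π hc Fb hj hjN ⟨f, hf⟩ hy
  have hcoe : ((c • (⟨f, hf⟩ : modularFunctionFieldBar N) : modularFunctionFieldBar N) :
      LaurentSeries Kbar) = HahnSeries.C c * f := by
    rw [IntermediateField.coe_smul, Algebra.smul_def, Key.algebraMap_laurent]
  by_cases hcA : c ∈ A
  · have h1 : RedQ A π (HahnSeries.C c * f) (HahnSeries.C (π ⟨c, hcA⟩) * fb) :=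
      redQ_mul (redQ_C A π ⟨c, hcA⟩) hQ
    rw [← hcoe] at h1
    have h2 := redQ_eq_of_redV hV h1
    have hyb' : (yb : LaurentSeries k) ≠ 0 := fun h0 => hyb (Subtype.ext h0)
    have hπc : π ⟨c, hcA⟩ ≠ 0 := by
      intro h0
      rw [h0, map_zero, zero_mul] at h2
      exact hyb' h2.symm
    have h3 : fb = HahnSeries.C (π ⟨c, hcA⟩)⁻¹ * (yb : LaurentSeries k) := by
      rw [← h2, ← mul_assoc, ← map_mul, inv_mul_cancel₀ hπc, map_one, one_mul]
    rw [h3]
    refine mul_mem ?_ yb.2
    rw [← Key.algebraMap_laurent]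
    exact Fb.algebraMap_mem _
  · have hcA' : c⁻¹ ∈ A := (A.mem_or_inv_mem c).resolve_left hcA
    have hnu : ¬ IsUnit (⟨c⁻¹, hcA'⟩ : A) := by
      intro hu
      apply hcA
      have := (A.valuation_eq_one_iff ⟨c⁻¹, hcA'⟩).mp hu
      rw [← A.valuation_le_one_iff]
      have h5 : A.valuation c = 1 := by
        have h6 : A.valuation (c⁻¹) = 1 := this
        rw [map_inv₀, inv_eq_one] at h6
        exact h6
      exact h5.le
    obtain ⟨u, v, ub, vb, hu, hv, hvb, hyv, -⟩ := hV
    have h1 : f * (v : LaurentSeries Kbar) = HahnSeries.C c⁻¹ * (u : LaurentSeries Kbar) := by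
      have h2 := congrArg Subtype.val hyv
      rw [MulMemClass.coe_mul, hcoe] at h2
      rw [← h2, ← mul_assoc, ← mul_assoc, ← map_mul, inv_mul_cancel₀ hc0, map_one, one_mul]
    have h3 : RedQ A π (f * (v : LaurentSeries Kbar)) (fb * (vb : LaurentSeries k)) :=
      redQ_mul hQ hv
    have h4 : RedQ A π (HahnSeries.C c⁻¹ * (u : LaurentSeries Kbar))
        (HahnSeries.C (π ⟨c⁻¹, hcA'⟩) * (ub : LaurentSeries k)) :=
      redQ_mul (redQ_C A π ⟨c⁻¹, hcA'⟩) hu
    rw [← h1] at h4
    have h5 := redQ_unique h3 h4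
    rw [hπ _ hnu, map_zero, zero_mul] at h5
    have hvb' : (vb : LaurentSeries k) ≠ 0 := fun h0 => hvb (Subtype.ext h0)
    rcases mul_eq_zero.mp h5 with h | h
    · rw [h]; exact zero_mem _
    · exact absurd h hvb'

end Residue

section Generation
variable (N : ℕ) [NeZero N] (A : ValuationSubring Kbar) {k : Type*} [Field k] (π : A →+* k)

/-- **generation**: `F̄_N = k(j̄, j̄_N)`. -/
theorem full_eq_adjoin_of (hπ : ∀ a : A, ¬ IsUnit a → π a = 0) (hc : CoreQ k N) :
    modularFunctionFieldFullC k N = IntermediateField.adjoin k {jqModC k, jqNModC k N} := by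
  apply le_antisymm
  · rw [modularFunctionFieldFullC, IntermediateField.adjoin_le_iff]
    rintro x ⟨d, hne, hdvd, rfl⟩
    haveI := hne
    refine red_mem N A π hπ hc _ (IntermediateField.subset_adjoin k _ (by simp))
      (IntermediateField.subset_adjoin k _ (by simp)) (jqNModC Kbar d)
      (jqNModC_mem_bar N d hdvd) _ ?_
    exact ⟨jqNModC A d, coeffMap_jqNModC _ d, coeffMap_jqNModC _ d⟩
  · rw [IntermediateField.adjoin_le_iff]
    rintro x (rfl | rfl)
    · exact jqModC_mem_full k N
    · exact jqModCd_mem_full k N dvd_rfl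

end Generation

section Degree
variable (k : Type*) [Field k] (N : ℕ) [NeZero N]

/-- `j̄` as an element of `F̄_N` -/
def jF : ↥(modularFunctionFieldFullC k N) := ⟨jqModC k, jqModC_mem_full k N⟩

/-- `j̄_N` as an element of `F̄_N` -/
def jNF : ↥(modularFunctionFieldFullC k N) := ⟨jqNModC k N, jqModCd_mem_full k N dvd_rfl⟩

theorem val_comp_evF :
    (algebraMap ↥(modularFunctionFieldFullC k N) (LaurentSeries k)).comp
      (RedGen.ev k (jF k N)) = evQ k := by
  apply Polynomial.ringHom_ext
  · intro c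
    rw [RingHom.comp_apply, RedGen.ev_C, evQ_C, ← IsScalarTower.algebraMap_apply,
      Key.algebraMap_laurent]
  · rw [RingHom.comp_apply, RedGen.ev_X, evQ_X]
    rfl

variable {k N}

theorem core_F (hc : CoreQ k N) : RedGen.Core k (jF k N) (jNF k N) (dedekindPsi N) := by
  intro P hdeg hP
  apply hc P hdeg
  have h := congrArg (algebraMap ↥(modularFunctionFieldFullC k N) (LaurentSeries k)) hP
  rw [Polynomial.hom_eval₂, val_comp_evF, map_zero] at h
  exact h

theorem mpoly_F {Φ : Polynomial (Polynomial k)} (h : ModPoly k N Φ) :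
    RedGen.MPoly k (jF k N) (jNF k N) (dedekindPsi N) Φ where
  monic := h.monic
  natDegree := h.natDegree
  root := by
    apply (algebraMap ↥(modularFunctionFieldFullC k N) (LaurentSeries k)).injective
    rw [Polynomial.hom_eval₂, val_comp_evF, map_zero]
    exact h.root
  separable := by
    have h1 := h.separable
    rw [← val_comp_evF k N, ← Polynomial.map_map] at h1
    exact (Polynomial.separable_map _).mp h1

theorem gen_F
    (hgen : modularFunctionFieldFullC k N =
      IntermediateField.adjoin k {jqModC k, jqNModC k N}) :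
    (k⟮jF k N⟯)⟮jNF k N⟯ = ⊤ := by
  apply RedGen.adjoin_adjoin_eq_top_of_map
    (IntermediateField.val (modularFunctionFieldFullC k N)) (jF k N) (jNF k N)
  intro x
  have hx : (x : LaurentSeries k) ∈ IntermediateField.adjoin k {jqModC k, jqNModC k N} := by
    rw [← hgen]
    exact x.2
  exact hx

/-- the package of facts at level `N` over `k` from which the degree statements follow
(generic in `k`: instantiate at `k = IsLocalRing.ResidueField A` only at the very end, instance
search at that `k` is slow) -/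
structure RedLevel (k : Type*) [Field k] (N : ℕ) [NeZero N] : Prop where
  core : CoreQ k N
  modPoly : ∃ Φ : Polynomial (Polynomial k), ModPoly k N Φ
  gen : modularFunctionFieldFullC k N = IntermediateField.adjoin k {jqModC k, jqNModC k N}

theorem RedLevel.transcendental (h : RedLevel k N) : Transcendental k (jF k N) :=
  RedGen.transcendental_of_core (dedekindPsi_pos N) (core_F h.core)

/-- **(a)** `[F̄_N : k(j̄)] = ψ(N)`. -/
theorem RedLevel.finrank_eq (h : RedLevel k N) :
    Module.finrank k⟮jF k N⟯ ↥(modularFunctionFieldFullC k N) = dedekindPsi N := by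
  obtain ⟨Φ, hΦ⟩ := h.modPoly
  exact RedGen.finrank_eq (dedekindPsi_pos N) (core_F h.core) (mpoly_F hΦ) (gen_F h.gen)

theorem RedLevel.finiteDimensional (h : RedLevel k N) :
    FiniteDimensional k⟮jF k N⟯ ↥(modularFunctionFieldFullC k N) := by
  obtain ⟨Φ, hΦ⟩ := h.modPoly
  exact RedGen.finiteDimensional (dedekindPsi_pos N) (core_F h.core) (mpoly_F hΦ) (gen_F h.gen)

/-- **(b)** `F̄_N / k(j̄)` is separable. -/
theorem RedLevel.isSeparable (h : RedLevel k N) :
    Algebra.IsSeparable k⟮jF k N⟯ ↥(modularFunctionFieldFullC k N) := by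
  obtain ⟨Φ, hΦ⟩ := h.modPoly
  exact RedGen.isSeparable (dedekindPsi_pos N) (core_F h.core) (mpoly_F hΦ) (gen_F h.gen)

theorem RedLevel.adjoin_eq_top (h : RedLevel k N) : (k⟮jF k N⟯)⟮jNF k N⟯ = ⊤ := gen_F h.gen

end Degree

section Final
variable (N : ℕ) [NeZero N] {ℓ : ℕ} (hℓ : ℓ.Prime) (hℓN : ¬ ℓ ∣ N)
variable (A : ValuationSubring Kbar) (hA : A.LiesOverPrime ℓ)

theorem residue_eq_zero_of_not_isUnit (a : A) (ha : ¬ IsUnit a) : IsLocalRing.residue A a = 0 := by
  rw [IsLocalRing.residue_eq_zero_iff, IsLocalRing.mem_maximalIdeal]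
  exact ha

include hℓ hℓN hA

/-- **generation** in characteristic `ℓ ∤ N`: `F̄_N = k(j̄, j̄_N)`. -/
theorem full_eq_adjoin :
    modularFunctionFieldFullC (IsLocalRing.ResidueField A) N =
      IntermediateField.adjoin (IsLocalRing.ResidueField A)
        {jqModC (IsLocalRing.ResidueField A), jqNModC (IsLocalRing.ResidueField A) N} :=
  full_eq_adjoin_of N A (IsLocalRing.residue A) (residue_eq_zero_of_not_isUnit A)
    (coreQ_residue N hℓ hℓN A hA)

/-- the package `RedLevel` holds for the residue field of `A` (`ℓ ∤ N`). -/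
theorem redLevel_residue : RedLevel (IsLocalRing.ResidueField A) N where
  core := coreQ_residue N hℓ hℓN A hA
  modPoly := exists_modPoly_residue N hℓ hℓN A hA
  gen := full_eq_adjoin N hℓ hℓN A hA

/-- **scal** (Defs.lean, `GoodPair.scal`) for `(F_N, F̄_N)`, `ℓ ∤ N`. -/
theorem scal (y : modularFunctionFieldBar N) (hy : y ≠ 0) :
    ∃ c : Kbar, c ≠ 0 ∧ ∃ yb : modularFunctionFieldFullC (IsLocalRing.ResidueField A) N,
      yb ≠ 0 ∧ RedV A (IsLocalRing.residue A) (modularFunctionFieldBar N)
        (modularFunctionFieldFullC (IsLocalRing.ResidueField A) N) (c • y) yb :=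
  scal_general N A (IsLocalRing.residue A) (coreQ_residue N hℓ hℓN A hA) _
    (jqModC_mem_full _ N) (jqModCd_mem_full _ N dvd_rfl) y hy

/-- the reduction of a q-integral element of `F_N` lies in `F̄_N`. -/
theorem redQ_mem_full (f : LaurentSeries Kbar) (hf : f ∈ modularFunctionFieldBar N)
    (fb : LaurentSeries (IsLocalRing.ResidueField A))
    (hQ : RedQ A (IsLocalRing.residue A) f fb) :
    fb ∈ modularFunctionFieldFullC (IsLocalRing.ResidueField A) N :=
  red_mem N A (IsLocalRing.residue A) (residue_eq_zero_of_not_isUnit A)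
    (coreQ_residue N hℓ hℓN A hA) _ (jqModC_mem_full _ N) (jqModCd_mem_full _ N dvd_rfl)
    f hf fb hQ

end Final

end Fermat.Agent.S18.RedScal
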