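import Mathlib

/-!
# S18, piece 87-U1: the residue field of a valuation ring of an algebraically closed field
is algebraically closed (hence infinite)
-/

set_option autoImplicit false

open Polynomial

namespace Fermat.Agent.S18.ResAC

variable {K : Type*} [Field K] [IsAlgClosed K] (A : ValuationSubring K)

/-- every monic polynomial over `A` of positive degree has a root in `A` -/
theorem exists_root_of_monic (P : A[X]) (hP : P.Monic) (hdeg : P.natDegree ≠ 0) :
    ∃ x : A, P.eval x = 0 := by
  have hmap : (P.map (algebraMap A K)).degree ≠ 0 := by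
    rw [degree_map_eq_of_injective (FaithfulSMul.algebraMap_injective A K)]
    intro h
    exact hdeg (natDegree_eq_of_degree_eq_some h)
  obtain ⟨x, hx⟩ := IsAlgClosed.exists_root (P.map (algebraMap A K)) hmap
  have hint : IsIntegral A x := ⟨P, hP, by
    rw [eval₂_eq_eval_map]; exact hx⟩
  obtain ⟨y, rfl⟩ := IsIntegrallyClosed.isIntegral_iff.mp hint
  refine ⟨y, ?_⟩
  have h2 : algebraMap A K (P.eval y) = 0 := by
    rw [← eval_map_apply]
    exact hx
  exact (FaithfulSMul.algebraMap_injective A K) (by rw [h2, map_zero])

/-- **87-U1** -/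
theorem isAlgClosed_residueField : IsAlgClosed (IsLocalRing.ResidueField A) := by
  apply IsAlgClosed.of_exists_root
  intro p hp hirr
  obtain ⟨P, hPmap, hPdeg, hPmonic⟩ :=
    lifts_and_natDegree_eq_and_monic
      ((mem_lifts p).mpr (map_surjective _ IsLocalRing.residue_surjective p)) hp
  have hdeg : P.natDegree ≠ 0 := by
    rw [hPdeg]
    exact (natDegree_pos_iff_degree_pos.mpr (degree_pos_of_irreducible hirr)).ne'
  obtain ⟨x, hx⟩ := exists_root_of_monic A P hPmonic hdeg
  refine ⟨IsLocalRing.residue A x, ?_⟩
  rw [← hPmap, eval_map, eval₂_at_apply, hx, map_zero]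

theorem infinite_residueField : Infinite (IsLocalRing.ResidueField A) :=
  haveI := isAlgClosed_residueField A
  IsAlgClosed.instInfinite

end Fermat.Agent.S18.ResAC
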