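/-
S18 swarm, piece 87-U2 (lead): the input `hk0` of the glue (`L_k(0) = k` at level `N`) and the
final form of the glue statement: `glueStatement_modular : GlueStatement N A ℓ` for `ℓ ∤ N`.
-/
import Mathlib
import Fermat.Agent.S18.Defs
import Fermat.Agent.S18.GlueMain
import Fermat.Agent.S18.RedScal
import Fermat.Agent.S18.ResAlgClosed
import Fermat.Agent.S18.RRl.Support

set_option autoImplicit false
set_option synthInstance.maxHeartbeats 400000
set_option maxHeartbeats 1600000
set_option linter.unusedSectionVars false
set_option linter.style.haveILetI false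

open AlgebraicCurve ModularCurve IntermediateField

noncomputable section

namespace Fermat.Agent.S18

section Generic

variable {k : Type*} [Field k] [IsAlgClosed k] (N : ℕ) [NeZero N]

/-- generic form: a function of `F̄_N` without zeros and poles is a constant. -/
theorem const_of_ord_eq_zero_generic (h : RedScal.RedLevel k N)
    (t : modularFunctionFieldFullC k N)
    (ht : ∀ Q : Place k (modularFunctionFieldFullC k N), Q.ord t = 0) :
    ∃ c : k, t = algebraMap k (modularFunctionFieldFullC k N) c := by
  haveI := h.finiteDimensional
  haveI := h.isSeparable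
  obtain ⟨c, hc⟩ := FFl.exists_const_of_forall_ord_nonneg (RedScal.jF k N) h.transcendental t
    (fun v => (ht v).ge)
  exact ⟨c, hc.symm⟩

end Generic

section Modular

variable (N : ℕ) [NeZero N] {ℓ : ℕ} (hℓ : ℓ.Prime) (hℓN : ¬ ℓ ∣ N)
variable (A : ValuationSubring (AlgebraicClosure ℚ)) (hA : A.LiesOverPrime ℓ)

include hℓ hℓN hA

/-- **87-U2**: `L_k(0) = k` at level `N` in characteristic `ℓ ∤ N`. -/
theorem const_of_ord_eq_zero
    (t : modularFunctionFieldFullC (IsLocalRing.ResidueField A) N)
    (ht : ∀ Q : Place (IsLocalRing.ResidueField A)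
      (modularFunctionFieldFullC (IsLocalRing.ResidueField A) N), Q.ord t = 0) :
    ∃ c : IsLocalRing.ResidueField A,
      t = algebraMap (IsLocalRing.ResidueField A)
        (modularFunctionFieldFullC (IsLocalRing.ResidueField A) N) c :=
  haveI := ResAC.isAlgClosed_residueField A
  const_of_ord_eq_zero_generic N (RedScal.redLevel_residue N hℓ hℓN A hA) t ht

/-- **87-P8 + U2**: the glue statement of the contract, for `ℓ ∤ N`. -/
theorem glueStatement_modular : GlueStatement N A ℓ :=
  glueStatement_of_const N A ℓ fun t _ ht => const_of_ord_eq_zero N hℓ hℓN A hA t ht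

end Modular

end Fermat.Agent.S18
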