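/-
S18 swarm, piece 87-P9 (lead): the final assembly, from `CTModular A (tameLevel N ℓ)` alone.
Everything else is proved: glue (`glueStatement_modular`), descent and `RedVMono` (helper2),
`F_N ≤ F_N'`, characteristic of the residue field.
-/
import Mathlib
import Fermat.Agent.S18.Defs
import Fermat.Agent.S18.GlueConst
import Fermat.Agent.S18.Descent
import Fermat.Agent.S28.RedBasic

set_option autoImplicit false
set_option synthInstance.maxHeartbeats 400000
set_option maxHeartbeats 1600000

open AlgebraicCurve ModularCurve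

noncomputable section

namespace Fermat.Agent.S18

/-- the residue characteristic: `m` prime to `ℓ` is nonzero in the residue field of `A`. -/
theorem natCast_residue_ne_zero {ℓ : ℕ} (hℓ : ℓ.Prime)
    (A : ValuationSubring (AlgebraicClosure ℚ)) (hA : A.LiesOverPrime ℓ) (m : ℕ)
    (hm : ¬ ℓ ∣ m) : ((m : ℕ) : IsLocalRing.ResidueField A) ≠ 0 := by
  haveI : CharP (IsLocalRing.ResidueField A) ℓ := Fermat.Agent.S28.charP_residueField A hℓ hA
  intro h
  exact hm ((CharP.cast_eq_zero_iff (IsLocalRing.ResidueField A) ℓ m).mp h)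

/-- **87-P9**: S18 from CT at the tame level. -/
theorem s18_of_ct (N : ℕ) [NeZero N] {ℓ : ℕ} (hℓ : ℓ.Prime) (hℓN : ¬ ℓ ∣ N)
    (A : ValuationSubring (AlgebraicClosure ℚ)) (hA : A.LiesOverPrime ℓ)
    (hCT : CTModular A (tameLevel N ℓ))
    (h : ModularCurve.ReductionInputsModL A N) (m : ℕ) (hm : ¬ ℓ ∣ m)
    (z : ModularCurve.JZero N) (hmz : m • z = 0)
    (hz : ModularCurve.reductionModL A N z = 0) : z = 0 :=
  s18_of_pieces N A (tameLevel N ℓ) (glueStatement_modular N hℓ hℓN A hA)
    (natCast_residue_ne_zero hℓ A hA) hCT (Descent.le_tame N ℓ) (Descent.redVMono_tame N A ℓ)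
    (Descent.descentStatement_tame N ℓ) hA h m hm z hmz hz

end Fermat.Agent.S18
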