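import Mathlib
import Fermat.Prelude.Def_AlgebraicCurve_Repartitions

/-!
# S18, piece 87-P5: the place reduction `r'` (Deuring's theory of good reduction), interface

Abstract setting (no q-expansions): `F / K` and `Fb / k` function fields with Riemann's theorem for
the SAME `g` (`CurveRR`), a valuation ring `O` of `F` with a reduction map `red : O → Fb`
(`RedDatum`), the lattice lemma and the degree drop (`RedDatum.Good`).
-/

set_option autoImplicit false

open AlgebraicCurve

noncomputable section

namespace Fermat.Agent.S18.RPrime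

/-- Riemann's theorem for the function field `F / K` with "genus" `g` (all places of degree 1). -/
structure CurveRR (K F : Type*) [Field K] [Field F] [Algebra K F] (g : ℕ) : Prop where
  nonempty : Nonempty (Place K F)
  deg_one : ∀ P : Place K F, P.deg = 1
  exists_div : ∀ f : F, f ≠ 0 →
    ∃ D : Divisor K F, (∀ v : Place K F, D v = v.ord f) ∧ Divisor.degree D = 0
  finite : ∀ E : Divisor K F, Module.Finite K (riemannRochSpace E)
  riemann : ∀ E : Divisor K F, 2 * (g : ℤ) - 2 < Divisor.degree E →
    (Module.finrank K (riemannRochSpace E) : ℤ) = Divisor.degree E + 1 - g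
  dim_le : ∀ E : Divisor K F, 0 ≤ E →
    (Module.finrank K (riemannRochSpace E) : ℤ) ≤ Divisor.degree E + 1

/-- An abstract reduction datum: a valuation ring `O` of `F` (the ring of the Gauss valuation),
with a reduction map to `Fb`, unramified over the constants. -/
structure RedDatum (K F k Fb : Type*) [Field K] [Field F] [Algebra K F]
    [Field k] [Field Fb] [Algebra k Fb] where
  O : ValuationSubring F
  red : O →+* Fb
  isUnit_of_red_ne_zero : ∀ y : O, red y ≠ 0 → IsUnit y
  exists_scale : ∀ y : F, y ≠ 0 → ∃ c : K, c ≠ 0 ∧ ∃ h : c • y ∈ O, IsUnit (⟨c • y, h⟩ : O)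
  const_surj : ∀ a : k, ∃ c : K, ∃ h : algebraMap K F c ∈ O,
    red ⟨algebraMap K F c, h⟩ = algebraMap k Fb a

variable {K F k Fb : Type*} [Field K] [Field F] [Algebra K F]
  [Field k] [Field Fb] [Algebra k Fb]

/-- The reduction `red (S ∩ O)` of a `K`-subspace `S` of `F`, a `k`-subspace of `Fb`. -/
def RedDatum.redSub (R : RedDatum K F k Fb) (S : Submodule K F) : Submodule k Fb where
  carrier := {x | ∃ y : R.O, (y : F) ∈ S ∧ R.red y = x}
  zero_mem' := ⟨0, by simp, map_zero _⟩
  add_mem' := by
    rintro _ _ ⟨y, hy, rfl⟩ ⟨z, hz, rfl⟩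
    exact ⟨y + z, S.add_mem hy hz, map_add _ _ _⟩
  smul_mem' := by
    rintro a _ ⟨y, hy, rfl⟩
    obtain ⟨c, hc, hca⟩ := R.const_surj a
    refine ⟨⟨algebraMap K F c, hc⟩ * y, ?_, ?_⟩
    · show algebraMap K F c * (y : F) ∈ S
      rw [← Algebra.smul_def]
      exact S.smul_mem c hy
    · rw [map_mul, hca, Algebra.smul_def]

theorem RedDatum.mem_redSub (R : RedDatum K F k Fb) {S : Submodule K F} {x : Fb} :
    x ∈ R.redSub S ↔ ∃ y : R.O, (y : F) ∈ S ∧ R.red y = x := Iff.rfl

/-- The two arithmetic inputs: the lattice lemma and the degree drop (in pole-divisor form: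
an effective divisor `E'` below the pole divisor of `red y` has degree at most the degree of an
effective divisor `E` above the pole divisor of `y`). -/
structure RedDatum.Good (R : RedDatum K F k Fb) : Prop where
  lattice : ∀ S : Submodule K F, Module.Finite K S →
    Module.finrank k (R.redSub S) = Module.finrank K S
  degree_drop : ∀ y : R.O, R.red y ≠ 0 → ∀ (E : Divisor K F) (E' : Divisor k Fb),
    0 ≤ E → (y : F) ∈ riemannRochSpace E → 0 ≤ E' →
    (∀ Q : Place k Fb, 0 < E' Q → E' Q ≤ -Q.ord (R.red y)) →
    Divisor.degree E' ≤ Divisor.degree E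

/-- **87-P5, the statement**: the place reduction `r'`, compatible with divisors of `v`-units,
and `(F3)`: `red (L(E) ∩ O) = L_k(r'_* E)` for every divisor `E` of degree `> 3 g`. -/
def RPrimeStatement (g : ℕ) (R : RedDatum K F k Fb) : Prop :=
  ∃ r : Place K F → Place k Fb,
    (∀ y : R.O, IsUnit y → ∀ D : Divisor K F, (∀ P : Place K F, D P = P.ord (y : F)) →
        ∀ Q : Place k Fb, Finsupp.mapDomain r D Q = Q.ord (R.red y)) ∧
    (∀ E : Divisor K F, 3 * (g : ℤ) < Divisor.degree E →
        R.redSub (riemannRochSpace E) = riemannRochSpace (Finsupp.mapDomain r E))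

end Fermat.Agent.S18.RPrime
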