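import Mathlib
import Fermat.Agent.S18.RPrimeDefs

/-!
# S18, piece 87-P5: the hypothesis `κ(v) = Fb` (the reduction map is onto)

Without it the place reduction does not exist (`F = L(q²)`, `Fb = k(q)`).
-/

set_option autoImplicit false

open AlgebraicCurve

noncomputable section

namespace Fermat.Agent.S18.RPrime

variable {K F k Fb : Type*} [Field K] [Field F] [Algebra K F]
  [Field k] [Field Fb] [Algebra k Fb]

/-- the residue field of `O` is all of `Fb`, and constants reduce to constants -/
structure RedDatum.Onto (R : RedDatum K F k Fb) : Prop where
  surj : Function.Surjective R.red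
  const_mem : ∀ (c : K) (h : algebraMap K F c ∈ R.O),
    ∃ a : k, R.red ⟨algebraMap K F c, h⟩ = algebraMap k Fb a

/-- the lattice lemma for the reduction datum `R` (**87-P4**) -/
def RedDatum.LatticeLemma (R : RedDatum K F k Fb) : Prop :=
  ∀ S : Submodule K F, Module.Finite K S →
    Module.finrank k (R.redSub S) = Module.finrank K S

end Fermat.Agent.S18.RPrime
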