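import Mathlib
import Fermat.Agent.S18.Defs
import Fermat.Agent.S18.RPrimeDefs
import Fermat.Agent.S18.RPrimeOnto

/-!
# S18, piece 87-P11 (a): the Gauss reduction datum of a pair `F ⊂ L((q))`, `Fb ⊂ k((q))`

From the hypotheses `Gauss.Hyp` (every nonzero element of `F` can be scaled to a quotient of two
q-integral elements of `F` with NONZERO reductions in `Fb`; the reduction is onto `Fb`) we build
`gaussDatum : RPrime.RedDatum L F k Fb` with
* `O = {y | ∃ yb, RedV y yb}` (`mem_gaussDatum_O`),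
* `red y = yb ↔ RedV y yb` (`gaussDatum_red_eq_iff`),
and prove that `red` is onto and that constants reduce to constants.
-/

set_option autoImplicit false

noncomputable section

open HahnSeries AlgebraicCurve ModularCurve

namespace Fermat.Agent.S18.GaussD

variable {L : Type*} [Field L] (A : ValuationSubring L) {k : Type*} [Field k] (π : A →+* k)

section RedQ

variable {A π}

theorem coeffMap_subtype_injective :
    Function.Injective (coeffMap A.subtype : LaurentSeries A → LaurentSeries L) := by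
  intro x y hxy
  ext n
  have := congrArg (fun z => z.coeff n) hxy
  simpa using this

theorem redQ_zero : RedQ A π 0 0 := ⟨0, map_zero _, map_zero _⟩

theorem redQ_one : RedQ A π 1 1 := ⟨1, map_one _, map_one _⟩

theorem redQ_add {x y : LaurentSeries L} {xb yb : LaurentSeries k}
    (hx : RedQ A π x xb) (hy : RedQ A π y yb) : RedQ A π (x + y) (xb + yb) := by
  obtain ⟨x', rfl, rfl⟩ := hx
  obtain ⟨y', rfl, rfl⟩ := hy
  exact ⟨x' + y', map_add _ _ _, map_add _ _ _⟩

theorem redQ_mul {x y : LaurentSeries L} {xb yb : LaurentSeries k}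
    (hx : RedQ A π x xb) (hy : RedQ A π y yb) : RedQ A π (x * y) (xb * yb) := by
  obtain ⟨x', rfl, rfl⟩ := hx
  obtain ⟨y', rfl, rfl⟩ := hy
  exact ⟨x' * y', map_mul _ _ _, map_mul _ _ _⟩

theorem redQ_neg {x : LaurentSeries L} {xb : LaurentSeries k}
    (hx : RedQ A π x xb) : RedQ A π (-x) (-xb) := by
  obtain ⟨x', rfl, rfl⟩ := hx
  exact ⟨-x', map_neg _ _, map_neg _ _⟩

theorem redQ_pow {x : LaurentSeries L} {xb : LaurentSeries k}
    (hx : RedQ A π x xb) (n : ℕ) : RedQ A π (x ^ n) (xb ^ n) := by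
  obtain ⟨x', rfl, rfl⟩ := hx
  exact ⟨x' ^ n, map_pow _ _ _, map_pow _ _ _⟩

theorem redQ_unique {x : LaurentSeries L} {xb xb' : LaurentSeries k}
    (h : RedQ A π x xb) (h' : RedQ A π x xb') : xb = xb' := by
  obtain ⟨x', hx, rfl⟩ := h
  obtain ⟨x'', hx', rfl⟩ := h'
  rw [coeffMap_subtype_injective (hx.trans hx'.symm)]

theorem redQ_const (a : A) :
    RedQ A π (algebraMap L (LaurentSeries L) (a : L))
      (algebraMap k (LaurentSeries k) (π a)) := by
  refine ⟨HahnSeries.single 0 a, ?_, ?_⟩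
  · rw [coeffMap_single, algebraMap_laurentSeries_eq_single]
    rfl
  · rw [coeffMap_single, algebraMap_laurentSeries_eq_single]

end RedQ

variable (F : IntermediateField L (LaurentSeries L)) (Fb : IntermediateField k (LaurentSeries k))

section RedV

variable {A π F Fb}

theorem redV_of_redQ {y : F} {yb : Fb}
    (h : RedQ A π (y : LaurentSeries L) (yb : LaurentSeries k)) : RedV A π F Fb y yb :=
  ⟨y, 1, yb, 1, h, by simpa using (redQ_one : RedQ A π 1 1), one_ne_zero, mul_one _, mul_one _⟩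

theorem redV_zero : RedV A π F Fb 0 0 := redV_of_redQ (by simpa using (redQ_zero : RedQ A π 0 0))

theorem redV_one : RedV A π F Fb 1 1 := redV_of_redQ (by simpa using (redQ_one : RedQ A π 1 1))

theorem redV_const (a : A) :
    RedV A π F Fb (algebraMap L F (a : L)) (algebraMap k Fb (π a)) :=
  redV_of_redQ (redQ_const a)

theorem redV_add {x y : F} {xb yb : Fb} (hx : RedV A π F Fb x xb) (hy : RedV A π F Fb y yb) :
    RedV A π F Fb (x + y) (xb + yb) := by
  obtain ⟨u, v, ub, vb, hu, hv, hvb, huv, hub⟩ := hx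
  obtain ⟨u', v', ub', vb', hu', hv', hvb', huv', hub'⟩ := hy
  refine ⟨u * v' + u' * v, v * v', ub * vb' + ub' * vb, vb * vb', ?_, ?_, mul_ne_zero hvb hvb',
    ?_, ?_⟩
  · simpa using redQ_add (redQ_mul hu hv') (redQ_mul hu' hv)
  · simpa using redQ_mul hv hv'
  · rw [← huv, ← huv']; ring
  · rw [← hub, ← hub']; ring

theorem redV_mul {x y : F} {xb yb : Fb} (hx : RedV A π F Fb x xb) (hy : RedV A π F Fb y yb) :
    RedV A π F Fb (x * y) (xb * yb) := by
  obtain ⟨u, v, ub, vb, hu, hv, hvb, huv, hub⟩ := hx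
  obtain ⟨u', v', ub', vb', hu', hv', hvb', huv', hub'⟩ := hy
  refine ⟨u * u', v * v', ub * ub', vb * vb', ?_, ?_, mul_ne_zero hvb hvb', ?_, ?_⟩
  · simpa using redQ_mul hu hu'
  · simpa using redQ_mul hv hv'
  · rw [← huv, ← huv']; ring
  · rw [← hub, ← hub']; ring

theorem redV_neg {x : F} {xb : Fb} (hx : RedV A π F Fb x xb) : RedV A π F Fb (-x) (-xb) := by
  obtain ⟨u, v, ub, vb, hu, hv, hvb, huv, hub⟩ := hx
  refine ⟨-u, v, -ub, vb, ?_, hv, hvb, ?_, ?_⟩
  · simpa using redQ_neg hu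
  · rw [← huv]; ring
  · rw [← hub]; ring

theorem redV_unique {x : F} {xb xb' : Fb} (h : RedV A π F Fb x xb) (h' : RedV A π F Fb x xb') :
    xb = xb' := by
  obtain ⟨u, v, ub, vb, hu, hv, hvb, huv, hub⟩ := h
  obtain ⟨u', v', ub', vb', hu', hv', hvb', huv', hub'⟩ := h'
  have h1 : (u : LaurentSeries L) * v' = u' * v := by
    have : u * v' = u' * v := by rw [← huv, ← huv']; ring
    exact_mod_cast congrArg (fun z : F => (z : LaurentSeries L)) this
  have h2 : (ub : LaurentSeries k) * vb' = ub' * vb :=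
    redQ_unique (redQ_mul hu hv') (h1 ▸ redQ_mul hu' hv)
  have h3 : ub * vb' = ub' * vb := by
    apply Subtype.ext
    simpa using h2
  have h4 : xb * (vb * vb') = xb' * (vb * vb') := by
    calc xb * (vb * vb') = (xb * vb) * vb' := by ring
      _ = ub * vb' := by rw [hub]
      _ = ub' * vb := h3
      _ = (xb' * vb') * vb := by rw [hub']
      _ = xb' * (vb * vb') := by ring
  exact mul_right_cancel₀ (mul_ne_zero hvb hvb') h4

theorem ne_zero_of_redV {x : F} {xb : Fb} (h : RedV A π F Fb x xb) (hxb : xb ≠ 0) : x ≠ 0 := by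
  rintro rfl
  exact hxb (redV_unique h redV_zero)

theorem redV_inv {x : F} {xb : Fb} (h : RedV A π F Fb x xb) (hxb : xb ≠ 0) :
    RedV A π F Fb x⁻¹ xb⁻¹ := by
  have hx : x ≠ 0 := ne_zero_of_redV h hxb
  obtain ⟨u, v, ub, vb, hu, hv, hvb, huv, hub⟩ := h
  have hub0 : ub ≠ 0 := by rw [← hub]; exact mul_ne_zero hxb hvb
  refine ⟨v, u, vb, ub, hv, hu, hub0, ?_, ?_⟩
  · rw [← huv]; field_simp
  · rw [← hub]; field_simp

end RedV

/-- the hypotheses on the pair `(F, Fb)`. -/
structure Hyp : Prop where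
  /-- `π` kills the non-units of `A` (`π` is the residue map of `A`) -/
  ker : ∀ a : A, ¬ IsUnit a → π a = 0
  surj : Function.Surjective π
  /-- every nonzero element of `F` can be scaled to a unit of the Gauss valuation -/
  scal : ∀ y : F, y ≠ 0 → ∃ c : L, c ≠ 0 ∧ ∃ yb : Fb, yb ≠ 0 ∧ RedV A π F Fb (c • y) yb
  /-- the reduction is onto -/
  onto : ∀ yb : Fb, ∃ y : F, RedV A π F Fb y yb

variable {A π F Fb}

theorem redV_smul_of_mem {c : L} (hc : c ∈ A) {y : F} {yb : Fb} (h : RedV A π F Fb y yb) :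
    RedV A π F Fb (c • y) (algebraMap k Fb (π ⟨c, hc⟩) * yb) := by
  rw [Algebra.smul_def]
  exact redV_mul (redV_const (⟨c, hc⟩ : A)) h

/-- the ring of the Gauss valuation on `F`. -/
def gaussRing (H : Hyp A π F Fb) : ValuationSubring F where
  carrier := {y | ∃ yb : Fb, RedV A π F Fb y yb}
  mul_mem' := by
    rintro x y ⟨xb, hx⟩ ⟨yb, hy⟩
    exact ⟨xb * yb, redV_mul hx hy⟩
  one_mem' := ⟨1, redV_one⟩
  add_mem' := by
    rintro x y ⟨xb, hx⟩ ⟨yb, hy⟩
    exact ⟨xb + yb, redV_add hx hy⟩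
  zero_mem' := ⟨0, redV_zero⟩
  neg_mem' := by
    rintro x ⟨xb, hx⟩
    exact ⟨-xb, redV_neg hx⟩
  mem_or_inv_mem' := by
    intro y
    rcases eq_or_ne y 0 with rfl | hy
    · exact Or.inl ⟨0, redV_zero⟩
    · obtain ⟨c, hc, yb, hyb, hr⟩ := H.scal y hy
      rcases A.mem_or_inv_mem c with hcA | hcA
      · right
        have h1 := redV_smul_of_mem hcA (redV_inv hr hyb)
        have h2 : c • (c • y)⁻¹ = y⁻¹ := by
          rw [Algebra.smul_def, Algebra.smul_def, mul_inv]
          have : algebraMap L F c ≠ 0 := by simpa using hc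
          field_simp
        rw [h2] at h1
        exact ⟨_, h1⟩
      · left
        have h1 := redV_smul_of_mem hcA hr
        have h2 : c⁻¹ • (c • y) = y := by
          rw [smul_smul, inv_mul_cancel₀ hc, one_smul]
        rw [h2] at h1
        exact ⟨_, h1⟩

theorem mem_gaussRing (H : Hyp A π F Fb) {y : F} :
    y ∈ gaussRing H ↔ ∃ yb : Fb, RedV A π F Fb y yb := Iff.rfl

/-- the reduction map of the Gauss valuation. -/
def gaussRed (H : Hyp A π F Fb) : gaussRing H →+* Fb where
  toFun y := Classical.choose y.2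
  map_one' := redV_unique (Classical.choose_spec (gaussRing H).one_mem) redV_one
  map_mul' x y := redV_unique (Classical.choose_spec (x * y).2)
    (redV_mul (Classical.choose_spec x.2) (Classical.choose_spec y.2))
  map_zero' := redV_unique (Classical.choose_spec (gaussRing H).zero_mem) redV_zero
  map_add' x y := redV_unique (Classical.choose_spec (x + y).2)
    (redV_add (Classical.choose_spec x.2) (Classical.choose_spec y.2))

theorem redV_gaussRed (H : Hyp A π F Fb) (y : gaussRing H) :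
    RedV A π F Fb (y : F) (gaussRed H y) := Classical.choose_spec y.2

theorem gaussRed_eq_iff (H : Hyp A π F Fb) (y : gaussRing H) (yb : Fb) :
    gaussRed H y = yb ↔ RedV A π F Fb (y : F) yb :=
  ⟨fun h => h ▸ redV_gaussRed H y, fun h => redV_unique (redV_gaussRed H y) h⟩

theorem isUnit_of_gaussRed_ne_zero (H : Hyp A π F Fb) (y : gaussRing H)
    (hy : gaussRed H y ≠ 0) : IsUnit y := by
  have h1 := redV_inv (redV_gaussRed H y) hy
  have hy0 : (y : F) ≠ 0 := ne_zero_of_redV (redV_gaussRed H y) hy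
  refine isUnit_iff_exists_inv.2 ⟨⟨(y : F)⁻¹, ⟨_, h1⟩⟩, ?_⟩
  apply Subtype.ext
  show (y : F) * (y : F)⁻¹ = 1
  exact mul_inv_cancel₀ hy0

theorem gaussRing_exists_scale (H : Hyp A π F Fb) (y : F) (hy : y ≠ 0) :
    ∃ c : L, c ≠ 0 ∧ ∃ h : c • y ∈ gaussRing H, IsUnit (⟨c • y, h⟩ : gaussRing H) := by
  obtain ⟨c, hc, yb, hyb, hr⟩ := H.scal y hy
  have hmem : c • y ∈ gaussRing H := ⟨yb, hr⟩
  refine ⟨c, hc, hmem, ?_⟩
  apply isUnit_of_gaussRed_ne_zero H
  have : gaussRed H ⟨c • y, hmem⟩ = yb := (gaussRed_eq_iff H ⟨c • y, hmem⟩ yb).2 hr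
  rw [this]
  exact hyb

theorem gaussRing_const_surj (H : Hyp A π F Fb) (a : k) :
    ∃ c : L, ∃ h : algebraMap L F c ∈ gaussRing H,
      gaussRed H ⟨algebraMap L F c, h⟩ = algebraMap k Fb a := by
  obtain ⟨a', rfl⟩ := H.surj a
  have hmem : algebraMap L F (a' : L) ∈ gaussRing H := ⟨_, redV_const a'⟩
  exact ⟨(a' : L), hmem, (gaussRed_eq_iff H ⟨_, hmem⟩ _).2 (redV_const a')⟩

/-- **87-P11 (a)**: the Gauss reduction datum. -/
def gaussDatum (H : Hyp A π F Fb) : RPrime.RedDatum L F k Fb where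
  O := gaussRing H
  red := gaussRed H
  isUnit_of_red_ne_zero := isUnit_of_gaussRed_ne_zero H
  exists_scale := gaussRing_exists_scale H
  const_surj := gaussRing_const_surj H

theorem mem_gaussDatum_O (H : Hyp A π F Fb) {y : F} :
    y ∈ (gaussDatum H).O ↔ ∃ yb : Fb, RedV A π F Fb y yb := Iff.rfl

theorem gaussDatum_red_eq_iff (H : Hyp A π F Fb) (y : (gaussDatum H).O) (yb : Fb) :
    (gaussDatum H).red y = yb ↔ RedV A π F Fb (y : F) yb :=
  gaussRed_eq_iff H y yb

theorem redV_gaussDatum_red (H : Hyp A π F Fb) (y : (gaussDatum H).O) :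
    RedV A π F Fb (y : F) ((gaussDatum H).red y) := redV_gaussRed H y

/-- the reduction map is onto (`κ(v) = Fb`). -/
theorem gaussDatum_red_surjective (H : Hyp A π F Fb) :
    Function.Surjective (gaussDatum H).red := by
  intro yb
  obtain ⟨y, hy⟩ := H.onto yb
  exact ⟨⟨y, ⟨yb, hy⟩⟩, (gaussRed_eq_iff H _ _).2 hy⟩

/-- a q-integral series with nonzero reduction has a unit coefficient. -/
theorem exists_isUnit_coeff (H : Hyp A π F Fb) {v : LaurentSeries L} {vb : LaurentSeries k}
    (hv : RedQ A π v vb) (hvb : vb ≠ 0) :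
    ∃ (n : ℤ) (a : A), IsUnit a ∧ v.coeff n = (a : L) := by
  obtain ⟨v', rfl, rfl⟩ := hv
  have : ∃ n : ℤ, (coeffMap π v').coeff n ≠ 0 := by
    by_contra hcon
    push Not at hcon
    exact hvb (HahnSeries.ext (funext hcon))
  obtain ⟨n, hn⟩ := this
  refine ⟨n, v'.coeff n, ?_, rfl⟩
  by_contra hu
  exact hn (by simpa using H.ker _ hu)

/-- a constant in the Gauss ring lies in `A`. -/
theorem const_mem_of_mem_gaussRing (H : Hyp A π F Fb) {c : L}
    (h : algebraMap L F c ∈ gaussRing H) : c ∈ A := by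
  obtain ⟨yb, u, v, ub, vb, hu, hv, hvb, huv, hub⟩ := h
  have hvb' : (vb : LaurentSeries k) ≠ 0 := by
    intro h0
    exact hvb (Subtype.ext h0)
  obtain ⟨n, a, ha, hna⟩ := exists_isUnit_coeff H hv hvb'
  obtain ⟨u', hu', -⟩ := hu
  have h1 : (algebraMap L (LaurentSeries L) c) * (v : LaurentSeries L) = u := by
    have := congrArg (fun z : F => (z : LaurentSeries L)) huv
    simpa using this
  have h2 : c * (v : LaurentSeries L).coeff n = (u : LaurentSeries L).coeff n := by
    rw [← h1, algebraMap_laurentSeries_eq_single]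
    simp
  rw [hna, ← hu'] at h2
  have h3 : c = ((u'.coeff n : A) : L) * ((ha.unit⁻¹ : Aˣ) : A) := by
    have hau : ((a : A) : L) * (((ha.unit⁻¹ : Aˣ) : A) : L) = 1 := by
      have : (a : A) * ((ha.unit⁻¹ : Aˣ) : A) = 1 := by
        simp
      exact_mod_cast congrArg (fun z : A => (z : L)) this
    have h4 : (coeffMap A.subtype u').coeff n = ((u'.coeff n : A) : L) := rfl
    rw [h4] at h2
    rw [← h2, mul_assoc, hau, mul_one]
  rw [h3]
  exact A.mul_mem _ _ (u'.coeff n).2 (((ha.unit⁻¹ : Aˣ) : A)).2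

/-- constants reduce to constants. -/
theorem gaussDatum_const_mem (H : Hyp A π F Fb) (c : L)
    (h : algebraMap L F c ∈ (gaussDatum H).O) :
    ∃ a : k, (gaussDatum H).red ⟨algebraMap L F c, h⟩ = algebraMap k Fb a := by
  have hc : c ∈ A := const_mem_of_mem_gaussRing H h
  exact ⟨π ⟨c, hc⟩, (gaussRed_eq_iff H _ _).2 (redV_const (⟨c, hc⟩ : A))⟩

/-- **87-P11 (a')**: the Gauss datum is `Onto`. -/
theorem gaussDatum_onto (H : Hyp A π F Fb) : (gaussDatum H).Onto where
  surj := gaussDatum_red_surjective H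
  const_mem := gaussDatum_const_mem H

end Fermat.Agent.S18.GaussD
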