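import Mathlib

/-!
# S18, piece 87-P4: Gauss lemma for power series over a valuation ring of rank one

`A` a valuation ring with the archimedean property `IsArch A` (every nonzero `c` divides a power
of every non-unit).  If `Q * y = c * P` in `A⟦X⟧` and `Q` has a unit coefficient, then `c` divides
every coefficient of `y`.  (False in rank two.)
-/

set_option autoImplicit false

namespace Fermat.Agent.S18.Gauss

open PowerSeries

/-- Archimedean property of a valuation ring (rank at most one). -/
def IsArch (A : Type*) [CommRing A] : Prop :=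
  ∀ x : A, ¬ IsUnit x → ∀ c : A, c ≠ 0 → ∃ n : ℕ, c ∣ x ^ n

variable {A : Type*} [CommRing A] [IsDomain A] [ValuationRing A]

theorem exists_dvd_all {ι : Type*} (f : ι → A) {s : Finset ι} (hs : s.Nonempty) :
    ∃ i ∈ s, ∀ j ∈ s, f i ∣ f j := by
  induction hs using Finset.Nonempty.cons_induction with
  | singleton a => exact ⟨a, by simp, by simp⟩
  | cons a s h hs ih =>
    obtain ⟨i, his, hi⟩ := ih
    rcases ValuationRing.dvd_total (f a) (f i) with h1 | h1
    · refine ⟨a, by simp, fun j hj => ?_⟩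
      rcases Finset.mem_cons.1 hj with rfl | hj
      · exact dvd_rfl
      · exact h1.trans (hi j hj)
    · refine ⟨i, by simp [his], fun j hj => ?_⟩
      rcases Finset.mem_cons.1 hj with rfl | hj
      · exact h1
      · exact hi j hj

theorem isUnit_sub_of_nonunit {u μ : A} (hu : IsUnit u) (hμ : ¬ IsUnit μ) : IsUnit (u - μ) := by
  rw [← IsLocalRing.notMem_maximalIdeal]
  intro h
  have hμ' : μ ∈ IsLocalRing.maximalIdeal A := by
    rwa [IsLocalRing.mem_maximalIdeal, mem_nonunits_iff]
  have : u ∈ IsLocalRing.maximalIdeal A := by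
    have := Ideal.add_mem _ h hμ'
    simpa using this
  exact (IsLocalRing.notMem_maximalIdeal.2 hu) this

theorem eq_zero_of_mul_one_sub {x μ : A} (hμ : ¬ IsUnit μ) (h : x * (1 - μ) = 0) : x = 0 := by
  rcases mul_eq_zero.1 h with h2 | h2
  · exact h2
  · exact absurd h2 (isUnit_sub_of_nonunit isUnit_one hμ).ne_zero

/-- **Gauss lemma** (rank one) for power series. -/
theorem gauss_ps (hAR : IsArch A) (Q y P : A⟦X⟧) (c : A) (h : Q * y = C c * P)
    (hQ : ∃ j, IsUnit (coeff j Q)) : ∀ b, c ∣ coeff b y := by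
  classical
  by_cases hc : c = 0
  · subst hc
    have hQ0 : Q ≠ 0 := by
      rintro rfl
      obtain ⟨j, hj⟩ := hQ
      simp at hj
    have hy : y = 0 := by
      rw [map_zero, zero_mul] at h
      rcases mul_eq_zero.1 h with h1 | h1
      · exact absurd h1 hQ0
      · exact h1
    intro b
    simp [hy]
  by_contra hcon
  push Not at hcon
  obtain ⟨b₁, hb₁⟩ := hcon
  set j₀ := Nat.find hQ with hj₀
  have hj₀u : IsUnit (coeff j₀ Q) := Nat.find_spec hQ
  have hj₀lt : ∀ a < j₀, ¬ IsUnit (coeff a Q) := fun a ha => Nat.find_min hQ ha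
  obtain ⟨d, hdnu, hd⟩ : ∃ d : A, ¬ IsUnit d ∧ ∀ a < j₀, d ∣ coeff a Q := by
    by_cases h0 : j₀ = 0
    · exact ⟨0, not_isUnit_zero, fun a ha => by omega⟩
    · obtain ⟨a', ha', hall⟩ := exists_dvd_all (fun a => coeff a Q) (s := Finset.range j₀)
        ⟨0, by simp; omega⟩
      exact ⟨coeff a' Q, hj₀lt a' (Finset.mem_range.1 ha'),
        fun a ha => hall a (Finset.mem_range.2 ha)⟩
  have claim : ∀ k : ℕ, ∃ b, ∃ μ : A, ¬ IsUnit μ ∧ c = coeff b y * d ^ k * μ := by
    intro k
    induction k with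
    | zero =>
      rcases ValuationRing.dvd_total c (coeff b₁ y) with h1 | ⟨μ, hμ⟩
      · exact absurd h1 hb₁
      · refine ⟨b₁, μ, fun hu => hb₁ ?_, by rw [pow_zero, mul_one]; exact hμ⟩
        obtain ⟨u, rfl⟩ := hu
        exact ⟨↑u⁻¹, by rw [hμ, mul_assoc, Units.mul_inv, mul_one]⟩
    | succ k ih =>
      obtain ⟨b₀, μ₀, hμ₀, hcb⟩ := ih
      set τ := coeff b₀ y * μ₀ with hτ
      have hcτ : c = τ * d ^ k := by rw [hcb, hτ]; ring
      have hτ0 : τ ≠ 0 := fun h0 => hc (by rw [hcτ, h0, zero_mul])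
      have hI : ∃ b, ¬ τ ∣ coeff b y := by
        refine ⟨b₀, fun ⟨z, hz⟩ => ?_⟩
        have h1 : coeff b₀ y * (1 - μ₀ * z) = 0 := by
          rw [mul_sub, mul_one, ← mul_assoc, ← hτ, ← hz, sub_self]
        have : coeff b₀ y = 0 :=
          eq_zero_of_mul_one_sub (fun hu => hμ₀ (isUnit_of_mul_isUnit_left hu)) h1
        exact hτ0 (by rw [hτ, this, zero_mul])
      set i := Nat.find hI with hi
      have hiτ : ¬ τ ∣ coeff i y := Nat.find_spec hI
      have hlt : ∀ b < i, τ ∣ coeff b y := fun b hb => by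
        by_contra hcon
        exact Nat.find_min hI hb hcon
      obtain ⟨ν, hν⟩ : coeff i y ∣ τ := (ValuationRing.dvd_total _ _).resolve_right hiτ
      have hνnu : ¬ IsUnit ν := by
        intro hu
        obtain ⟨u, rfl⟩ := hu
        exact hiτ ⟨↑u⁻¹, by rw [hν, mul_assoc, Units.mul_inv, mul_one]⟩
      set n := j₀ + i with hn
      obtain ⟨z, hz1, hz2⟩ : ∃ z : A, (∀ a < j₀, z ∣ coeff (n - a) y) ∧
          (z = 0 ∨ ∃ b', z = coeff b' y) := by
        by_cases h0 : j₀ = 0
        · exact ⟨0, fun a ha => by omega, Or.inl rfl⟩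
        · obtain ⟨a', ha', hall⟩ := exists_dvd_all (fun a => coeff (n - a) y)
            (s := Finset.range j₀) ⟨0, by simp; omega⟩
          exact ⟨_, fun a ha => hall a (Finset.mem_range.2 ha), Or.inr ⟨_, rfl⟩⟩
      set J : Ideal A := Ideal.span {coeff i y} * IsLocalRing.maximalIdeal A with hJ
      have hτJ : τ ∈ J := by
        rw [hJ, Ideal.mem_span_singleton_mul]
        exact ⟨ν, by rwa [IsLocalRing.mem_maximalIdeal, mem_nonunits_iff], hν.symm⟩
      set K : Ideal A := Ideal.span {d * z} ⊔ J with hK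
      have hterm : ∀ p ∈ (Finset.HasAntidiagonal.antidiagonal n).erase (j₀, i),
          coeff p.1 Q * coeff p.2 y ∈ K := by
        intro p hp
        rw [Finset.mem_erase, Finset.HasAntidiagonal.mem_antidiagonal] at hp
        obtain ⟨hne, hsum⟩ := hp
        rcases lt_trichotomy p.1 j₀ with h1 | h1 | h1
        · apply Ideal.mem_sup_left
          rw [Ideal.mem_span_singleton]
          have hp2 : p.2 = n - p.1 := by omega
          rw [hp2]
          exact mul_dvd_mul (hd _ h1) (hz1 _ h1)
        · exfalso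
          apply hne
          ext
          · exact h1
          · simp only; omega
        · apply Ideal.mem_sup_right
          have hp2 : p.2 < i := by omega
          obtain ⟨t, ht⟩ := hlt _ hp2
          rw [ht]
          exact Ideal.mul_mem_left _ _ (Ideal.mul_mem_right _ _ hτJ)
      have htot : coeff n (Q * y) ∈ K := by
        rw [h, coeff_C_mul, hcτ]
        apply Ideal.mem_sup_right
        rw [mul_assoc]
        exact Ideal.mul_mem_right _ _ hτJ
      have hmain : coeff j₀ Q * coeff i y ∈ K := by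
        rw [coeff_mul, ← Finset.add_sum_erase _ _
          (show (j₀, i) ∈ Finset.HasAntidiagonal.antidiagonal n by simp [hn])] at htot
        have hs := Ideal.sum_mem K hterm
        have := Ideal.sub_mem K htot hs
        simpa using this
      obtain ⟨x₁, hx₁, x₂, hx₂, hsum⟩ := Submodule.mem_sup.1 hmain
      obtain ⟨e, rfl⟩ := Ideal.mem_span_singleton.1 hx₁
      obtain ⟨μ, hμ, rfl⟩ := Ideal.mem_span_singleton_mul.1 hx₂
      have hμnu : ¬ IsUnit μ := by
        rwa [IsLocalRing.mem_maximalIdeal, mem_nonunits_iff] at hμ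
      obtain ⟨w, hw⟩ := isUnit_sub_of_nonunit hj₀u hμnu
      have hyi : coeff i y * w = d * z * e := by
        rw [hw]
        linear_combination -hsum
      rcases hz2 with rfl | ⟨b', rfl⟩
      · exfalso
        have h0 : coeff i y * (w : A) = 0 := by rw [hyi]; ring
        have : coeff i y = 0 := by
          rcases mul_eq_zero.1 h0 with h2 | h2
          · exact h2
          · exact absurd h2 w.ne_zero
        exact hiτ (by rw [this]; exact dvd_zero _)
      · refine ⟨b', ↑w⁻¹ * e * ν, fun hu => hνnu (isUnit_of_mul_isUnit_right hu), ?_⟩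
        have hyi' : coeff i y = d * coeff b' y * e * ↑w⁻¹ := by
          rw [← hyi, mul_assoc, Units.mul_inv, mul_one]
        rw [hcτ, hν, hyi']
        ring
  obtain ⟨n, e, he⟩ := hAR d hdnu c hc
  obtain ⟨b, μ, hμ, hcb⟩ := claim n
  have h1 : c * (1 - coeff b y * e * μ) = 0 := by
    rw [mul_sub, mul_one, sub_eq_zero]
    calc c = coeff b y * d ^ n * μ := hcb
      _ = coeff b y * (c * e) * μ := by rw [he]
      _ = c * (coeff b y * e * μ) := by ring
  exact hc (eq_zero_of_mul_one_sub (fun hu => hμ (isUnit_of_mul_isUnit_right hu)) h1)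

/-- **Gauss lemma** (rank one) for Laurent series. -/
theorem gauss_laurent (hAR : IsArch A) (Q y P : LaurentSeries A) (c : A)
    (h : Q * y = HahnSeries.C c * P) (hQ : ∃ j, IsUnit (Q.coeff j)) : ∀ b, c ∣ y.coeff b := by
  classical
  have hQ0 : Q ≠ 0 := by
    rintro rfl
    obtain ⟨j, hj⟩ := hQ
    simp at hj
  by_cases hc : c = 0
  · subst hc
    have hy : y = 0 := by
      rw [map_zero, zero_mul] at h
      rcases mul_eq_zero.1 h with h1 | h1
      · exact absurd h1 hQ0
      · exact h1
    intro b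
    simp [hy]
  set oQ := Q.order with hoQ
  set oy := y.order with hoy
  set Q₀ := LaurentSeries.powerSeriesPart Q with hQ₀
  set Y₀ := LaurentSeries.powerSeriesPart y with hY₀
  set P₀ : A⟦X⟧ := PowerSeries.mk fun n => P.coeff (oQ + oy + n) with hP₀
  -- coefficients of the product below `oQ + oy` vanish
  have hprod : Q * y = HahnSeries.single (oQ + oy) (1 : A) *
      HahnSeries.ofPowerSeries ℤ A (Q₀ * Y₀) := by
    rw [map_mul, hQ₀, hY₀, LaurentSeries.ofPowerSeries_powerSeriesPart,
      LaurentSeries.ofPowerSeries_powerSeriesPart, ← hoQ, ← hoy]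
    have h1 : HahnSeries.single (oQ + oy) (1 : A) * (HahnSeries.single (-oQ) 1 * Q *
        (HahnSeries.single (-oy) 1 * y)) = (HahnSeries.single (oQ + oy) (1 : A) *
        HahnSeries.single (-oQ) 1 * HahnSeries.single (-oy) 1) * (Q * y) := by ring
    rw [h1, HahnSeries.single_mul_single, HahnSeries.single_mul_single]
    have h2 : oQ + oy + -oQ + -oy = 0 := by ring
    rw [h2, mul_one, mul_one]
    change Q * y = (1 : LaurentSeries A) * (Q * y)
    rw [one_mul]
  have hcoeff : ∀ n : ℤ, c * P.coeff (oQ + oy + n) =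
      (HahnSeries.ofPowerSeries ℤ A (Q₀ * Y₀)).coeff n := by
    intro n
    have h1 := congrArg (fun z => z.coeff (n + (oQ + oy))) h
    simp only [hprod, HahnSeries.coeff_single_mul_add, one_mul, HahnSeries.C_mul_eq_smul,
      HahnSeries.coeff_smul, smul_eq_mul] at h1
    rw [h1, add_comm]
  have hPS : Q₀ * Y₀ = C c * P₀ := by
    ext n
    have h1 := hcoeff n
    rw [PowerSeries.coeff_coe] at h1
    simp only [Int.natCast_nonneg, not_lt.2, if_false, Int.natAbs_natCast] at h1
    rw [coeff_C_mul, hP₀, PowerSeries.coeff_mk, h1]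
  have hQ₀u : ∃ j, IsUnit (coeff j Q₀) := by
    obtain ⟨j, hj⟩ := hQ
    have hle : oQ ≤ j := HahnSeries.order_le_of_coeff_ne_zero hj.ne_zero
    obtain ⟨n, hn⟩ := Int.eq_ofNat_of_zero_le (sub_nonneg.2 hle)
    refine ⟨n, ?_⟩
    rw [hQ₀, LaurentSeries.powerSeriesPart_coeff, ← hoQ, ← hn]
    simpa using hj
  have hmain := gauss_ps hAR Q₀ Y₀ P₀ c hPS hQ₀u
  intro b
  by_cases hb : b < oy
  · rw [HahnSeries.coeff_eq_zero_of_lt_order hb]
    exact dvd_zero _
  · obtain ⟨n, hn⟩ := Int.eq_ofNat_of_zero_le (sub_nonneg.2 (not_lt.1 hb))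
    have := hmain n
    rw [hY₀, LaurentSeries.powerSeriesPart_coeff, ← hoy, ← hn] at this
    simpa using this

end Fermat.Agent.S18.Gauss
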