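import Mathlib
import Fermat.Prelude.Def_ModularCurve_LaurentCoeff

/-!
# S18, piece 87-P4: the lattice lemma over a valuation ring

`A ⊂ L` a valuation subring, `π : A →+* k` a ring hom to a field killing the maximal ideal
(e.g. the residue map).  `S ⊂ L((q))` a finite dimensional `L`-subspace such that every nonzero
element of `S` has a scalar multiple with coefficients in `A` and nonzero reduction.
Then the integral elements of `S` form a free `A`-module with a basis `b` (of cardinality `dim_L S`)
which is an `L`-basis of `S` and whose reductions are `k`-linearly independent; in particular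
the space of reductions has dimension `dim_L S`.
-/

set_option autoImplicit false

namespace Fermat.Agent.S18.Lat

open ModularCurve

variable {L : Type*} [Field L] (A : ValuationSubring L)

/-- the inclusion `A((q)) → L((q))` -/
noncomputable abbrev incl : LaurentSeries A →+* LaurentSeries L := coeffMap A.subtype

theorem incl_injective : Function.Injective (incl A) := by
  intro x y h
  ext i
  have := congrArg (fun z => z.coeff i) h
  simpa using this

theorem incl_smul (a : A) (y : LaurentSeries A) : incl A (a • y) = (a : L) • incl A y := by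
  ext i
  simp

theorem incl_sum {n : ℕ} (c : Fin n → A) (b : Fin n → LaurentSeries A) :
    incl A (∑ j, c j • b j) = ∑ j, (c j : L) • incl A (b j) := by
  rw [map_sum]
  exact Finset.sum_congr rfl fun j _ => incl_smul A (c j) (b j)

/-- the coefficient functional -/
noncomputable def coeffL (i : ℤ) : LaurentSeries L →ₗ[L] L where
  toFun x := x.coeff i
  map_add' x y := by simp
  map_smul' c x := by simp

@[simp] theorem coeffL_apply (i : ℤ) (x : LaurentSeries L) : coeffL (L := L) i x = x.coeff i := rfl

variable {k : Type*} [Field k] (π : A →+* k)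

/-- Primitivity hypothesis: every nonzero element of `S` has a scalar multiple which is integral
with nonzero reduction. -/
def HasPrimitives (S : Submodule L (LaurentSeries L)) : Prop :=
  ∀ s ∈ S, s ≠ 0 → ∃ c : L, c ≠ 0 ∧ ∃ y : LaurentSeries A, incl A y = c • s ∧ coeffMap π y ≠ 0

theorem HasPrimitives.mono {S S' : Submodule L (LaurentSeries L)} (h : HasPrimitives A π S)
    (hle : S' ≤ S) : HasPrimitives A π S' :=
  fun s hs hs0 => h s (hle hs) hs0

variable {A π}

theorem exists_int_basis_aux (hπ : ∀ a : A, ¬ IsUnit a → π a = 0) (n : ℕ) :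
    ∀ (S : Submodule L (LaurentSeries L)), FiniteDimensional L S → Module.finrank L S = n →
      HasPrimitives A π S →
      ∃ b : Fin n → LaurentSeries A, (∀ j, incl A (b j) ∈ S) ∧
        LinearIndependent L (fun j => incl A (b j)) ∧
        ∀ y : LaurentSeries A, incl A y ∈ S → ∃ c : Fin n → A, y = ∑ j, c j • b j := by
  induction n with
  | zero =>
    intro S _ hS _
    have hbot : S = ⊥ := Submodule.finrank_eq_zero.mp hS
    refine ⟨Fin.elim0, fun j => j.elim0, linearIndependent_empty_type, fun y hy => ⟨Fin.elim0, ?_⟩⟩
    rw [hbot, Submodule.mem_bot] at hy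
    have : y = 0 := incl_injective A (by rw [hy, map_zero])
    simp [this]
  | succ n ih =>
    intro S hfd hS hprim
    obtain ⟨s, hsS, hs0⟩ : ∃ s ∈ S, s ≠ 0 := by
      by_contra h
      push Not at h
      have : S = ⊥ := (Submodule.eq_bot_iff S).2 h
      rw [this] at hS
      simp at hS
    obtain ⟨c, hc, y₀, hy₀, hred⟩ := hprim s hsS hs0
    obtain ⟨i₀, hi₀⟩ : ∃ i₀, π (y₀.coeff i₀) ≠ 0 := by
      by_contra h
      push Not at h
      exact hred (by ext i; simpa using h i)
    have hunit : IsUnit (y₀.coeff i₀) := by
      by_contra h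
      exact hi₀ (hπ _ h)
    obtain ⟨u, hu⟩ := hunit
    have hy₀S : incl A y₀ ∈ S := by rw [hy₀]; exact S.smul_mem c hsS
    set S' : Submodule L (LaurentSeries L) := S ⊓ LinearMap.ker (coeffL i₀) with hS'
    have hS'le : S' ≤ S := inf_le_left
    have hfd' : FiniteDimensional L S' := Submodule.finiteDimensional_of_le hS'le
    have hev₀ : (incl A y₀).coeff i₀ ≠ 0 := by
      simp only [coeffMap_coeff, ValuationSubring.subtype_apply, ne_eq,
        ZeroMemClass.coe_eq_zero]
      rw [← hu]
      exact u.ne_zero
    have hrank : Module.finrank L S' = n := by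
      set f : S →ₗ[L] L := (coeffL i₀).comp S.subtype with hf
      have hsurj : Function.Surjective f := by
        intro x
        refine ⟨(x * ((incl A y₀).coeff i₀)⁻¹) • ⟨incl A y₀, hy₀S⟩, ?_⟩
        simp only [hf, map_smul, LinearMap.comp_apply, Submodule.subtype_apply, coeffL_apply,
          smul_eq_mul]
        rw [mul_assoc, inv_mul_cancel₀ hev₀, mul_one]
      have h1 := LinearMap.finrank_range_add_finrank_ker f
      rw [LinearMap.range_eq_top.2 hsurj, finrank_top, Module.finrank_self, hS] at h1
      have h2 : Module.finrank L (LinearMap.ker f) = Module.finrank L S' := by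
        have : LinearMap.ker f = (LinearMap.ker (coeffL i₀)).comap S.subtype := by
          rw [hf, LinearMap.ker_comp]
        rw [this, ← Submodule.finrank_map_subtype_eq, Submodule.map_comap_subtype]
      omega
    obtain ⟨b', hb'S, hb'li, hb'gen⟩ := ih S' hfd' hrank (HasPrimitives.mono A π hprim hS'le)
    refine ⟨Fin.cons y₀ b', ?_, ?_, ?_⟩
    · intro j
      refine Fin.cases ?_ (fun j => ?_) j
      · simpa using hy₀S
      · simpa using hS'le (hb'S j)
    · have hcons : (fun j => incl A ((Fin.cons y₀ b' : Fin (n + 1) → LaurentSeries A) j)) =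
          Fin.cons (incl A y₀) (fun j => incl A (b' j)) := by
        funext j
        refine Fin.cases ?_ (fun j => ?_) j <;> simp
      rw [hcons, linearIndependent_finCons]
      refine ⟨hb'li, fun hmem => ?_⟩
      have hle : Submodule.span L (Set.range fun j => incl A (b' j)) ≤ LinearMap.ker (coeffL i₀) := by
        rw [Submodule.span_le]
        rintro _ ⟨j, rfl⟩
        exact (hb'S j).2
      exact hev₀ (hle hmem)
    · intro y hy
      set a : A := y.coeff i₀ * (↑u⁻¹ : A) with ha
      have hy' : incl A (y - a • y₀) ∈ S' := by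
        refine ⟨?_, ?_⟩
        · rw [map_sub, incl_smul]
          exact S.sub_mem hy (S.smul_mem _ hy₀S)
        · show coeffL i₀ (incl A (y - a • y₀)) = 0
          rw [coeffL_apply, coeffMap_coeff]
          have : (y - a • y₀).coeff i₀ = 0 := by
            simp only [HahnSeries.coeff_sub, HahnSeries.coeff_smul, smul_eq_mul, ha, ← hu]
            rw [mul_assoc, Units.inv_mul, mul_one, sub_self]
          rw [this, map_zero]
      obtain ⟨c', hc'⟩ := hb'gen _ hy'
      refine ⟨Fin.cons a c', ?_⟩
      rw [Fin.sum_univ_succ]
      simp only [Fin.cons_zero, Fin.cons_succ]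
      rw [← hc']
      abel

/-- **Lattice lemma, basis form.** -/
theorem exists_int_basis (hπ : ∀ a : A, ¬ IsUnit a → π a = 0)
    (S : Submodule L (LaurentSeries L)) [FiniteDimensional L S] (hprim : HasPrimitives A π S) :
    ∃ b : Fin (Module.finrank L S) → LaurentSeries A, (∀ j, incl A (b j) ∈ S) ∧
      LinearIndependent L (fun j => incl A (b j)) ∧
      ∀ y : LaurentSeries A, incl A y ∈ S → ∃ c : Fin (Module.finrank L S) → A,
        y = ∑ j, c j • b j :=
  exists_int_basis_aux hπ _ S inferInstance rfl hprim

theorem red_smul (a : A) (y : LaurentSeries A) : coeffMap π (a • y) = π a • coeffMap π y := by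
  ext i
  simp

theorem red_sum {n : ℕ} (c : Fin n → A) (b : Fin n → LaurentSeries A) :
    coeffMap π (∑ j, c j • b j) = ∑ j, π (c j) • coeffMap π (b j) := by
  rw [map_sum]
  exact Finset.sum_congr rfl fun j _ => red_smul (c j) (b j)

/-- The reductions of an integral basis are linearly independent. -/
theorem linearIndependent_red (hπ : ∀ a : A, ¬ IsUnit a → π a = 0)
    (hsurj : Function.Surjective π)
    (S : Submodule L (LaurentSeries L)) (hprim : HasPrimitives A π S) {n : ℕ}
    (b : Fin n → LaurentSeries A) (hbS : ∀ j, incl A (b j) ∈ S)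
    (hli : LinearIndependent L (fun j => incl A (b j)))
    (hgen : ∀ y : LaurentSeries A, incl A y ∈ S → ∃ c : Fin n → A, y = ∑ j, c j • b j) :
    LinearIndependent k (fun j => coeffMap π (b j)) := by
  rw [Fintype.linearIndependent_iff]
  intro g hg
  choose c hc using fun j => hsurj (g j)
  set t : LaurentSeries A := ∑ j, c j • b j with ht
  have hredt : coeffMap π t = 0 := by
    rw [ht, red_sum, ← hg]
    exact Finset.sum_congr rfl fun j _ => by rw [hc]
  have hinclt : incl A t = ∑ j, (c j : L) • incl A (b j) := incl_sum A c b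
  have htS : incl A t ∈ S := by
    rw [hinclt]
    exact S.sum_mem fun j _ => S.smul_mem _ (hbS j)
  rw [Fintype.linearIndependent_iff] at hli
  by_cases ht0 : incl A t = 0
  · intro j
    have := hli (fun j => (c j : L)) (by rw [← hinclt, ht0]) j
    have hcj : c j = 0 := by exact_mod_cast this
    rw [← hc j, hcj, map_zero]
  · obtain ⟨e, he, y, hy, hredy⟩ := hprim _ htS ht0
    obtain ⟨i, hi⟩ : ∃ i, π (y.coeff i) ≠ 0 := by
      by_contra h
      push Not at h
      exact hredy (by ext i; simpa using h i)
    have hunit : IsUnit (y.coeff i) := by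
      by_contra h
      exact hi (hπ _ h)
    obtain ⟨u, hu⟩ := hunit
    have hti : π (t.coeff i) = 0 := by
      have := congrArg (fun z => z.coeff i) hredt
      simpa using this
    have htnu : ¬ IsUnit (t.coeff i) := fun h => (h.map π).ne_zero hti
    have hyi : ((y.coeff i : A) : L) = e * ((t.coeff i : A) : L) := by
      have := congrArg (fun z => z.coeff i) hy
      simpa using this
    have hune : ((u : A) : L) ≠ 0 := by
      simp
    have hti0 : ((t.coeff i : A) : L) ≠ 0 := by
      intro h0
      rw [h0, mul_zero, ← hu] at hyi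
      exact hune hyi
    set ε : A := t.coeff i * (↑u⁻¹ : A) with hε
    have hεnu : ¬ IsUnit ε := by
      intro h
      apply htnu
      have : t.coeff i = ε * u := by rw [hε, mul_assoc, Units.inv_mul, mul_one]
      rw [this]
      exact h.mul u.isUnit
    have hεe : (ε : L) * e = 1 := by
      have hu1 : ((↑u⁻¹ : A) : L) * ((u : A) : L) = 1 := by
        have h := Units.inv_mul u
        have h' : (((↑u⁻¹ : A) * (u : A) : A) : L) = ((1 : A) : L) := by rw [h]
        rw [← MulMemClass.coe_mul, h']
        rfl
      have hu2 : ((u : A) : L) = e * ((t.coeff i : A) : L) := by rw [hu]; exact hyi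
      have hinv : ((↑u⁻¹ : A) : L) = (e * ((t.coeff i : A) : L))⁻¹ := by
        rw [← hu2]
        exact eq_inv_of_mul_eq_one_left hu1
      rw [hε]
      push_cast
      rw [hinv]
      field_simp
    obtain ⟨a, ha⟩ := hgen y (by rw [hy]; exact S.smul_mem _ htS)
    have hsum : ∑ j, ((a j : L) - e * (c j : L)) • incl A (b j) = 0 := by
      have h1 : incl A y = ∑ j, (a j : L) • incl A (b j) := by rw [ha]; exact incl_sum A a b
      have h2 : e • incl A t = ∑ j, (e * (c j : L)) • incl A (b j) := by
        rw [hinclt, Finset.smul_sum]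
        exact Finset.sum_congr rfl fun j _ => by rw [smul_smul]
      simp only [sub_smul, Finset.sum_sub_distrib]
      rw [← h1, ← h2, hy, sub_self]
    intro j
    have hj := hli _ hsum j
    have hcj : c j = ε * a j := by
      apply Subtype.ext
      push_cast
      have : (a j : L) = e * (c j : L) := sub_eq_zero.1 hj
      rw [this, ← mul_assoc, hεe, one_mul]
    rw [← hc j, hcj, map_mul, hπ _ hεnu, zero_mul]

variable (A π)

/-- The space of reductions of the integral elements of `S`. -/
noncomputable def redSub (S : Submodule L (LaurentSeries L)) : Submodule k (LaurentSeries k) :=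
  Submodule.span k {x | ∃ y : LaurentSeries A, incl A y ∈ S ∧ coeffMap π y = x}

variable {A π}

theorem red_mem_redSub {S : Submodule L (LaurentSeries L)} {y : LaurentSeries A}
    (hy : incl A y ∈ S) : coeffMap π y ∈ redSub A π S :=
  Submodule.subset_span ⟨y, hy, rfl⟩

theorem mem_redSub_iff (hsurj : Function.Surjective π) {S : Submodule L (LaurentSeries L)}
    {x : LaurentSeries k} :
    x ∈ redSub A π S ↔ ∃ y : LaurentSeries A, incl A y ∈ S ∧ coeffMap π y = x := by
  constructor
  · intro hx
    induction hx using Submodule.span_induction with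
    | mem x hx => exact hx
    | zero => exact ⟨0, by simp, by simp⟩
    | add x x' _ _ hx hx' =>
      obtain ⟨y, hy, rfl⟩ := hx
      obtain ⟨y', hy', rfl⟩ := hx'
      exact ⟨y + y', by rw [map_add]; exact S.add_mem hy hy', by rw [map_add]⟩
    | smul c x _ hx =>
      obtain ⟨y, hy, rfl⟩ := hx
      obtain ⟨a, rfl⟩ := hsurj c
      exact ⟨a • y, by rw [incl_smul]; exact S.smul_mem _ hy, red_smul a y⟩
  · rintro ⟨y, hy, rfl⟩
    exact red_mem_redSub hy

theorem redSub_mono {S S' : Submodule L (LaurentSeries L)} (h : S ≤ S') :
    redSub A π S ≤ redSub A π S' := by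
  apply Submodule.span_mono
  rintro x ⟨y, hy, rfl⟩
  exact ⟨y, h hy, rfl⟩

/-- **Lattice lemma**: a basis of the space of reductions. -/
theorem exists_red_basis (hπ : ∀ a : A, ¬ IsUnit a → π a = 0) (hsurj : Function.Surjective π)
    (S : Submodule L (LaurentSeries L)) [FiniteDimensional L S] (hprim : HasPrimitives A π S) :
    ∃ b : Fin (Module.finrank L S) → LaurentSeries A, (∀ j, incl A (b j) ∈ S) ∧
      LinearIndependent L (fun j => incl A (b j)) ∧
      (∀ y : LaurentSeries A, incl A y ∈ S → ∃ c : Fin (Module.finrank L S) → A,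
        y = ∑ j, c j • b j) ∧
      LinearIndependent k (fun j => coeffMap π (b j)) ∧
      redSub A π S = Submodule.span k (Set.range fun j => coeffMap π (b j)) := by
  obtain ⟨b, hbS, hli, hgen⟩ := exists_int_basis hπ S hprim
  refine ⟨b, hbS, hli, hgen, linearIndependent_red hπ hsurj S hprim b hbS hli hgen, ?_⟩
  apply le_antisymm
  · rw [redSub, Submodule.span_le]
    rintro x ⟨y, hy, rfl⟩
    obtain ⟨c, rfl⟩ := hgen y hy
    rw [red_sum]
    exact Submodule.sum_mem _ fun j _ =>
      Submodule.smul_mem _ _ (Submodule.subset_span ⟨j, rfl⟩)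
  · rw [Submodule.span_le]
    rintro _ ⟨j, rfl⟩
    exact red_mem_redSub (hbS j)

/-- **Lattice lemma**: `dim_k red(S_int) = dim_L S`. -/
theorem finrank_redSub (hπ : ∀ a : A, ¬ IsUnit a → π a = 0) (hsurj : Function.Surjective π)
    (S : Submodule L (LaurentSeries L)) [FiniteDimensional L S] (hprim : HasPrimitives A π S) :
    Module.finrank k (redSub A π S) = Module.finrank L S := by
  obtain ⟨b, -, -, -, hli, hspan⟩ := exists_red_basis hπ hsurj S hprim
  rw [hspan, finrank_span_eq_card hli, Fintype.card_fin]

theorem finiteDimensional_redSub (hπ : ∀ a : A, ¬ IsUnit a → π a = 0)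
    (hsurj : Function.Surjective π)
    (S : Submodule L (LaurentSeries L)) [FiniteDimensional L S] (hprim : HasPrimitives A π S) :
    FiniteDimensional k (redSub A π S) := by
  obtain ⟨b, -, -, -, hli, hspan⟩ := exists_red_basis hπ hsurj S hprim
  rw [hspan]
  exact FiniteDimensional.span_of_finite k (Set.finite_range _)

end Fermat.Agent.S18.Lat
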