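import Mathlib
import Fermat.Agent.S18.Lattice
import Fermat.Agent.S18.GaussLemma

/-!
# S18, piece 87-P4: q-integrality from v-integrality (key lemma for the lattice lemma in `RedV` form)

`KL`: a BOUNDED Laurent series `t ∈ L((q))` (`t = β • y₀`, `y₀ ∈ A((q))`) with `v * t = u`,
`u, v ∈ A((q))`, `v` with a unit coefficient, is q-integral.  Needs the Gauss lemma (rank one).
-/

set_option autoImplicit false

namespace Fermat.Agent.S18.Lat

open ModularCurve Fermat.Agent.S18.Gauss

variable {L : Type*} [Field L] (A : ValuationSubring L)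

/-- lift of a Laurent series with coefficients in `A`. -/
theorem exists_lift_of_coeff_mem (x : LaurentSeries L) (h : ∀ b, x.coeff b ∈ A) :
    ∃ x' : LaurentSeries A, incl A x' = x := by
  classical
  let φ : ZeroHom L A :=
    { toFun := fun z => if hz : z ∈ A then ⟨z, hz⟩ else 0
      map_zero' := by
        simp only [A.zero_mem, dif_pos]
        rfl }
  refine ⟨x.map φ, ?_⟩
  ext b
  show ((φ (x.coeff b) : A) : L) = x.coeff b
  simp only [φ, ZeroHom.coe_mk, dif_pos (h b)]

/-- a finite `L`-combination of q-integral series is bounded. -/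
theorem bounded_sum {ι : Type*} (s : Finset ι) (lam : ι → L) (y : ι → LaurentSeries A) :
    ∃ β : L, β ≠ 0 ∧ ∃ y₀ : LaurentSeries A, ∑ i ∈ s, lam i • incl A (y i) = β • incl A y₀ := by
  classical
  induction s using Finset.induction_on with
  | empty => exact ⟨1, one_ne_zero, 0, by simp⟩
  | insert a s ha ih =>
    obtain ⟨β, hβ, y₀, hy₀⟩ := ih
    rw [Finset.sum_insert ha, hy₀]
    by_cases hla : lam a = 0
    · exact ⟨β, hβ, y₀, by rw [hla, zero_smul, zero_add]⟩
    · rcases A.mem_or_inv_mem (lam a / β) with h1 | h1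
      · -- lam a = β * c, c ∈ A
        refine ⟨β, hβ, (⟨lam a / β, h1⟩ : A) • y a + y₀, ?_⟩
        rw [map_add, incl_smul, smul_add, smul_smul]
        congr 2
        field_simp
      · refine ⟨lam a, hla, y a + (⟨(lam a / β)⁻¹, h1⟩ : A) • y₀, ?_⟩
        rw [map_add, incl_smul, smul_add, smul_smul]
        congr 2
        show β = lam a * (lam a / β)⁻¹
        field_simp

variable {A}

theorem exists_unit_coeff {k : Type*} [Field k] {π : A →+* k}
    (hπ : ∀ a : A, ¬ IsUnit a → π a = 0) {v : LaurentSeries A} (hv : coeffMap π v ≠ 0) :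
    ∃ j, IsUnit (v.coeff j) := by
  by_contra h
  push Not at h
  exact hv (by ext i; simpa using hπ _ (h i))

/-- **Key lemma**: bounded + `v`-integral implies q-integral. -/
theorem bounded_integral (hAR : IsArch A) {t : LaurentSeries L} {β : L} (hβ : β ≠ 0)
    {y₀ : LaurentSeries A} (ht : t = β • incl A y₀) {u v : LaurentSeries A}
    (hv : ∃ j, IsUnit (v.coeff j)) (h : incl A v * t = incl A u) :
    ∃ t' : LaurentSeries A, incl A t' = t ∧ v * t' = u := by
  have hfin : ∀ t' : LaurentSeries A, incl A t' = t → v * t' = u := by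
    intro t' ht'
    apply incl_injective A
    rw [map_mul, ht', h]
  rcases A.mem_or_inv_mem β with h1 | h1
  · refine ⟨(⟨β, h1⟩ : A) • y₀, ?_, ?_⟩
    · rw [incl_smul, ht]
    · exact hfin _ (by rw [incl_smul, ht])
  · set a : A := ⟨β⁻¹, h1⟩ with ha
    have ha0 : a ≠ 0 := by
      intro h0
      have : (a : L) = 0 := by rw [h0]; rfl
      exact inv_ne_zero hβ this
    have h2 : v * y₀ = HahnSeries.C a * u := by
      apply incl_injective A
      have hab : (a : L) * β = 1 := inv_mul_cancel₀ hβ
      rw [HahnSeries.C_mul_eq_smul, incl_smul, map_mul, ← h, ht, ← HahnSeries.C_mul_eq_smul,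
        ← HahnSeries.C_mul_eq_smul]
      have : HahnSeries.C (a : L) * (incl A v * (HahnSeries.C β * incl A y₀)) =
          HahnSeries.C ((a : L) * β) * (incl A v * incl A y₀) := by
        rw [map_mul]; ring
      rw [this, hab, map_one, one_mul]
    have hdvd := gauss_laurent hAR v y₀ u a h2 hv
    have hcoef : ∀ b, t.coeff b ∈ A := by
      intro b
      obtain ⟨z, hz⟩ := hdvd b
      rw [ht]
      simp only [HahnSeries.coeff_smul, coeffMap_coeff, ValuationSubring.subtype_apply, hz,
        smul_eq_mul]
      have : β * ((a * z : A) : L) = (z : L) := by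
        push_cast
        rw [← mul_assoc]
        show β * β⁻¹ * (z : L) = z
        rw [mul_inv_cancel₀ hβ, one_mul]
      rw [this]
      exact z.2
    obtain ⟨t', ht'⟩ := exists_lift_of_coeff_mem A t hcoef
    exact ⟨t', ht', hfin t' ht'⟩

end Fermat.Agent.S18.Lat
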