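import Mathlib
import Fermat.Agent.S18.Defs
import Fermat.Agent.S18.LatticeKL

/-!
# S18, piece 87-P4: the lattice lemma in `RedV` form (`LatticeStatement` of the contract)

For `A` a valuation subring of `L` with the archimedean property, `π : A →+* k` onto and killing
the non-units, `F ⊂ L((q))`, `Fb ⊂ k((q))` with the scaling hypothesis: `LatticeStatement A π F Fb`.
-/

set_option autoImplicit false

namespace Fermat.Agent.S18.Lat

open ModularCurve Fermat.Agent.S18.Gauss Fermat.Agent.S18

variable {L : Type*} [Field L] {A : ValuationSubring L} {k : Type*} [Field k] {π : A →+* k}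
variable {F : IntermediateField L (LaurentSeries L)} {Fb : IntermediateField k (LaurentSeries k)}

/-- the scaling hypothesis of the contract -/
def Scal (A : ValuationSubring L) (π : A →+* k) (F : IntermediateField L (LaurentSeries L))
    (Fb : IntermediateField k (LaurentSeries k)) : Prop :=
  ∀ y : F, y ≠ 0 → ∃ c : L, c ≠ 0 ∧ ∃ yb : Fb, yb ≠ 0 ∧ RedV A π F Fb (c • y) yb

theorem coe_smul_eq_C_mul (K : Type*) [Field K] (E : IntermediateField K (LaurentSeries K))
    (c : K) (x : E) : ((c • x : E) : LaurentSeries K) = HahnSeries.C c * (x : LaurentSeries K) := by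
  rw [IntermediateField.coe_smul, Algebra.smul_def, algebraMap_laurentSeries_eq_single,
    HahnSeries.C_apply]

theorem C_mem (K : Type*) [Field K] (E : IntermediateField K (LaurentSeries K)) (c : K) :
    HahnSeries.C c ∈ E := by
  have := E.algebraMap_mem c
  rwa [algebraMap_laurentSeries_eq_single, ← HahnSeries.C_apply] at this

theorem incl_C_smul (a : A) (y : LaurentSeries A) :
    incl A (a • y) = HahnSeries.C (a : L) * incl A y := by
  rw [incl_smul, HahnSeries.C_mul_eq_smul]

theorem red_C_smul (a : A) (y : LaurentSeries A) :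
    coeffMap π (a • y) = HahnSeries.C (π a) * coeffMap π y := by
  rw [red_smul, HahnSeries.C_mul_eq_smul]

theorem inv_nonunit_of_not_mem {c : L} (hc : c ∉ A) :
    ∃ h : c⁻¹ ∈ A, ¬ IsUnit (⟨c⁻¹, h⟩ : A) := by
  have h : c⁻¹ ∈ A := (A.mem_or_inv_mem c).resolve_left hc
  refine ⟨h, fun hu => hc ?_⟩
  obtain ⟨w, hw⟩ := hu
  have h6 : ((w : A) : L) * ((↑w⁻¹ : A) : L) = 1 := by
    rw [← MulMemClass.coe_mul, Units.mul_inv]; rfl
  rw [hw] at h6
  have h7 : c⁻¹ * ((↑w⁻¹ : A) : L) = 1 := h6
  have hc0 : c ≠ 0 := by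
    rintro rfl
    exact hc A.zero_mem
  have h5 : ((↑w⁻¹ : A) : L) = c := by
    field_simp at h7
    exact h7
  rw [← h5]
  exact (↑w⁻¹ : A).2

/-- reductions of q-integral elements of `F` lie in `Fb`. -/
theorem red_mem_of_scal (hπ : ∀ a : A, ¬ IsUnit a → π a = 0) (hscal : Scal A π F Fb)
    {y : LaurentSeries A} (hy : incl A y ∈ F) : coeffMap π y ∈ Fb := by
  by_cases hy0 : coeffMap π y = 0
  · rw [hy0]; exact Fb.zero_mem
  have hyne : (⟨incl A y, hy⟩ : F) ≠ 0 := by
    intro h
    have h1 : incl A y = 0 := congrArg Subtype.val h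
    have h2 : y = 0 := incl_injective A (by rw [h1, map_zero])
    exact hy0 (by rw [h2, map_zero])
  obtain ⟨c, hc, yb, hyb, u, v, ub, vb, ⟨u', hu', hub⟩, ⟨v', hv', hvb⟩, hvb0, huv, hybv⟩ :=
    hscal _ hyne
  have h1 : HahnSeries.C c * incl A y * incl A v' = incl A u' := by
    have := congrArg Subtype.val huv
    rw [IntermediateField.coe_mul, coe_smul_eq_C_mul] at this
    rw [hu', hv']
    exact this
  have hub0 : (ub : LaurentSeries k) ≠ 0 := by
    intro h0
    have : ub = 0 := Subtype.ext h0
    rw [this] at hybv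
    rcases mul_eq_zero.1 hybv with h2 | h2
    · exact hyb h2
    · exact hvb0 h2
  have hvb0' : (vb : LaurentSeries k) ≠ 0 := fun h0 => hvb0 (Subtype.ext h0)
  by_cases hcA : c ∈ A
  · have h2 : (⟨c, hcA⟩ : A) • y * v' = u' := by
      apply incl_injective A
      rw [map_mul, incl_C_smul]
      exact h1
    have h3 := congrArg (coeffMap π) h2
    rw [map_mul, red_C_smul, hub, hvb] at h3
    have hπc : π ⟨c, hcA⟩ ≠ 0 := by
      intro h0
      rw [h0, map_zero, zero_mul, zero_mul] at h3
      exact hub0 h3.symm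
    have h4 : coeffMap π y =
        HahnSeries.C (π ⟨c, hcA⟩)⁻¹ * ((ub : LaurentSeries k) * (vb : LaurentSeries k)⁻¹) := by
      rw [← h3]
      have : HahnSeries.C (π ⟨c, hcA⟩)⁻¹ * (HahnSeries.C (π ⟨c, hcA⟩) * coeffMap π y *
          (vb : LaurentSeries k) * (vb : LaurentSeries k)⁻¹) =
          (HahnSeries.C (π ⟨c, hcA⟩)⁻¹ * HahnSeries.C (π ⟨c, hcA⟩)) * coeffMap π y *
          ((vb : LaurentSeries k) * (vb : LaurentSeries k)⁻¹) := by ring
      have hCC : HahnSeries.C (π ⟨c, hcA⟩)⁻¹ * HahnSeries.C (π ⟨c, hcA⟩) =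
          (1 : LaurentSeries k) := by
        rw [← map_mul, inv_mul_cancel₀ hπc, map_one]
      rw [this, mul_inv_cancel₀ hvb0', mul_one, hCC, one_mul]
    rw [h4]
    exact Fb.mul_mem (C_mem k Fb _) (Fb.mul_mem ub.2 (Fb.inv_mem vb.2))
  · exfalso
    obtain ⟨hcA', hcu⟩ := inv_nonunit_of_not_mem hcA
    have h2 : y * v' = (⟨c⁻¹, hcA'⟩ : A) • u' := by
      apply incl_injective A
      rw [map_mul, incl_C_smul, ← h1]
      show incl A y * incl A v' = HahnSeries.C c⁻¹ * (HahnSeries.C c * incl A y * incl A v')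
      have : HahnSeries.C c⁻¹ * (HahnSeries.C c * incl A y * incl A v') =
          (HahnSeries.C c⁻¹ * HahnSeries.C c) * (incl A y * incl A v') := by ring
      have hCC : HahnSeries.C c⁻¹ * HahnSeries.C c = (1 : LaurentSeries L) := by
        rw [← map_mul, inv_mul_cancel₀ hc, map_one]
      rw [this, hCC, one_mul]
    have h3 := congrArg (coeffMap π) h2
    rw [map_mul, red_C_smul, hπ _ hcu, map_zero, zero_mul, hvb] at h3
    rcases mul_eq_zero.1 h3 with h4 | h4
    · exact hy0 h4
    · exact hvb0' h4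

/-- multiplication by `V ∈ F`, as an `L`-linear map `F → L((q))`. -/
noncomputable def mulV (V : F) : F →ₗ[L] LaurentSeries L where
  toFun s := (V : LaurentSeries L) * (s : LaurentSeries L)
  map_add' x y := by
    rw [IntermediateField.coe_add, mul_add]
  map_smul' c x := by
    rw [coe_smul_eq_C_mul, RingHom.id_apply, ← HahnSeries.C_mul_eq_smul]
    ring

@[simp] theorem mulV_apply (V s : F) : mulV V s = (V : LaurentSeries L) * (s : LaurentSeries L) :=
  rfl

theorem mulV_injective {V : F} (hV : V ≠ 0) : Function.Injective (mulV V) := by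
  intro x y h
  simp only [mulV_apply] at h
  have hV' : (V : LaurentSeries L) ≠ 0 := fun h0 => hV (Subtype.ext h0)
  exact Subtype.ext (mul_left_cancel₀ hV' h)

/-- **87-P4, lattice lemma** in the form of the contract. -/
theorem latticeStatement (hπ : ∀ a : A, ¬ IsUnit a → π a = 0) (hsurj : Function.Surjective π)
    (hAR : IsArch A) : LatticeStatement A π F Fb := by
  classical
  intro hscal S hS
  have hSfin : Module.Finite L S := hS
  have hSfree : Module.Free L S := Module.Free.of_divisionRing L S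
  set n := Module.finrank L S with hn
  let bS : Module.Basis (Fin n) L S := Module.finBasis L S
  have hne : ∀ i, ((bS i : S) : F) ≠ 0 := fun i h => bS.ne_zero i (Subtype.ext h)
  choose c hc yb hyb u v ub vb hu hv hvb0 huv hybv using fun i => hscal _ (hne i)
  choose u' hu' hub using hu
  choose v' hv' hvb using hv
  set V' : LaurentSeries A := ∏ i, v' i with hV'def
  set V : F := ∏ i, v i with hVdef
  set Vb : Fb := ∏ i, vb i with hVbdef
  have hV : incl A V' = (V : LaurentSeries L) := by
    rw [hV'def, hVdef, map_prod, IntermediateField.coe_prod]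
    exact Finset.prod_congr rfl fun i _ => hv' i
  have hVb : coeffMap π V' = (Vb : LaurentSeries k) := by
    rw [hV'def, hVbdef, map_prod, IntermediateField.coe_prod]
    exact Finset.prod_congr rfl fun i _ => hvb i
  have hVb0 : Vb ≠ 0 := Finset.prod_ne_zero_iff.2 fun i _ => hvb0 i
  have hVb0' : (Vb : LaurentSeries k) ≠ 0 := fun h0 => hVb0 (Subtype.ext h0)
  have hV0 : V ≠ 0 := by
    intro h0
    apply hVb0'
    rw [← hVb]
    have : V' = 0 := incl_injective A (by rw [hV, h0, map_zero]; rfl)
    rw [this, map_zero]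
  set S₁ : Submodule L (LaurentSeries L) := S.map (mulV V) with hS₁
  have hS₁rank : Module.finrank L S₁ = n :=
    (LinearEquiv.finrank_eq (Submodule.equivMapOfInjective (mulV V) (mulV_injective hV0) S)).symm
  have hS₁fd : FiniteDimensional L S₁ :=
    Module.Finite.equiv (Submodule.equivMapOfInjective (mulV V) (mulV_injective hV0) S)
  -- every element of `S₁` is bounded
  have hbdd : ∀ t ∈ S₁, ∃ β : L, β ≠ 0 ∧ ∃ y₀ : LaurentSeries A, t = β • incl A y₀ := by
    rintro t ⟨s, hs, rfl⟩
    have hrepr := bS.sum_repr ⟨s, hs⟩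
    have h1 : ∀ i, mulV V ((bS i : S) : F) =
        (c i)⁻¹ • incl A (u' i * ∏ j ∈ Finset.univ.erase i, v' j) := by
      intro i
      have h2 := congrArg Subtype.val (huv i)
      rw [IntermediateField.coe_mul, coe_smul_eq_C_mul] at h2
      have h3 : (V : LaurentSeries L) =
          (v i : LaurentSeries L) * incl A (∏ j ∈ Finset.univ.erase i, v' j) := by
        rw [← hV, hV'def, ← Finset.mul_prod_erase Finset.univ v' (Finset.mem_univ i), map_mul, hv']
      rw [mulV_apply, h3, map_mul, hu', ← h2, ← HahnSeries.C_mul_eq_smul]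
      have hCC : HahnSeries.C (c i)⁻¹ * HahnSeries.C (c i) = (1 : LaurentSeries L) := by
        rw [← map_mul, inv_mul_cancel₀ (hc i), map_one]
      have : HahnSeries.C (c i)⁻¹ * (HahnSeries.C (c i) * ((bS i : S) : LaurentSeries L) *
          (v i : LaurentSeries L) * incl A (∏ j ∈ Finset.univ.erase i, v' j)) =
          (HahnSeries.C (c i)⁻¹ * HahnSeries.C (c i)) * ((v i : LaurentSeries L) *
          incl A (∏ j ∈ Finset.univ.erase i, v' j) * ((bS i : S) : LaurentSeries L)) := by ring
      rw [this, hCC, one_mul]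
    have h4 : mulV V s = ∑ i, (bS.repr ⟨s, hs⟩ i * (c i)⁻¹) •
        incl A (u' i * ∏ j ∈ Finset.univ.erase i, v' j) := by
      have h5 : s = ∑ i, bS.repr ⟨s, hs⟩ i • ((bS i : S) : F) := by
        have := congrArg (fun x : S => (x : F)) hrepr
        simp only [Submodule.coe_sum, Submodule.coe_smul] at this
        exact this.symm
      conv_lhs => rw [h5]
      rw [map_sum]
      refine Finset.sum_congr rfl fun i _ => ?_
      rw [map_smul, h1, smul_smul]
    rw [h4]
    exact bounded_sum A Finset.univ _ _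
  -- primitives
  have hprim : HasPrimitives A π S₁ := by
    intro t ht ht0
    obtain ⟨β, hβ, y₀, hy₀⟩ := hbdd t ht
    obtain ⟨s, hs, rfl⟩ := ht
    have hτ0 : V * s ≠ 0 := by
      intro h0
      apply ht0
      have := congrArg Subtype.val h0
      simpa using this
    obtain ⟨e, he, zb, hzb, x, w, xb, wb, ⟨x', hx', hxb⟩, ⟨w', hw', hwb⟩, hwb0, hxw, hzw⟩ :=
      hscal _ hτ0
    have h1 : incl A w' * (e • mulV V s) = incl A x' := by
      have h2 := congrArg Subtype.val hxw
      rw [IntermediateField.coe_mul, coe_smul_eq_C_mul, IntermediateField.coe_mul] at h2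
      rw [hx', hw', ← h2, mulV_apply, ← HahnSeries.C_mul_eq_smul]
      ring
    have hwu : ∃ j, IsUnit (w'.coeff j) :=
      exists_unit_coeff hπ (by rw [hwb]; exact fun h0 => hwb0 (Subtype.ext h0))
    obtain ⟨t', ht', hwt⟩ := bounded_integral hAR (mul_ne_zero he hβ)
      (show e • mulV V s = (e * β) • incl A y₀ by rw [hy₀, smul_smul]) hwu h1
    refine ⟨e, he, t', ht', fun h0 => ?_⟩
    have h3 := congrArg (coeffMap π) hwt
    rw [map_mul, h0, mul_zero, hxb] at h3
    have hxb0 : xb = 0 := Subtype.ext h3.symm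
    rw [hxb0] at hzw
    rcases mul_eq_zero.1 hzw with h4 | h4
    · exact hzb h4
    · exact hwb0 h4
  obtain ⟨b, hbS, hli, hgen⟩ := exists_int_basis_aux hπ n S₁ hS₁fd hS₁rank hprim
  have hlired := linearIndependent_red hπ hsurj S₁ hprim b hbS hli hgen
  choose w hwS hw using hbS
  have hbF : ∀ j, incl A (b j) ∈ F := fun j => by
    rw [← hw j, mulV_apply]
    exact F.mul_mem V.2 (w j).2
  set wb : Fin n → Fb := fun j => ⟨coeffMap π (b j), red_mem_of_scal hπ hscal (hbF j)⟩ * Vb⁻¹
    with hwb
  refine ⟨n, w, wb, rfl, hwS, ?_, ?_, ?_⟩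
  · intro j
    refine ⟨⟨incl A (b j), hbF j⟩, V, ⟨coeffMap π (b j), red_mem_of_scal hπ hscal (hbF j)⟩, Vb,
      ⟨b j, rfl, rfl⟩, ⟨V', hV, hVb⟩, hVb0, ?_, ?_⟩
    · apply Subtype.ext
      rw [IntermediateField.coe_mul, mul_comm]
      exact hw j
    · rw [hwb]
      simp only
      rw [mul_assoc, inv_mul_cancel₀ hVb0, mul_one]
  · rw [Fintype.linearIndependent_iff]
    intro g hg
    rw [Fintype.linearIndependent_iff] at hlired
    apply hlired g
    have h1 := congrArg (fun x : Fb => (Vb : LaurentSeries k) * (x : LaurentSeries k)) hg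
    simp only [IntermediateField.coe_sum, coe_smul_eq_C_mul, IntermediateField.coe_zero,
      mul_zero, Finset.mul_sum] at h1
    rw [← h1]
    refine Finset.sum_congr rfl fun j _ => ?_
    rw [hwb]
    simp only [IntermediateField.coe_mul, IntermediateField.coe_inv]
    rw [← HahnSeries.C_mul_eq_smul]
    field_simp
  · intro y hy yb ⟨x, z, xb, zb, ⟨x', hx', hxb⟩, ⟨z', hz', hzb⟩, hzb0, hxz, hyz⟩
    have hzb0' : (zb : LaurentSeries k) ≠ 0 := fun h0 => hzb0 (Subtype.ext h0)
    have htS : mulV V y ∈ S₁ := ⟨y, hy, rfl⟩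
    obtain ⟨β, hβ, y₀, hy₀⟩ := hbdd _ htS
    have h1 : incl A z' * mulV V y = incl A (V' * x') := by
      have h2 := congrArg Subtype.val hxz
      rw [IntermediateField.coe_mul] at h2
      rw [map_mul, hx', hz', hV, ← h2, mulV_apply]
      ring
    have hzu : ∃ j, IsUnit (z'.coeff j) :=
      exists_unit_coeff hπ (by rw [hzb]; exact hzb0')
    obtain ⟨t', ht', hzt⟩ := bounded_integral hAR hβ hy₀ hzu h1
    obtain ⟨a, ha⟩ := hgen t' (by rw [ht']; exact htS)
    refine ⟨a, ?_, ?_⟩
    · apply mulV_injective hV0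
      rw [← ht', ha, incl_sum, map_sum]
      refine Finset.sum_congr rfl fun j _ => ?_
      rw [map_smul, hw j]
    · have h3 := congrArg (coeffMap π) hzt
      rw [map_mul, map_mul, hxb, hzb, hVb, ha, red_sum] at h3
      have h4 := congrArg Subtype.val hyz
      rw [IntermediateField.coe_mul] at h4
      apply Subtype.ext
      rw [IntermediateField.coe_sum]
      have h5 : (yb : LaurentSeries k) = (∑ j, π (a j) • coeffMap π (b j)) *
          (Vb : LaurentSeries k)⁻¹ := by
        rw [← h4] at h3
        field_simp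
        rw [mul_comm]
        have : (zb : LaurentSeries k) * ∑ j, π (a j) • coeffMap π (b j) =
            (zb : LaurentSeries k) * ((yb : LaurentSeries k) * (Vb : LaurentSeries k)) := by
          rw [h3]; ring
        rw [mul_comm (Vb : LaurentSeries k)]
        exact (mul_left_cancel₀ hzb0' this).symm
      rw [h5, Finset.sum_mul]
      refine Finset.sum_congr rfl fun j _ => ?_
      rw [coe_smul_eq_C_mul, hwb]
      simp only [IntermediateField.coe_mul, IntermediateField.coe_inv]
      rw [← HahnSeries.C_mul_eq_smul]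
      ring

end Fermat.Agent.S18.Lat
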