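import Mathlib
import Fermat.Agent.S18.RPrimeDefs

/-!
# S18, piece 87-P5: elementary facts on divisors and Riemann–Roch spaces (one curve)
-/

set_option autoImplicit false

open AlgebraicCurve

noncomputable section

namespace Fermat.Agent.S18.RPrime

variable {K F : Type*} [Field K] [Field F] [Algebra K F]

/-! ### degrees -/

theorem degree_eq_sum (hdeg : ∀ P : Place K F, P.deg = 1) (D : Divisor K F) :
    Divisor.degree D = D.sum fun _ n => n := by
  induction D using Finsupp.induction with
  | zero => simp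
  | single_add P n D hP hn ih =>
    rw [map_add, ih, Divisor.degree_single, hdeg, Finsupp.sum_add_index' (by simp) (by simp),
      Finsupp.sum_single_index rfl]
    simp

theorem degree_nonneg (hdeg : ∀ P : Place K F, P.deg = 1) {D : Divisor K F} (hD : 0 ≤ D) :
    0 ≤ Divisor.degree D := by
  rw [degree_eq_sum hdeg]
  exact Finset.sum_nonneg fun P _ => Finsupp.le_def.mp hD P

theorem eq_zero_of_degree_eq_zero (hdeg : ∀ P : Place K F, P.deg = 1) {D : Divisor K F}
    (hD : 0 ≤ D) (h0 : Divisor.degree D = 0) : D = 0 := by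
  rw [degree_eq_sum hdeg] at h0
  ext P
  by_cases hP : P ∈ D.support
  · exact (Finset.sum_eq_zero_iff_of_nonneg fun Q _ => Finsupp.le_def.mp hD Q).mp h0 P hP
  · simpa using hP

theorem eq_of_le_of_degree_le (hdeg : ∀ P : Place K F, P.deg = 1) {D D' : Divisor K F}
    (hle : D ≤ D') (h : Divisor.degree D' ≤ Divisor.degree D) : D = D' := by
  have h1 : 0 ≤ D' - D := sub_nonneg.mpr hle
  have h2 : Divisor.degree (D' - D) = 0 := by
    have := degree_nonneg hdeg h1
    rw [map_sub] at this ⊢
    omega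
  have := eq_zero_of_degree_eq_zero hdeg h1 h2
  exact (sub_eq_zero.mp this).symm

theorem degree_le_of_le (hdeg : ∀ P : Place K F, P.deg = 1) {D D' : Divisor K F}
    (hle : D ≤ D') : Divisor.degree D ≤ Divisor.degree D' := by
  have h1 : 0 ≤ D' - D := sub_nonneg.mpr hle
  have := degree_nonneg hdeg h1
  rw [map_sub] at this
  omega

theorem degree_single_one (hdeg : ∀ P : Place K F, P.deg = 1) (P : Place K F) (n : ℤ) :
    Divisor.degree (Finsupp.single P n : Divisor K F) = n := by
  rw [Divisor.degree_single, hdeg]; simp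

/-- an effective divisor of degree one is a point -/
theorem exists_eq_single (hdeg : ∀ P : Place K F, P.deg = 1) {D : Divisor K F}
    (hD : 0 ≤ D) (h1 : Divisor.degree D = 1) : ∃ Q : Place K F, D = Finsupp.single Q 1 := by
  classical
  have hne : D ≠ 0 := by
    rintro rfl
    simp at h1
  obtain ⟨Q, hQ⟩ := Finsupp.support_nonempty_iff.mpr hne
  have hQ0 : D Q ≠ 0 := Finsupp.mem_support_iff.mp hQ
  have hQ1 : 1 ≤ D Q := by
    have := Finsupp.le_def.mp hD Q
    simp only [Finsupp.coe_zero, Pi.zero_apply] at this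
    omega
  refine ⟨Q, (eq_of_le_of_degree_le hdeg ?_ ?_).symm⟩
  · rw [Finsupp.le_def]
    intro P
    by_cases hP : P = Q
    · subst hP; simpa using hQ1
    · rw [Finsupp.single_apply, if_neg (Ne.symm hP)]
      exact Finsupp.le_def.mp hD P
  · rw [h1, degree_single_one hdeg]

/-! ### Riemann–Roch spaces -/

theorem mem_L_iff {D : Divisor K F} {f : F} (hf : f ≠ 0) :
    f ∈ riemannRochSpace D ↔ ∀ v : Place K F, -D v ≤ v.ord f := by
  rw [mem_riemannRochSpace_iff]
  exact forall_congr' fun v => by simp [hf]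

theorem L_mono {D D' : Divisor K F} (h : D ≤ D') :
    riemannRochSpace D ≤ riemannRochSpace D' := by
  intro f hf
  rw [mem_riemannRochSpace_iff] at hf ⊢
  intro v
  rcases hf v with h0 | h1
  · exact Or.inl h0
  · right
    have := Finsupp.le_def.mp h v
    omega

theorem mul_mem_L {D D' Dy : Divisor K F} {y f : F} (hy : y ≠ 0)
    (hDy : ∀ v : Place K F, Dy v = v.ord y) (hDD : D' = D - Dy)
    (hf : f ∈ riemannRochSpace D) : y * f ∈ riemannRochSpace D' := by
  subst hDD
  rcases eq_or_ne f 0 with rfl | hf0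
  · simp
  rw [mem_L_iff (mul_ne_zero hy hf0)]
  rw [mem_L_iff hf0] at hf
  intro v
  rw [v.ord_mul hy hf0, Finsupp.sub_apply, hDy]
  have := hf v
  omega

theorem mul_mem_L_iff {D D' Dy : Divisor K F} {y f : F} (hy : y ≠ 0)
    (hDy : ∀ v : Place K F, Dy v = v.ord y) (hDD : D' = D - Dy) :
    y * f ∈ riemannRochSpace D' ↔ f ∈ riemannRochSpace D := by
  subst hDD
  refine ⟨fun h => ?_, mul_mem_L hy hDy rfl⟩
  rcases eq_or_ne f 0 with rfl | hf0
  · simp
  rw [mem_L_iff (mul_ne_zero hy hf0)] at h
  rw [mem_L_iff hf0]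
  intro v
  have := h v
  rw [v.ord_mul hy hf0, Finsupp.sub_apply, hDy] at this
  omega

theorem mul_mem_L_add {D D' : Divisor K F} {f f' : F}
    (hf : f ∈ riemannRochSpace D) (hf' : f' ∈ riemannRochSpace D') :
    f * f' ∈ riemannRochSpace (D + D') := by
  rcases eq_or_ne f 0 with rfl | hf0
  · simp
  rcases eq_or_ne f' 0 with rfl | hf0'
  · simp
  rw [mem_L_iff (mul_ne_zero hf0 hf0')]
  rw [mem_L_iff hf0] at hf
  rw [mem_L_iff hf0'] at hf'
  intro v
  rw [v.ord_mul hf0 hf0', Finsupp.add_apply]
  have := hf v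
  have := hf' v
  omega

variable {g : ℕ}

/-- base point freeness from Riemann's theorem -/
theorem exists_ord_eq (h : CurveRR K F g) {D : Divisor K F}
    (hD : 2 * (g : ℤ) ≤ Divisor.degree D) (Q : Place K F) :
    ∃ f : F, f ∈ riemannRochSpace D ∧ f ≠ 0 ∧ Q.ord f = -D Q := by
  classical
  by_contra hcon
  push Not at hcon
  have hle : riemannRochSpace D ≤ riemannRochSpace (D - Finsupp.single Q 1) := by
    intro f hf
    rcases eq_or_ne f 0 with rfl | hf0
    · simp
    have hfD := (mem_L_iff hf0).mp hf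
    rw [mem_L_iff hf0]
    intro v
    rw [Finsupp.sub_apply, Finsupp.single_apply]
    by_cases hv : Q = v
    · subst hv
      rw [if_pos rfl]
      have h1 := hfD Q
      have h2 := hcon f hf hf0
      omega
    · rw [if_neg hv]
      have := hfD v
      omega
  have hge : riemannRochSpace (D - Finsupp.single Q 1) ≤ riemannRochSpace D :=
    L_mono (by
      rw [Finsupp.le_def]
      intro v
      rw [Finsupp.sub_apply, Finsupp.single_apply]
      split_ifs <;> omega)
  have heq := le_antisymm hle hge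
  have h1 := h.riemann D (by omega)
  have h2 := h.riemann (D - Finsupp.single Q 1) (by
    rw [map_sub, degree_single_one h.deg_one]; omega)
  rw [map_sub, degree_single_one h.deg_one, ← heq] at h2
  omega

/-- a divisor of degree `≥ 2g` is determined by (even monotone in) its Riemann–Roch space -/
theorem le_of_L_le (h : CurveRR K F g) {D D' : Divisor K F}
    (hD : 2 * (g : ℤ) ≤ Divisor.degree D)
    (hle : riemannRochSpace D ≤ riemannRochSpace D') : D ≤ D' := by
  rw [Finsupp.le_def]
  intro Q
  obtain ⟨f, hf, hf0, hQ⟩ := exists_ord_eq h hD Q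
  have := (mem_L_iff hf0).mp (hle hf) Q
  omega

theorem exists_ne_zero_mem_L (h : CurveRR K F g) {D : Divisor K F}
    (hD : 2 * (g : ℤ) ≤ Divisor.degree D) :
    ∃ f : F, f ∈ riemannRochSpace D ∧ f ≠ 0 := by
  obtain ⟨Q⟩ := h.nonempty
  obtain ⟨f, hf, hf0, -⟩ := exists_ord_eq h hD Q
  exact ⟨f, hf, hf0⟩

end Fermat.Agent.S18.RPrime
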