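import Mathlib
import Fermat.Agent.S18.RPrimeBasic

/-!
# S18, piece 87-P5, step A: the generic element of a finite dimensional space of functions
-/

set_option autoImplicit false

open AlgebraicCurve

noncomputable section

namespace Fermat.Agent.S18.RPrime

variable {K F : Type*} [Field K] [Field F] [Algebra K F] {g : ℕ}

/-- the divisor of a function (`0` for `f = 0`) -/
def divOf (h : CurveRR K F g) (f : F) : Divisor K F :=
  letI := Classical.propDecidable
  if hf : f = 0 then 0 else (h.exists_div f hf).choose

theorem divOf_apply (h : CurveRR K F g) (f : F) (v : Place K F) : divOf h f v = v.ord f := by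
  classical
  unfold divOf
  split_ifs with hf
  · subst hf; simp
  · exact (h.exists_div f hf).choose_spec.1 v

theorem degree_divOf (h : CurveRR K F g) (f : F) : Divisor.degree (divOf h f) = 0 := by
  classical
  unfold divOf
  split_ifs with hf
  · simp
  · exact (h.exists_div f hf).choose_spec.2

theorem degree_eq_zero_of_div (h : CurveRR K F g) {f : F} {D : Divisor K F}
    (hD : ∀ v : Place K F, D v = v.ord f) : Divisor.degree D = 0 := by
  have : D = divOf h f := by
    ext v
    rw [hD, divOf_apply]
  rw [this, degree_divOf]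

/-- the pole part `max (-D) 0` of a divisor -/
def polePart (D : Divisor K F) : Divisor K F := D.mapRange (fun n => max (-n) 0) (by simp)

/-- the zero part `max D 0` of a divisor -/
def zeroPart (D : Divisor K F) : Divisor K F := D.mapRange (fun n => max n 0) (by simp)

@[simp] theorem polePart_apply (D : Divisor K F) (v : Place K F) :
    polePart D v = max (-D v) 0 := by simp [polePart]

@[simp] theorem zeroPart_apply (D : Divisor K F) (v : Place K F) :
    zeroPart D v = max (D v) 0 := by simp [zeroPart]

theorem polePart_nonneg (D : Divisor K F) : 0 ≤ polePart D := by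
  rw [Finsupp.le_def]; intro v; simp

theorem zeroPart_nonneg (D : Divisor K F) : 0 ≤ zeroPart D := by
  rw [Finsupp.le_def]; intro v; simp

theorem zeroPart_sub_polePart (D : Divisor K F) : zeroPart D - polePart D = D := by
  ext v
  rw [Finsupp.sub_apply, zeroPart_apply, polePart_apply]
  rcases le_total (D v) 0 with h | h
  · rw [max_eq_right h, max_eq_left (by omega)]; omega
  · rw [max_eq_left h, max_eq_right (by omega)]; omega

theorem ord_eq_of_mem_of_not_mem {D : Divisor K F} {Q : Place K F} {f : F}
    (hf : f ∈ riemannRochSpace D) (hf' : f ∉ riemannRochSpace (D - Finsupp.single Q 1)) :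
    f ≠ 0 ∧ Q.ord f = -D Q := by
  classical
  have hf0 : f ≠ 0 := by
    rintro rfl
    exact hf' (Submodule.zero_mem _)
  refine ⟨hf0, ?_⟩
  rw [mem_L_iff hf0] at hf hf'
  push Not at hf'
  obtain ⟨v, hv⟩ := hf'
  rw [Finsupp.sub_apply, Finsupp.single_apply] at hv
  have h1 := hf v
  by_cases hQv : Q = v
  · subst hQv
    rw [if_pos rfl] at hv
    omega
  · rw [if_neg hQv] at hv
    omega

/-- every finite dimensional space of functions lies in some `L(E)`, `E ≥ 0` -/
theorem exists_le_L (h : CurveRR K F g) (Λ : Submodule K F) (hfin : Module.Finite K Λ) :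
    ∃ E : Divisor K F, 0 ≤ E ∧ Λ ≤ riemannRochSpace E := by
  classical
  obtain ⟨s, hs⟩ := (Submodule.fg_top Λ).mp hfin.fg_top
  refine ⟨∑ f ∈ s, polePart (divOf h f), Finset.sum_nonneg fun f _ => polePart_nonneg _, ?_⟩
  rw [← hs, Submodule.span_le]
  intro f hf
  rw [SetLike.mem_coe, mem_riemannRochSpace_iff]
  intro v
  right
  have h1 : polePart (divOf h f) v ≤ (∑ f' ∈ s, polePart (divOf h f')) v := by
    rw [Finsupp.finsetSum_apply]
    exact Finset.single_le_sum (f := fun f' => polePart (divOf h f') v)
      (fun f' _ => Finsupp.le_def.mp (polePart_nonneg _) v) (Finset.mem_coe.mp hf)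
  rw [polePart_apply, divOf_apply] at h1
  have := le_max_left (-v.ord f) 0
  omega

/-- **Step A**: the generic element. -/
theorem exists_generic [Infinite K] (h : CurveRR K F g) (Λ : Submodule K F)
    (hfin : Module.Finite K Λ) :
    ∃ E : Divisor K F, 0 ≤ E ∧ Λ ≤ riemannRochSpace E ∧
      ∃ f : F, f ∈ Λ ∧ (f ≠ 0 ∨ E = 0) ∧ ∀ Q : Place K F, 0 < E Q → Q.ord f = -E Q := by
  classical
  -- minimal degree
  have hex : ∃ n : ℕ, ∃ E : Divisor K F, 0 ≤ E ∧ Λ ≤ riemannRochSpace E ∧
      (Divisor.degree E).toNat = n := by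
    obtain ⟨E, hE, hΛ⟩ := exists_le_L h Λ hfin
    exact ⟨_, E, hE, hΛ, rfl⟩
  obtain ⟨E, hE, hΛ, hEn⟩ := Nat.find_spec hex
  have hmin : ∀ E' : Divisor K F, 0 ≤ E' → Λ ≤ riemannRochSpace E' →
      Divisor.degree E ≤ Divisor.degree E' := by
    intro E' hE' hΛ'
    have h1 := Nat.find_min' hex ⟨E', hE', hΛ', rfl⟩
    rw [← hEn] at h1
    have h2 := degree_nonneg h.deg_one hE
    have h3 := degree_nonneg h.deg_one hE'
    omega
  refine ⟨E, hE, hΛ, ?_⟩
  -- the proper subspaces
  have hproper : ∀ Q : Place K F, 0 < E Q →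
      ¬ Λ ≤ riemannRochSpace (E - Finsupp.single Q 1) := by
    intro Q hQ hle
    have h0 : 0 ≤ E - Finsupp.single Q 1 := by
      rw [Finsupp.le_def]
      intro v
      rw [Finsupp.sub_apply, Finsupp.single_apply]
      have := Finsupp.le_def.mp hE v
      simp only [Finsupp.coe_zero, Pi.zero_apply] at this ⊢
      split_ifs with hv
      · subst hv; omega
      · omega
    have := hmin _ h0 hle
    rw [map_sub, degree_single_one h.deg_one] at this
    omega
  let p : Place K F → Submodule K Λ := fun Q =>
    (riemannRochSpace (E - Finsupp.single Q 1)).comap Λ.subtype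
  have htop : (⊤ : Submodule K Λ) ∉ E.support.image p := by
    intro hmem
    obtain ⟨Q, hQ, hQtop⟩ := Finset.mem_image.mp hmem
    have hQ0 : 0 < E Q := by
      have h1 := Finsupp.le_def.mp hE Q
      have h2 := Finsupp.mem_support_iff.mp hQ
      simp only [Finsupp.coe_zero, Pi.zero_apply] at h1
      omega
    apply hproper Q hQ0
    intro f hf
    have : (⟨f, hf⟩ : Λ) ∈ p Q := by rw [hQtop]; trivial
    exact this
  have hne := Subspace.biUnion_ne_univ_of_top_notMem htop
  obtain ⟨f, hf⟩ := (Set.ne_univ_iff_exists_notMem _).mp hne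
  simp only [Set.mem_iUnion, not_exists] at hf
  refine ⟨f, f.2, ?_, ?_⟩
  · by_cases hE0 : E = 0
    · exact Or.inr hE0
    · left
      obtain ⟨Q, hQ⟩ := Finsupp.support_nonempty_iff.mpr hE0
      have := hf (p Q) (Finset.mem_image_of_mem p hQ)
      intro hf0
      apply this
      show (f : F) ∈ riemannRochSpace (E - Finsupp.single Q 1)
      rw [hf0]
      exact Submodule.zero_mem _
  · intro Q hQ
    have hQs : Q ∈ E.support := Finsupp.mem_support_iff.mpr (by omega)
    have := hf (p Q) (Finset.mem_image_of_mem p hQs)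
    exact (ord_eq_of_mem_of_not_mem (hΛ f.2) this).2

end Fermat.Agent.S18.RPrime
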