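import Mathlib
import Fermat.Agent.S18.RPrimeGeneric

/-!
# S18, piece 87-P5, steps B, C, D: the divisor `ρ(E)` of the reduction of `L(E)`, additivity,
and the map `r'` on places
-/

set_option autoImplicit false

open AlgebraicCurve

noncomputable section

namespace Fermat.Agent.S18.RPrime

variable {K F k Fb : Type*} [Field K] [Field F] [Algebra K F]
  [Field k] [Field Fb] [Algebra k Fb] {g : ℕ}

theorem RedDatum.redSub_mono (R : RedDatum K F k Fb) {S S' : Submodule K F} (h : S ≤ S') :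
    R.redSub S ≤ R.redSub S' := by
  rintro x ⟨y, hy, rfl⟩
  exact ⟨y, h hy, rfl⟩

/-- **Step B**: for `E ≥ 0` of degree `> 3g` the reduction of `L(E)` is `L_k(E')` with
`E' ≥ 0` of the same degree. -/
theorem exists_rho [Infinite k] (hK : CurveRR K F g) (hk : CurveRR k Fb g)
    (R : RedDatum K F k Fb) (hR : R.Good) (E : Divisor K F) (hE : 0 ≤ E)
    (hdeg : 3 * (g : ℤ) < Divisor.degree E) :
    ∃ E' : Divisor k Fb, 0 ≤ E' ∧ Divisor.degree E' = Divisor.degree E ∧
      R.redSub (riemannRochSpace E) = riemannRochSpace E' := by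
  have hfinE := hK.finite E
  have hdimE := hK.riemann E (by omega)
  have hlat := hR.lattice (riemannRochSpace E) hfinE
  have hpos : 0 < Module.finrank k (R.redSub (riemannRochSpace E)) := by
    rw [hlat]
    have : (0 : ℤ) < (Module.finrank K (riemannRochSpace E) : ℤ) := by omega
    exact_mod_cast this
  have hfinΛ : Module.Finite k (R.redSub (riemannRochSpace E)) :=
    Module.finite_of_finrank_pos hpos
  obtain ⟨E', hE', hΛ, f, hfΛ, hf0, hford⟩ :=
    exists_generic hk (R.redSub (riemannRochSpace E)) hfinΛ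
  have hdrop : Divisor.degree E' ≤ Divisor.degree E := by
    rcases hf0 with hf0 | hE0
    · obtain ⟨y, hy, rfl⟩ := hfΛ
      exact hR.degree_drop y hf0 E E' hE hy hE' fun Q hQ => by rw [hford Q hQ, neg_neg]
    · subst hE0
      have := degree_nonneg hK.deg_one hE
      simpa using this
  have hfinE' := hk.finite E'
  have hle : (Module.finrank k (R.redSub (riemannRochSpace E)) : ℤ) ≤
      (Module.finrank k (riemannRochSpace E') : ℤ) := by
    exact_mod_cast Submodule.finrank_mono hΛ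
  have hdimle := hk.dim_le E' hE'
  have hlat' : (Module.finrank k (R.redSub (riemannRochSpace E)) : ℤ) =
      Divisor.degree E + 1 - g := by rw [hlat, hdimE]
  have hdimE' := hk.riemann E' (by omega)
  have hdegeq : Divisor.degree E' = Divisor.degree E := by omega
  refine ⟨E', hE', hdegeq, ?_⟩
  apply Submodule.eq_of_le_of_finrank_le hΛ
  have : (Module.finrank k (riemannRochSpace E') : ℤ) ≤
      (Module.finrank k (R.redSub (riemannRochSpace E)) : ℤ) := by omega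
  exact_mod_cast this

/-- the properties of a choice `ρ` of the divisors of step B -/
def IsRho (R : RedDatum K F k Fb) (g : ℕ) (ρ : Divisor K F → Divisor k Fb) : Prop :=
  ∀ E : Divisor K F, 0 ≤ E → 3 * (g : ℤ) < Divisor.degree E →
    0 ≤ ρ E ∧ Divisor.degree (ρ E) = Divisor.degree E ∧
      R.redSub (riemannRochSpace E) = riemannRochSpace (ρ E)

theorem exists_isRho [Infinite k] (hK : CurveRR K F g) (hk : CurveRR k Fb g)
    (R : RedDatum K F k Fb) (hR : R.Good) : ∃ ρ, IsRho R g ρ := by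
  have := exists_rho hK hk R hR
  choose! ρ hρ using this
  exact ⟨ρ, hρ⟩

section Rho

variable (hK : CurveRR K F g) (hk : CurveRR k Fb g) {R : RedDatum K F k Fb}
  {ρ : Divisor K F → Divisor k Fb} (hρ : IsRho R g ρ)

include hk hρ in
/-- **Step C1**: `ρ` is monotone. -/
theorem IsRho.mono {E₁ E₂ : Divisor K F} (h1 : 0 ≤ E₁) (hd1 : 3 * (g : ℤ) < Divisor.degree E₁)
    (h2 : 0 ≤ E₂) (hd2 : 3 * (g : ℤ) < Divisor.degree E₂) (hle : E₁ ≤ E₂) : ρ E₁ ≤ ρ E₂ := by
  obtain ⟨-, hdeg1, hL1⟩ := hρ E₁ h1 hd1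
  obtain ⟨-, -, hL2⟩ := hρ E₂ h2 hd2
  apply le_of_L_le hk (by omega)
  rw [← hL1, ← hL2]
  exact R.redSub_mono (L_mono hle)

include hK hk hρ in
/-- **Step C2**: `ρ` is additive. -/
theorem IsRho.add {E₁ E₂ : Divisor K F} (h1 : 0 ≤ E₁) (hd1 : 3 * (g : ℤ) < Divisor.degree E₁)
    (h2 : 0 ≤ E₂) (hd2 : 3 * (g : ℤ) < Divisor.degree E₂) :
    ρ (E₁ + E₂) = ρ E₁ + ρ E₂ := by
  have h12 : 0 ≤ E₁ + E₂ := add_nonneg h1 h2
  have hd12 : 3 * (g : ℤ) < Divisor.degree (E₁ + E₂) := by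
    rw [map_add]
    have := degree_nonneg hK.deg_one h2
    omega
  obtain ⟨-, hdeg1, hL1⟩ := hρ E₁ h1 hd1
  obtain ⟨-, hdeg2, hL2⟩ := hρ E₂ h2 hd2
  obtain ⟨-, hdeg12, hL12⟩ := hρ (E₁ + E₂) h12 hd12
  symm
  apply eq_of_le_of_degree_le hk.deg_one
  · rw [Finsupp.le_def]
    intro Q
    obtain ⟨f₁, hf₁, hf₁0, hQ₁⟩ := exists_ord_eq hk (D := ρ E₁) (by omega) Q
    obtain ⟨f₂, hf₂, hf₂0, hQ₂⟩ := exists_ord_eq hk (D := ρ E₂) (by omega) Q
    rw [← hL1] at hf₁
    rw [← hL2] at hf₂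
    obtain ⟨y₁, hy₁, rfl⟩ := hf₁
    obtain ⟨y₂, hy₂, rfl⟩ := hf₂
    have hmem : R.red y₁ * R.red y₂ ∈ riemannRochSpace (ρ (E₁ + E₂)) := by
      rw [← hL12]
      exact ⟨y₁ * y₂, mul_mem_L_add hy₁ hy₂, map_mul _ _ _⟩
    have := (mem_L_iff (mul_ne_zero hf₁0 hf₂0)).mp hmem Q
    rw [Q.ord_mul hf₁0 hf₂0, hQ₁, hQ₂] at this
    rw [Finsupp.add_apply]
    omega
  · rw [map_add, hdeg12, map_add, hdeg1, hdeg2]

end Rho

end Fermat.Agent.S18.RPrime
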