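import Mathlib
import Fermat.Agent.S18.RPrimeRho

/-!
# S18, piece 87-P5, steps D, E, F: the map `r'` on places, compatibility with divisors, `(F3)`
-/

set_option autoImplicit false

open AlgebraicCurve

noncomputable section

namespace Fermat.Agent.S18.RPrime

variable {K F k Fb : Type*} [Field K] [Field F] [Algebra K F]
  [Field k] [Field Fb] [Algebra k Fb] {g : ℕ}

theorem degree_mapDomain (hK : ∀ P : Place K F, P.deg = 1) (hk : ∀ Q : Place k Fb, Q.deg = 1)
    (r : Place K F → Place k Fb) (D : Divisor K F) :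
    Divisor.degree (Finsupp.mapDomain r D) = Divisor.degree D := by
  induction D using Finsupp.induction with
  | zero => simp
  | single_add P n D _ _ ih =>
    rw [Finsupp.mapDomain_add, map_add, map_add, ih, Finsupp.mapDomain_single,
      Divisor.degree_single, Divisor.degree_single, hK, hk]

theorem mapDomain_nonneg (r : Place K F → Place k Fb) {D : Divisor K F} (hD : 0 ≤ D) :
    0 ≤ Finsupp.mapDomain r D := by
  classical
  rw [Finsupp.le_def]
  intro Q
  rw [Finsupp.mapDomain, Finsupp.sum_apply]
  exact Finset.sum_nonneg fun P _ => by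
    show 0 ≤ (Finsupp.single (r P) (D P)) Q
    rw [Finsupp.single_apply]
    have := Finsupp.le_def.mp hD P
    simp only [Finsupp.coe_zero, Pi.zero_apply] at this ⊢
    split_ifs <;> omega

theorem mapDomain_sub' (r : Place K F → Place k Fb) (D D' : Divisor K F) :
    Finsupp.mapDomain r (D - D') = Finsupp.mapDomain r D - Finsupp.mapDomain r D' := by
  rw [eq_sub_iff_add_eq, ← Finsupp.mapDomain_add, sub_add_cancel]

/-- the base divisor `(3g + 1) P₀` -/
def baseDiv (g : ℕ) (P₀ : Place K F) : Divisor K F := Finsupp.single P₀ (3 * (g : ℤ) + 1)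

theorem baseDiv_nonneg (P₀ : Place K F) : 0 ≤ baseDiv g P₀ := by
  classical
  rw [Finsupp.le_def]
  intro v
  rw [baseDiv, Finsupp.single_apply]
  simp only [Finsupp.coe_zero, Pi.zero_apply]
  split_ifs <;> omega

theorem degree_baseDiv (hK : ∀ P : Place K F, P.deg = 1) (P₀ : Place K F) :
    Divisor.degree (baseDiv g P₀) = 3 * (g : ℤ) + 1 := by
  rw [baseDiv, degree_single_one hK]

theorem single_one_nonneg (P : Place K F) : (0 : Divisor K F) ≤ Finsupp.single P 1 := by
  classical
  rw [Finsupp.le_def]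
  intro v
  rw [Finsupp.single_apply]
  simp only [Finsupp.coe_zero, Pi.zero_apply]
  split_ifs <;> omega

section Rho

variable (hK : CurveRR K F g) (hk : CurveRR k Fb g) {R : RedDatum K F k Fb}
  {ρ : Divisor K F → Divisor k Fb} (hρ : IsRho R g ρ)

include hK hk hρ in
/-- **Step D0**: the point `r'(P)`. -/
theorem IsRho.exists_point (P₀ P : Place K F) :
    ∃ Q : Place k Fb, ρ (baseDiv g P₀ + Finsupp.single P 1) = ρ (baseDiv g P₀) +
      Finsupp.single Q 1 := by
  have h0 := baseDiv_nonneg (g := g) P₀
  have hd0 := degree_baseDiv (g := g) hK.deg_one P₀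
  have h1 : 0 ≤ baseDiv g P₀ + Finsupp.single P 1 := add_nonneg h0 (single_one_nonneg P)
  have hd1 : Divisor.degree (baseDiv g P₀ + Finsupp.single P 1) = 3 * (g : ℤ) + 2 := by
    rw [map_add, hd0, degree_single_one hK.deg_one]; ring
  have hmono := hρ.mono hk h0 (by omega) h1 (by omega) (le_add_of_nonneg_right (single_one_nonneg P))
  obtain ⟨-, hdeg0, -⟩ := hρ _ h0 (by omega)
  obtain ⟨-, hdeg1, -⟩ := hρ _ h1 (by omega)
  obtain ⟨Q, hQ⟩ := exists_eq_single hk.deg_one (D := ρ (baseDiv g P₀ + Finsupp.single P 1) -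
    ρ (baseDiv g P₀)) (sub_nonneg.mpr hmono) (by rw [map_sub, hdeg0, hdeg1, hd0, hd1]; ring)
  exact ⟨Q, by rw [← hQ]; abel⟩

/-- the properties of `r'` relative to `ρ` -/
def IsPoint (ρ : Divisor K F → Divisor k Fb) (g : ℕ) (P₀ : Place K F)
    (r : Place K F → Place k Fb) : Prop :=
  ∀ P : Place K F, ρ (baseDiv g P₀ + Finsupp.single P 1) = ρ (baseDiv g P₀) +
      Finsupp.single (r P) 1

include hK hk hρ in
theorem IsRho.exists_isPoint (P₀ : Place K F) : ∃ r, IsPoint ρ g P₀ r := by
  have := fun P => hρ.exists_point hK hk P₀ P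
  choose r hr using this
  exact ⟨r, hr⟩

variable {P₀ : Place K F} {r : Place K F → Place k Fb} (hr : IsPoint ρ g P₀ r)

include hK hk hρ hr in
/-- **Step D1** -/
theorem IsRho.add_single {E : Divisor K F} (hE : 0 ≤ E) (hd : 3 * (g : ℤ) < Divisor.degree E)
    (P : Place K F) : ρ (E + Finsupp.single P 1) = ρ E + Finsupp.single (r P) 1 := by
  have h0 := baseDiv_nonneg (g := g) P₀
  have hd0 := degree_baseDiv (g := g) hK.deg_one P₀
  have h1 : 0 ≤ baseDiv g P₀ + Finsupp.single P 1 := add_nonneg h0 (single_one_nonneg P)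
  have hd1 : Divisor.degree (baseDiv g P₀ + Finsupp.single P 1) = 3 * (g : ℤ) + 2 := by
    rw [map_add, hd0, degree_single_one hK.deg_one]; ring
  have hE1 : 0 ≤ E + Finsupp.single P 1 := add_nonneg hE (single_one_nonneg P)
  have hdE1 : 3 * (g : ℤ) < Divisor.degree (E + Finsupp.single P 1) := by
    rw [map_add, degree_single_one hK.deg_one]; omega
  have e1 := hρ.add hK hk hE1 hdE1 h0 (by omega)
  have e2 := hρ.add hK hk hE hd h1 (by omega)
  have e3 : E + Finsupp.single P 1 + baseDiv g P₀ = E + (baseDiv g P₀ + Finsupp.single P 1) := by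
    abel
  rw [e3, e2, hr P] at e1
  have : ρ (E + Finsupp.single P 1) + ρ (baseDiv g P₀) =
      (ρ E + Finsupp.single (r P) 1) + ρ (baseDiv g P₀) := by
    rw [← e1]; abel
  exact add_right_cancel this

include hK hk hρ hr in
/-- **Step D2** -/
theorem IsRho.base_add (n : ℕ) : ∀ D : Divisor K F, 0 ≤ D → Divisor.degree D = n →
    ρ (baseDiv g P₀ + D) = ρ (baseDiv g P₀) + Finsupp.mapDomain r D := by
  classical
  have h0 := baseDiv_nonneg (g := g) P₀
  have hd0 := degree_baseDiv (g := g) hK.deg_one P₀
  induction n with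
  | zero =>
    intro D hD hdeg
    have := eq_zero_of_degree_eq_zero hK.deg_one hD (by simpa using hdeg)
    subst this
    simp
  | succ n ih =>
    intro D hD hdeg
    have hne : D ≠ 0 := by
      rintro rfl
      simp at hdeg
      omega
    obtain ⟨P, hP⟩ := Finsupp.support_nonempty_iff.mpr hne
    have hP1 : 1 ≤ D P := by
      have h1 := Finsupp.le_def.mp hD P
      have h2 := Finsupp.mem_support_iff.mp hP
      simp only [Finsupp.coe_zero, Pi.zero_apply] at h1
      omega
    have hD' : 0 ≤ D - Finsupp.single P 1 := by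
      rw [Finsupp.le_def]
      intro v
      rw [Finsupp.sub_apply, Finsupp.single_apply]
      have := Finsupp.le_def.mp hD v
      simp only [Finsupp.coe_zero, Pi.zero_apply] at this ⊢
      split_ifs with hv
      · subst hv; omega
      · omega
    have hdeg' : Divisor.degree (D - Finsupp.single P 1) = n := by
      rw [map_sub, degree_single_one hK.deg_one, hdeg]; push_cast; ring
    have ih' := ih _ hD' hdeg'
    have hE : 0 ≤ baseDiv g P₀ + (D - Finsupp.single P 1) := add_nonneg h0 hD'
    have hdE : 3 * (g : ℤ) < Divisor.degree (baseDiv g P₀ + (D - Finsupp.single P 1)) := by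
      rw [map_add, hd0, hdeg']; omega
    have := hρ.add_single hK hk hr hE hdE P
    have e : baseDiv g P₀ + (D - Finsupp.single P 1) + Finsupp.single P 1 = baseDiv g P₀ + D := by
      abel
    rw [e, ih'] at this
    rw [this, add_assoc, ← Finsupp.mapDomain_single (f := r), ← Finsupp.mapDomain_add,
      sub_add_cancel]

include hK hk hρ hr in
/-- **Step D3**: `ρ = r'_*` on effective divisors of degree `> 3g`. -/
theorem IsRho.eq_mapDomain {E : Divisor K F} (hE : 0 ≤ E) (hd : 3 * (g : ℤ) < Divisor.degree E) :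
    ρ E = Finsupp.mapDomain r E := by
  have h0 := baseDiv_nonneg (g := g) P₀
  have hd0 := degree_baseDiv (g := g) hK.deg_one P₀
  have hn : Divisor.degree E = ((Divisor.degree E).toNat : ℤ) := by
    have := degree_nonneg hK.deg_one hE
    omega
  have e1 := hρ.base_add hK hk hr _ E hE hn
  have e2 := hρ.add hK hk h0 (by omega) hE hd
  rw [e2] at e1
  exact add_left_cancel e1

include hK hk hρ hr in
/-- `(F3)` for effective divisors -/
theorem IsRho.redSub_eq {E : Divisor K F} (hE : 0 ≤ E) (hd : 3 * (g : ℤ) < Divisor.degree E) :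
    R.redSub (riemannRochSpace E) = riemannRochSpace (Finsupp.mapDomain r E) := by
  rw [← hρ.eq_mapDomain hK hk hr hE hd]
  exact (hρ E hE hd).2.2

end Rho

end Fermat.Agent.S18.RPrime
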