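import Mathlib
import Fermat.Agent.S18.RPrimeMap

/-!
# S18, piece 87-P5, steps E, F: compatibility of `r'` with divisors of units, `(F3)` in general,
and the statement `RPrimeStatement` from `RedDatum.Good`
-/

set_option autoImplicit false

open AlgebraicCurve

noncomputable section

namespace Fermat.Agent.S18.RPrime

variable {K F k Fb : Type*} [Field K] [Field F] [Algebra K F]
  [Field k] [Field Fb] [Algebra k Fb] {g : ℕ}

theorem coe_ne_zero_of_isUnit {O : ValuationSubring F} {y : O} (hy : IsUnit y) : (y : F) ≠ 0 := by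
  intro h
  exact hy.ne_zero (Subtype.ext h)

section Rho

variable (hK : CurveRR K F g) (hk : CurveRR k Fb g) {R : RedDatum K F k Fb}
  {ρ : Divisor K F → Divisor k Fb} (hρ : IsRho R g ρ)
  {P₀ : Place K F} {r : Place K F → Place k Fb} (hr : IsPoint ρ g P₀ r)

include hK hk hρ hr in
/-- **Step E**: `div (red y) = r'_* div y` for units `y` of `O`. -/
theorem IsRho.mapDomain_div_eq {y : R.O} (hy : IsUnit y) {D : Divisor K F}
    (hD : ∀ P : Place K F, D P = P.ord (y : F)) :
    Finsupp.mapDomain r D = divOf hk (R.red y) := by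
  have hy0 : (y : F) ≠ 0 := coe_ne_zero_of_isUnit hy
  have hry0 : R.red y ≠ 0 := (hy.map R.red).ne_zero
  have hdegD : Divisor.degree D = 0 := degree_eq_zero_of_div hK hD
  have h0 := baseDiv_nonneg (g := g) P₀
  have hd0 := degree_baseDiv (g := g) hK.deg_one P₀
  have hZ := zeroPart_nonneg D
  have hE := polePart_nonneg D
  have hZE := zeroPart_sub_polePart D
  have hdegZE : Divisor.degree (zeroPart D) = Divisor.degree (polePart D) := by
    have := congrArg Divisor.degree hZE
    rw [map_sub, hdegD] at this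
    omega
  have hdZ := degree_nonneg hK.deg_one hZ
  have hX₁0 : 0 ≤ baseDiv g P₀ + zeroPart D := add_nonneg h0 hZ
  have hX₂0 : 0 ≤ baseDiv g P₀ + polePart D := add_nonneg h0 hE
  have hX₁d : 3 * (g : ℤ) < Divisor.degree (baseDiv g P₀ + zeroPart D) := by
    rw [map_add, hd0]; omega
  have hX₂d : 3 * (g : ℤ) < Divisor.degree (baseDiv g P₀ + polePart D) := by
    rw [map_add, hd0]; omega
  have hX₁ := hρ.redSub_eq hK hk hr hX₁0 hX₁d
  have hX₂ := hρ.redSub_eq hK hk hr hX₂0 hX₂d
  have hX12 : baseDiv g P₀ + polePart D = baseDiv g P₀ + zeroPart D - D := by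
    nth_rewrite 3 [← hZE]; abel
  have hle : riemannRochSpace (Finsupp.mapDomain r (baseDiv g P₀ + zeroPart D)) ≤
      riemannRochSpace (Finsupp.mapDomain r (baseDiv g P₀ + polePart D) + divOf hk (R.red y)) := by
    intro μ hμ
    rw [← hX₁] at hμ
    obtain ⟨w, hw, rfl⟩ := hμ
    have h1 : (y : F) * (w : F) ∈ riemannRochSpace (baseDiv g P₀ + polePart D) :=
      mul_mem_L hy0 hD hX12 hw
    have h2 : R.red y * R.red w ∈
        riemannRochSpace (Finsupp.mapDomain r (baseDiv g P₀ + polePart D)) := by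
      rw [← hX₂]
      exact ⟨y * w, h1, map_mul _ _ _⟩
    exact (mul_mem_L_iff hry0 (divOf_apply hk _) (by abel)).mp h2
  have hdm₁ := degree_mapDomain hK.deg_one hk.deg_one r (baseDiv g P₀ + zeroPart D)
  have hdm₂ := degree_mapDomain hK.deg_one hk.deg_one r (baseDiv g P₀ + polePart D)
  have hle' := le_of_L_le hk (by rw [hdm₁]; omega) hle
  have heq := eq_of_le_of_degree_le hk.deg_one hle' (by
    rw [map_add, degree_divOf, hdm₁, hdm₂, map_add, map_add, hdegZE]; simp)
  have hD' : D = (baseDiv g P₀ + zeroPart D) - (baseDiv g P₀ + polePart D) := by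
    nth_rewrite 1 [← hZE]; abel
  rw [hD', mapDomain_sub', heq]
  abel

include hK hk hρ hr in
/-- **Step F**: `(F3)` for every divisor of degree `> 3g`. -/
theorem IsRho.redSub_eq_general (E : Divisor K F) (hd : 3 * (g : ℤ) < Divisor.degree E) :
    R.redSub (riemannRochSpace E) = riemannRochSpace (Finsupp.mapDomain r E) := by
  obtain ⟨y₀, hy₀, hy₀0⟩ := exists_ne_zero_mem_L hK (D := E) (by omega)
  obtain ⟨c, hc, hmem, hunit⟩ := R.exists_scale y₀ hy₀0
  set y : R.O := ⟨c • y₀, hmem⟩ with hydef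
  have hyE : (y : F) ∈ riemannRochSpace E := (riemannRochSpace E).smul_mem c hy₀
  have hy0 : (y : F) ≠ 0 := coe_ne_zero_of_isUnit hunit
  have hry0 : R.red y ≠ 0 := (hunit.map R.red).ne_zero
  have hE₁0 : 0 ≤ E + divOf hK (y : F) := by
    rw [Finsupp.le_def]
    intro v
    rw [Finsupp.add_apply, divOf_apply]
    have := (mem_L_iff hy0).mp hyE v
    simp only [Finsupp.coe_zero, Pi.zero_apply]
    omega
  have hE₁d : 3 * (g : ℤ) < Divisor.degree (E + divOf hK (y : F)) := by
    rw [map_add, degree_divOf]; omega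
  have hE₁ := hρ.redSub_eq hK hk hr hE₁0 hE₁d
  have hcompat := hρ.mapDomain_div_eq hK hk hr hunit (D := divOf hK (y : F))
    (fun P => divOf_apply hK _ P)
  have hmap : Finsupp.mapDomain r (E + divOf hK (y : F)) =
      Finsupp.mapDomain r E + divOf hk (R.red y) := by
    rw [Finsupp.mapDomain_add, hcompat]
  rw [hmap] at hE₁
  obtain ⟨u, hu⟩ := hunit
  apply le_antisymm
  · rintro x ⟨w, hw, rfl⟩
    have hyu : y * (↑u⁻¹ * w) = w := by
      rw [← mul_assoc, ← hu, Units.mul_inv, one_mul]
    have h1 : ((↑u⁻¹ * w : R.O) : F) ∈ riemannRochSpace (E + divOf hK (y : F)) := by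
      apply (mul_mem_L_iff hy0 (divOf_apply hK _) (D' := E) (by abel)).mp
      have := congrArg (Subtype.val) hyu
      simp only [MulMemClass.coe_mul] at this ⊢
      rw [this]
      exact hw
    have h2 : R.red (↑u⁻¹ * w) ∈
        riemannRochSpace (Finsupp.mapDomain r E + divOf hk (R.red y)) := by
      rw [← hE₁]
      exact ⟨_, h1, rfl⟩
    have h3 := mul_mem_L hry0 (divOf_apply hk _) (D' := Finsupp.mapDomain r E) (by abel) h2
    rw [← map_mul, hyu] at h3
    exact h3
  · intro x hx
    have h1 : (R.red y)⁻¹ * x ∈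
        riemannRochSpace (Finsupp.mapDomain r E + divOf hk (R.red y)) := by
      apply (mul_mem_L_iff hry0 (divOf_apply hk _) (D' := Finsupp.mapDomain r E) (by abel)).mp
      rw [mul_inv_cancel_left₀ hry0]
      exact hx
    rw [← hE₁] at h1
    obtain ⟨w₁, hw₁, hw₁x⟩ := h1
    refine ⟨y * w₁, mul_mem_L hy0 (divOf_apply hK _) (D' := E) (by abel) hw₁, ?_⟩
    rw [map_mul, hw₁x, mul_inv_cancel_left₀ hry0]

end Rho

/-- **87-P5 (from the two arithmetic inputs)**: the place reduction `r'`. -/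
theorem rPrimeStatement_of_good [Infinite k] (hK : CurveRR K F g) (hk : CurveRR k Fb g)
    (R : RedDatum K F k Fb) (hR : R.Good) : RPrimeStatement g R := by
  obtain ⟨ρ, hρ⟩ := exists_isRho hK hk R hR
  obtain ⟨P₀⟩ := hK.nonempty
  obtain ⟨r, hr⟩ := hρ.exists_isPoint hK hk P₀
  refine ⟨r, fun y hy D hD Q => ?_, fun E hd => hρ.redSub_eq_general hK hk hr E hd⟩
  rw [hρ.mapDomain_div_eq hK hk hr hy hD, divOf_apply]

end Fermat.Agent.S18.RPrime
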