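import Mathlib
import Fermat.Agent.S18.RPrimeGeneric

/-!
# S18, piece 87-P5: the easy half of `deg (y)_∞ = [F : K(y)]`, in the form of an independent family

For `y ≠ 0` and an effective divisor `E'` below the pole divisor of `y` there are `deg E'`
functions `t_i` such that the `y ^ m * t_i` are linearly independent over `K`.
-/

set_option autoImplicit false

open AlgebraicCurve WithZero

noncomputable section

namespace Fermat.Agent.S18.RPrime

variable {K F : Type*} [Field K] [Field F] [Algebra K F] {g : ℕ}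

theorem ord_const (v : Place K F) {c : K} (hc : c ≠ 0) : v.ord (algebraMap K F c) = 0 := by
  have h1 := v.adicValuation_algebraMap_le_one c
  have h2 := v.adicValuation_algebraMap_le_one c⁻¹
  have hne : algebraMap K F c ≠ 0 := by simpa using hc
  rw [v.adicValuation_eq_exp_neg_ord hne, ← WithZero.exp_zero, exp_le_exp] at h1
  rw [map_inv₀, v.adicValuation_eq_exp_neg_ord (inv_ne_zero hne), v.ord_inv,
    ← WithZero.exp_zero, exp_le_exp] at h2
  omega

theorem ord_smul (v : Place K F) {c : K} (hc : c ≠ 0) (f : F) : v.ord (c • f) = v.ord f := by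
  rcases eq_or_ne f 0 with rfl | hf
  · simp
  rw [Algebra.smul_def, v.ord_mul (by simpa using hc) hf, ord_const v hc, zero_add]

theorem ord_pow (v : Place K F) (f : F) (n : ℕ) : v.ord (f ^ n) = n * v.ord f := by
  have := v.ord_zpow f n
  simpa using this

theorem adic_lt_of_ord_lt (v : Place K F) {f h : F} (hf : f ≠ 0)
    (hh : h = 0 ∨ v.ord f < v.ord h) : v.adicValuation h < v.adicValuation f := by
  rcases eq_or_ne h 0 with rfl | hh0
  · rw [map_zero]
    exact zero_lt_iff.mpr (v.adicValuation_ne_zero hf)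
  · have := hh.resolve_left hh0
    rw [v.adicValuation_eq_exp_neg_ord hf, v.adicValuation_eq_exp_neg_ord hh0, exp_lt_exp]
    omega

/-- the slots `(Q, a)`, `0 ≤ a < E' Q` -/
def slotSet (E' : Divisor K F) : Finset (Σ _ : Place K F, ℕ) :=
  E'.support.sigma fun Q => Finset.range (E' Q).toNat

theorem mem_slotSet {E' : Divisor K F} (hE' : 0 ≤ E') {p : Σ _ : Place K F, ℕ} :
    p ∈ slotSet E' ↔ (p.2 : ℤ) < E' p.1 := by
  rw [slotSet, Finset.mem_sigma, Finset.mem_range, Finsupp.mem_support_iff]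
  have := Finsupp.le_def.mp hE' p.1
  simp only [Finsupp.coe_zero, Pi.zero_apply] at this
  omega

theorem card_slotSet (hdeg : ∀ P : Place K F, P.deg = 1) {E' : Divisor K F} (hE' : 0 ≤ E') :
    ((slotSet E').card : ℤ) = Divisor.degree E' := by
  rw [slotSet, Finset.card_sigma, degree_eq_sum hdeg, Finsupp.sum]
  push_cast
  refine Finset.sum_congr rfl fun Q _ => ?_
  rw [Finset.card_range]
  have := Finsupp.le_def.mp hE' Q
  simp only [Finsupp.coe_zero, Pi.zero_apply] at this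
  omega

section Family

variable (h : CurveRR K F g) {y : F} {E' : Divisor K F} (hE'0 : 0 ≤ E')
  (hE' : ∀ Q : Place K F, 0 < E' Q → E' Q ≤ -Q.ord y)

include h hE'0 hE' in
theorem exists_slot_function (Q : Place K F) (a : ℤ) (hQ : 0 < E' Q) (ha : a < E' Q) :
    ∃ t : F, t ≠ 0 ∧ Q.ord t = a ∧
      ∀ Q' : Place K F, Q' ≠ Q → 0 < E' Q' → E' Q' ≤ Q'.ord t := by
  classical
  set Z : Divisor K F := zeroPart (divOf h y) with hZ
  have hZ0 : ∀ Q' : Place K F, 0 < E' Q' → Z Q' = 0 := by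
    intro Q' hQ'
    rw [hZ, zeroPart_apply, divOf_apply]
    have := hE' Q' hQ'
    exact max_eq_right (by omega)
  -- degrees
  have hle : E' ≤ polePart (divOf h y) := by
    rw [Finsupp.le_def]
    intro Q'
    rw [polePart_apply, divOf_apply]
    rcases lt_or_ge 0 (E' Q') with h1 | h1
    · exact (hE' Q' h1).trans (le_max_left _ _)
    · exact h1.trans (le_max_right _ _)
  have hdeg1 := degree_le_of_le h.deg_one hle
  have hdeg2 : Divisor.degree Z = Divisor.degree (polePart (divOf h y)) := by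
    have := congrArg Divisor.degree (zeroPart_sub_polePart (divOf h y))
    rw [map_sub, degree_divOf] at this
    rw [hZ]
    omega
  have hdeg3 : 1 ≤ Divisor.degree E' := by
    have h1 : Finsupp.single Q 1 ≤ E' := by
      rw [Finsupp.le_def]
      intro v
      rw [Finsupp.single_apply]
      have := Finsupp.le_def.mp hE'0 v
      simp only [Finsupp.coe_zero, Pi.zero_apply] at this
      split_ifs with hv
      · subst hv; omega
      · omega
    have := degree_le_of_le h.deg_one h1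
    rwa [degree_single_one h.deg_one] at this
  set N : ℤ := 2 * g + Divisor.degree E' with hN
  set D : Divisor K F := N • Z - E' + Finsupp.single Q (E' Q - a) with hD
  have hdegD : 2 * (g : ℤ) ≤ Divisor.degree D := by
    rw [hD, map_add, map_sub, map_zsmul, degree_single_one h.deg_one, smul_eq_mul]
    have h1 : N * 1 ≤ N * Divisor.degree Z :=
      mul_le_mul_of_nonneg_left (by omega) (by omega)
    omega
  obtain ⟨t, ht, ht0, htQ⟩ := exists_ord_eq h hdegD Q
  refine ⟨t, ht0, ?_, ?_⟩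
  · rw [htQ, hD]
    simp only [Finsupp.add_apply, Finsupp.sub_apply, Finsupp.smul_apply, Finsupp.single_eq_same,
      hZ0 Q hQ, smul_zero]
    ring
  · intro Q' hQ'Q hQ'
    have := (mem_L_iff ht0).mp ht Q'
    rw [hD] at this
    simp only [Finsupp.add_apply, Finsupp.sub_apply, Finsupp.smul_apply,
      hZ0 Q' hQ', smul_zero, Finsupp.single_apply, if_neg (Ne.symm hQ'Q)] at this
    omega

/-- the properties of the family `t` -/
def IsSlotFamily (_y : F) (E' : Divisor K F) (t : (Σ _ : Place K F, ℕ) → F) : Prop :=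
  ∀ p : Σ _ : Place K F, ℕ, p ∈ slotSet E' →
    t p ≠ 0 ∧ p.1.ord (t p) = p.2 ∧
      ∀ Q' : Place K F, Q' ≠ p.1 → 0 < E' Q' → E' Q' ≤ Q'.ord (t p)

include h hE'0 hE' in
theorem exists_isSlotFamily : ∃ t, IsSlotFamily y E' t := by
  have : ∀ p : Σ _ : Place K F, ℕ, ∃ t : F, p ∈ slotSet E' →
      t ≠ 0 ∧ p.1.ord t = p.2 ∧
        ∀ Q' : Place K F, Q' ≠ p.1 → 0 < E' Q' → E' Q' ≤ Q'.ord t := by
    intro p
    by_cases hp : p ∈ slotSet E'
    · have hp' := (mem_slotSet hE'0).mp hp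
      obtain ⟨t, ht⟩ := exists_slot_function h hE'0 hE' p.1 p.2 (by omega) hp'
      exact ⟨t, fun _ => ht⟩
    · exact ⟨0, fun hp' => absurd hp' hp⟩
  choose t ht using this
  exact ⟨t, ht⟩

end Family

theorem slot_key1 {m M o a a₀ e : ℤ} (hm : m + 1 ≤ M) (ho : o ≤ -e) (he : a₀ < e)
    (ha : 0 ≤ a) (ha0 : 0 ≤ a₀) : M * o + a₀ < m * o + a := by
  have h1 : 0 ≤ (M - m - 1) * (-o) := mul_nonneg (by omega) (by omega)
  nlinarith

theorem slot_key2 {m M o a₀ e x : ℤ} (hm : m ≤ M) (ho : o ≤ -e) (he : a₀ < e)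
    (ha0 : 0 ≤ a₀) (hx : e ≤ x) : M * o + a₀ < m * o + x := by
  have h1 : 0 ≤ (M - m) * (-o) := mul_nonneg (by omega) (by omega)
  nlinarith

/-- **independence**: the functions `y ^ m * t_i` are linearly independent over `K`. -/
theorem linearIndependent_slot {y : F} (hy : y ≠ 0) {E' : Divisor K F} (hE'0 : 0 ≤ E')
    (hE' : ∀ Q : Place K F, 0 < E' Q → E' Q ≤ -Q.ord y)
    {t : (Σ _ : Place K F, ℕ) → F} (ht : IsSlotFamily y E' t) (l : ℕ) :
    LinearIndependent K (fun p : ↥(slotSet E') × Fin (l + 1) => y ^ (p.2 : ℕ) * t p.1.1) := by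
  classical
  rw [Fintype.linearIndependent_iff]
  intro c hc
  by_contra hcon
  push Not at hcon
  -- the set of nonzero coefficients
  have hne : (Finset.univ.filter fun p : ↥(slotSet E') × Fin (l + 1) => c p ≠ 0).Nonempty := by
    obtain ⟨p, hp⟩ := hcon
    exact ⟨p, by simp [hp]⟩
  obtain ⟨p₁, hp₁, hmax⟩ := Finset.exists_max_image _
    (fun p : ↥(slotSet E') × Fin (l + 1) => (p.2 : ℕ)) hne
  have hne2 : ((Finset.univ.filter fun p : ↥(slotSet E') × Fin (l + 1) => c p ≠ 0).filter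
      fun p => (p.2 : ℕ) = (p₁.2 : ℕ)).Nonempty := ⟨p₁, by simp [(Finset.mem_filter.mp hp₁).2]⟩
  obtain ⟨p₀, hp₀, hmin⟩ := Finset.exists_min_image _
    (fun p : ↥(slotSet E') × Fin (l + 1) => (p.1.1.2 : ℕ)) hne2
  have hp₀c : c p₀ ≠ 0 := by
    have := Finset.mem_filter.mp (Finset.mem_filter.mp hp₀).1
    exact this.2
  have hp₀M : (p₀.2 : ℕ) = (p₁.2 : ℕ) := (Finset.mem_filter.mp hp₀).2
  have hM : ∀ p, c p ≠ 0 → (p.2 : ℕ) ≤ (p₀.2 : ℕ) := by
    intro p hp
    rw [hp₀M]
    exact hmax p (by simp [hp])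
  have ha : ∀ p, c p ≠ 0 → (p.2 : ℕ) = (p₀.2 : ℕ) → (p₀.1.1.2 : ℕ) ≤ (p.1.1.2 : ℕ) := by
    intro p hp hpM
    exact hmin p (by simp [hp, hpM, hp₀M])
  -- the place and the main term
  obtain ⟨ht₀, hord₀, -⟩ := ht p₀.1.1 p₀.1.2
  have ha₀ := (mem_slotSet hE'0).mp p₀.1.2
  obtain ⟨Q, hQ⟩ : ∃ Q : Place K F, Q = p₀.1.1.1 := ⟨_, rfl⟩
  rw [← hQ] at hord₀ ha₀
  have hEQ : 0 < E' Q := by omega
  have he := hE' Q hEQ
  have hmain0 : c p₀ • (y ^ (p₀.2 : ℕ) * t p₀.1.1) ≠ 0 :=
    smul_ne_zero hp₀c (mul_ne_zero (pow_ne_zero _ hy) ht₀)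
  have hordmain : Q.ord (c p₀ • (y ^ (p₀.2 : ℕ) * t p₀.1.1)) =
      (p₀.2 : ℕ) * Q.ord y + (p₀.1.1.2 : ℕ) := by
    rw [ord_smul Q hp₀c, Q.ord_mul (pow_ne_zero _ hy) ht₀, ord_pow, hord₀]
  -- all other terms are smaller
  have hlt : ∀ p ∈ Finset.univ.erase p₀,
      Q.adicValuation (c p • (y ^ (p.2 : ℕ) * t p.1.1)) <
        Q.adicValuation (c p₀ • (y ^ (p₀.2 : ℕ) * t p₀.1.1)) := by
    intro p hp
    have hpne : p ≠ p₀ := (Finset.mem_erase.mp hp).1
    apply adic_lt_of_ord_lt Q hmain0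
    by_cases hcp : c p = 0
    · left; rw [hcp, zero_smul]
    right
    obtain ⟨htp, hordp, hothers⟩ := ht p.1.1 p.1.2
    rw [hordmain, ord_smul Q hcp, Q.ord_mul (pow_ne_zero _ hy) htp, ord_pow]
    have hmM := hM p hcp
    have hap := (mem_slotSet hE'0).mp p.1.2
    by_cases hQp : p.1.1.1 = Q
    · -- same place
      have hordp' : Q.ord (t p.1.1) = (p.1.1.2 : ℕ) := by rw [← hQp]; exact hordp
      rw [hordp']
      rcases Nat.lt_or_ge (p.2 : ℕ) (p₀.2 : ℕ) with hlt | hge
      · exact slot_key1 (e := E' Q) (by omega) (by omega) ha₀ (Int.natCast_nonneg _)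
          (Int.natCast_nonneg _)
      · have hpM : (p.2 : ℕ) = (p₀.2 : ℕ) := le_antisymm hmM hge
        have h1 := ha p hcp hpM
        have h2 : (p.1.1.2 : ℕ) ≠ (p₀.1.1.2 : ℕ) := by
          intro heq
          apply hpne
          refine Prod.ext (Subtype.ext (Sigma.ext (hQp.trans hQ) (heq_of_eq heq))) (Fin.ext hpM)
        rw [hpM]
        omega
    · -- another place
      have h1 := hothers Q (Ne.symm hQp) hEQ
      exact slot_key2 (e := E' Q) (by omega) (by omega) ha₀ (Int.natCast_nonneg _) h1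
  have hsumlt := Valuation.map_sum_lt Q.adicValuation
    (Q.adicValuation_ne_zero hmain0) hlt
  rw [← Finset.add_sum_erase Finset.univ _ (Finset.mem_univ p₀)] at hc
  have heq : c p₀ • (y ^ (p₀.2 : ℕ) * t p₀.1.1) =
      -∑ p ∈ Finset.univ.erase p₀, c p • (y ^ (p.2 : ℕ) * t p.1.1) :=
    eq_neg_of_add_eq_zero_left hc
  rw [heq, Valuation.map_neg] at hsumlt
  exact lt_irrefl _ hsumlt

end Fermat.Agent.S18.RPrime
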