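import Mathlib
import Fermat.Agent.S18.RPrimeIndep
import Fermat.Agent.S18.RPrimeOnto
import Fermat.Agent.S18.RPrimeFinal

/-!
# S18, piece 87-P5: the degree drop from the lattice lemma and `κ(v) = Fb`;
the final statement `rPrimeStatement`
-/

set_option autoImplicit false

open AlgebraicCurve

noncomputable section

namespace Fermat.Agent.S18.RPrime

variable {K F k Fb : Type*} [Field K] [Field F] [Algebra K F]
  [Field k] [Field Fb] [Algebra k Fb] {g : ℕ}

theorem one_mem_L {D : Divisor K F} (hD : 0 ≤ D) : (1 : F) ∈ riemannRochSpace D := by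
  rw [mem_L_iff one_ne_zero]
  intro v
  have := Finsupp.le_def.mp hD v
  simp only [Finsupp.coe_zero, Pi.zero_apply] at this
  rw [Place.ord_one]
  omega

theorem pow_mem_L {E : Divisor K F} {f : F} (hf : f ∈ riemannRochSpace E) (m : ℕ) :
    f ^ m ∈ riemannRochSpace ((m : ℤ) • E) := by
  induction m with
  | zero =>
    simp only [pow_zero, Nat.cast_zero, zero_smul]
    exact one_mem_L le_rfl
  | succ m ih =>
    have := mul_mem_L_add ih hf
    rw [pow_succ]
    convert this using 2
    push_cast
    rw [add_smul, one_smul]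

theorem smul_le_smul_div {E : Divisor K F} (hE : 0 ≤ E) {m l : ℕ} (hml : m ≤ l) :
    (m : ℤ) • E ≤ (l : ℤ) • E := by
  rw [Finsupp.le_def]
  intro v
  have := Finsupp.le_def.mp hE v
  simp only [Finsupp.coe_zero, Pi.zero_apply] at this
  simp only [Finsupp.smul_apply, smul_eq_mul]
  exact mul_le_mul_of_nonneg_right (by exact_mod_cast hml) this

theorem drop_arith {b n dC : ℤ} (hn : 0 ≤ n) (hC : 0 ≤ dC)
    (h : ∀ l : ℕ, b * (l + 1) ≤ l * n + dC + 1) : b ≤ n := by
  by_contra hcon
  push Not at hcon
  have h1 := h (dC.toNat + 1)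
  have h2 : ((dC.toNat + 1 : ℕ) : ℤ) = dC + 1 := by
    push_cast
    omega
  rw [h2] at h1
  nlinarith

/-- **degree drop**: the poles of `red y` have degree at most the degree of the poles of `y`. -/
theorem degree_drop_of_lattice (hK : CurveRR K F g) (hk : CurveRR k Fb g)
    (R : RedDatum K F k Fb) (hlat : R.LatticeLemma) (hsurj : Function.Surjective R.red)
    (y : R.O) (hy : R.red y ≠ 0) (E : Divisor K F) (E' : Divisor k Fb)
    (hE : 0 ≤ E) (hyE : (y : F) ∈ riemannRochSpace E) (hE'0 : 0 ≤ E')
    (hE' : ∀ Q : Place k Fb, 0 < E' Q → E' Q ≤ -Q.ord (R.red y)) :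
    Divisor.degree E' ≤ Divisor.degree E := by
  classical
  obtain ⟨t, ht⟩ := exists_isSlotFamily hk hE'0 hE'
  have hlift := fun p => hsurj (t p)
  choose T hT using hlift
  -- a bound for the poles of the lifts
  obtain ⟨C, hC0, hC⟩ := exists_le_L hK
    (Submodule.span K (((slotSet E').image fun p => (T p : F) : Finset F) : Set F))
    (Module.Finite.span_of_finite K (Finset.finite_toSet _))
  have hTC : ∀ p ∈ slotSet E', (T p : F) ∈ riemannRochSpace C := fun p hp =>
    hC (Submodule.subset_span (Finset.mem_coe.mpr (Finset.mem_image_of_mem _ hp)))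
  have key : ∀ l : ℕ, Divisor.degree E' * ((l : ℤ) + 1) ≤
      l * Divisor.degree E + Divisor.degree C + 1 := by
    intro l
    have hD0 : 0 ≤ (l : ℤ) • E + C := add_nonneg (smul_nonneg (by positivity) hE) hC0
    have hfinD := hK.finite ((l : ℤ) • E + C)
    have hposD : 0 < Module.finrank K (riemannRochSpace ((l : ℤ) • E + C)) :=
      Module.finrank_pos_iff_exists_ne_zero.mpr
        ⟨⟨1, one_mem_L hD0⟩, fun h => one_ne_zero (congrArg Subtype.val h)⟩
    have hlatD := hlat _ hfinD
    have hfinΛ : Module.Finite k (R.redSub (riemannRochSpace ((l : ℤ) • E + C))) :=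
      Module.finite_of_finrank_pos (by rw [hlatD]; exact hposD)
    have hmem : ∀ p : ↥(slotSet E') × Fin (l + 1),
        R.red y ^ (p.2 : ℕ) * t p.1.1 ∈ R.redSub (riemannRochSpace ((l : ℤ) • E + C)) := by
      intro p
      refine ⟨y ^ (p.2 : ℕ) * T p.1.1, ?_, by rw [map_mul, map_pow, hT]⟩
      have h1 : ((y : F)) ^ (p.2 : ℕ) ∈ riemannRochSpace ((l : ℤ) • E) :=
        L_mono (smul_le_smul_div hE (Nat.lt_succ_iff.mp p.2.2)) (pow_mem_L hyE _)
      exact mul_mem_L_add h1 (hTC _ p.1.2)
    have hli := linearIndependent_slot hy hE'0 hE' ht l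
    have hli' : LinearIndependent k (fun p : ↥(slotSet E') × Fin (l + 1) =>
        (⟨R.red y ^ (p.2 : ℕ) * t p.1.1, hmem p⟩ :
          R.redSub (riemannRochSpace ((l : ℤ) • E + C)))) :=
      LinearIndependent.of_comp (Submodule.subtype _) hli
    have hcard := hli'.fintype_card_le_finrank
    rw [hlatD, Fintype.card_prod, Fintype.card_fin, Fintype.card_coe] at hcard
    have hdim := hK.dim_le _ hD0
    rw [map_add, map_zsmul, smul_eq_mul] at hdim
    have hb := card_slotSet hk.deg_one hE'0
    have : (((slotSet E').card * (l + 1) : ℕ) : ℤ) ≤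
        (Module.finrank K (riemannRochSpace ((l : ℤ) • E + C)) : ℤ) := by exact_mod_cast hcard
    push_cast at this
    rw [hb] at this
    omega
  exact drop_arith (degree_nonneg hK.deg_one hE) (degree_nonneg hK.deg_one hC0) key

/-- **87-P5**: the place reduction `r'` exists, is compatible with divisors of units of the
valuation ring, and `red (L(E) ∩ O) = L_k(r'_* E)` for `deg E > 3g`. -/
theorem rPrimeStatement [Infinite k] (hK : CurveRR K F g) (hk : CurveRR k Fb g)
    (R : RedDatum K F k Fb) (hlat : R.LatticeLemma) (hon : R.Onto) : RPrimeStatement g R :=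
  rPrimeStatement_of_good hK hk R
    ⟨hlat, fun y hy E E' hE hyE hE'0 hE' =>
      degree_drop_of_lattice hK hk R hlat hon.surj y hy E E' hE hyE hE'0 hE'⟩

end Fermat.Agent.S18.RPrime
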