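import Mathlib
import Fermat.Agent.S18.RPrimeDrop

/-!
# S18, piece 87-U5 (C4): the algebraic maximum principle

`R` a reduction datum, `r` a place reduction compatible with the divisors of units of `R.O`.
If `u ∈ R.O` has no pole in the residue disc `r⁻¹(r P)` of `P`, then its value `c = u(P)` lies in
`R.O` (i.e. in `A`), and `red u - red c` vanishes at `r P`.
-/

set_option autoImplicit false

open AlgebraicCurve WithZero

noncomputable section

namespace Fermat.Agent.S18.RPrime

variable {K F k Fb : Type*} [Field K] [Field F] [Algebra K F]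
  [Field k] [Field Fb] [Algebra k Fb] {g : ℕ}

/-- compatibility of `r` with the divisors of units (first half of `RPrimeStatement`) -/
def DivCompatR (R : RedDatum K F k Fb) (r : Place K F → Place k Fb) : Prop :=
  ∀ y : R.O, IsUnit y → ∀ D : Divisor K F, (∀ P : Place K F, D P = P.ord (y : F)) →
    ∀ Q : Place k Fb, Finsupp.mapDomain r D Q = Q.ord (R.red y)

open scoped Classical in
theorem mapDomain_apply_eq_sum (r : Place K F → Place k Fb) (D : Divisor K F)
    (Q : Place k Fb) :
    Finsupp.mapDomain r D Q = ∑ P ∈ D.support, if r P = Q then D P else 0 := by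
  rw [Finsupp.mapDomain, Finsupp.sum_apply, Finsupp.sum]
  refine Finset.sum_congr rfl fun P _ => ?_
  rw [Finsupp.single_apply]

theorem ord_neg_one' (Q : Place K F) : Q.ord (-1 : F) = 0 := by
  have : (-1 : F) = algebraMap K F (-1) := by simp
  rw [this, ord_const Q (by norm_num)]

/-- a function with a zero at `P` and no pole in the disc of `P` has `r_* div > 0` at `r P` -/
theorem mapDomain_pos_of_zero (r : Place K F → Place k Fb) (D : Divisor K F) (P : Place K F)
    (hP : 0 < D P) (hdisc : ∀ P' : Place K F, r P' = r P → 0 ≤ D P') :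
    0 < Finsupp.mapDomain r D (r P) := by
  classical
  rw [mapDomain_apply_eq_sum]
  have hPs : P ∈ D.support := Finsupp.mem_support_iff.mpr hP.ne'
  have hnn : ∀ P' ∈ D.support, 0 ≤ (if r P' = r P then D P' else 0) := by
    intro P' _
    split_ifs with h
    · exact hdisc P' h
    · exact le_rfl
  have := Finset.single_le_sum hnn hPs
  rw [if_pos rfl] at this
  omega

theorem ord_sub_const_nonneg (P : Place K F) {u : F} (hu : 0 ≤ P.ord u) (c : K) :
    u - algebraMap K F c = 0 ∨ 0 ≤ P.ord (u - algebraMap K F c) := by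
  rw [← P.adicValuation_le_one_iff]
  have h1 : P.adicValuation u ≤ 1 := P.adicValuation_le_one_iff.mpr (Or.inr hu)
  have h2 : P.adicValuation (algebraMap K F c) ≤ 1 := P.adicValuation_algebraMap_le_one c
  exact (Valuation.map_sub _ _ _).trans (max_le h1 h2)

section Max

variable (hK : CurveRR K F g) (R : RedDatum K F k Fb) {r : Place K F → Place k Fb}
  (hr : DivCompatR R r)

include hK hr in
/-- **(C4), first half**: the value at `P` of `u ∈ R.O` without poles in the disc of `P` is
integral. -/
theorem const_mem_of_no_pole (u : R.O) (P : Place K F) (c : K)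
    (hc : 0 < P.ord ((u : F) - algebraMap K F c))
    (hpole : ∀ P' : Place K F, r P' = r P → 0 ≤ P'.ord (u : F)) :
    algebraMap K F c ∈ R.O := by
  by_contra hcO
  have hc0 : c ≠ 0 := by
    rintro rfl
    rw [map_zero] at hcO
    exact hcO R.O.zero_mem
  have hcF : algebraMap K F c ≠ 0 := by simpa using hc0
  -- `c⁻¹` is a non-unit of `O`
  have hinv : (algebraMap K F c)⁻¹ ∈ R.O := (R.O.mem_or_inv_mem _).resolve_left hcO
  have hnu : ¬ IsUnit (⟨(algebraMap K F c)⁻¹, hinv⟩ : R.O) := by
    intro hu
    obtain ⟨v, hv⟩ := hu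
    apply hcO
    have h1 : ((v⁻¹ : R.Oˣ) : R.O) * ⟨(algebraMap K F c)⁻¹, hinv⟩ = 1 := by
      rw [← hv]; exact v.inv_mul
    have h2 := congrArg (Subtype.val) h1
    simp only [MulMemClass.coe_mul, OneMemClass.coe_one] at h2
    have h3 : (((v⁻¹ : R.Oˣ) : R.O) : F) = algebraMap K F c := by
      field_simp at h2
      exact h2
    rw [← h3]
    exact ((v⁻¹ : R.Oˣ) : R.O).2
  have hred0 : R.red ⟨(algebraMap K F c)⁻¹, hinv⟩ = 0 := by
    by_contra h
    exact hnu (R.isUnit_of_red_ne_zero _ h)
  -- `w = c⁻¹ u - 1` is a unit with reduction `-1`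
  set w : R.O := ⟨(algebraMap K F c)⁻¹, hinv⟩ * u - 1 with hw
  have hredw : R.red w = -1 := by
    rw [hw, map_sub, map_mul, hred0, zero_mul, map_one, zero_sub]
  have hwu : IsUnit w := R.isUnit_of_red_ne_zero w (by rw [hredw]; simp)
  have hwF : (w : F) = (algebraMap K F c)⁻¹ * ((u : F) - algebraMap K F c) := by
    rw [hw]
    simp only [AddSubgroupClass.coe_sub, MulMemClass.coe_mul, OneMemClass.coe_one]
    field_simp
  have hsub0 : (u : F) - algebraMap K F c ≠ 0 := by
    intro h0
    have : (w : F) = 0 := by rw [hwF, h0, mul_zero]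
    exact coe_ne_zero_of_isUnit hwu this
  have hord : ∀ P' : Place K F, P'.ord (w : F) = P'.ord ((u : F) - algebraMap K F c) := by
    intro P'
    rw [hwF, P'.ord_mul (inv_ne_zero hcF) hsub0, P'.ord_inv, ord_const P' hc0]
    ring
  have hcompat := hr w hwu (divOf hK (w : F)) (fun P' => divOf_apply hK _ P') (r P)
  rw [hredw, ord_neg_one'] at hcompat
  have hpos := mapDomain_pos_of_zero r (divOf hK (w : F)) P
    (by rw [divOf_apply, hord]; exact hc)
    (fun P' hP' => by
      rw [divOf_apply, hord]
      exact (ord_sub_const_nonneg P' (hpole P' hP') c).resolve_left hsub0)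
  omega

include hK hr in
/-- **(C4), second half**: `red u - red c` vanishes at `r P`. -/
theorem red_sub_const_vanishes (u : R.O) (P : Place K F) (c : K)
    (hcO : algebraMap K F c ∈ R.O)
    (hc : 0 < P.ord ((u : F) - algebraMap K F c))
    (hpole : ∀ P' : Place K F, r P' = r P → 0 ≤ P'.ord (u : F)) :
    R.red u - R.red ⟨algebraMap K F c, hcO⟩ = 0 ∨
      0 < (r P).ord (R.red u - R.red ⟨algebraMap K F c, hcO⟩) := by
  by_cases h0 : R.red u - R.red ⟨algebraMap K F c, hcO⟩ = 0
  · exact Or.inl h0
  right
  set w : R.O := u - ⟨algebraMap K F c, hcO⟩ with hw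
  have hredw : R.red w = R.red u - R.red ⟨algebraMap K F c, hcO⟩ := by
    rw [hw, map_sub]
  have hwu : IsUnit w := R.isUnit_of_red_ne_zero w (by rw [hredw]; exact h0)
  have hwF : (w : F) = (u : F) - algebraMap K F c := rfl
  have hsub0 : (u : F) - algebraMap K F c ≠ 0 := by
    rw [← hwF]; exact coe_ne_zero_of_isUnit hwu
  have hcompat := hr w hwu (divOf hK (w : F)) (fun P' => divOf_apply hK _ P') (r P)
  have hpos := mapDomain_pos_of_zero r (divOf hK (w : F)) P
    (by rw [divOf_apply, hwF]; exact hc)
    (fun P' hP' => by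
      rw [divOf_apply, hwF]
      exact (ord_sub_const_nonneg P' (hpole P' hP') c).resolve_left hsub0)
  rw [← hredw, ← hcompat]
  exact hpos

end Max

end Fermat.Agent.S18.RPrime
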