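import Fermat.Agent.S18.CTAssembly
import Fermat.Agent.S18.GaussDatum
import Fermat.Agent.S18.MaxPrinciple
import Fermat.Agent.S18.LatticeV

/-!
# S18, piece 87-U4 (CT wiring), part 1: the hypotheses `WireData` and the embedding `embL`

`WireData` collects everything the wiring needs about the pair `F ⊂ L((q))`, `Fb ⊂ k((q))`:
Riemann's theorem with the same `g` on both sides, the place reduction `r` (compatible with
divisors of units, (F3)), the places at infinity (`ord = q`-order), (C1) `r ∞ = ∞bar`, and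
(C5) `q`-integrality: a Gauss-integral element of `F` without poles in the residue disc of
`∞bar` outside `∞` has a `q`-integral expansion reducing to the expansion of its reduction.
-/

set_option autoImplicit false

noncomputable section

open HahnSeries AlgebraicCurve ModularCurve

namespace Fermat.Agent.S18.CT

variable {L : Type*} [Field L] {A : ValuationSubring L} {k : Type*} [Field k] {π : A →+* k}
  {F : IntermediateField L (LaurentSeries L)} {Fb : IntermediateField k (LaurentSeries k)}

/-- **(C5)**, `q`-integrality on the residue disc of `Qinf`. -/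
def QIntegrality (A : ValuationSubring L) (π : A →+* k)
    (F : IntermediateField L (LaurentSeries L)) (Fb : IntermediateField k (LaurentSeries k))
    (r : Place L F → Place k Fb) (Pinf : Place L F) (Qinf : Place k Fb) : Prop :=
  ∀ (y : F) (yb : Fb), RedV A π F Fb y yb →
    (∀ P : Place L F, r P = Qinf → P ≠ Pinf → 0 ≤ P.ord y) →
    RedQ A π (y : LaurentSeries L) (yb : LaurentSeries k)

/-- the hypotheses of the CT wiring. -/
structure WireData (g : ℕ) (H : GaussD.Hyp A π F Fb) (r : Place L F → Place k Fb)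
    (Pinf : Place L F) (Qinf : Place k Fb) : Prop where
  hK : RPrime.CurveRR L F g
  hk : RPrime.CurveRR k Fb g
  hr : RPrime.DivCompatR (GaussD.gaussDatum H) r
  hF3 : ∀ E : Divisor L F, 3 * (g : ℤ) < Divisor.degree E →
    (GaussD.gaussDatum H).redSub (riemannRochSpace E) =
      riemannRochSpace (Finsupp.mapDomain r E)
  hPinf : ∀ y : F, y ≠ 0 → (Pinf.ord y : WithTop ℤ) = (y : LaurentSeries L).orderTop
  hQinf : ∀ y : Fb, y ≠ 0 → (Qinf.ord y : WithTop ℤ) = (y : LaurentSeries k).orderTop
  hC1 : r Pinf = Qinf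
  hC5 : QIntegrality A π F Fb r Pinf Qinf
  hP1 : ∃ P1 : Place L F, r P1 ≠ Qinf
  harch : Gauss.IsArch A
  hnontriv : ∃ π₀ : L, π₀ ≠ 0 ∧ A.valuation π₀ < 1
  hroot : ∀ (c : L) (m : ℕ), 0 < m → ∃ d : L, d ^ m = c

/-- the image in `L((q))` of an `L`-subspace of `F`. -/
def embL (S : Submodule L F) : Submodule L (LaurentSeries L) where
  carrier := {y | ∃ z : F, z ∈ S ∧ (z : LaurentSeries L) = y}
  zero_mem' := ⟨0, S.zero_mem, rfl⟩
  add_mem' := by
    rintro _ _ ⟨z, hz, rfl⟩ ⟨z', hz', rfl⟩
    exact ⟨z + z', S.add_mem hz hz', rfl⟩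
  smul_mem' := by
    rintro c _ ⟨z, hz, rfl⟩
    refine ⟨c • z, S.smul_mem c hz, ?_⟩
    rw [Lat.coe_smul_eq_C_mul, HahnSeries.C_mul_eq_smul]

theorem mem_embL {S : Submodule L F} {y : LaurentSeries L} :
    y ∈ embL S ↔ ∃ z : F, z ∈ S ∧ (z : LaurentSeries L) = y := Iff.rfl

theorem coe_mem_embL {S : Submodule L F} {z : F} :
    (z : LaurentSeries L) ∈ embL S ↔ z ∈ S := by
  constructor
  · rintro ⟨z', hz', h⟩
    have : z' = z := Subtype.ext h
    rwa [← this]
  · intro h
    exact ⟨z, h, rfl⟩

theorem embL_mono {S S' : Submodule L F} (h : S ≤ S') : embL S ≤ embL S' := by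
  rintro _ ⟨z, hz, rfl⟩
  exact ⟨z, h hz, rfl⟩

/-- the `L`-linear map `F → L((q))`. -/
def embLin (F : IntermediateField L (LaurentSeries L)) : F →ₗ[L] LaurentSeries L where
  toFun z := (z : LaurentSeries L)
  map_add' _ _ := rfl
  map_smul' c z := by
    rw [Lat.coe_smul_eq_C_mul, HahnSeries.C_mul_eq_smul]
    rfl

theorem embL_eq_map (S : Submodule L F) : embL S = S.map (embLin F) := by
  ext y
  rw [mem_embL, Submodule.mem_map]
  rfl

theorem finite_embL (S : Submodule L F) [Module.Finite L S] :
    FiniteDimensional L (embL S) := by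
  rw [embL_eq_map]
  infer_instance

theorem coe_smul_eq (c : L) (z : F) :
    ((c • z : F) : LaurentSeries L) = c • (z : LaurentSeries L) := by
  rw [Lat.coe_smul_eq_C_mul, HahnSeries.C_mul_eq_smul]

theorem coe_algebraMap_eq (c : L) :
    ((algebraMap L F c : F) : LaurentSeries L) = HahnSeries.C c := by
  have : (algebraMap L F c : F) = c • (1 : F) := by rw [Algebra.smul_def, mul_one]
  rw [this, Lat.coe_smul_eq_C_mul]
  simp

end Fermat.Agent.S18.CT
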