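import Mathlib
import Fermat.Agent.FF.Counting
import Fermat.Agent.FF.CountingFinal

/-!
# S18, piece 87-P10a (helper3): places over a value come from the order functions

`exists_index_of_place` : in the situation of the abstract counting lemma of the S24 library
(`Fermat.Agent.FF.H6.counting_core`), every place `v` over `a` is the place of one of the order
functions `w i`, and `w i = t * v.ord` for some `t > 0`.  (The proof is the surjectivity part of
`counting_core`, which is not exported there.)
-/

set_option autoImplicit false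

open AlgebraicCurve IntermediateField

namespace Fermat.Agent.S18.Disc0

open Fermat.Agent.FF Fermat.Agent.FF.H6

variable {K F : Type*} [Field K] [Field F] [Algebra K F]

/-- every place over `a` is the place of one of the order functions `w i`. -/
theorem exists_index_of_place (x : F) (hx : Transcendental K x) (a : K)
    (I : Type) [Fintype I] [Nonempty I] (m : ℕ) (w : I → OrdFn K F)
    (hm : 0 < m)
    (hwy : ∀ i, w i (x - algebraMap K F a) = m)
    (hP : ∀ f : F, f ≠ 0 → (∀ i, w i f = 0) →
      ∃ P : Polynomial ↥K⟮x⟯, P.Monic ∧ Polynomial.aeval f P = 0 ∧ P.coeff 0 ≠ 0 ∧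
        (∀ i k, P.coeff k ≠ 0 → 0 ≤ w i (P.coeff k : F)) ∧ (∀ i, w i (P.coeff 0 : F) = 0)) :
    ∀ v ∈ placesOver x a, ∃ i : I, ∃ t : ℤ, 0 < t ∧ ∀ f : F, f ≠ 0 → w i f = t * v.ord f := by
  classical
  set y := x - algebraMap K F a with hy
  have hy0 : y ≠ 0 := by
    intro h
    apply hx
    have : x = algebraMap K F a := sub_eq_zero.mp h
    rw [this]
    exact isAlgebraic_algebraMap a
  have hmZ : (0 : ℤ) < m := by exact_mod_cast hm
  have hw : ∀ i, ∃ f : F, f ≠ 0 ∧ 0 < w i f := fun i => ⟨y, hy0, by rw [hwy i]; exact hmZ⟩
  -- the places of the order functions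
  set g : I → Place K F := fun i => toPlace (w i) (hw i) with hg
  choose t ht0 htπ ht using fun i => exists_mul_ord (w i) (hw i)
  have hgy : ∀ i, 0 < (g i).ord y := by
    intro i
    have h1 := ht i y hy0
    rw [hwy i] at h1
    by_contra hcon
    rw [not_lt] at hcon
    have : t i * (toPlace (w i) (hw i)).ord y ≤ 0 := mul_nonpos_of_nonneg_of_nonpos (ht0 i).le hcon
    linarith
  have hsurj : ∀ v ∈ placesOver x a, ∃ i, g i = v := by
    intro v hv
    by_contra hcon
    rw [not_exists] at hcon
    have hvs : v ∉ Finset.univ.image g := by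
      intro h
      obtain ⟨i, -, hi⟩ := Finset.mem_image.mp h
      exact hcon i hi
    obtain ⟨f, hf0, hfv, hfs⟩ := separation v (Finset.univ.image g) hvs
    have hwf : ∀ i, w i f = 0 := by
      intro i
      rw [ht i f hf0]
      have : (toPlace (w i) (hw i)).ord f = 0 :=
        hfs (g i) (Finset.mem_image_of_mem g (Finset.mem_univ i))
      rw [this, mul_zero]
    obtain ⟨P, -, hPf, hP0, hPk, hPc⟩ := hP f hf0 hwf
    have hvy : 0 < v.ord y := hv
    -- signs of the coefficients at `v`
    have hcoeff : ∀ k, P.coeff k ≠ 0 → 0 ≤ v.ord (P.coeff k : F) := by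
      intro k hk
      have hkF : ((P.coeff k : K⟮x⟯) : F) ≠ 0 := by
        intro h
        exact hk (Subtype.ext h)
      obtain ⟨c, hc⟩ := exists_ord_of_mem_adjoin x a (P.coeff k : F) (P.coeff k).2 hkF
      obtain i := Classical.arbitrary I
      have h1 := hPk i k hk
      rw [ht i _ hkF] at h1
      have h2 : 0 ≤ (toPlace (w i) (hw i)).ord (P.coeff k : F) := by
        by_contra hneg
        rw [not_le] at hneg
        have := mul_neg_of_pos_of_neg (ht0 i) hneg
        linarith
      have h3 := hc (g i) (hgy i)
      have hc0 : 0 ≤ c := by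
        by_contra hneg
        rw [not_le] at hneg
        have := mul_neg_of_neg_of_pos hneg (hgy i)
        have h2' : 0 ≤ (g i).ord (P.coeff k : F) := h2
        linarith
      rw [hc v hvy]
      exact mul_nonneg hc0 hvy.le
    have hcoeff0 : v.ord (P.coeff 0 : F) = 0 := by
      have hkF : ((P.coeff 0 : K⟮x⟯) : F) ≠ 0 := by
        intro h
        exact hP0 (Subtype.ext h)
      obtain ⟨c, hc⟩ := exists_ord_of_mem_adjoin x a (P.coeff 0 : F) (P.coeff 0).2 hkF
      obtain i := Classical.arbitrary I
      have h1 := hPc i
      rw [ht i _ hkF] at h1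
      have h2 : (toPlace (w i) (hw i)).ord (P.coeff 0 : F) = 0 := by
        rcases mul_eq_zero.mp h1 with h | h
        · exact absurd h (ht0 i).ne'
        · exact h
      have h3 := hc (g i) (hgy i)
      have h2' : (g i).ord (P.coeff 0 : F) = 0 := h2
      rw [h2'] at h3
      have hc0 : c = 0 := by
        rcases mul_eq_zero.mp h3.symm with h | h
        · exact h
        · exact absurd h (hgy i).ne'
      rw [hc v hvy, hc0, zero_mul]
    -- the equation `P(f) = 0` modulo the maximal ideal of `v`
    have hsumP : (P.coeff 0 : F) + ∑ k ∈ Finset.range P.natDegree,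
        ((P.coeff (k + 1) : K⟮x⟯) : F) * f ^ (k + 1) = 0 := by
      have h1 : Polynomial.aeval f P = ∑ k ∈ Finset.range (P.natDegree + 1),
          ((P.coeff k : K⟮x⟯) : F) * f ^ k := by
        rw [Polynomial.aeval_eq_sum_range]
        refine Finset.sum_congr rfl fun k _ => ?_
        rw [Algebra.smul_def]
        rfl
      rw [h1, Finset.sum_range_succ'] at hPf
      rw [← hPf]
      simp only [pow_zero, mul_one]
      ring
    have hmax : InMax (ofPlace v) (∑ k ∈ Finset.range P.natDegree,
        ((P.coeff (k + 1) : K⟮x⟯) : F) * f ^ (k + 1)) := by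
      apply inMax_sum
      intro k _
      by_cases hk : P.coeff (k + 1) = 0
      · left
        rw [hk]
        simp
      · rw [mul_comm]
        apply inMax_mul
        · right
          show 0 < v.ord (f ^ (k + 1))
          rw [ord_pow']
          have : (0 : ℤ) < ((k + 1 : ℕ) : ℤ) := by exact_mod_cast Nat.succ_pos k
          exact mul_pos this hfv
        · right
          exact hcoeff (k + 1) hk
    have hc0max : InMax (ofPlace v) (P.coeff 0 : F) := by
      have : ((P.coeff 0 : K⟮x⟯) : F) = -(∑ k ∈ Finset.range P.natDegree,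
          ((P.coeff (k + 1) : K⟮x⟯) : F) * f ^ (k + 1)) := by
        linear_combination hsumP
      rw [this]
      exact inMax_neg _ hmax
    rcases hc0max with h | h
    · exact hP0 (Subtype.ext h)
    · have h' : 0 < v.ord (P.coeff 0 : F) := h
      rw [hcoeff0] at h'
      exact lt_irrefl _ h'
  intro v hv
  obtain ⟨i, hi⟩ := hsurj v hv
  refine ⟨i, t i, ht0 i, fun f hf => ?_⟩
  rw [ht i f hf, ← hi]

end Fermat.Agent.S18.Disc0
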