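import Mathlib
import Fermat.Agent.S18.Disc0Place
import Fermat.Agent.FF.ModData

/-!
# S18, piece 87-P10a (helper3): the places of `F_N` over `j = ∞` are the cusps

* `wCusp N i`             : the order function "order of the `i`-th conjugate at the cusp `∞`";
* `exists_coset_of_cusp`  : every place `v` of `F_N` with `v.ord j < 0` is the place of some
                            `wCusp N i`, and `wCusp N i f = t * v.ord f` with `t * (-v.ord j) = N`;
* `qPlace N`, `qPlace_ord`: the `q`-adic place `∞` of `F_N` (`ord = q`-order): `InfData.infL`.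
-/

set_option autoImplicit false
set_option linter.unusedSectionVars false
set_option linter.style.haveILetI false

open AlgebraicCurve IntermediateField
open scoped MatrixGroups

namespace Fermat.Agent.S18.Disc0

open Fermat.Agent.FF Fermat.Agent.FF.H6

variable (N : ℕ) [NeZero N]

/-- the order of the `i`-th conjugate at the cusp `∞`, in the parameter `q^(1/N)` -/
noncomputable def wCusp (i : X N) : OrdFn Kbar (FN N) :=
  (ordCusp N).comapRingHom ((realisationN N).conj i) (fun c hc => by
    rw [(realisationN N).conj_const]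
    exact (ordCusp N).map_const' c hc)

theorem wCusp_apply (i : X N) (f : FN N) :
    wCusp N i f = ordCusp N ((realisationN N).conj i f) := rfl

theorem wCusp_jBar_inv (i : X N) :
    wCusp N i ((jBar N)⁻¹ - algebraMap Kbar (FN N) 0) = (N : ℤ) :=
  (realisationN N).ordCusp_conj_j_inv i

theorem wCusp_jBar (i : X N) : wCusp N i (jBar N) = -(N : ℤ) :=
  (realisationN N).ordCusp_conj_j i

/-- **places over `j = ∞` are cusps**: every place `v` with `v.ord j < 0` comes from a coset. -/
theorem exists_coset_of_cusp (v : Place Kbar (FN N)) (hv : v.ord (jBar N) < 0) :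
    ∃ (i : X N) (t : ℤ), 0 < t ∧ t * (-v.ord (jBar N)) = N ∧
      ∀ f : FN N, f ≠ 0 → wCusp N i f = t * v.ord f := by
  classical
  letI : Fintype (X N) := Fintype.ofFinite _
  haveI : Nonempty (X N) := ⟨QuotientGroup.mk 1⟩
  have htr : Transcendental Kbar (jBar N)⁻¹ := transcendental_inv (transcendental_jBar N)
  have hcoef := Realisation.hcoef_transport (realisationN N).conj
    (adjoin_simple_inv_eq (K := Kbar) (jBar N)).symm (realisationN_hcoef N)
  have hP : ∀ f : FN N, f ≠ 0 → (∀ i, wCusp N i f = 0) →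
      ∃ P : Polynomial ↥Kbar⟮(jBar N)⁻¹⟯, P.Monic ∧ Polynomial.aeval f P = 0 ∧ P.coeff 0 ≠ 0 ∧
        (∀ i k, P.coeff k ≠ 0 → 0 ≤ wCusp N i (P.coeff k : FN N)) ∧
        (∀ i, wCusp N i (P.coeff 0 : FN N) = 0) := by
    intro f hf h0
    exact poly_clause_of_conjugates Kbar⟮(jBar N)⁻¹⟯ (realisationN N).conj (ordCusp N) hcoef f hf h0
  have hmem : v ∈ placesOver (jBar N)⁻¹ (0 : Kbar) := by
    rw [← placesOverInf_eq]
    exact hv
  obtain ⟨i, t, ht0, ht⟩ := exists_index_of_place (jBar N)⁻¹ htr 0 (X N) N (wCusp N)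
    (Nat.pos_of_ne_zero (NeZero.ne N)) (wCusp_jBar_inv N) hP v hmem
  refine ⟨i, t, ht0, ?_, ht⟩
  have h1 := ht (jBar N) (Realisation.jBar_ne_zero)
  rw [wCusp_jBar] at h1
  linarith


/-- the `q`-order as an order function on `F_N` -/
noncomputable def wq : OrdFn Kbar (FN N) where
  toFun f := (f : LaurentSeries Kbar).order
  map_mul' f g hf hg := by
    have hf' : (f : LaurentSeries Kbar) ≠ 0 := fun h => hf (Subtype.ext h)
    have hg' : (g : LaurentSeries Kbar) ≠ 0 := fun h => hg (Subtype.ext h)
    show ((f : LaurentSeries Kbar) * (g : LaurentSeries Kbar)).order = _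
    exact HahnSeries.order_mul hf' hg'
  map_add' f g _ _ hfg := by
    have h' : (f : LaurentSeries Kbar) + (g : LaurentSeries Kbar) ≠ 0 :=
      fun h => hfg (Subtype.ext h)
    show _ ≤ ((f : LaurentSeries Kbar) + (g : LaurentSeries Kbar)).order
    exact HahnSeries.min_order_le_order_add h'
  map_const' c _ := by
    show (algebraMap Kbar (LaurentSeries Kbar) c).order = 0
    rw [ModularCurve.algebraMap_laurentSeries_eq_single]
    exact HahnSeries.order_C

theorem wq_apply (f : FN N) : wq N f = (f : LaurentSeries Kbar).order := rfl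

theorem jBar_order : ((jBar N : FN N) : LaurentSeries Kbar).order = -1 := by
  rw [jBar_coe]
  exact Realisation.order_Jd_one

theorem wq_jBar_inv : wq N (jBar N)⁻¹ = 1 := by
  rw [OrdFn.map_inv _ (Realisation.jBar_ne_zero), wq_apply, jBar_order]
  norm_num

theorem wq_pos : ∃ f : FN N, f ≠ 0 ∧ 0 < wq N f :=
  ⟨(jBar N)⁻¹, inv_ne_zero Realisation.jBar_ne_zero, by rw [wq_jBar_inv]; norm_num⟩

/-- the `q`-adic place `∞` of `F_N` -/
noncomputable def qPlace : Place Kbar (FN N) := toPlace (wq N) (wq_pos N)

/-- the order at `∞` is the `q`-order -/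
theorem qPlace_ord (f : FN N) (hf : f ≠ 0) :
    (qPlace N).ord f = (f : LaurentSeries Kbar).order := by
  obtain ⟨t, ht0, -, ht⟩ := exists_mul_ord (wq N) (wq_pos N)
  have h1 := ht (jBar N)⁻¹ (inv_ne_zero Realisation.jBar_ne_zero)
  rw [wq_jBar_inv] at h1
  have ht1 : t = 1 := by
    have h2 : t ∣ 1 := ⟨_, h1⟩
    exact Int.eq_one_of_dvd_one ht0.le h2
  have h3 := ht f hf
  rw [ht1, one_mul] at h3
  exact h3.symm

end Fermat.Agent.S18.Disc0
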