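import Mathlib
import Fermat.Agent.S28.NormPolyGen
import Fermat.Agent.FF.ModDist
import Fermat.Agent.FF.ModRealEv

/-!
# S18, piece 87-P10a (helper3): every `Γ₀(N)`-invariant modular function lies in `F_N`

`realSub N` is the algebra of Laurent series over `ℚ̄` which are `q`-expansions of
`Γ₀(N)`-invariant elements of `RN N` (holomorphic on `ℍ`, Laurent expansions of all conjugates).

* `realSub_le_FN` : `s ∈ realSub N → s ∈ modularFunctionFieldBar N` (Lagrange interpolation
  with the conjugates of `j(Nτ)`, S28 `exists_lagrPoly`);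
* `PhiN_realSub`  : the realisation `PhiN` of such an element is the function itself.
-/

set_option autoImplicit false
set_option linter.unusedSectionVars false
set_option linter.style.haveILetI false

open scoped MatrixGroups
open UpperHalfPlane

namespace Fermat.Agent.S18.Disc0

open Fermat.Agent.FF Fermat.Agent.S28 Polynomial

variable (N : ℕ) [NeZero N]

/-- evaluation on the algebra `ℚ̄[j(dτ), d ∣ N]` -/
noncomputable def evAdj : Algebra.adjoin Kbar (genSet N) →+* RN N :=
  (evS N).comp (Subalgebra.inclusion (adjoin_le_realSub N)).toRingHom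

theorem evAdj_apply (a : Algebra.adjoin Kbar (genSet N)) :
    evAdj N a = evS N ⟨(a : LaurentSeries Kbar), adjoin_le_realSub N a.2⟩ := rfl

theorem evAdj_algebraMap (c : Kbar) :
    evAdj N (algebraMap Kbar (Algebra.adjoin Kbar (genSet N)) c) = algebraMap Kbar (RN N) c :=
  evS_algebraMap N c

theorem Jd_mem_adjoin (d : ℕ) [NeZero d] (hd : d ∣ N) :
    Jd d ∈ Algebra.adjoin Kbar (genSet N) :=
  Algebra.subset_adjoin ⟨d, inferInstance, hd, rfl⟩

theorem evAdj_Jd (d : ℕ) [NeZero d] (hd : d ∣ N) :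
    evAdj N ⟨Jd d, Jd_mem_adjoin N d hd⟩ = jR N d hd :=
  evS_Jd N d hd

theorem expInf_evAdj (a : Algebra.adjoin Kbar (genSet N)) :
    expInf N (evAdj N a) = ModularCurve.qExpand Kbar N (a : LaurentSeries Kbar) :=
  expInf_evS N _

/-- the conjugates of `j(Nτ)` are pairwise distinct -/
theorem jRN_conj_injective {g h : SL(2, ℤ)}
    (hgh : compSL N g⁻¹ (jR N N dvd_rfl) = compSL N h⁻¹ (jR N N dvd_rfl)) :
    (QuotientGroup.mk g : X N) = QuotientGroup.mk h := by
  rw [QuotientGroup.eq]
  apply mem_Gamma0_of_jFun_scale_eq N (g⁻¹ * h) (fun τ => scaleH N ((g⁻¹ * h) • τ))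
    (scaleH N) (fun τ => rfl) (fun τ => rfl)
  intro τ
  have h2 := congrArg (fun r : RN N => (r : ℍ → ℂ) (h • τ)) hgh
  simp only [compSL_apply, jR_apply] at h2
  rw [← mul_smul, ← mul_smul, inv_mul_cancel, one_smul] at h2
  exact h2

/-- the ring hom `ℚ̄[X] → ℚ̄[j(dτ)]`, `X ↦ j` (coefficients in the subring `⊤`) -/
noncomputable def psiAdj : Polynomial (⊤ : Subring Kbar) →+* Algebra.adjoin Kbar (genSet N) :=
  (Polynomial.aeval (R := Kbar)
    (⟨Jd 1, Jd_mem_adjoin N 1 (one_dvd N)⟩ : Algebra.adjoin Kbar (genSet N))).toRingHom.comp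
    (Polynomial.mapRingHom (⊤ : Subring Kbar).subtype)

theorem evAdj_comp_psiAdj : (evAdj N).comp (psiAdj N) = evJR N ⊤ := by
  apply Polynomial.ringHom_ext
  · intro c
    simp only [RingHom.comp_apply, psiAdj, evJR, AlgHom.toRingHom_eq_coe, RingHom.coe_coe,
      Polynomial.coe_mapRingHom, Polynomial.map_C, Polynomial.aeval_C]
    exact evAdj_algebraMap N _
  · simp only [RingHom.comp_apply, psiAdj, evJR, AlgHom.toRingHom_eq_coe, RingHom.coe_coe,
      Polynomial.coe_mapRingHom, Polynomial.map_X, Polynomial.aeval_X]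
    exact evAdj_Jd N 1 (one_dvd N)

/-- an element of `RN N` of the form `eval b (G.map evJR)` comes from the algebra -/
theorem exists_evAdj_eq_eval (G : Polynomial (Polynomial (⊤ : Subring Kbar))) :
    ∃ s : Algebra.adjoin Kbar (genSet N),
      evAdj N s = (G.map (evJR N ⊤)).eval (jR N N dvd_rfl) := by
  refine ⟨G.eval₂ (psiAdj N) ⟨Jd N, Jd_mem_adjoin N N dvd_rfl⟩, ?_⟩
  rw [Polynomial.hom_eval₂, evAdj_comp_psiAdj, evAdj_Jd, Polynomial.eval_map]

/-- **Lagrange**: a `Γ₀(N)`-invariant `r` satisfies `r * D = G` with `D ≠ 0`, `G`, `D` in the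
image of the algebra `ℚ̄[j(dτ)]`. -/
theorem exists_adjoin_mul_eq (r : RN N) (hr : IsInv0 N r) :
    ∃ sG sD : Algebra.adjoin Kbar (genSet N),
      evAdj N sD ≠ 0 ∧ evAdj N sG = r * evAdj N sD := by
  classical
  letI : Fintype (X N) := Fintype.ofFinite _
  set g : X N → SL(2, ℤ) := fun i => Quotient.out i with hgdef
  have hg : ∀ i, (QuotientGroup.mk (g i) : X N) = i := fun i => Quotient.out_eq i
  set b : RN N := jR N N dvd_rfl with hbdef
  have hb : IsInv0 N b := fun γ hγ => compSL_jR N N dvd_rfl γ hγ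
  set i₀ : X N := QuotientGroup.mk 1 with hi₀
  have hone : ∀ {a : RN N}, IsInv0 N a → compSL N (g i₀)⁻¹ a = a := by
    intro a ha
    have := compSL_inv_eq_of_mk_eq N ha (hg i₀)
    rw [this, inv_one, compSL_one]
  have hdist : ∀ i, i ≠ i₀ → b - compSL N (g i)⁻¹ b ≠ 0 := by
    intro i hi h0
    apply hi
    have h1 : compSL N (g i)⁻¹ b = compSL N (1 : SL(2, ℤ))⁻¹ b := by
      rw [inv_one, compSL_one]
      exact (sub_eq_zero.mp h0).symm
    have := jRN_conj_injective N h1
    rw [hg i] at this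
    exact this
  set D : RN N := ∏ i' ∈ Finset.univ.erase i₀, (b - compSL N (g i')⁻¹ b) with hD
  have hD0 : D ≠ 0 := by
    rw [hD, Finset.prod_ne_zero_iff]
    intro i' hi'
    exact hdist i' (Finset.ne_of_mem_erase hi')
  have htriv : ∀ x : LaurentSeries Kbar, x ∈ coeffSubring (⊤ : Subring Kbar) := by
    intro x
    rw [mem_coeffSubring]
    intro n
    exact Subring.mem_top _
  have key : ∀ a : RN N, IsInv0 N a →
      ∃ s : Algebra.adjoin Kbar (genSet N), evAdj N s = a * D := by
    intro a ha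
    obtain ⟨G, hG⟩ := exists_lagrPoly N ⊤ ha hb (fun γ => htriv _) (fun γ => htriv _) g hg
    obtain ⟨s, hs⟩ := exists_evAdj_eq_eval N G
    refine ⟨s, ?_⟩
    rw [hs, hG, Polynomial.eval_finsetSum]
    rw [Finset.sum_eq_single i₀]
    · rw [Polynomial.eval_mul, Polynomial.eval_C, Polynomial.eval_prod, hone ha]
      congr 1
      refine Finset.prod_congr rfl fun i' _ => ?_
      rw [Polynomial.eval_sub, Polynomial.eval_X, Polynomial.eval_C]
    · intro i _ hi
      rw [Polynomial.eval_mul, Polynomial.eval_prod]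
      have hmem : i₀ ∈ Finset.univ.erase i := Finset.mem_erase.mpr ⟨Ne.symm hi, Finset.mem_univ _⟩
      rw [Finset.prod_eq_zero hmem, mul_zero]
      rw [Polynomial.eval_sub, Polynomial.eval_X, Polynomial.eval_C, hone hb, sub_self]
    · intro h
      exact absurd (Finset.mem_univ _) h
  obtain ⟨sG, hsG⟩ := key r hr
  obtain ⟨sD, hsD⟩ := key 1 (fun γ _ => map_one _)
  rw [one_mul] at hsD
  exact ⟨sG, sD, by rw [hsD]; exact hD0, by rw [hsG, hsD]⟩

/-- **every `Γ₀(N)`-invariant modular function lies in `F_N`** -/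
theorem realSub_le_FN {s : LaurentSeries Kbar} (hs : s ∈ realSub N) :
    s ∈ ModularCurve.modularFunctionFieldBar N := by
  obtain ⟨r, hr, hri⟩ := hs
  obtain ⟨sG, sD, hD, h⟩ := exists_adjoin_mul_eq N r hri
  have h1 := congrArg (expInf N) h
  rw [map_mul, expInf_evAdj, expInf_evAdj, hr, ← map_mul] at h1
  have h2 : (sG : LaurentSeries Kbar) = s * (sD : LaurentSeries Kbar) :=
    ModularCurve.qExpand_injective (R := Kbar) (N := N) h1
  have hsD : (sD : LaurentSeries Kbar) ≠ 0 := by
    intro h0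
    apply hD
    have : sD = 0 := Subtype.ext h0
    rw [this, map_zero]
  have h3 : s = (sG : LaurentSeries Kbar) / (sD : LaurentSeries Kbar) := by
    rw [h2, mul_div_cancel_right₀ _ hsD]
  rw [modularFunctionFieldBar_eq_adjoin, h3]
  exact div_mem (IntermediateField.algebra_adjoin_le_adjoin _ _ sG.2)
    (IntermediateField.algebra_adjoin_le_adjoin _ _ sD.2)

/-- the realisation of an invariant modular function is the function itself -/
theorem PhiN_realSub {s : LaurentSeries Kbar} (hs : s ∈ realSub N) :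
    PhiN N ⟨s, realSub_le_FN N hs⟩ = algebraMap (RN N) (LN N) (evS N ⟨s, hs⟩) := by
  obtain ⟨sG, sD, hD, h⟩ := exists_adjoin_mul_eq N (evS N ⟨s, hs⟩) (isInv0_evS N _)
  have h1 := congrArg (expInf N) h
  rw [map_mul, expInf_evAdj, expInf_evAdj, expInf_evS, ← map_mul] at h1
  have h2 : (sG : LaurentSeries Kbar) = s * (sD : LaurentSeries Kbar) :=
    ModularCurve.qExpand_injective (R := Kbar) (N := N) h1
  have hsD : (sD : LaurentSeries Kbar) ≠ 0 := by
    intro h0
    apply hD
    have : sD = 0 := Subtype.ext h0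
    rw [this, map_zero]
  have h3 : s = (sG : LaurentSeries Kbar) / (sD : LaurentSeries Kbar) := by
    rw [h2, mul_div_cancel_right₀ _ hsD]
  rw [PhiN_div N ⟨s, realSub_le_FN N hs⟩ _ _ sG.2 sD.2 h3]
  have hD' : algebraMap (RN N) (LN N) (evAdj N sD) ≠ 0 := by
    intro h0
    exact hD (IsFractionRing.injective (RN N) (LN N) (h0.trans (map_zero _).symm))
  show algebraMap (RN N) (LN N) (evAdj N sG) / algebraMap (RN N) (LN N) (evAdj N sD) = _
  rw [div_eq_iff hD', h, map_mul]

end Fermat.Agent.S18.Disc0
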