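import Mathlib
import Fermat.Agent.S18.Disc0Inv
import Fermat.Agent.S18.Disc0Cusp
import Fermat.Agent.S28.UnitRN

/-!
# S18, piece 87-P10a (helper3): the modular units `Δ(mτ)/Δ(τ)` in `F_N` and their orders at
the cusps

* `USerR R m`     : the formal `q`-expansion `q^(m-1) ∏ (1 - q^(mn))^24 / (1 - q^n)^24` over any
                    commutative ring `R`; `coeffMap_USerR`, `order_USerR`, `leadingCoeff_USerR`;
* `USer_mem`      : `USerR ℚ̄ m ∈ F_N` for `m ∣ N`;  `UF N m hm : F_N`;
* `cusp_orders`   : for a place `v` of `F_N` over `j = ∞` there is `c : ℤ` with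
                    `m * v.ord (u_m) = (-v.ord j) * (gcd(m, c)^2 - m)` for all `m ∣ N`, and
                    `N ∣ c → v = qPlace N`.
-/

set_option autoImplicit false
set_option linter.unusedSectionVars false
set_option linter.style.haveILetI false

open AlgebraicCurve
open scoped MatrixGroups
open UpperHalfPlane

namespace Fermat.Agent.S18.Disc0

open Fermat.Agent.FF Fermat.Agent.S28

section formal

variable (R : Type*) [CommRing R]

/-- the formal `q`-expansion of `Δ(mτ)/Δ(τ)` -/
noncomputable def USerR (m : ℕ) [NeZero m] : LaurentSeries R :=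
  ModularCurve.qExpand R m (DeltaSer R) * DeltaInvSer R

theorem coeffMap_USerR {S : Type*} [CommRing S] (f : R →+* S) (m : ℕ) [NeZero m] :
    ModularCurve.coeffMap f (USerR R m) = USerR S m := by
  rw [USerR, USerR, map_mul, ModularCurve.coeffMap_qExpand, coeffMap_DeltaSer,
    coeffMap_DeltaInvSer]

end formal

section field

variable (R : Type*) [Field R]

theorem USerR_ne_zero (m : ℕ) [NeZero m] : USerR R m ≠ 0 :=
  mul_ne_zero (qExpand_ne_zero m DeltaSer_ne_zero) DeltaInvSer_ne_zero

theorem order_USerR (m : ℕ) [NeZero m] : (USerR R m).order = (m : ℤ) - 1 := by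
  rw [USerR, HahnSeries.order_mul (qExpand_ne_zero m DeltaSer_ne_zero) DeltaInvSer_ne_zero,
    order_qExpand, order_DeltaSer, order_DeltaInvSer]
  ring

theorem leadingCoeff_USerR (m : ℕ) [NeZero m] : (USerR R m).leadingCoeff = 1 := by
  rw [USerR, HahnSeries.leadingCoeff_mul, leadingCoeff_qExpand, leadingCoeff_DeltaSer,
    leadingCoeff_DeltaInvSer, one_mul]

theorem USerR_mem_coeffSubring (A : Subring R) (m : ℕ) [NeZero m] :
    USerR R m ∈ coeffSubring A :=
  Subring.mul_mem _ (qExpand_mem_coeffSubring m (DeltaSer_mem_coeffSubring A))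
    (DeltaInvSer_mem_coeffSubring A)

end field

variable (N : ℕ) [NeZero N]

theorem dmul_one_pow (x : LaurentSeries Kbar) : dmul (fun n : ℤ => (1 : Kbar) ^ n) x = x := by
  ext n
  rw [dmul_coeff, one_zpow, one_mul]

/-- the expansion at `∞` of the unit `u_m` is the formal series `USerR` -/
theorem expInf_uR (m : ℕ) [NeZero m] (hm : m ∣ N) :
    expInf N (uR N m hm) = ModularCurve.qExpand Kbar N (USerR Kbar m) := by
  obtain ⟨a, d', e, i1, i2, ζ, h1, h2, h3, h4, h5, -⟩ := expInf_compSL_uR N m hm 1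
  have hm0 : m ≠ 0 := NeZero.ne m
  have ha : a = m := by
    have : ((1 : SL(2, ℤ)) 1 0 : ℤ) = 0 := by simp
    rw [this, Int.gcd_zero_right, Int.natAbs_natCast] at h3
    exact h3.symm
  subst ha
  have hd' : d' = 1 := by
    have : a * d' = a * 1 := by rw [h1, mul_one]
    exact Nat.eq_of_mul_eq_mul_left (Nat.pos_of_ne_zero hm0) this
  subst hd'
  have he : e = N := by rw [← h2, one_mul]
  subst he
  have hζ : ζ = 1 := by simpa using h4
  subst hζ
  rw [compSL_one] at h5
  rw [h5, unitSer, twSer, dmul_one_pow, USerR, map_mul]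
  simp only [Nat.cast_one, inv_one, one_pow, map_one, one_mul]

theorem USer_mem_realSub (m : ℕ) [NeZero m] (hm : m ∣ N) : USerR Kbar m ∈ realSub N :=
  ⟨uR N m hm, expInf_uR N m hm, isInv0_uR N m hm⟩

/-- **the unit lies in `F_N`** -/
theorem USer_mem (m : ℕ) [NeZero m] (hm : m ∣ N) :
    USerR Kbar m ∈ ModularCurve.modularFunctionFieldBar N :=
  realSub_le_FN N (USer_mem_realSub N m hm)

/-- the modular unit `Δ(mτ)/Δ(τ)` as an element of `F_N` -/
noncomputable def UF (m : ℕ) [NeZero m] (hm : m ∣ N) : FN N := ⟨USerR Kbar m, USer_mem N m hm⟩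

theorem UF_coe (m : ℕ) [NeZero m] (hm : m ∣ N) :
    ((UF N m hm : FN N) : LaurentSeries Kbar) = USerR Kbar m := rfl

theorem UF_ne_zero (m : ℕ) [NeZero m] (hm : m ∣ N) : UF N m hm ≠ 0 := fun h =>
  USerR_ne_zero Kbar m (congrArg Subtype.val h)

theorem PhiN_UF (m : ℕ) [NeZero m] (hm : m ∣ N) :
    PhiN N (UF N m hm) = algebraMap (RN N) (LN N) (uR N m hm) := by
  have h := PhiN_realSub N (USer_mem_realSub N m hm)
  have h2 : evS N ⟨USerR Kbar m, USer_mem_realSub N m hm⟩ = uR N m hm :=
    evS_eq N (expInf_uR N m hm)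
  rw [h2] at h
  exact h

theorem uR_ne_zero (m : ℕ) [NeZero m] (hm : m ∣ N) : uR N m hm ≠ 0 :=
  (isUnit_uR N m hm).ne_zero

/-- the order of the `i`-th conjugate of the unit at the cusp `∞` -/
theorem wCusp_UF (m : ℕ) [NeZero m] (hm : m ∣ N) (i : X N) :
    (m : ℤ) * wCusp N i (UF N m hm) =
      (N : ℤ) * ((Int.gcd (m : ℤ) (((Quotient.out i : SL(2, ℤ))⁻¹ : SL(2, ℤ)) 1 0) : ℤ) ^ 2
        - (m : ℤ)) := by
  rw [wCusp_apply, Realisation.conj_apply, realisationN_Φ, PhiN_UF, sigmaL_algebraMap]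
  have hne : compSL N (Quotient.out i : SL(2, ℤ))⁻¹ (uR N m hm) ≠ 0 := by
    intro h0
    exact uR_ne_zero N m hm (compSL_injective _ (h0.trans (map_zero _).symm))
  rw [ordCusp_algebraMap hne]
  obtain ⟨a, d', e, i1, i2, ζ, h1, h2, h3, h4, h5, -⟩ :=
    expInf_compSL_uR N m hm (Quotient.out i : SL(2, ℤ))⁻¹
  have hm0 : m ≠ 0 := NeZero.ne m
  have hd'0 : d' ≠ 0 := by
    rintro rfl
    rw [mul_zero] at h1
    exact hm0 h1.symm
  have hζ : ζ ≠ 0 := by
    rintro rfl
    rw [zero_pow hd'0] at h4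
    exact zero_ne_one h4
  have hc : (((d' : Kbar)⁻¹) ^ 12) ≠ 0 :=
    pow_ne_zero _ (inv_ne_zero (Nat.cast_ne_zero.mpr hd'0))
  rw [h5, order_unitSer N a e hc hζ, h3]
  have h1' : (a : ℤ) * d' = m := by exact_mod_cast h1
  have h2' : (d' : ℤ) * e = N := by exact_mod_cast h2
  rw [← h1', ← h2']
  ring

/-- **orders of the units at the cusps**: for a place `v` of `F_N` over `j = ∞` there is
`c : ℤ` (lower left entry of a coset representative) with
`m * ord_v (u_m) = e_v * (gcd(m, c)^2 - m)` for all `m ∣ N`, `e_v = - ord_v j`;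
if `N ∣ c`, then `v` is the `q`-adic place `∞`. -/
theorem cusp_orders (v : Place Kbar (FN N)) (hv : v.ord (jBar N) < 0) :
    ∃ c : ℤ, (∀ (m : ℕ) [NeZero m] (hm : m ∣ N),
        (m : ℤ) * v.ord (UF N m hm) =
          (-v.ord (jBar N)) * ((Int.gcd (m : ℤ) c : ℤ) ^ 2 - (m : ℤ))) ∧
      ((N : ℤ) ∣ c → v = qPlace N) := by
  obtain ⟨i, t, ht0, htN, ht⟩ := exists_coset_of_cusp N v hv
  refine ⟨((Quotient.out i : SL(2, ℤ))⁻¹ : SL(2, ℤ)) 1 0, ?_, ?_⟩
  · intro m _ hm
    have h1 := wCusp_UF N m hm i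
    rw [ht _ (UF_ne_zero N m hm), ← htN] at h1
    have h2 : t * ((m : ℤ) * v.ord (UF N m hm)) =
        t * ((-v.ord (jBar N)) * ((Int.gcd (m : ℤ)
          (((Quotient.out i : SL(2, ℤ))⁻¹ : SL(2, ℤ)) 1 0) : ℤ) ^ 2 - (m : ℤ))) := by
      linear_combination h1
    exact mul_left_cancel₀ ht0.ne' h2
  · intro hdvd
    -- the coset is the identity coset, so `wCusp N i = N * q-order`
    have hmem : (Quotient.out i : SL(2, ℤ))⁻¹ ∈ CongruenceSubgroup.Gamma0 N := by
      rw [CongruenceSubgroup.Gamma0_mem]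
      exact (ZMod.intCast_zmod_eq_zero_iff_dvd _ N).mpr hdvd
    have hw : ∀ f : FN N, f ≠ 0 → wCusp N i f = (N : ℤ) * (f : LaurentSeries Kbar).order := by
      intro f hf
      rw [wCusp_apply, Realisation.conj_apply, (realisationN N).invariant _ hmem f,
        realisationN_Φ]
      obtain ⟨A, B, hB0, -, -, hf', hq⟩ := exists_PhiN_eq_div N f
      have hA0 : A ≠ 0 := by
        rintro rfl
        rw [map_zero, zero_div] at hf'
        exact hf ((map_eq_zero (PhiN N)).mp hf')
      rw [hf', ordCusp_div hA0 hB0]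
      have hB' : expInf N B ≠ 0 := fun h => hB0 (expInf_injective N (h.trans (map_zero _).symm))
      have hfq : ModularCurve.qExpand Kbar N (f : LaurentSeries Kbar) ≠ 0 :=
        qExpand_ne_zero N (fun h => hf (Subtype.ext h))
      have h3 : expInf N A = ModularCurve.qExpand Kbar N (f : LaurentSeries Kbar) * expInf N B := by
        rw [hq, div_mul_cancel₀ _ hB']
      rw [h3, HahnSeries.order_mul hfq hB', order_qExpand]
      ring
    apply Place.ext
    ext f
    by_cases hf : f = 0
    · subst hf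
      simp only [zero_mem]
    · have h1 := ht f hf
      rw [hw f hf] at h1
      have h2 := qPlace_ord N f hf
      have hN : (0 : ℤ) < N := by exact_mod_cast Nat.pos_of_ne_zero (NeZero.ne N)
      rw [Fermat.Agent.FF.H6.mem_iff_ord_nonneg, Fermat.Agent.FF.H6.mem_iff_ord_nonneg, h2]
      constructor
      · intro h
        by_contra hneg
        rw [not_le] at hneg
        have : t * v.ord f < 0 := by
          rw [← h1]
          exact mul_neg_of_pos_of_neg hN hneg
        nlinarith
      · intro h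
        by_contra hneg
        rw [not_le] at hneg
        have : t * v.ord f < 0 := mul_neg_of_pos_of_neg ht0 hneg
        rw [← h1] at this
        nlinarith

end Fermat.Agent.S18.Disc0
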