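import Mathlib
import Fermat.Agent.S18.Disc0Unit
import Fermat.Agent.FF.AFibres

/-!
# S18, piece 87-P10a (helper3): the modular units have no zeros or poles at the finite places

* `ord_UF_of_finite` : a place `v` of `F_N` with `0 ≤ v.ord j` has `v.ord (u_m) = 0`;
* `support_div_UF`   : `v.ord (u_m) ≠ 0 → v.ord j < 0`;
* `divUF`            : the divisor of `u_m` (a `Divisor`, i.e. finitely supported).
-/

set_option autoImplicit false
set_option linter.unusedSectionVars false
set_option linter.style.haveILetI false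

open AlgebraicCurve IntermediateField
open scoped MatrixGroups
open UpperHalfPlane

namespace Fermat.Agent.S18.Disc0

open Fermat.Agent.FF Fermat.Agent.FF.H6 Fermat.Agent.S28

variable (N : ℕ) [NeZero N]

/-- for every value `a` there is a point `τ₀` over it, with the (finite, positive) order of
`j - a` at `τ₀` -/
theorem exists_point_over (a : Kbar) :
    ∃ (τ₀ : ℍ) (m₀ : ℕ), 0 < m₀ ∧
      analyticOrderAt (fun z => jFun (ofComplex z) - iotaK a) (τ₀ : ℂ) = m₀ := by
  by_cases ha0 : a = 0
  · subst ha0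
    obtain ⟨τ₀, -, -, hord⟩ := exists_ST_fixed_order_three
    exact ⟨τ₀, 3, by norm_num, by simpa using hord⟩
  by_cases ha1 : a = 1728
  · subst ha1
    obtain ⟨τ₀, -, -, hord⟩ := exists_S_fixed_order_two
    have h1728 : iotaK 1728 = 1728 := map_ofNat iotaK 1728
    exact ⟨τ₀, 2, by norm_num, by rw [h1728]; exact hord⟩
  · obtain ⟨τ₀, hτ⟩ := jFun_surjective (iotaK a)
    have h0 : iotaK a ≠ 0 := (map_ne_zero iotaK).mpr ha0
    have h1 : iotaK a ≠ 1728 := by
      intro h
      apply ha1
      apply iotaK_injective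
      rw [h, map_ofNat]
    exact ⟨τ₀, 1, by norm_num, by simpa using jFun_order_generic hτ h0 h1⟩

/-- **the units are units at the finite places** -/
theorem ord_UF_of_finite (v : Place Kbar (FN N)) (hv : 0 ≤ v.ord (jBar N))
    (m : ℕ) [NeZero m] (hm : m ∣ N) : v.ord (UF N m hm) = 0 := by
  classical
  letI : Fintype (X N) := Fintype.ofFinite _
  haveI : Nonempty (X N) := ⟨QuotientGroup.mk 1⟩
  have hMR := (modularOrdData N)
  have htr : Transcendental Kbar (jBar N) := hMR.transc
  haveI : FiniteDimensional Kbar⟮jBar N⟯ (FN N) := hMR.findim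
  obtain ⟨a, ha⟩ : ∃ a : Kbar, v ∈ placesOver (jBar N) a := by
    rcases mem_placesOverInf_or_exists (jBar N) htr v with h | h
    · exact absurd h (not_lt.mpr hv)
    · exact h
  obtain ⟨τ₀, m₀, hm₀, hord⟩ := exists_point_over a
  set w : X N → OrdFn Kbar (FN N) := fun i =>
    (ordFin N τ₀).comapRingHom ((realisationN N).conj i) (fun c hc => by
      rw [(realisationN N).conj_const]
      exact (ordFin N τ₀).map_const' c hc) with hw
  have hP : ∀ f : FN N, f ≠ 0 → (∀ i, w i f = 0) →
      ∃ P : Polynomial ↥Kbar⟮jBar N⟯, P.Monic ∧ Polynomial.aeval f P = 0 ∧ P.coeff 0 ≠ 0 ∧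
        (∀ i k, P.coeff k ≠ 0 → 0 ≤ w i (P.coeff k : FN N)) ∧
        (∀ i, w i (P.coeff 0 : FN N) = 0) := by
    intro f hf h0
    exact poly_clause_of_conjugates Kbar⟮jBar N⟯ (realisationN N).conj (ordFin N τ₀)
      (realisationN_hcoef N) f hf h0
  obtain ⟨i, t, ht0, ht⟩ := exists_index_of_place (jBar N) htr a (X N) m₀ w hm₀
    (fun i => (realisationN N).ordFin_conj_j_sub i a τ₀ m₀ hord) hP v ha
  have h1 := ht (UF N m hm) (UF_ne_zero N m hm)
  have h2 : w i (UF N m hm) = 0 := by
    show ordFin N τ₀ ((realisationN N).conj i (UF N m hm)) = 0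
    rw [Realisation.conj_apply, realisationN_Φ, PhiN_UF, sigmaL_algebraMap]
    have hne : compSL N (Quotient.out i : SL(2, ℤ))⁻¹ (uR N m hm) ≠ 0 := by
      intro h0
      exact uR_ne_zero N m hm (compSL_injective _ (h0.trans (map_zero _).symm))
    rw [ordFin_algebraMap τ₀ hne]
    have hcoe : ((compSL N (Quotient.out i : SL(2, ℤ))⁻¹ (uR N m hm) : RN N) : ℍ → ℂ) ≠ 0 :=
      fun h => hne (Subtype.ext h)
    rw [ordAt_eq_zero_iff (RN.mdiff _) hcoe]
    show uFun m _ ≠ 0
    exact uFun_ne_zero m _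
  rw [h2] at h1
  rcases mul_eq_zero.mp h1.symm with h | h
  · exact absurd h ht0.ne'
  · exact h

theorem neg_of_ord_UF_ne_zero (v : Place Kbar (FN N)) (m : ℕ) [NeZero m] (hm : m ∣ N)
    (h : v.ord (UF N m hm) ≠ 0) : v.ord (jBar N) < 0 := by
  by_contra hcon
  exact h (ord_UF_of_finite N v (not_lt.mp hcon) m hm)

/-- the cusps of `F_N` form a finite set -/
theorem cusps_finite : (placesOverInf (K := Kbar) (jBar N)).Finite := by
  have hMR := (modularOrdData N)
  haveI : FiniteDimensional Kbar⟮jBar N⟯ (FN N) := hMR.findim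
  exact placesOverInf_finite (jBar N) hMR.transc

/-- the divisor of the unit `u_m` -/
noncomputable def divUF (m : ℕ) [NeZero m] (hm : m ∣ N) : Divisor Kbar (FN N) :=
  Finsupp.ofSupportFinite (fun v => v.ord (UF N m hm))
    ((cusps_finite N).subset (fun v hv => neg_of_ord_UF_ne_zero N v m hm hv))

theorem divUF_apply (m : ℕ) [NeZero m] (hm : m ∣ N) (v : Place Kbar (FN N)) :
    divUF N m hm v = v.ord (UF N m hm) := rfl

end Fermat.Agent.S18.Disc0
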