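import Mathlib
import Fermat.Agent.S18.Disc0Fin
import Fermat.Agent.FF.AFinite

/-!
# S18, piece 87-P10a (helper3): the divisor of a modular unit has degree `0`

* `transcendental_UF` : `u_m` is transcendental over `ℚ̄` for `1 < m`;
* `sum_ord_UF`        : `∑_{cusps v} v.ord (u_m) = 0`.
-/

set_option autoImplicit false
set_option linter.unusedSectionVars false
set_option linter.style.haveILetI false

open AlgebraicCurve IntermediateField
open scoped MatrixGroups
open UpperHalfPlane

namespace Fermat.Agent.S18.Disc0

open Fermat.Agent.FF Fermat.Agent.FF.H6 Fermat.Agent.S28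

variable (N : ℕ) [NeZero N]

/-- an element of `F_N` algebraic over `ℚ̄` is a constant, so its `q`-order is `0` -/
theorem order_eq_zero_of_isAlgebraic {y : FN N} (hy : IsAlgebraic Kbar y) (hy0 : y ≠ 0) :
    (y : LaurentSeries Kbar).order = 0 := by
  haveI : Algebra.IsAlgebraic Kbar Kbar⟮y⟯ := IntermediateField.isAlgebraic_adjoin_simple hy.isIntegral
  haveI : Algebra.IsIntegral Kbar Kbar⟮y⟯ := Algebra.IsAlgebraic.isIntegral
  obtain ⟨c, hc⟩ := (IsAlgClosed.algebraMap_bijective_of_isIntegral (k := Kbar)
    (K := Kbar⟮y⟯)).2 ⟨y, IntermediateField.mem_adjoin_simple_self Kbar y⟩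
  have h1 : y = algebraMap Kbar (FN N) c := by
    have := congrArg (fun z : Kbar⟮y⟯ => (z : FN N)) hc
    exact this.symm
  have hc0 : c ≠ 0 := by
    rintro rfl
    rw [map_zero] at h1
    exact hy0 h1
  have h2 := (wq N).map_const' c hc0
  rw [← h1] at h2
  exact h2

theorem transcendental_UF (m : ℕ) [NeZero m] (hm : m ∣ N) (h1 : 1 < m) :
    Transcendental Kbar (UF N m hm) := by
  intro halg
  have h := order_eq_zero_of_isAlgebraic N halg (UF_ne_zero N m hm)
  rw [UF_coe, order_USerR] at h
  have : (1 : ℤ) < m := by exact_mod_cast h1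
  omega

/-- **degree zero**: the orders of a unit at the cusps add up to `0` -/
theorem sum_ord_UF (m : ℕ) [NeZero m] (hm : m ∣ N) :
    ∑ v ∈ (cusps_finite N).toFinset, v.ord (UF N m hm) = 0 := by
  classical
  rcases Nat.lt_or_ge 1 m with h1 | h1
  · have hMR := modularOrdData N
    haveI : FiniteDimensional Kbar⟮jBar N⟯ (FN N) := hMR.findim
    have hx := transcendental_UF N m hm h1
    haveI : FiniteDimensional Kbar⟮UF N m hm⟯ (FN N) :=
      finiteDimensional_of_transcendental (jBar N) hMR.transc (UF N m hm) hx
    have hz := sum_ord_placesOver (UF N m hm) hx (0 : Kbar)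
    have hp := sum_ord_placesOverInf (UF N m hm) hx
    set C := (cusps_finite N).toFinset with hC
    set Z₀ := (placesOver_finite (UF N m hm) hx (0 : Kbar)).toFinset with hZ₀
    set P₀ := (placesOverInf_finite (UF N m hm) hx).toFinset with hP₀
    have hZC : Z₀ ⊆ C := by
      intro v hv
      rw [hZ₀, Set.Finite.mem_toFinset] at hv
      rw [hC, Set.Finite.mem_toFinset]
      have hv' : 0 < v.ord (UF N m hm - algebraMap Kbar (FN N) 0) := hv
      rw [map_zero, sub_zero] at hv'
      exact neg_of_ord_UF_ne_zero N v m hm hv'.ne'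
    have hPC : P₀ ⊆ C := by
      intro v hv
      rw [hP₀, Set.Finite.mem_toFinset] at hv
      rw [hC, Set.Finite.mem_toFinset]
      have hv' : v.ord (UF N m hm) < 0 := hv
      exact neg_of_ord_UF_ne_zero N v m hm hv'.ne
    have hsplit : ∀ v ∈ C, v.ord (UF N m hm) =
        (if v ∈ Z₀ then v.ord (UF N m hm - algebraMap Kbar (FN N) 0) else 0) -
          (if v ∈ P₀ then -v.ord (UF N m hm) else 0) := by
      intro v _
      rw [map_zero, sub_zero]
      by_cases hz0 : v ∈ Z₀
      · have hv : 0 < v.ord (UF N m hm - algebraMap Kbar (FN N) 0) := by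
          rw [hZ₀, Set.Finite.mem_toFinset] at hz0
          exact hz0
        rw [map_zero, sub_zero] at hv
        have hnp : v ∉ P₀ := by
          intro hp0
          rw [hP₀, Set.Finite.mem_toFinset] at hp0
          have hv' : v.ord (UF N m hm) < 0 := hp0
          omega
        rw [if_pos hz0, if_neg hnp, sub_zero]
      · by_cases hp0 : v ∈ P₀
        · rw [if_neg hz0, if_pos hp0]
          ring
        · rw [if_neg hz0, if_neg hp0, sub_zero]
          have h1 : ¬ 0 < v.ord (UF N m hm) := by
            intro h
            apply hz0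
            rw [hZ₀, Set.Finite.mem_toFinset]
            show 0 < v.ord (UF N m hm - algebraMap Kbar (FN N) 0)
            rw [map_zero, sub_zero]
            exact h
          have h2 : ¬ v.ord (UF N m hm) < 0 := by
            intro h
            apply hp0
            rw [hP₀, Set.Finite.mem_toFinset]
            exact h
          omega
    rw [Finset.sum_congr rfl hsplit, Finset.sum_sub_distrib, ← Finset.sum_filter,
      ← Finset.sum_filter, Finset.filter_mem_eq_inter, Finset.filter_mem_eq_inter,
      Finset.inter_eq_right.mpr hZC, Finset.inter_eq_right.mpr hPC, hz, hp, sub_self]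
  · -- `m = 1`: the unit is `1`
    have hm1 : m = 1 := by
      have := Nat.pos_of_ne_zero (NeZero.ne m)
      omega
    subst hm1
    apply Finset.sum_eq_zero
    intro v hv
    rw [Set.Finite.mem_toFinset] at hv
    have hv' : v.ord (jBar N) < 0 := hv
    obtain ⟨c, hc, -⟩ := cusp_orders N v hv'
    have := hc 1 (one_dvd N)
    simp at this
    exact this

end Fermat.Agent.S18.Disc0
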