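import Mathlib
import Fermat.Agent.S18.Disc0Deg
import Fermat.Agent.S28.LemmaK

/-!
# S18, piece 87-P10a (helper3): DISC (C1) + (C2)

`disc_cusps` : let `r` be a map from the places of `F_N` (`1 < N`) to the places of any function
field `Fb / k`, and `Q` a place of `Fb`.  If for every `m ∣ N` the divisor `r_* div(u_m)` has
coefficient `m - 1` at `Q` (this is what div-compatibility gives for the `q`-adic place `Q = ∞̄`:
the reduction of `u_m` has `q`-order `m - 1`), then `r ∞ = Q`, and `∞` is the ONLY cusp of `F_N`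
which `r` maps to `Q`.
-/

set_option autoImplicit false
set_option linter.unusedSectionVars false
set_option linter.style.haveILetI false

open AlgebraicCurve IntermediateField
open scoped MatrixGroups
open UpperHalfPlane

namespace Fermat.Agent.S18.Disc0

open Fermat.Agent.FF Fermat.Agent.FF.H6 Fermat.Agent.S28

/-- **LEMMA K with weights** -/
theorem lemmaK_weighted {ι : Type*} [DecidableEq ι] {N : ℕ} (hN : 0 < N) (S : Finset ι)
    (a : ι → ℕ) (e : ι → ℕ) (he : ∀ i ∈ S, 0 < e i) (ha : ∀ i ∈ S, a i ∣ N)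
    (hne : ∀ i ∈ S, a i ≠ N)
    (h : ∀ m, m ∣ N →
      ∑ i ∈ S, (e i : ℤ) * ((((Nat.gcd m (a i) : ℕ) : ℤ)) ^ 2 - (m : ℤ)) = 0) :
    S = ∅ := by
  classical
  set J : Finset (Σ _ : ι, ℕ) := S.sigma (fun i => Finset.range (e i)) with hJdef
  have hJ : J = ∅ := by
    refine lemmaK_empty hN J (fun x => a x.1) ?_ ?_ ?_
    · intro x hx
      exact ha x.1 (Finset.mem_sigma.mp hx).1
    · intro x hx
      exact hne x.1 (Finset.mem_sigma.mp hx).1
    · intro m hm
      rw [hJdef, Finset.sum_sigma]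
      rw [← h m hm]
      refine Finset.sum_congr rfl fun i _ => ?_
      simp only [Finset.sum_const, Finset.card_range, nsmul_eq_mul]
  by_contra hS
  obtain ⟨i, hi⟩ := Finset.nonempty_of_ne_empty hS
  have hmem : (⟨i, 0⟩ : Σ _ : ι, ℕ) ∈ J :=
    Finset.mem_sigma.mpr ⟨hi, Finset.mem_range.mpr (he i hi)⟩
  rw [hJ] at hmem
  exact absurd hmem (Finset.notMem_empty _)

variable (N : ℕ) [NeZero N]

theorem mapDomain_apply_eq_sum {k Fb : Type*} [Field k] [Field Fb] [Algebra k Fb]
    (r : Place Kbar (FN N) → Place k Fb) (Q : Place k Fb) (D : Divisor Kbar (FN N))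
    (C : Finset (Place Kbar (FN N))) (hC : D.support ⊆ C) [DecidablePred fun v => r v = Q] :
    Finsupp.mapDomain r D Q = ∑ v ∈ C.filter (fun v => r v = Q), D v := by
  classical
  rw [Finsupp.mapDomain, Finsupp.sum_apply, Finsupp.sum, Finset.sum_filter]
  rw [Finset.sum_subset hC]
  · refine Finset.sum_congr rfl fun v _ => ?_
    rw [Finsupp.single_apply]
  · intro v _ hv
    rw [Finsupp.notMem_support_iff.mp hv, Finsupp.single_zero]
    rfl

theorem qPlace_mem_cusps : (qPlace N).ord (jBar N) < 0 := by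
  rw [qPlace_ord N _ Realisation.jBar_ne_zero, jBar_order]
  norm_num

/-- **DISC (C1) + (C2)** -/
theorem disc_cusps (hN : 1 < N) {k Fb : Type*} [Field k] [Field Fb] [Algebra k Fb]
    (r : Place Kbar (FN N) → Place k Fb) (Q : Place k Fb)
    (hU : ∀ (m : ℕ) [NeZero m] (hm : m ∣ N),
      Finsupp.mapDomain r (divUF N m hm) Q = (m : ℤ) - 1) :
    r (qPlace N) = Q ∧
      ∀ v : Place Kbar (FN N), v.ord (jBar N) < 0 → r v = Q → v = qPlace N := by
  classical
  have hN0 : 0 < N := Nat.pos_of_ne_zero (NeZero.ne N)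
  set C := (cusps_finite N).toFinset with hCdef
  have memC : ∀ v, v ∈ C ↔ v.ord (jBar N) < 0 := fun v => by
    rw [hCdef, Set.Finite.mem_toFinset]
    rfl
  set q := qPlace N with hqdef
  have hqC : q ∈ C := (memC q).mpr (qPlace_mem_cusps N)
  set Z := C.filter (fun v => r v = Q) with hZdef
  have hdvd0 : ∀ m, m ∣ N → m ≠ 0 := fun m hm h0 => by
    rw [h0, zero_dvd_iff] at hm
    exact (NeZero.ne N) hm
  -- the sums over `Z`
  have hsum : ∀ (m : ℕ) [NeZero m] (hm : m ∣ N),
      ∑ v ∈ Z, v.ord (UF N m hm) = (m : ℤ) - 1 := by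
    intro m _ hm
    rw [← hU m hm, mapDomain_apply_eq_sum N r Q (divUF N m hm) C]
    · rfl
    · intro v hv
      rw [Finsupp.mem_support_iff, divUF_apply] at hv
      exact (memC v).mpr (neg_of_ord_UF_ne_zero N v m hm hv)
  -- types and widths of the cusps
  have hex : ∀ v : Place Kbar (FN N), ∃ c : ℤ, v.ord (jBar N) < 0 →
      (∀ (m : ℕ) [NeZero m] (hm : m ∣ N), (m : ℤ) * v.ord (UF N m hm) =
        (-v.ord (jBar N)) * ((Int.gcd (m : ℤ) c : ℤ) ^ 2 - (m : ℤ))) ∧
      ((N : ℤ) ∣ c → v = qPlace N) := by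
    intro v
    by_cases hv : v.ord (jBar N) < 0
    · obtain ⟨c, hc⟩ := cusp_orders N v hv
      exact ⟨c, fun _ => hc⟩
    · exact ⟨0, fun h => absurd h hv⟩
  choose c hc using hex
  set a : Place Kbar (FN N) → ℕ := fun v => Int.gcd (N : ℤ) (c v) with hadef
  set e : Place Kbar (FN N) → ℕ := fun v => (-v.ord (jBar N)).toNat with hedef
  have he : ∀ v ∈ C, (e v : ℤ) = -v.ord (jBar N) := fun v hv => by
    have := (memC v).mp hv
    rw [hedef]
    exact Int.toNat_of_nonneg (by omega)
  have hepos : ∀ v ∈ C, 0 < e v := fun v hv => by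
    have h1 := he v hv
    have h2 := (memC v).mp hv
    omega
  have hadvd : ∀ v, a v ∣ N := fun v => by
    have := Int.gcd_dvd_left (N : ℤ) (c v)
    exact_mod_cast this
  have hgcd : ∀ v m, m ∣ N → Nat.gcd m (a v) = Int.gcd (m : ℤ) (c v) := by
    intro v m hm
    rw [hadef]
    simp only [Int.gcd, Int.natAbs_natCast]
    rw [← Nat.gcd_assoc, Nat.gcd_eq_left hm]
  have hne : ∀ v ∈ C, v ≠ q → a v ≠ N := by
    intro v hv hvq haN
    apply hvq
    apply (hc v ((memC v).mp hv)).2
    have h1 : ((Int.gcd (N : ℤ) (c v) : ℕ) : ℤ) ∣ c v := Int.gcd_dvd_right _ _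
    have h2 : (Int.gcd (N : ℤ) (c v) : ℕ) = N := haN
    rw [h2] at h1
    exact h1
  -- the key relation
  have key : ∀ v ∈ C, ∀ (m : ℕ) [NeZero m] (hm : m ∣ N),
      (e v : ℤ) * ((((Nat.gcd m (a v) : ℕ) : ℤ)) ^ 2 - (m : ℤ)) = (m : ℤ) * v.ord (UF N m hm) := by
    intro v hv m _ hm
    rw [he v hv, hgcd v m hm]
    exact ((hc v ((memC v).mp hv)).1 m hm).symm
  have hqterm : ∀ (m : ℕ) [NeZero m] (hm : m ∣ N),
      (e q : ℤ) * ((((Nat.gcd m (a q) : ℕ) : ℤ)) ^ 2 - (m : ℤ)) = (m : ℤ) * ((m : ℤ) - 1) := by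
    intro m _ hm
    rw [key q hqC m hm, hqdef, qPlace_ord N _ (UF_ne_zero N m hm), UF_coe, order_USerR]
  have htot : ∀ (m : ℕ) [NeZero m] (hm : m ∣ N),
      ∑ v ∈ C, (e v : ℤ) * ((((Nat.gcd m (a v) : ℕ) : ℤ)) ^ 2 - (m : ℤ)) = 0 := by
    intro m _ hm
    rw [Finset.sum_congr rfl (fun v hv => key v hv m hm), ← Finset.mul_sum, sum_ord_UF N m hm,
      mul_zero]
  have hZsum : ∀ (m : ℕ) [NeZero m] (hm : m ∣ N),
      ∑ v ∈ Z, (e v : ℤ) * ((((Nat.gcd m (a v) : ℕ) : ℤ)) ^ 2 - (m : ℤ)) =
        (m : ℤ) * ((m : ℤ) - 1) := by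
    intro m _ hm
    have hZC : ∀ v ∈ Z, v ∈ C := fun v hv => (Finset.mem_filter.mp hv).1
    rw [Finset.sum_congr rfl (fun v hv => key v (hZC v hv) m hm), ← Finset.mul_sum, hsum m hm]
  by_cases hqZ : q ∈ Z
  · -- Case A
    have hS : Z.erase q = ∅ := by
      refine lemmaK_weighted hN0 (Z.erase q) a e ?_ ?_ ?_ ?_
      · intro v hv
        exact hepos v (Finset.mem_filter.mp (Finset.mem_of_mem_erase hv)).1
      · intro v _
        exact hadvd v
      · intro v hv
        exact hne v (Finset.mem_filter.mp (Finset.mem_of_mem_erase hv)).1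
          (Finset.ne_of_mem_erase hv)
      · intro m hm
        haveI : NeZero m := ⟨hdvd0 m hm⟩
        have h1 := Finset.add_sum_erase Z
          (fun v => (e v : ℤ) * ((((Nat.gcd m (a v) : ℕ) : ℤ)) ^ 2 - (m : ℤ))) hqZ
        rw [hZsum m hm, hqterm m hm] at h1
        linarith
    refine ⟨(Finset.mem_filter.mp hqZ).2, fun v hv hrv => ?_⟩
    by_contra hvq
    have : v ∈ Z.erase q :=
      Finset.mem_erase.mpr ⟨hvq, Finset.mem_filter.mpr ⟨(memC v).mpr hv, hrv⟩⟩
    rw [hS] at this
    exact absurd this (Finset.notMem_empty _)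
  · -- Case B: impossible
    exfalso
    have hS : C.erase q = ∅ := by
      refine lemmaK_weighted hN0 (C.erase q) a
        (fun v => e v * (if r v = Q then 2 else 1)) ?_ ?_ ?_ ?_
      · intro v hv
        have := hepos v (Finset.mem_of_mem_erase hv)
        split_ifs <;> omega
      · intro v _
        exact hadvd v
      · intro v hv
        exact hne v (Finset.mem_of_mem_erase hv) (Finset.ne_of_mem_erase hv)
      · intro m hm
        haveI : NeZero m := ⟨hdvd0 m hm⟩
        have h1 := Finset.add_sum_erase C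
          (fun v => (e v : ℤ) * ((((Nat.gcd m (a v) : ℕ) : ℤ)) ^ 2 - (m : ℤ))) hqC
        rw [htot m hm, hqterm m hm] at h1
        have hZeq : Z = (C.erase q).filter (fun v => r v = Q) := by
          ext v
          simp only [hZdef, Finset.mem_filter, Finset.mem_erase]
          constructor
          · rintro ⟨h1, h2⟩
            refine ⟨⟨?_, h1⟩, h2⟩
            rintro rfl
            exact hqZ (Finset.mem_filter.mpr ⟨h1, h2⟩)
          · rintro ⟨⟨-, h1⟩, h2⟩
            exact ⟨h1, h2⟩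
        have h2 := hZsum m hm
        rw [hZeq, Finset.sum_filter] at h2
        have h3 : ∀ v ∈ C.erase q,
            (((e v * (if r v = Q then 2 else 1) : ℕ) : ℤ)) *
              ((((Nat.gcd m (a v) : ℕ) : ℤ)) ^ 2 - (m : ℤ)) =
            (e v : ℤ) * ((((Nat.gcd m (a v) : ℕ) : ℤ)) ^ 2 - (m : ℤ)) +
              (if r v = Q then (e v : ℤ) * ((((Nat.gcd m (a v) : ℕ) : ℤ)) ^ 2 - (m : ℤ))
                else 0) := by
          intro v _
          split_ifs
          · push_cast
            ring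
          · push_cast
            ring
        rw [Finset.sum_congr rfl h3, Finset.sum_add_distrib, h2]
        linarith
    have hZempty : Z = ∅ := by
      rw [Finset.eq_empty_iff_forall_notMem]
      intro v hv
      have hvC := (Finset.mem_filter.mp hv).1
      have hvq : v ≠ q := by
        rintro rfl
        exact hqZ hv
      have : v ∈ C.erase q := Finset.mem_erase.mpr ⟨hvq, hvC⟩
      rw [hS] at this
      exact absurd this (Finset.notMem_empty _)
    have h4 := hsum N dvd_rfl
    rw [hZempty, Finset.sum_empty] at h4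
    have : (1 : ℤ) < N := by exact_mod_cast hN
    omega

end Fermat.Agent.S18.Disc0
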