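import Mathlib
import Fermat.Agent.S18.Disc0Main

/-!
# S18, piece 87-U5 (helper3): `hP1` of the CT wiring

* `exists_cusp_ne` : for `1 < N` the field `F_N` has a cusp at which `u_N` has negative order
                     (so a cusp different from `∞`);
* `exists_place_ne`: under the hypothesis `hU` of `disc_cusps`, there is a place `P1` of `F_N`
                     with `r P1 ≠ Q`  (`hP1` of `CT.WireData`).
-/

set_option autoImplicit false
set_option linter.unusedSectionVars false
set_option linter.style.haveILetI false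

open AlgebraicCurve IntermediateField
open scoped MatrixGroups
open UpperHalfPlane

namespace Fermat.Agent.S18.Disc0

open Fermat.Agent.FF Fermat.Agent.FF.H6 Fermat.Agent.S28

variable (N : ℕ) [NeZero N]

/-- the order of `u_m` at `∞` is `m - 1` -/
theorem qPlace_ord_UF (m : ℕ) [NeZero m] (hm : m ∣ N) :
    (qPlace N).ord (UF N m hm) = (m : ℤ) - 1 := by
  rw [qPlace_ord N _ (UF_ne_zero N m hm), UF_coe, order_USerR]

/-- for `1 < N` there is a cusp at which `u_N` has a pole -/
theorem exists_cusp_ne (hN : 1 < N) :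
    ∃ v : Place Kbar (FN N), v.ord (jBar N) < 0 ∧ v.ord (UF N N dvd_rfl) < 0 ∧ v ≠ qPlace N := by
  classical
  have hsum := sum_ord_UF N N dvd_rfl
  have hq : qPlace N ∈ (cusps_finite N).toFinset := by
    rw [Set.Finite.mem_toFinset]
    exact qPlace_mem_cusps N
  have hqo := qPlace_ord_UF N N dvd_rfl
  have hN' : (1 : ℤ) < N := by exact_mod_cast hN
  by_contra hcon
  push Not at hcon
  have hnn : ∀ v ∈ (cusps_finite N).toFinset, 0 ≤ v.ord (UF N N dvd_rfl) := by
    intro v hv
    rw [Set.Finite.mem_toFinset] at hv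
    by_contra hlt
    push Not at hlt
    have h1 := hcon v hv hlt
    rw [h1, hqo] at hlt
    omega
  have hle := Finset.single_le_sum hnn hq
  rw [hsum, hqo] at hle
  omega

/-- **`hP1`**: under the hypothesis of `disc_cusps`, some place is not mapped to `Q` -/
theorem exists_place_ne (hN : 1 < N) {k Fb : Type*} [Field k] [Field Fb] [Algebra k Fb]
    (r : Place Kbar (FN N) → Place k Fb) (Q : Place k Fb)
    (hU : ∀ (m : ℕ) [NeZero m] (hm : m ∣ N),
      Finsupp.mapDomain r (divUF N m hm) Q = (m : ℤ) - 1) :
    ∃ P1 : Place Kbar (FN N), r P1 ≠ Q := by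
  obtain ⟨v, hv, -, hne⟩ := exists_cusp_ne N hN
  exact ⟨v, fun h => hne ((disc_cusps N hN r Q hU).2 v hv h)⟩

end Fermat.Agent.S18.Disc0
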