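import Mathlib
import Fermat.Agent.S18.GaussDatum

/-!
# S18, piece 87-P11 (b1): evaluation of polynomials at `(j, j_N)` and primitive scaling

* `evJ R`, `evJN R N`: evaluation of `R[Y]` at `j`, of `R[Y][X]` at `(j, j_N)`, in `R((q))`;
  compatible with `coeffMap` (`coeffMap_evJN`).
* `exists_primitive_scaling`: a nonzero `Q ∈ L[Y][X]` can be scaled by a constant into
  `A[Y][X]` with a coefficient equal to `1` (so with nonzero reduction).
-/

set_option autoImplicit false

noncomputable section

open HahnSeries ModularCurve Polynomial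

namespace Fermat.Agent.S18.MScal

section Eval

variable (R : Type*) [CommRing R]

theorem algebraMap_eq_single (a : R) :
    algebraMap R (LaurentSeries R) a = HahnSeries.single 0 a := by
  have h1 : algebraMap R (PowerSeries R) a = PowerSeries.C a := by
    simp
  rw [HahnSeries.algebraMap_apply', h1, HahnSeries.ofPowerSeries_C]
  rfl

/-- evaluation of `R[Y]` at `j` -/
def evJ : R[X] →+* LaurentSeries R := (aeval (jqModC R)).toRingHom

@[simp] theorem evJ_C (a : R) : evJ R (C a) = algebraMap R (LaurentSeries R) a := by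
  simp [evJ]

@[simp] theorem evJ_X : evJ R X = jqModC R := by
  simp [evJ]

/-- evaluation of `R[Y][X]` at `(j, j_N)` -/
def evJN (N : ℕ) [NeZero N] : R[X][X] →+* LaurentSeries R :=
  Polynomial.eval₂RingHom (evJ R) (jqNModC R N)

theorem evJN_apply (N : ℕ) [NeZero N] (P : R[X][X]) :
    evJN R N P = P.eval₂ (evJ R) (jqNModC R N) := rfl

@[simp] theorem evJN_C (N : ℕ) [NeZero N] (p : R[X]) : evJN R N (C p) = evJ R p := by
  simp [evJN]

@[simp] theorem evJN_X (N : ℕ) [NeZero N] : evJN R N X = jqNModC R N := by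
  simp [evJN]

variable {R} {S : Type*} [CommRing S]

theorem coeffMap_comp_evJ (f : R →+* S) :
    (coeffMap f).comp (evJ R) = (evJ S).comp (Polynomial.mapRingHom f) := by
  apply Polynomial.ringHom_ext
  · intro a
    simp only [RingHom.comp_apply, evJ_C, Polynomial.coe_mapRingHom, Polynomial.map_C]
    rw [algebraMap_eq_single, algebraMap_eq_single, coeffMap_single]
  · simp only [RingHom.comp_apply, evJ_X, Polynomial.coe_mapRingHom, Polynomial.map_X]
    exact coeffMap_jqModC f

theorem coeffMap_evJ (f : R →+* S) (p : R[X]) :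
    coeffMap f (evJ R p) = evJ S (p.map f) :=
  congrArg (fun g : R[X] →+* LaurentSeries S => g p) (coeffMap_comp_evJ f)

theorem coeffMap_comp_evJN (f : R →+* S) (N : ℕ) [NeZero N] :
    (coeffMap f).comp (evJN R N) =
      (evJN S N).comp (Polynomial.mapRingHom (Polynomial.mapRingHom f)) := by
  apply Polynomial.ringHom_ext
  · intro p
    simp only [RingHom.comp_apply, evJN_C, Polynomial.coe_mapRingHom, Polynomial.map_C]
    exact coeffMap_evJ f p
  · simp only [RingHom.comp_apply, evJN_X, Polynomial.coe_mapRingHom, Polynomial.map_X]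
    exact coeffMap_jqNModC f N

theorem coeffMap_evJN (f : R →+* S) (N : ℕ) [NeZero N] (P : R[X][X]) :
    coeffMap f (evJN R N P) = evJN S N (P.map (Polynomial.mapRingHom f)) :=
  congrArg (fun g : R[X][X] →+* LaurentSeries S => g P) (coeffMap_comp_evJN f N)

end Eval

section Scaling

variable {L : Type*} [Field L] (A : ValuationSubring L) {k : Type*} [Field k] (π : A →+* k)

/-- a nonzero polynomial in two variables over `L` has a coefficient of maximal valuation -/
theorem exists_max_coeff (Q : L[X][X]) (hQ : Q ≠ 0) :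
    ∃ i j : ℕ, (Q.coeff i).coeff j ≠ 0 ∧
      ∀ i' j' : ℕ, ((Q.coeff i).coeff j)⁻¹ * (Q.coeff i').coeff j' ∈ A := by
  classical
  set T : Finset (Σ _ : ℕ, ℕ) := Q.support.sigma (fun i => (Q.coeff i).support) with hT
  have hne : T.Nonempty := by
    obtain ⟨i, hi⟩ := Polynomial.support_nonempty.2 hQ
    have hi' : Q.coeff i ≠ 0 := Polynomial.mem_support_iff.1 hi
    obtain ⟨j, hj⟩ := Polynomial.support_nonempty.2 hi'
    exact ⟨⟨i, j⟩, Finset.mem_sigma.2 ⟨hi, hj⟩⟩
  obtain ⟨⟨i, j⟩, hij, hmax⟩ := Finset.exists_max_image T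
    (fun x => A.valuation ((Q.coeff x.1).coeff x.2)) hne
  have hij' := Finset.mem_sigma.1 hij
  have hc : (Q.coeff i).coeff j ≠ 0 := Polynomial.mem_support_iff.1 hij'.2
  refine ⟨i, j, hc, fun i' j' => ?_⟩
  by_cases h0 : (Q.coeff i').coeff j' = 0
  · rw [h0, mul_zero]
    exact A.zero_mem
  · have hmem : (⟨i', j'⟩ : Σ _ : ℕ, ℕ) ∈ T := by
      refine Finset.mem_sigma.2 ⟨?_, ?_⟩
      · refine Polynomial.mem_support_iff.2 fun h => h0 ?_
        simp only at h
        rw [h, Polynomial.coeff_zero]
      · exact Polynomial.mem_support_iff.2 h0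
    have hle := hmax _ hmem
    simp only at hle
    rw [← A.valuation_le_one_iff, map_mul, map_inv₀]
    have hv : A.valuation ((Q.coeff i).coeff j) ≠ 0 := by
      simpa using hc
    rw [inv_mul_le_iff₀ (lt_of_le_of_ne zero_le hv.symm), mul_one]
    exact hle

/-- **primitive scaling** -/
theorem exists_primitive_scaling (Q : L[X][X]) (hQ : Q ≠ 0) :
    ∃ c : L, c ≠ 0 ∧ ∃ Q' : A[X][X],
      Q'.map (Polynomial.mapRingHom A.subtype) = Polynomial.C (Polynomial.C c) * Q ∧
      Q'.map (Polynomial.mapRingHom π) ≠ 0 ∧ Q'.natDegree = Q.natDegree := by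
  obtain ⟨i, j, hc, hall⟩ := exists_max_coeff A Q hQ
  set c : L := ((Q.coeff i).coeff j)⁻¹ with hcdef
  have hc0 : c ≠ 0 := inv_ne_zero hc
  have hcoef : ∀ i' j' : ℕ,
      ((Polynomial.C (Polynomial.C c) * Q).coeff i').coeff j' = c * (Q.coeff i').coeff j' := by
    intro i' j'
    rw [Polynomial.coeff_C_mul, Polynomial.coeff_C_mul]
  have hrange : Polynomial.C (Polynomial.C c) * Q ∈
      (Polynomial.mapRingHom (Polynomial.mapRingHom A.subtype)).rangeS := by
    rw [Polynomial.mem_map_rangeS]
    intro i'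
    rw [Polynomial.mem_map_rangeS]
    intro j'
    rw [hcoef]
    exact ⟨⟨_, hall i' j'⟩, rfl⟩
  obtain ⟨Q', hQ'⟩ := hrange
  have hQ'' : Q'.map (Polynomial.mapRingHom A.subtype) = Polynomial.C (Polynomial.C c) * Q := hQ'
  have hinj : Function.Injective (Polynomial.mapRingHom A.subtype) :=
    Polynomial.map_injective _ A.subtype_injective
  refine ⟨c, hc0, Q', hQ'', ?_, ?_⟩
  · intro h0
    have h1 : ((Q'.map (Polynomial.mapRingHom π)).coeff i).coeff j = 0 := by
      rw [h0]; simp
    rw [Polynomial.coeff_map, Polynomial.coe_mapRingHom, Polynomial.coeff_map] at h1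
    have h2 : (((Q'.coeff i).coeff j : A) : L) = 1 := by
      have := congrArg (fun P : L[X][X] => (P.coeff i).coeff j) hQ''
      rw [Polynomial.coeff_map, Polynomial.coe_mapRingHom, Polynomial.coeff_map, hcoef,
        hcdef, inv_mul_cancel₀ hc] at this
      exact this
    have h3 : (Q'.coeff i).coeff j = 1 := Subtype.ext h2
    rw [h3, map_one] at h1
    exact one_ne_zero h1
  · have h1 : (Q'.map (Polynomial.mapRingHom A.subtype)).natDegree = Q'.natDegree :=
      Polynomial.natDegree_map_eq_of_injective hinj Q'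
    rw [← h1, hQ'']
    exact Polynomial.natDegree_C_mul (by simpa using hc0)

end Scaling

end Fermat.Agent.S18.MScal
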