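import Mathlib
import Fermat.Agent.S18.ScalAlg
import Fermat.Agent.S28.GenBar
import Fermat.Agent.S28.Core
import Fermat.Agent.FF.ModRealAlg

/-!
# S18, piece 87-P11 (b2): the Gauss datum of the modular pair `(F_N over ℚ̄, F_N over k)`

For `ℓ ∤ N` and a valuation ring `A ⊂ ℚ̄` over `ℓ` with residue field `k`:
`modularHyp : GaussD.Hyp A (residue A) (modularFunctionFieldBar N) (modularFunctionFieldFullC k N)`,
from GEN over `ℚ̄` (`S28.gen_bar`) and CORE over `k` (`S28.coreOverT_of_normPolysRed`).
-/

set_option autoImplicit false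

noncomputable section

open HahnSeries ModularCurve Polynomial

namespace Fermat.Agent.S18.MScal

open Fermat.Agent.FF Fermat.Agent.S28

/-- shortcut instance (the generic search takes more than the default number of heartbeats) -/
instance instAlgebraResidueLaurentSub (A : ValuationSubring Kbar)
    (E : IntermediateField (IsLocalRing.ResidueField ↥A)
      (LaurentSeries (IsLocalRing.ResidueField ↥A))) :
    Algebra (IsLocalRing.ResidueField ↥A) ↥E := SubalgebraClass.toAlgebra E

/-! ### the two descriptions of the function field over `ℚ̄` -/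

theorem coeffEmb_qExpand_jq (L : Type*) [Field L] [Algebra ℚ L] (d : ℕ) [NeZero d] :
    coeffEmb L (qExpand ℚ d jq) = qExpand L d (jqModC L) := by
  have h := coeffMap_jqNModC (algebraMap ℚ L) d
  simpa [jqNModC, coeffEmb, jqModC_rat] using h

theorem modularFunctionFieldBar_eq_fullC (N : ℕ) [NeZero N] :
    modularFunctionFieldBar N = modularFunctionFieldFullC Kbar N := by
  rw [modularFunctionFieldBar_eq_adjoin, modularFunctionFieldFullC]
  congr 1
  ext x
  constructor
  · rintro ⟨d, hd, hdN, rfl⟩
    exact ⟨d, hd, hdN, coeffEmb_qExpand_jq Kbar d⟩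
  · rintro ⟨d, hd, hdN, rfl⟩
    exact ⟨d, hd, hdN, (coeffEmb_qExpand_jq Kbar d).symm⟩

/-! ### membership of the evaluations -/

section Mem

variable (K : Type*) [Field K] (N : ℕ) [NeZero N]

omit [NeZero N] in
theorem evJ_mem (p : K[X]) : evJ K p ∈ modularFunctionFieldFullC K N := by
  induction p using Polynomial.induction_on' with
  | add p q hp hq =>
    rw [map_add]
    exact add_mem hp hq
  | monomial n a =>
    rw [← Polynomial.C_mul_X_pow_eq_monomial, map_mul, map_pow, evJ_C, evJ_X]
    exact mul_mem (IntermediateField.algebraMap_mem _ _)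
      (pow_mem (jqModC_mem_full K N) n)

theorem evJN_mem (P : K[X][X]) : evJN K N P ∈ modularFunctionFieldFullC K N := by
  induction P using Polynomial.induction_on' with
  | add p q hp hq =>
    rw [map_add]
    exact add_mem hp hq
  | monomial n a =>
    rw [← Polynomial.C_mul_X_pow_eq_monomial, map_mul, map_pow, evJN_C, evJN_X]
    exact mul_mem (evJ_mem K N a) (pow_mem (jqModCd_mem_full K N dvd_rfl) n)

end Mem

/-! ### CORE over the residue field, in the variable `q` -/

section Core

variable (N : ℕ) [NeZero N] {ℓ : ℕ} (hℓ : ℓ.Prime) (hℓN : ¬ ℓ ∣ N)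
variable (A : ValuationSubring Kbar) (hA : A.LiesOverPrime ℓ)

theorem qExpand_comp_evJ (k : Type*) [Field k] :
    (qExpand k N).comp (evJ k) =
      (Polynomial.aeval (qExpand k N (jqModC k))).toRingHom := by
  apply Polynomial.ringHom_ext
  · intro a
    simp only [RingHom.comp_apply, evJ_C, AlgHom.toRingHom_eq_coe, RingHom.coe_coe,
      Polynomial.aeval_C]
    rw [algebraMap_eq_single, qExpand_single, mul_zero]
  · simp only [RingHom.comp_apply, evJ_X, AlgHom.toRingHom_eq_coe, RingHom.coe_coe,
      Polynomial.aeval_X]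

include hℓ hℓN hA in
theorem core_q (P : (IsLocalRing.ResidueField A)[X][X])
    (hdeg : P.natDegree < dedekindPsi N)
    (hP : evJN (IsLocalRing.ResidueField A) N P = 0) : P = 0 := by
  classical
  let inst : Fintype (FF.X N) := Fintype.ofFinite _
  have hcore : CoreOverT (IsLocalRing.ResidueField A) N :=
    coreOverT_of_normPolysRed N hℓ hℓN A hA (normPolysRed N hℓ hℓN A hA)
  apply hcore P hdeg
  have h1 := congrArg (qExpand (IsLocalRing.ResidueField A) N) hP
  rw [evJN_apply, Polynomial.hom_eval₂, map_zero, qExpand_comp_evJ] at h1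
  exact h1

end Core

/-! ### GEN over `ℚ̄`, for series -/

section Gen

variable (N : ℕ) [NeZero N]

omit [NeZero N] in
theorem coe_jBar : ((jBar N : FN N) : LaurentSeries Kbar) = jqModC Kbar := by
  have h2 : ((jBar N : FN N) : LaurentSeries Kbar) = coeffEmb Kbar jq := rfl
  rw [h2]
  have h := coeffMap_jqModC (algebraMap ℚ Kbar)
  simpa [coeffEmb, jqModC_rat] using h

theorem coe_JdF_self : ((JdF N N dvd_rfl : FN N) : LaurentSeries Kbar) = jqNModC Kbar N := by
  have h4 : ((JdF N N dvd_rfl : FN N) : LaurentSeries Kbar) = coeffEmb Kbar (jqN N) := rfl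
  rw [h4]
  have h := coeffMap_jqNModC (algebraMap ℚ Kbar) N
  simpa [coeffEmb, jqNModC_rat] using h

omit [NeZero N] in
theorem coe_aeval_jBar (p : Kbar[X]) :
    ((Polynomial.aeval (jBar N) p : FN N) : LaurentSeries Kbar) = evJ Kbar p := by
  have h := Polynomial.aeval_algebraMap_apply (LaurentSeries Kbar) (jBar N) p
  have h' : algebraMap (FN N) (LaurentSeries Kbar) (jBar N) = jqModC Kbar := coe_jBar N
  rw [h'] at h
  exact h.symm

/-- **GEN over `ℚ̄`** in the form: `s(j) y = P(j, j_N)`, `deg_X P < ψ(N)`. -/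
theorem gen_series (y : FN N) :
    ∃ (s : Kbar[X]) (P : Kbar[X][X]), evJ Kbar s ≠ 0 ∧ P.natDegree < dedekindPsi N ∧
      evJ Kbar s * (y : LaurentSeries Kbar) = evJN Kbar N P := by
  obtain ⟨s, hs, Ak, hA⟩ := gen_bar N y
  refine ⟨s, ∑ k ∈ Finset.range (dedekindPsi N), Polynomial.C (Ak k) * Polynomial.X ^ k,
    ?_, ?_, ?_⟩
  · intro h0
    apply hs
    apply Subtype.ext
    rw [coe_aeval_jBar, h0]
    rfl
  · have hpos : 0 < dedekindPsi N := by
      rw [← Fermat.Agent.FF.card_X_eq N]
      exact Nat.card_pos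
    have hle : (∑ k ∈ Finset.range (dedekindPsi N), Polynomial.C (Ak k) * Polynomial.X ^ k :
        Kbar[X][X]).natDegree ≤ dedekindPsi N - 1 := by
      rw [Polynomial.natDegree_le_iff_coeff_eq_zero]
      intro m hm
      rw [Polynomial.finsetSum_coeff]
      refine Finset.sum_eq_zero fun k hk => ?_
      rw [Polynomial.coeff_C_mul, Polynomial.coeff_X_pow, if_neg, mul_zero]
      have := Finset.mem_range.mp hk
      omega
    omega
  · have h1 := congrArg (fun z : FN N => (z : LaurentSeries Kbar)) hA
    rw [show ((Polynomial.aeval (jBar N) s * y : FN N) : LaurentSeries Kbar) =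
        ((Polynomial.aeval (jBar N) s : FN N) : LaurentSeries Kbar) * (y : LaurentSeries Kbar)
        from rfl, coe_aeval_jBar] at h1
    rw [h1, map_sum]
    have h2 : ((∑ k ∈ Finset.range (dedekindPsi N),
        Polynomial.aeval (jBar N) (Ak k) * (JdF N N dvd_rfl) ^ k : FN N) : LaurentSeries Kbar) =
        ∑ k ∈ Finset.range (dedekindPsi N),
          ((Polynomial.aeval (jBar N) (Ak k) * (JdF N N dvd_rfl) ^ k : FN N) :
            LaurentSeries Kbar) := by
      exact map_sum (algebraMap (FN N) (LaurentSeries Kbar)) _ _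
    rw [h2]
    refine Finset.sum_congr rfl fun k _ => ?_
    rw [map_mul, map_pow, evJN_C, evJN_X]
    rw [show ((Polynomial.aeval (jBar N) (Ak k) * (JdF N N dvd_rfl) ^ k : FN N) :
        LaurentSeries Kbar) = ((Polynomial.aeval (jBar N) (Ak k) : FN N) : LaurentSeries Kbar) *
          ((JdF N N dvd_rfl : FN N) : LaurentSeries Kbar) ^ k from rfl,
      coe_aeval_jBar, coe_JdF_self]

end Gen

/-! ### the hypotheses of the Gauss datum -/

section HypSec

variable (N : ℕ) [NeZero N] {ℓ : ℕ} (hℓ : ℓ.Prime) (hℓN : ¬ ℓ ∣ N)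
variable (A : ValuationSubring Kbar) (hA : A.LiesOverPrime ℓ)

theorem dedekindPsi_pos' : 0 < dedekindPsi N := by
  rw [← Fermat.Agent.FF.card_X_eq N]
  exact Nat.card_pos

/-- the evaluation of an `A`-polynomial is q-integral -/
theorem redQ_evJN (P : A[X][X]) :
    RedQ A (IsLocalRing.residue A) (evJN Kbar N (P.map (Polynomial.mapRingHom A.subtype)))
      (evJN (IsLocalRing.ResidueField A) N
        (P.map (Polynomial.mapRingHom (IsLocalRing.residue A)))) :=
  ⟨evJN A N P, coeffMap_evJN A.subtype N P, coeffMap_evJN (IsLocalRing.residue A) N P⟩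

include hℓ hℓN hA in
theorem evJN_red_ne_zero (P : A[X][X]) (hdeg : P.natDegree < dedekindPsi N)
    (hP : P.map (Polynomial.mapRingHom (IsLocalRing.residue A)) ≠ 0) :
    evJN (IsLocalRing.ResidueField A) N
      (P.map (Polynomial.mapRingHom (IsLocalRing.residue A))) ≠ 0 := by
  intro h0
  exact hP (core_q N hℓ hℓN A hA _ (lt_of_le_of_lt Polynomial.natDegree_map_le hdeg) h0)

include hℓ hℓN hA in
/-- **scal** for the modular pair -/
theorem modular_scal (y : modularFunctionFieldBar N) (hy : y ≠ 0) :
    ∃ c : Kbar, c ≠ 0 ∧ ∃ yb : modularFunctionFieldFullC (IsLocalRing.ResidueField A) N,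
      yb ≠ 0 ∧ RedV A (IsLocalRing.residue A) (modularFunctionFieldBar N)
        (modularFunctionFieldFullC (IsLocalRing.ResidueField A) N) (c • y) yb := by
  obtain ⟨s, P, hs, hdeg, hrel⟩ := gen_series N y
  have hy' : (y : LaurentSeries Kbar) ≠ 0 := fun h => hy (Subtype.ext h)
  have hP : P ≠ 0 := by
    rintro rfl
    rw [map_zero] at hrel
    exact (mul_ne_zero hs hy') hrel
  have hs0 : (Polynomial.C s : Kbar[X][X]) ≠ 0 := by
    intro h
    apply hs
    rw [Polynomial.C_eq_zero.1 h, map_zero]
  obtain ⟨c1, hc1, P', hP', hP'red, hP'deg⟩ :=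
    exists_primitive_scaling A (IsLocalRing.residue A) P hP
  obtain ⟨c2, hc2, S', hS', hS'red, hS'deg⟩ :=
    exists_primitive_scaling A (IsLocalRing.residue A) (Polynomial.C s) hs0
  have hu : evJN Kbar N (P'.map (Polynomial.mapRingHom A.subtype)) =
      algebraMap Kbar (LaurentSeries Kbar) c1 * evJN Kbar N P := by
    rw [hP', map_mul, evJN_C, evJ_C]
  have hv : evJN Kbar N (S'.map (Polynomial.mapRingHom A.subtype)) =
      algebraMap Kbar (LaurentSeries Kbar) c2 * evJ Kbar s := by
    rw [hS', map_mul, evJN_C, evJ_C, evJN_C]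
  have hFeq := modularFunctionFieldBar_eq_fullC N
  have humem : evJN Kbar N (P'.map (Polynomial.mapRingHom A.subtype)) ∈
      modularFunctionFieldBar N := by
    rw [hFeq]
    exact evJN_mem Kbar N _
  have hvmem : evJN Kbar N (S'.map (Polynomial.mapRingHom A.subtype)) ∈
      modularFunctionFieldBar N := by
    rw [hFeq]
    exact evJN_mem Kbar N _
  have hub0 := evJN_red_ne_zero N hℓ hℓN A hA P' (hP'deg ▸ hdeg) hP'red
  have hvb0 := evJN_red_ne_zero N hℓ hℓN A hA S'
    (by rw [hS'deg, Polynomial.natDegree_C]; exact dedekindPsi_pos' N) hS'red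
  set ub : modularFunctionFieldFullC (IsLocalRing.ResidueField A) N :=
    ⟨_, evJN_mem (IsLocalRing.ResidueField A) N
      (P'.map (Polynomial.mapRingHom (IsLocalRing.residue A)))⟩ with hub
  set vb : modularFunctionFieldFullC (IsLocalRing.ResidueField A) N :=
    ⟨_, evJN_mem (IsLocalRing.ResidueField A) N
      (S'.map (Polynomial.mapRingHom (IsLocalRing.residue A)))⟩ with hvb
  have hub0' : ub ≠ 0 := fun h => hub0 (congrArg Subtype.val h)
  have hvb0' : vb ≠ 0 := fun h => hvb0 (congrArg Subtype.val h)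
  refine ⟨c1 / c2, div_ne_zero hc1 hc2, ub / vb, div_ne_zero hub0' hvb0', ?_⟩
  refine ⟨⟨_, humem⟩, ⟨_, hvmem⟩, ub, vb, redQ_evJN N A P', redQ_evJN N A S', hvb0', ?_, ?_⟩
  · apply Subtype.ext
    show ((c1 / c2) • y : modularFunctionFieldBar N).1 *
      evJN Kbar N (S'.map (Polynomial.mapRingHom A.subtype)) =
      evJN Kbar N (P'.map (Polynomial.mapRingHom A.subtype))
    have hsm : (((c1 / c2) • y : modularFunctionFieldBar N) : LaurentSeries Kbar) =
        algebraMap Kbar (LaurentSeries Kbar) (c1 / c2) * (y : LaurentSeries Kbar) := by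
      rw [Algebra.smul_def]
      rfl
    rw [hsm, hu, hv, ← hrel, map_div₀]
    have hc2' : algebraMap Kbar (LaurentSeries Kbar) c2 ≠ 0 := by
      simpa using hc2
    field_simp
  · exact div_mul_cancel₀ ub hvb0'

/-- the generators of the function field in characteristic `ℓ` are reductions -/
theorem redQ_jqNModC (d : ℕ) [NeZero d] :
    RedQ A (IsLocalRing.residue A) (qExpand Kbar d (jqModC Kbar))
      (qExpand (IsLocalRing.ResidueField A) d (jqModC (IsLocalRing.ResidueField A))) :=
  ⟨jqNModC A d, coeffMap_jqNModC A.subtype d, coeffMap_jqNModC (IsLocalRing.residue A) d⟩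

/-- **onto** for the modular pair -/
theorem modular_onto_aux (x : LaurentSeries (IsLocalRing.ResidueField A))
    (hx : x ∈ IntermediateField.adjoin (IsLocalRing.ResidueField A)
      (divisorExpansionsC (IsLocalRing.ResidueField A) N)) :
    ∃ (y : modularFunctionFieldBar N)
      (xb : modularFunctionFieldFullC (IsLocalRing.ResidueField A) N),
      (xb : LaurentSeries (IsLocalRing.ResidueField A)) = x ∧
      RedV A (IsLocalRing.residue A) (modularFunctionFieldBar N)
        (modularFunctionFieldFullC (IsLocalRing.ResidueField A) N) y xb := by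
  have hFeq := modularFunctionFieldBar_eq_fullC N
  induction hx using IntermediateField.adjoin_induction with
  | mem x hx =>
    obtain ⟨d, hd, hdN, rfl⟩ := hx
    have hmem : qExpand Kbar d (jqModC Kbar) ∈ modularFunctionFieldBar N := by
      rw [hFeq]
      exact jqModCd_mem_full Kbar N hdN
    exact ⟨⟨_, hmem⟩, ⟨_, jqModCd_mem_full (IsLocalRing.ResidueField A) N hdN⟩, rfl,
      GaussD.redV_of_redQ (redQ_jqNModC A d)⟩
  | algebraMap c =>
    obtain ⟨a, rfl⟩ := IsLocalRing.residue_surjective (R := A) c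
    exact ⟨algebraMap Kbar (modularFunctionFieldBar N) (a : Kbar),
      algebraMap (IsLocalRing.ResidueField A)
        (modularFunctionFieldFullC (IsLocalRing.ResidueField A) N) (IsLocalRing.residue A a),
      rfl, GaussD.redV_const a⟩
  | add x y hx hy ihx ihy =>
    obtain ⟨x', xb, rfl, hx'⟩ := ihx
    obtain ⟨y', yb, rfl, hy'⟩ := ihy
    exact ⟨x' + y', xb + yb, rfl, GaussD.redV_add hx' hy'⟩
  | inv x hx ihx =>
    obtain ⟨x', xb, rfl, hx'⟩ := ihx
    by_cases h0 : xb = 0
    · refine ⟨0, 0, ?_, GaussD.redV_zero⟩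
      rw [h0]
      simp
    · exact ⟨x'⁻¹, xb⁻¹, rfl, GaussD.redV_inv hx' h0⟩
  | mul x y hx hy ihx ihy =>
    obtain ⟨x', xb, rfl, hx'⟩ := ihx
    obtain ⟨y', yb, rfl, hy'⟩ := ihy
    exact ⟨x' * y', xb * yb, rfl, GaussD.redV_mul hx' hy'⟩

theorem modular_onto (yb : modularFunctionFieldFullC (IsLocalRing.ResidueField A) N) :
    ∃ y : modularFunctionFieldBar N, RedV A (IsLocalRing.residue A) (modularFunctionFieldBar N)
        (modularFunctionFieldFullC (IsLocalRing.ResidueField A) N) y yb := by
  obtain ⟨y, xb, hxb, hr⟩ := modular_onto_aux N A yb.1 yb.2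
  have : xb = yb := Subtype.ext hxb
  exact ⟨y, this ▸ hr⟩

include hℓ hℓN hA in
/-- **87-P11 (b)**: the hypotheses of the Gauss datum hold for the modular pair at every level
`N` prime to `ℓ`. -/
theorem modularHyp :
    GaussD.Hyp A (IsLocalRing.residue A) (modularFunctionFieldBar N)
      (modularFunctionFieldFullC (IsLocalRing.ResidueField A) N) where
  ker := fun a ha => (IsLocalRing.residue_eq_zero_iff a).2 ((IsLocalRing.mem_maximalIdeal a).2 ha)
  surj := IsLocalRing.residue_surjective
  scal := modular_scal N hℓ hℓN A hA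
  onto := modular_onto N A

/-- **87-P11**: the Gauss reduction datum of the modular pair at level `N` (`ℓ ∤ N`). -/
def modularDatum : RPrime.RedDatum Kbar (modularFunctionFieldBar N) (IsLocalRing.ResidueField A)
    (modularFunctionFieldFullC (IsLocalRing.ResidueField A) N) :=
  GaussD.gaussDatum (modularHyp N hℓ hℓN A hA)

theorem modularDatum_onto : (modularDatum N hℓ hℓN A hA).Onto :=
  GaussD.gaussDatum_onto (modularHyp N hℓ hℓN A hA)

theorem mem_modularDatum_O {y : modularFunctionFieldBar N} :
    y ∈ (modularDatum N hℓ hℓN A hA).O ↔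
      ∃ yb : modularFunctionFieldFullC (IsLocalRing.ResidueField A) N,
        RedV A (IsLocalRing.residue A) (modularFunctionFieldBar N)
          (modularFunctionFieldFullC (IsLocalRing.ResidueField A) N) y yb := Iff.rfl

theorem modularDatum_red_eq_iff (y : (modularDatum N hℓ hℓN A hA).O)
    (yb : modularFunctionFieldFullC (IsLocalRing.ResidueField A) N) :
    (modularDatum N hℓ hℓN A hA).red y = yb ↔
      RedV A (IsLocalRing.residue A) (modularFunctionFieldBar N)
        (modularFunctionFieldFullC (IsLocalRing.ResidueField A) N) (y : modularFunctionFieldBar N)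
        yb :=
  GaussD.gaussDatum_red_eq_iff (modularHyp N hℓ hℓN A hA) y yb

end HypSec

end Fermat.Agent.S18.MScal
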