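import Mathlib

/-!
# S18, piece 87-P6 (CT core), part 1: integral Laurent series, polar parts

Pure Laurent-series algebra over a field `L` with a valuation subring `A`.
-/

set_option autoImplicit false

noncomputable section

open HahnSeries

namespace Fermat.Agent.S18.CT

variable {L : Type*} [Field L] (A : ValuationSubring L)

/-- the subring of Laurent series all of whose coefficients lie in `A`. -/
def intSub : Subring (LaurentSeries L) where
  carrier := {y | ∀ n : ℤ, y.coeff n ∈ A}
  mul_mem' := by
    intro x y hx hy n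
    rw [HahnSeries.coeff_mul]
    exact A.toSubring.sum_mem fun ij _ => A.mul_mem _ _ (hx ij.1) (hy ij.2)
  one_mem' := by
    intro n
    rw [HahnSeries.coeff_one]
    split_ifs
    · exact A.one_mem
    · exact A.zero_mem
  add_mem' := by
    intro x y hx hy n
    rw [HahnSeries.coeff_add]
    exact A.add_mem _ _ (hx n) (hy n)
  zero_mem' := by
    intro n
    rw [HahnSeries.coeff_zero]
    exact A.zero_mem
  neg_mem' := by
    intro x hx n
    rw [HahnSeries.coeff_neg]
    exact A.neg_mem _ (hx n)

variable {A}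

theorem mem_intSub {y : LaurentSeries L} : y ∈ intSub A ↔ ∀ n : ℤ, y.coeff n ∈ A := Iff.rfl

theorem smul_mem_intSub {c : L} (hc : c ∈ A) {y : LaurentSeries L} (hy : y ∈ intSub A) :
    c • y ∈ intSub A := by
  intro n
  rw [HahnSeries.coeff_smul, smul_eq_mul]
  exact A.mul_mem _ _ hc (hy n)

/-- `y` is divisible by `c` in the ring of integral series (`c ≠ 0` in the applications). -/
def Dv (A : ValuationSubring L) (c : L) (y : LaurentSeries L) : Prop := c⁻¹ • y ∈ intSub A

theorem dv_iff {c : L} {y : LaurentSeries L} :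
    Dv A c y ↔ ∀ n : ℤ, c⁻¹ * y.coeff n ∈ A := by
  unfold Dv
  rw [mem_intSub]
  simp only [HahnSeries.coeff_smul, smul_eq_mul]

theorem Dv.add {c : L} {y z : LaurentSeries L} (hy : Dv A c y) (hz : Dv A c z) :
    Dv A c (y + z) := by
  unfold Dv at *
  rw [smul_add]
  exact (intSub A).add_mem hy hz

theorem Dv.sub {c : L} {y z : LaurentSeries L} (hy : Dv A c y) (hz : Dv A c z) :
    Dv A c (y - z) := by
  unfold Dv at *
  rw [smul_sub]
  exact (intSub A).sub_mem hy hz

theorem Dv.neg {c : L} {y : LaurentSeries L} (hy : Dv A c y) : Dv A c (-y) := by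
  unfold Dv at *
  rw [smul_neg]
  exact (intSub A).neg_mem hy

theorem smul_mul_eq (c : L) (y z : LaurentSeries L) : c • (y * z) = (c • y) * z := by
  rw [← HahnSeries.C_mul_eq_smul, ← HahnSeries.C_mul_eq_smul, mul_assoc]

theorem smul_smul_mul_eq (c d : L) (y z : LaurentSeries L) :
    (c * d) • (y * z) = (c • y) * (d • z) := by
  rw [← HahnSeries.C_mul_eq_smul, ← HahnSeries.C_mul_eq_smul, ← HahnSeries.C_mul_eq_smul,
    map_mul]
  ring

theorem Dv.mul_int {c : L} {y z : LaurentSeries L} (hy : Dv A c y) (hz : z ∈ intSub A) :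
    Dv A c (y * z) := by
  unfold Dv at *
  rw [smul_mul_eq]
  exact (intSub A).mul_mem hy hz

theorem Dv.int_mul {c : L} {y z : LaurentSeries L} (hz : z ∈ intSub A) (hy : Dv A c y) :
    Dv A c (z * y) := by
  rw [mul_comm]
  exact hy.mul_int hz

theorem Dv.mul {c d : L} {y z : LaurentSeries L} (hy : Dv A c y) (hz : Dv A d z) :
    Dv A (c * d) (y * z) := by
  unfold Dv at *
  have : (c * d)⁻¹ • (y * z) = (c⁻¹ • y) * (d⁻¹ • z) := by
    rw [mul_inv, smul_smul_mul_eq]
  rw [this]
  exact (intSub A).mul_mem hy hz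

theorem Dv.smul {c d : L} {y : LaurentSeries L} (hd : d ∈ A) (hy : Dv A c y) :
    Dv A c (d • y) := by
  unfold Dv at *
  rw [smul_comm]
  exact smul_mem_intSub hd hy

/-- divisibility by `c * d` implies divisibility by `c` when `d ∈ A`. -/
theorem Dv.of_mul {c d : L} (hd : d ∈ A) (hd0 : d ≠ 0) {y : LaurentSeries L}
    (hy : Dv A (c * d) y) : Dv A c y := by
  unfold Dv at *
  have : c⁻¹ • y = d • ((c * d)⁻¹ • y) := by
    rw [smul_smul]
    congr 1
    rw [mul_inv]
    field_simp
  rw [this]
  exact smul_mem_intSub hd hy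

theorem Dv.int {c : L} (hc : c ∈ A) (hc0 : c ≠ 0) {y : LaurentSeries L} (hy : Dv A c y) :
    y ∈ intSub A := by
  unfold Dv at hy
  have : y = c • (c⁻¹ • y) := by
    rw [smul_smul, mul_inv_cancel₀ hc0, one_smul]
  rw [this]
  exact smul_mem_intSub hc hy

theorem dv_smul_self {c : L} (hc0 : c ≠ 0) {y : LaurentSeries L} (hy : y ∈ intSub A) :
    Dv A c (c • y) := by
  unfold Dv
  rw [smul_smul, inv_mul_cancel₀ hc0, one_smul]
  exact hy

theorem pow_mem_A {π : L} (hπ : π ∈ A) (j : ℕ) : π ^ j ∈ A := A.toSubring.pow_mem hπ j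

theorem Dv.pow_le {π : L} (hπ : π ∈ A) (hπ0 : π ≠ 0) {i j : ℕ} (hij : i ≤ j)
    {y : LaurentSeries L} (hy : Dv A (π ^ j) y) : Dv A (π ^ i) y := by
  obtain ⟨d, rfl⟩ := Nat.exists_eq_add_of_le hij
  rw [_root_.pow_add] at hy
  exact hy.of_mul (pow_mem_A hπ d) (pow_ne_zero d hπ0)

/-! ### polar part -/

/-- the polar part (negative exponents) of a Laurent series. -/
def negPart (y : LaurentSeries L) : LaurentSeries L where
  coeff n := if n < 0 then y.coeff n else 0
  isPWO_support' := by
    refine y.isPWO_support.mono ?_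
    intro n hn
    simp only [Function.mem_support, ne_eq, ite_eq_right_iff, Classical.not_imp] at hn
    exact hn.2

@[simp] theorem negPart_coeff (y : LaurentSeries L) (n : ℤ) :
    (negPart y).coeff n = if n < 0 then y.coeff n else 0 := rfl

theorem negPart_coeff_of_neg (y : LaurentSeries L) {n : ℤ} (hn : n < 0) :
    (negPart y).coeff n = y.coeff n := by simp [hn]

theorem negPart_coeff_of_nonneg (y : LaurentSeries L) {n : ℤ} (hn : 0 ≤ n) :
    (negPart y).coeff n = 0 := by simp [not_lt.mpr hn]

theorem negPart_add (y z : LaurentSeries L) : negPart (y + z) = negPart y + negPart z := by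
  ext n
  simp only [negPart_coeff, HahnSeries.coeff_add]
  split_ifs <;> simp

theorem negPart_sub (y z : LaurentSeries L) : negPart (y - z) = negPart y - negPart z := by
  ext n
  simp only [negPart_coeff, HahnSeries.coeff_sub]
  split_ifs <;> simp

theorem negPart_smul (c : L) (y : LaurentSeries L) : negPart (c • y) = c • negPart y := by
  ext n
  simp only [negPart_coeff, HahnSeries.coeff_smul, smul_eq_mul]
  split_ifs <;> simp

theorem negPart_mem_intSub {y : LaurentSeries L} (hy : y ∈ intSub A) : negPart y ∈ intSub A := by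
  intro n
  rw [negPart_coeff]
  split_ifs
  · exact hy n
  · exact A.zero_mem

theorem Dv.negPart {c : L} {y : LaurentSeries L} (hy : Dv A c y) : Dv A c (negPart y) := by
  unfold Dv at *
  rw [← negPart_smul]
  exact negPart_mem_intSub hy

/-- a Laurent series without polar part ("power series"). -/
def IsPS (y : LaurentSeries L) : Prop := ∀ n : ℤ, n < 0 → y.coeff n = 0

theorem isPS_iff_negPart {y : LaurentSeries L} : IsPS y ↔ negPart y = 0 := by
  constructor
  · intro h
    ext n
    rw [negPart_coeff, HahnSeries.coeff_zero]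
    split_ifs with hn
    · exact h n hn
    · rfl
  · intro h n hn
    have := congrArg (fun z : LaurentSeries L => z.coeff n) h
    simpa [hn] using this

theorem isPS_sub_negPart (y : LaurentSeries L) : IsPS (y - negPart y) := by
  intro n hn
  rw [HahnSeries.coeff_sub, negPart_coeff_of_neg y hn, sub_self]

theorem negPart_negPart (y : LaurentSeries L) : negPart (negPart y) = negPart y := by
  ext n
  simp only [negPart_coeff]
  split_ifs <;> rfl

theorem isPS_one : IsPS (1 : LaurentSeries L) := by
  intro n hn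
  rw [HahnSeries.coeff_one, if_neg hn.ne]

/-- coefficients of a product below the sum of the lower bounds vanish. -/
theorem coeff_mul_eq_zero_of_lt {x y : LaurentSeries L} {a b : ℤ}
    (hx : ∀ n : ℤ, n < a → x.coeff n = 0) (hy : ∀ n : ℤ, n < b → y.coeff n = 0)
    {n : ℤ} (hn : n < a + b) : (x * y).coeff n = 0 := by
  rw [HahnSeries.coeff_mul]
  refine Finset.sum_eq_zero fun ij hij => ?_
  rw [Finset.mem_antidiagonal] at hij
  by_cases h1 : ij.1 < a
  · rw [hx _ h1, zero_mul]
  · have h2 : ij.2 < b := by omega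
    rw [hy _ h2, mul_zero]

theorem IsPS.mul {x y : LaurentSeries L} (hx : IsPS x) (hy : IsPS y) : IsPS (x * y) := by
  intro n hn
  exact coeff_mul_eq_zero_of_lt (a := 0) (b := 0) hx hy (by simpa using hn)

theorem IsPS.pow {x : LaurentSeries L} (hx : IsPS x) (m : ℕ) : IsPS (x ^ m) := by
  induction m with
  | zero => rw [pow_zero]; exact isPS_one
  | succ m ih => rw [pow_succ]; exact ih.mul hx

end Fermat.Agent.S18.CT
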