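import Mathlib
import Fermat.Agent.S18.MaxPrinciple
import Fermat.Agent.S18.GaussDatum
import Fermat.Agent.S18.CTBasic
import Fermat.Agent.S18.LatticeKL

/-!
# S18, piece 87-U5 (C5): integral functions without poles in the residue disc of `∞` are
q-integral

`F ⊂ L((q))` with the Gauss datum of helper6, `r` a place reduction compatible with divisors of
units, `∞` the `q`-adic place of `F`, `s ∈ F` a q-integral uniformizer at `∞` (unit leading
coefficient) without other zeros or poles in the residue disc of `∞` (e.g. `s = 1 / j`).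
Then every `y` in the Gauss ring without poles in the disc (except at `∞`) has all its
`q`-coefficients in `A`.
-/

set_option autoImplicit false

open HahnSeries AlgebraicCurve ModularCurve

noncomputable section

namespace Fermat.Agent.S18.QInt

open Fermat.Agent.S18.RPrime Fermat.Agent.S18.GaussD Fermat.Agent.S18.CT

variable {L : Type*} [Field L] {A : ValuationSubring L} {k : Type*} [Field k] {π : A →+* k}
  {F : IntermediateField L (LaurentSeries L)} {Fb : IntermediateField k (LaurentSeries k)}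

/-- the data of the residue disc of `∞` -/
structure DiscData (H : Hyp A π F Fb) (g : ℕ) (r : Place L F → Place k Fb) (Pinf : Place L F)
    (s : F) : Prop where
  curve : CurveRR L F g
  compat : DivCompatR (gaussDatum H) r
  inf : ∀ y : F, y ≠ 0 → (Pinf.ord y : WithTop ℤ) = (y : LaurentSeries L).orderTop
  s_int : ∀ n : ℤ, (s : LaurentSeries L).coeff n ∈ A
  s_low : ∀ n : ℤ, n < 1 → (s : LaurentSeries L).coeff n = 0
  s_unit : ∃ a : A, IsUnit a ∧ (s : LaurentSeries L).coeff 1 = (a : L)
  s_red : ∃ sb : Fb, sb ≠ 0 ∧ RedV A π F Fb s sb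
  s_disc : ∀ P' : Place L F, P' ≠ Pinf → r P' = r Pinf → P'.ord s = 0

theorem coe_algebraMap_coeff (F : IntermediateField L (LaurentSeries L)) (c : L) (n : ℤ) :
    ((algebraMap L F c : F) : LaurentSeries L).coeff n = if n = 0 then c else 0 := by
  have h : ((algebraMap L F c : F) : LaurentSeries L) = algebraMap L (LaurentSeries L) c := rfl
  rw [h, algebraMap_laurentSeries_eq_single, HahnSeries.coeff_single]
  split_ifs <;> rfl

theorem coe_sub_const_coeff (F : IntermediateField L (LaurentSeries L)) (y : F) (c : L) (n : ℤ) :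
    ((y - algebraMap L F c : F) : LaurentSeries L).coeff n =
      (y : LaurentSeries L).coeff n - if n = 0 then c else 0 := by
  have h : ((y - algebraMap L F c : F) : LaurentSeries L) =
      (y : LaurentSeries L) - ((algebraMap L F c : F) : LaurentSeries L) := rfl
  rw [h, HahnSeries.coeff_sub, coe_algebraMap_coeff]

section

variable {H : Hyp A π F Fb} {g : ℕ} {r : Place L F → Place k Fb} {Pinf : Place L F} {s : F}
  (D : DiscData H g r Pinf s)

include D

theorem DiscData.le_ord {y : F} (hy : y ≠ 0) {N : ℤ}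
    (h : ∀ n : ℤ, n < N → (y : LaurentSeries L).coeff n = 0) : N ≤ Pinf.ord y := by
  have h1 : ((N : ℤ) : WithTop ℤ) ≤ (y : LaurentSeries L).orderTop :=
    le_orderTop_iff_forall.mpr fun j hj => h j (by exact_mod_cast hj)
  rw [← D.inf y hy] at h1
  exact_mod_cast h1

theorem DiscData.coeff_eq_zero {y : F} (hy : y ≠ 0) {N : ℤ} (h : N ≤ Pinf.ord y) {n : ℤ}
    (hn : n < N) : (y : LaurentSeries L).coeff n = 0 := by
  apply coeff_eq_zero_of_lt_orderTop
  rw [← D.inf y hy]
  exact_mod_cast lt_of_lt_of_le hn h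

theorem DiscData.s_ne_zero : s ≠ 0 := by
  obtain ⟨a, ha, h1⟩ := D.s_unit
  intro h0
  rw [h0] at h1
  have : ((a : A) : L) = 0 := by
    rw [← h1]; simp
  have ha0 : a = 0 := Subtype.ext this
  rw [ha0] at ha
  exact not_isUnit_zero ha

theorem DiscData.ord_s : Pinf.ord s = 1 := by
  have hs0 := D.s_ne_zero
  have h1 : (1 : ℤ) ≤ Pinf.ord s := D.le_ord hs0 D.s_low
  by_contra hne
  have h2 : (2 : ℤ) ≤ Pinf.ord s := by omega
  have h3 := D.coeff_eq_zero hs0 h2 (n := 1) (by norm_num)
  obtain ⟨a, ha, h4⟩ := D.s_unit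
  rw [h3] at h4
  have ha0 : a = 0 := Subtype.ext h4.symm
  rw [ha0] at ha
  exact not_isUnit_zero ha

theorem DiscData.s_inv_mem : s⁻¹ ∈ gaussRing H := by
  obtain ⟨sb, hsb, hred⟩ := D.s_red
  exact ⟨_, redV_inv hred hsb⟩

theorem DiscData.s_mem : s ∈ gaussRing H := by
  obtain ⟨sb, -, hred⟩ := D.s_red
  exact ⟨_, hred⟩

/-- the value at `∞` of a power series in the Gauss ring without poles in the disc is in `A` -/
theorem DiscData.coeff_zero_mem {y : F} (hyO : y ∈ gaussRing H)
    (hpole : ∀ P' : Place L F, P' ≠ Pinf → r P' = r Pinf → 0 ≤ P'.ord y)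
    (hps : ∀ n : ℤ, n < 0 → (y : LaurentSeries L).coeff n = 0) :
    (y : LaurentSeries L).coeff 0 ∈ A := by
  set c₀ : L := (y : LaurentSeries L).coeff 0 with hc₀
  by_cases hyc : y = algebraMap L F c₀
  · rw [hyc] at hyO
    exact const_mem_of_mem_gaussRing H hyO
  have hsub0 : y - algebraMap L F c₀ ≠ 0 := sub_ne_zero.mpr hyc
  have hy0 : y ≠ 0 := by
    rintro rfl
    apply hyc
    simp [hc₀]
  have hord1 : (1 : ℤ) ≤ Pinf.ord (y - algebraMap L F c₀) := by
    apply D.le_ord hsub0
    intro n hn
    rw [coe_sub_const_coeff]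
    rcases lt_or_eq_of_le (show n ≤ 0 by omega) with h | h
    · rw [hps n h, if_neg h.ne, sub_zero]
    · subst h
      rw [if_pos rfl, hc₀, sub_self]
  have hordy : 0 ≤ Pinf.ord y := D.le_ord hy0 hps
  have hpole' : ∀ P' : Place L F, r P' = r Pinf → 0 ≤ P'.ord ((⟨y, hyO⟩ : (gaussDatum H).O) : F) := by
    intro P' hP'
    by_cases hPP : P' = Pinf
    · rw [hPP]; exact hordy
    · exact hpole P' hPP hP'
  have := const_mem_of_no_pole D.curve (gaussDatum H) D.compat ⟨y, hyO⟩ Pinf c₀
    (by show 0 < Pinf.ord (y - algebraMap L F c₀); omega) hpole'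
  exact const_mem_of_mem_gaussRing H this

/-- **(C5), power series case** -/
theorem DiscData.coeff_mem_aux : ∀ N : ℕ, ∀ y : F, y ∈ gaussRing H →
    (∀ P' : Place L F, P' ≠ Pinf → r P' = r Pinf → 0 ≤ P'.ord y) →
    (∀ n : ℤ, n < 0 → (y : LaurentSeries L).coeff n = 0) →
    ∀ i : ℤ, i < N → (y : LaurentSeries L).coeff i ∈ A := by
  intro N
  induction N with
  | zero =>
    intro y _ _ hps i hi
    rw [hps i (by simpa using hi)]
    exact A.zero_mem
  | succ N ih =>
    intro y hyO hpole hps i hi
    have hc₀A := D.coeff_zero_mem hyO hpole hps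
    set c₀ : L := (y : LaurentSeries L).coeff 0 with hc₀
    by_cases hyc : y = algebraMap L F c₀
    · have hcoe : (y : LaurentSeries L).coeff i = if i = 0 then c₀ else 0 := by
        conv_lhs => rw [hyc]
        exact coe_algebraMap_coeff F c₀ i
      rw [hcoe]
      split_ifs
      · exact hc₀A
      · exact A.zero_mem
    have hsub0 : y - algebraMap L F c₀ ≠ 0 := sub_ne_zero.mpr hyc
    have hs0 := D.s_ne_zero
    have hord1 : (1 : ℤ) ≤ Pinf.ord (y - algebraMap L F c₀) := by
      apply D.le_ord hsub0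
      intro n hn
      rw [coe_sub_const_coeff]
      rcases lt_or_eq_of_le (show n ≤ 0 by omega) with h | h
      · rw [hps n h, if_neg h.ne, sub_zero]
      · subst h
        rw [if_pos rfl, hc₀, sub_self]
    -- the next function
    set y₁ : F := (y - algebraMap L F c₀) * s⁻¹ with hy₁
    have hy₁0 : y₁ ≠ 0 := mul_ne_zero hsub0 (inv_ne_zero hs0)
    have hcO : algebraMap L F c₀ ∈ gaussRing H := ⟨_, redV_const (⟨c₀, hc₀A⟩ : A)⟩
    have hy₁O : y₁ ∈ gaussRing H :=
      (gaussRing H).mul_mem _ _ (Subring.sub_mem (gaussRing H).toSubring hyO hcO) D.s_inv_mem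
    have hpole₁ : ∀ P' : Place L F, P' ≠ Pinf → r P' = r Pinf → 0 ≤ P'.ord y₁ := by
      intro P' hPP hP'
      rw [hy₁, P'.ord_mul hsub0 (inv_ne_zero hs0), P'.ord_inv, D.s_disc P' hPP hP']
      have := (ord_sub_const_nonneg P' (hpole P' hPP hP') c₀).resolve_left hsub0
      omega
    have hps₁ : ∀ n : ℤ, n < 0 → (y₁ : LaurentSeries L).coeff n = 0 := by
      intro n hn
      refine D.coeff_eq_zero hy₁0 (N := 0) ?_ hn
      rw [hy₁, Pinf.ord_mul hsub0 (inv_ne_zero hs0), Pinf.ord_inv, D.ord_s]
      omega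
    have ih₁ := ih y₁ hy₁O hpole₁ hps₁
    -- `y = c₀ + s y₁`
    have hy : (y : LaurentSeries L) =
        ((algebraMap L F c₀ : F) : LaurentSeries L) +
          (s : LaurentSeries L) * (y₁ : LaurentSeries L) := by
      have h1 : y = algebraMap L F c₀ + s * y₁ := by
        rw [hy₁]
        field_simp
        ring
      conv_lhs => rw [h1]
      rfl
    rw [hy, HahnSeries.coeff_add]
    refine A.add_mem _ _ ?_ ?_
    · rw [coe_algebraMap_coeff]
      split_ifs
      · exact hc₀A
      · exact A.zero_mem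
    · rw [HahnSeries.coeff_mul]
      refine A.toSubring.sum_mem fun ij hij => ?_
      rw [Finset.mem_antidiagonal] at hij
      by_cases h1 : ij.1 < 1
      · rw [D.s_low _ h1, zero_mul]
        exact A.zero_mem
      · refine A.mul_mem _ _ (D.s_int _) (ih₁ _ ?_)
        have := hij.2.2
        push_cast at hi
        omega

/-- `s⁻¹` is q-integral -/
theorem DiscData.s_inv_int : ((s⁻¹ : F) : LaurentSeries L) ∈ intSub A := by
  obtain ⟨s', hs'⟩ := Lat.exists_lift_of_coeff_mem A (s : LaurentSeries L) D.s_int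
  obtain ⟨a, ha, ha1⟩ := D.s_unit
  have hcoeff : ∀ n : ℤ, ((s'.coeff n : A) : L) = (s : LaurentSeries L).coeff n := by
    intro n
    rw [← hs']
    rfl
  have hs'0 : s' ≠ 0 := by
    rintro rfl
    have := hcoeff 1
    rw [ha1] at this
    simp only [HahnSeries.coeff_zero, ZeroMemClass.coe_zero] at this
    have ha0 : a = 0 := Subtype.ext this.symm
    rw [ha0] at ha
    exact not_isUnit_zero ha
  have hord : s'.orderTop = ((1 : ℤ) : WithTop ℤ) := by
    apply le_antisymm
    · apply orderTop_le_of_coeff_ne_zero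
      intro h0
      have := hcoeff 1
      rw [h0, ha1] at this
      have ha0 : a = 0 := Subtype.ext this.symm
      rw [ha0] at ha
      exact not_isUnit_zero ha
    · rw [le_orderTop_iff_forall]
      intro j hj
      have hj' : j < 1 := by exact_mod_cast hj
      have := hcoeff j
      rw [D.s_low j hj'] at this
      exact Subtype.ext this
  have hlead : s'.leadingCoeff = a := by
    rw [leadingCoeff_of_ne_zero hs'0]
    have : s'.orderTop.untop (orderTop_ne_top.2 hs'0) = 1 := by
      rw [WithTop.untop_eq_iff]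
      exact hord
    rw [this]
    apply Subtype.ext
    rw [hcoeff 1, ha1]
  have hunit : IsUnit s' := HahnSeries.isUnit_iff.mpr (hlead ▸ ha)
  obtain ⟨t', ht'⟩ := hunit.exists_right_inv
  have h1 : (s : LaurentSeries L) * Lat.incl A t' = 1 := by
    rw [← hs', ← map_mul, ht', map_one]
  have h2 : ((s⁻¹ : F) : LaurentSeries L) = Lat.incl A t' := by
    have hsne : (s : LaurentSeries L) ≠ 0 := fun h => D.s_ne_zero (Subtype.ext h)
    have : ((s⁻¹ : F) : LaurentSeries L) = (s : LaurentSeries L)⁻¹ := rfl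
    rw [this]
    exact (eq_inv_of_mul_eq_one_right h1).symm
  rw [h2, mem_intSub]
  intro n
  exact (t'.coeff n).2

/-- **(C5)**: an element of the Gauss ring without poles in the residue disc of `∞`
(except at `∞`) is q-integral. -/
theorem DiscData.coeff_mem {y : F} (hyO : y ∈ gaussRing H)
    (hpole : ∀ P' : Place L F, P' ≠ Pinf → r P' = r Pinf → 0 ≤ P'.ord y) :
    (y : LaurentSeries L) ∈ intSub A := by
  rcases eq_or_ne y 0 with rfl | hy0
  · exact (intSub A).zero_mem
  have hs0 := D.s_ne_zero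
  set n : ℕ := (-Pinf.ord y).toNat with hn
  set y' : F := y * s ^ n with hy'
  have hy'0 : y' ≠ 0 := mul_ne_zero hy0 (pow_ne_zero _ hs0)
  have hy'O : y' ∈ gaussRing H :=
    (gaussRing H).mul_mem _ _ hyO (Subring.pow_mem (gaussRing H).toSubring D.s_mem n)
  have hpole' : ∀ P' : Place L F, P' ≠ Pinf → r P' = r Pinf → 0 ≤ P'.ord y' := by
    intro P' hPP hP'
    rw [hy', P'.ord_mul hy0 (pow_ne_zero _ hs0), ord_pow, D.s_disc P' hPP hP', mul_zero, add_zero]
    exact hpole P' hPP hP'
  have hps' : ∀ i : ℤ, i < 0 → (y' : LaurentSeries L).coeff i = 0 := by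
    intro i hi
    refine D.coeff_eq_zero hy'0 (N := 0) ?_ hi
    rw [hy', Pinf.ord_mul hy0 (pow_ne_zero _ hs0), ord_pow, D.ord_s, mul_one]
    omega
  have hint' : (y' : LaurentSeries L) ∈ intSub A := by
    rw [mem_intSub]
    intro i
    exact D.coeff_mem_aux (i.toNat + 1) y' hy'O hpole' hps' i (by push_cast; omega)
  have hy : (y : LaurentSeries L) = (y' : LaurentSeries L) * ((s⁻¹ : F) : LaurentSeries L) ^ n := by
    have h1 : y = y' * (s⁻¹) ^ n := by
      rw [hy', inv_pow, mul_assoc, mul_inv_cancel₀ (pow_ne_zero _ hs0), mul_one]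
    conv_lhs => rw [h1]
    rfl
  rw [hy]
  exact (intSub A).mul_mem hint' ((intSub A).pow_mem D.s_inv_int n)

/-- **(C5), with the reduction**: the q-expansion of `y` reduces to the q-expansion of its
Gauss reduction. -/
theorem DiscData.redQ_of_no_pole {y : F} {yb : Fb} (hy : RedV A π F Fb y yb)
    (hpole : ∀ P' : Place L F, P' ≠ Pinf → r P' = r Pinf → 0 ≤ P'.ord y) :
    RedQ A π (y : LaurentSeries L) (yb : LaurentSeries k) := by
  have hint := D.coeff_mem (y := y) ⟨yb, hy⟩ hpole
  obtain ⟨y', hy'⟩ := Lat.exists_lift_of_coeff_mem A (y : LaurentSeries L) (mem_intSub.mp hint)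
  have hq : RedQ A π (y : LaurentSeries L) (coeffMap π y') := ⟨y', hy', rfl⟩
  obtain ⟨u, v, ub, vb, hu, hv, hvb, huv, hub⟩ := hy
  have h1 := redQ_mul hq hv
  have huv' : (y : LaurentSeries L) * (v : LaurentSeries L) = (u : LaurentSeries L) := by
    have := congrArg (fun z : F => (z : LaurentSeries L)) huv
    simpa using this
  rw [huv'] at h1
  have h2 := redQ_unique h1 hu
  have hub' : (yb : LaurentSeries k) * (vb : LaurentSeries k) = (ub : LaurentSeries k) := by
    have := congrArg (fun z : Fb => (z : LaurentSeries k)) hub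
    simpa using this
  have hvb' : (vb : LaurentSeries k) ≠ 0 := fun h => hvb (Subtype.ext h)
  have h3 : coeffMap π y' = (yb : LaurentSeries k) := by
    apply mul_right_cancel₀ hvb'
    rw [h2, hub']
  rw [← h3]
  exact hq

end

end Fermat.Agent.S18.QInt
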