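import Mathlib
import Fermat.Agent.S18.Disc0Main
import Fermat.Agent.S18.QIntegral
import Fermat.Agent.S18.ModularScal
import Fermat.Agent.S18.RedScal
import Fermat.Agent.S18.CTWireDefs

/-!
# S18, piece 87-U5 (helper2): the residue disc of `∞` for the modular pair

For a level `N > 1` prime to `ℓ`, the modular Gauss datum `MScal.modularDatum`, a place reduction
`r` compatible with the divisors of units and a place `Qinf` of `F̄_N` with `ord = q`-order:

* `DiscL.hU_modular`        : `r_* div(u_m)` has coefficient `m - 1` at `Qinf` (`m ∣ N`);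
* `DiscL.r_qPlace`          : **(C1)** `r ∞ = Qinf`;
* `DiscL.cusp_eq_qPlace`    : **(C2)** `∞` is the only cusp in the residue disc of `Qinf`;
* `DiscL.ord_jInv_eq_zero`  : **(C3)** `1 / j` has neither zero nor pole in the disc outside `∞`;
* `DiscL.discData_modular`  : the `QInt.DiscData` for `s = 1 / j`;
* `DiscL.qIntegrality_modular` : **(C5)** `CT.QIntegrality` for the modular pair.
-/

set_option autoImplicit false
set_option linter.unusedSectionVars false

noncomputable section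

open HahnSeries AlgebraicCurve ModularCurve

namespace Fermat.Agent.S18.DiscL

open Fermat.Agent.FF Fermat.Agent.S18.RPrime Fermat.Agent.S18.GaussD

section formal

variable (R : Type*) [CommRing R]

/-- the formal `q`-expansion of `1 / j` over any commutative ring -/
def jInvSer : LaurentSeries R :=
  HahnSeries.single (1 : ℤ) (1 : R) *
    HahnSeries.ofPowerSeries ℤ R ((jNum.map (Int.castRingHom R)).invOfUnit 1)

theorem constantCoeff_jNum_map :
    PowerSeries.constantCoeff (jNum.map (Int.castRingHom R)) = 1 := by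
  rw [← PowerSeries.coeff_zero_eq_constantCoeff, PowerSeries.coeff_map,
    PowerSeries.coeff_zero_eq_constantCoeff, constantCoeff_jNum]
  simp

theorem jqModC_mul_jInvSer : jqModC R * jInvSer R = 1 := by
  rw [jqModC, jInvSer, mul_mul_mul_comm, HahnSeries.single_mul_single, ← map_mul,
    PowerSeries.mul_invOfUnit _ _ (by rw [constantCoeff_jNum_map]; rfl)]
  simp

theorem coeff_jInvSer (n : ℤ) :
    (jInvSer R).coeff n =
      (HahnSeries.ofPowerSeries ℤ R ((jNum.map (Int.castRingHom R)).invOfUnit 1)).coeff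
        (n - 1) := by
  rw [jInvSer, HahnSeries.coeff_single_mul, one_mul]

theorem coeff_jInvSer_of_lt {n : ℤ} (hn : n < 1) : (jInvSer R).coeff n = 0 := by
  rw [coeff_jInvSer]
  exact ofPowerSeries_coeff_of_neg _ (by omega)

theorem coeff_jInvSer_one : (jInvSer R).coeff 1 = 1 := by
  rw [coeff_jInvSer, sub_self, show (0 : ℤ) = ((0 : ℕ) : ℤ) from rfl,
    HahnSeries.ofPowerSeries_apply_coeff, PowerSeries.coeff_zero_eq_constantCoeff,
    PowerSeries.constantCoeff_invOfUnit]
  simp

theorem coeffMap_jInvSer {S : Type*} [CommRing S] (f : R →+* S) :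
    coeffMap f (jInvSer R) = jInvSer S := by
  have h1 : coeffMap f (jqModC R) = jqModC S := map_jqModC f
  have h2 : jqModC S * coeffMap f (jInvSer R) = 1 := by
    rw [← h1, ← map_mul, jqModC_mul_jInvSer, map_one]
  calc coeffMap f (jInvSer R) = (jqModC S * jInvSer S) * coeffMap f (jInvSer R) := by
        rw [jqModC_mul_jInvSer, one_mul]
    _ = jInvSer S * (jqModC S * coeffMap f (jInvSer R)) := by ring
    _ = jInvSer S := by rw [h2, mul_one]

end formal

theorem jInvSer_eq_inv (K : Type*) [Field K] : jInvSer K = (jqModC K)⁻¹ :=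
  eq_inv_of_mul_eq_one_right (jqModC_mul_jInvSer K)

theorem jInvSer_ne_zero (K : Type*) [Field K] : jInvSer K ≠ 0 := fun h => by
  have := coeff_jInvSer_one K
  rw [h] at this
  simp at this

theorem order_jInvSer (K : Type*) [Field K] : (jInvSer K).order = 1 := by
  refine le_antisymm ?_ ?_
  · exact HahnSeries.order_le_of_coeff_ne_zero (by rw [coeff_jInvSer_one]; exact one_ne_zero)
  · by_contra h
    have h1 : (jInvSer K).order < 1 := not_le.mp h
    exact (jInvSer_ne_zero K) (HahnSeries.coeff_order_eq_zero.mp (coeff_jInvSer_of_lt K h1))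

section modular

variable (N : ℕ) [NeZero N] {ℓ : ℕ} (hℓ : ℓ.Prime) (hℓN : ¬ ℓ ∣ N)
variable (A : ValuationSubring Kbar) (hA : A.LiesOverPrime ℓ)

local notation "kA" => IsLocalRing.ResidueField A
local notation "πA" => IsLocalRing.residue A
local notation "FbN" => modularFunctionFieldFullC (IsLocalRing.ResidueField A) N

theorem redQ_USerR (m : ℕ) [NeZero m] :
    RedQ A πA (Disc0.USerR Kbar m) (Disc0.USerR kA m) :=
  ⟨Disc0.USerR A m, Disc0.coeffMap_USerR _ _ m, Disc0.coeffMap_USerR _ _ m⟩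

theorem redQ_jInvSer : RedQ A πA (jInvSer Kbar) (jInvSer kA) :=
  ⟨jInvSer A, coeffMap_jInvSer _ _, coeffMap_jInvSer _ _⟩

/-- the reduction of the unit `u_m` -/
def UFb (m : ℕ) [NeZero m] (hm : m ∣ N) : FbN :=
  ⟨Disc0.USerR kA m, RedScal.redQ_mem_full N hℓ hℓN A hA _ (Disc0.USer_mem N m hm) _
    (redQ_USerR A m)⟩

theorem redV_UF (m : ℕ) [NeZero m] (hm : m ∣ N) :
    RedV A πA (modularFunctionFieldBar N) FbN (Disc0.UF N m hm) (UFb N hℓ hℓN A hA m hm) :=
  redV_of_redQ (redQ_USerR A m)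

theorem UFb_ne_zero (m : ℕ) [NeZero m] (hm : m ∣ N) : UFb N hℓ hℓN A hA m hm ≠ 0 := fun h =>
  Disc0.USerR_ne_zero kA m (congrArg Subtype.val h)

theorem coe_jBar_inv : (((jBar N)⁻¹ : FN N) : LaurentSeries Kbar) = jInvSer Kbar := by
  rw [jInvSer_eq_inv, ← MScal.coe_jBar N]
  rfl

/-- the reduction of `1 / j` -/
def jInvb : FbN :=
  ⟨jInvSer kA, by
    rw [jInvSer_eq_inv]
    exact inv_mem (jqModC_mem_full kA N)⟩

theorem jInvb_ne_zero : jInvb N A ≠ 0 := fun h =>
  jInvSer_ne_zero kA (congrArg Subtype.val h)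

theorem redV_jInv :
    RedV A πA (modularFunctionFieldBar N) FbN ((jBar N)⁻¹) (jInvb N A) := by
  refine redV_of_redQ ?_
  rw [coe_jBar_inv]
  exact redQ_jInvSer A

variable {N A}

theorem ord_eq_order {Qinf : Place kA FbN}
    (hQinf : ∀ y : FbN, y ≠ 0 →
      (Qinf.ord y : WithTop ℤ) = (y : LaurentSeries kA).orderTop)
    {y : FbN} (hy : y ≠ 0) : Qinf.ord y = (y : LaurentSeries kA).order := by
  have h1 := hQinf y hy
  have hy' : (y : LaurentSeries kA) ≠ 0 := fun h => hy (Subtype.ext h)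
  rw [← HahnSeries.order_eq_orderTop_of_ne_zero hy'] at h1
  exact_mod_cast h1

variable (N A)

/-- **hU**: the coefficient of `r_* div(u_m)` at `Qinf` is `m - 1`. -/
theorem hU_modular (r : Place Kbar (FN N) → Place kA FbN)
    (hr : DivCompatR (MScal.modularDatum N hℓ hℓN A hA) r) (Qinf : Place kA FbN)
    (hQinf : ∀ y : FbN, y ≠ 0 →
      (Qinf.ord y : WithTop ℤ) = (y : LaurentSeries kA).orderTop)
    (m : ℕ) [NeZero m] (hm : m ∣ N) :
    Finsupp.mapDomain r (Disc0.divUF N m hm) Qinf = (m : ℤ) - 1 := by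
  have hred := redV_UF N hℓ hℓN A hA m hm
  set y : (MScal.modularDatum N hℓ hℓN A hA).O := ⟨Disc0.UF N m hm, ⟨_, hred⟩⟩ with hy
  have hry : (MScal.modularDatum N hℓ hℓN A hA).red y = UFb N hℓ hℓN A hA m hm :=
    (MScal.modularDatum_red_eq_iff N hℓ hℓN A hA y _).2 hred
  have hunit : IsUnit y := (MScal.modularDatum N hℓ hℓN A hA).isUnit_of_red_ne_zero y (by
    rw [hry]
    exact UFb_ne_zero N hℓ hℓN A hA m hm)
  rw [hr y hunit (Disc0.divUF N m hm) (fun P => Disc0.divUF_apply N m hm P) Qinf, hry,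
    ord_eq_order hQinf (UFb_ne_zero N hℓ hℓN A hA m hm)]
  exact Disc0.order_USerR kA m

/-- **(C1) + (C2)** -/
theorem disc_modular (hN : 1 < N) (r : Place Kbar (FN N) → Place kA FbN)
    (hr : DivCompatR (MScal.modularDatum N hℓ hℓN A hA) r) (Qinf : Place kA FbN)
    (hQinf : ∀ y : FbN, y ≠ 0 →
      (Qinf.ord y : WithTop ℤ) = (y : LaurentSeries kA).orderTop) :
    r (Disc0.qPlace N) = Qinf ∧
      ∀ v : Place Kbar (FN N), v.ord (jBar N) < 0 → r v = Qinf → v = Disc0.qPlace N :=
  Disc0.disc_cusps N hN r Qinf (fun m _ hm => hU_modular N hℓ hℓN A hA r hr Qinf hQinf m hm)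

/-- **(C1)** `r ∞ = ∞bar` -/
theorem r_qPlace (hN : 1 < N) (r : Place Kbar (FN N) → Place kA FbN)
    (hr : DivCompatR (MScal.modularDatum N hℓ hℓN A hA) r) (Qinf : Place kA FbN)
    (hQinf : ∀ y : FbN, y ≠ 0 →
      (Qinf.ord y : WithTop ℤ) = (y : LaurentSeries kA).orderTop) :
    r (Disc0.qPlace N) = Qinf :=
  (disc_modular N hℓ hℓN A hA hN r hr Qinf hQinf).1

/-- **(C2)** `∞` is the only cusp in the residue disc of `∞bar` -/
theorem cusp_eq_qPlace (hN : 1 < N) (r : Place Kbar (FN N) → Place kA FbN)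
    (hr : DivCompatR (MScal.modularDatum N hℓ hℓN A hA) r) (Qinf : Place kA FbN)
    (hQinf : ∀ y : FbN, y ≠ 0 →
      (Qinf.ord y : WithTop ℤ) = (y : LaurentSeries kA).orderTop)
    (v : Place Kbar (FN N)) (hv : v.ord (jBar N) < 0) (hrv : r v = Qinf) :
    v = Disc0.qPlace N :=
  (disc_modular N hℓ hℓN A hA hN r hr Qinf hQinf).2 v hv hrv

theorem qPlace_ord_jInv : (Disc0.qPlace N).ord ((jBar N)⁻¹) = 1 := by
  have h0 : ((jBar N)⁻¹ : FN N) ≠ 0 := inv_ne_zero Realisation.jBar_ne_zero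
  rw [Disc0.qPlace_ord N _ h0, coe_jBar_inv, order_jInvSer]

/-- **(C3)** `1 / j` has neither zero nor pole in the residue disc of `∞bar` outside `∞`. -/
theorem ord_jInv_eq_zero (hN : 1 < N) {g : ℕ} (hK : CurveRR Kbar (FN N) g)
    (r : Place Kbar (FN N) → Place kA FbN)
    (hr : DivCompatR (MScal.modularDatum N hℓ hℓN A hA) r) (Qinf : Place kA FbN)
    (hQinf : ∀ y : FbN, y ≠ 0 →
      (Qinf.ord y : WithTop ℤ) = (y : LaurentSeries kA).orderTop)
    (P' : Place Kbar (FN N)) (hP' : P' ≠ Disc0.qPlace N) (hrP' : r P' = Qinf) :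
    P'.ord ((jBar N)⁻¹) = 0 := by
  classical
  obtain ⟨hC1, hC2⟩ := disc_modular N hℓ hℓN A hA hN r hr Qinf hQinf
  have hred := redV_jInv N A
  set y : (MScal.modularDatum N hℓ hℓN A hA).O := ⟨(jBar N)⁻¹, ⟨_, hred⟩⟩ with hy
  have hry : (MScal.modularDatum N hℓ hℓN A hA).red y = jInvb N A :=
    (MScal.modularDatum_red_eq_iff N hℓ hℓN A hA y _).2 hred
  have hunit : IsUnit y := (MScal.modularDatum N hℓ hℓN A hA).isUnit_of_red_ne_zero y (by
    rw [hry]
    exact jInvb_ne_zero N A)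
  set D := divOf hK ((jBar N)⁻¹ : FN N) with hD
  have hDP : ∀ P, D P = P.ord ((jBar N)⁻¹ : FN N) := fun P => divOf_apply hK _ P
  have hsum := hr y hunit D hDP Qinf
  rw [hry, ord_eq_order hQinf (jInvb_ne_zero N A)] at hsum
  have hord : ((jInvb N A : FbN) : LaurentSeries kA).order = 1 := order_jInvSer kA
  rw [hord, mapDomain_apply_eq_sum] at hsum
  have hinf : D (Disc0.qPlace N) = 1 := by rw [hDP, qPlace_ord_jInv]
  have hmem : Disc0.qPlace N ∈ D.support := Finsupp.mem_support_iff.mpr (by rw [hinf]; norm_num)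
  rw [← Finset.add_sum_erase _ _ hmem, if_pos hC1, hinf] at hsum
  have hrest : ∑ P ∈ D.support.erase (Disc0.qPlace N), (if r P = Qinf then D P else 0) = 0 := by
    linarith
  have hnonpos : ∀ P ∈ D.support.erase (Disc0.qPlace N),
      (if r P = Qinf then D P else 0) ≤ 0 := by
    intro P hP
    split_ifs with h
    · rw [hDP, Place.ord_inv]
      have : 0 ≤ P.ord (jBar N) := by
        by_contra hneg
        exact (Finset.ne_of_mem_erase hP) (hC2 P (not_le.mp hneg) h)
      omega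
    · exact le_rfl
  have hzero := (Finset.sum_eq_zero_iff_of_nonpos hnonpos).mp hrest
  by_contra hne
  have hP'mem : P' ∈ D.support.erase (Disc0.qPlace N) :=
    Finset.mem_erase.mpr ⟨hP', Finsupp.mem_support_iff.mpr (by rw [hDP]; exact hne)⟩
  have := hzero P' hP'mem
  rw [if_pos hrP', hDP] at this
  exact hne this

/-- the data of the residue disc of `∞` for the modular pair, `s = 1 / j`. -/
theorem discData_modular (hN : 1 < N) {g : ℕ} (hK : CurveRR Kbar (FN N) g)
    (r : Place Kbar (FN N) → Place kA FbN)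
    (hr : DivCompatR (MScal.modularDatum N hℓ hℓN A hA) r) (Qinf : Place kA FbN)
    (hQinf : ∀ y : FbN, y ≠ 0 →
      (Qinf.ord y : WithTop ℤ) = (y : LaurentSeries kA).orderTop) :
    QInt.DiscData (MScal.modularHyp N hℓ hℓN A hA) g r (Disc0.qPlace N) ((jBar N)⁻¹) where
  curve := hK
  compat := hr
  inf := fun y hy => by
    have hy' : (y : LaurentSeries Kbar) ≠ 0 := fun h => hy (Subtype.ext h)
    rw [Disc0.qPlace_ord N y hy, ← HahnSeries.order_eq_orderTop_of_ne_zero hy']
  s_int := fun n => by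
    rw [coe_jBar_inv, ← coeffMap_jInvSer A A.subtype]
    exact (((jInvSer A).coeff n : A)).2
  s_low := fun n hn => by
    rw [coe_jBar_inv]
    exact coeff_jInvSer_of_lt Kbar hn
  s_unit := ⟨1, isUnit_one, by
    rw [coe_jBar_inv, coeff_jInvSer_one]
    rfl⟩
  s_red := ⟨jInvb N A, jInvb_ne_zero N A, redV_jInv N A⟩
  s_disc := fun P' hP' hrP' =>
    ord_jInv_eq_zero N hℓ hℓN A hA hN hK r hr Qinf hQinf P' hP'
      (hrP'.trans (r_qPlace N hℓ hℓN A hA hN r hr Qinf hQinf))

/-- **(C5)** for the modular pair -/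
theorem qIntegrality_modular (hN : 1 < N) {g : ℕ} (hK : CurveRR Kbar (FN N) g)
    (r : Place Kbar (FN N) → Place kA FbN)
    (hr : DivCompatR (MScal.modularDatum N hℓ hℓN A hA) r) (Qinf : Place kA FbN)
    (hQinf : ∀ y : FbN, y ≠ 0 →
      (Qinf.ord y : WithTop ℤ) = (y : LaurentSeries kA).orderTop) :
    CT.QIntegrality A πA (modularFunctionFieldBar N) FbN r (Disc0.qPlace N) Qinf := by
  intro y yb hy hp
  have hC1 := r_qPlace N hℓ hℓN A hA hN r hr Qinf hQinf
  exact (discData_modular N hℓ hℓN A hA hN hK r hr Qinf hQinf).redQ_of_no_pole hy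
    (fun P' h1 h2 => hp P' (h2.trans hC1) h1)

end modular

end Fermat.Agent.S18.DiscL
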