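import Mathlib
import Fermat.Prelude.Def_FLTPrelim_Ramification
import Fermat.Agent.S18.GaussLemma

/-!
# S18, piece 87-P4: valuation subrings of `Qbar` over a prime are archimedean (rank one)

`A` a valuation subring of a field `L` algebraic over `ℤ`, with `(ℓ : L)` a non-unit of `A` for a
prime `ℓ`.  Then every nonzero `c ∈ A` divides a power of every non-unit `x ∈ A`.
-/

set_option autoImplicit false

namespace Fermat.Agent.S18.Gauss

open Polynomial

variable {L : Type*} [Field L] (A : ValuationSubring L)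

theorem mem_of_isIntegral_int {z : L} (hz : IsIntegral ℤ z) : z ∈ A := by
  have h1 : IsIntegral A z := hz.tower_top
  obtain ⟨y, hy⟩ := IsIntegrallyClosed.isIntegral_iff.1 h1
  rw [← hy]
  exact y.2

variable {A} [CharZero L]

theorem exists_int_dvd (halg : ∀ x : L, IsAlgebraic ℤ x) (c : A) (hc : c ≠ 0) :
    ∃ d : ℤ, d ≠ 0 ∧ c ∣ (d : A) := by
  obtain ⟨d, hd, hint⟩ := (halg ((c : L)⁻¹)).exists_integral_multiple
  refine ⟨d, hd, ⟨⟨d • (c : L)⁻¹, mem_of_isIntegral_int A hint⟩, ?_⟩⟩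
  apply Subtype.ext
  have hc0 : (c : L) ≠ 0 := fun h => hc (Subtype.ext h)
  push_cast
  rw [zsmul_eq_mul]
  field_simp

omit [CharZero L] in
theorem intCast_isUnit_of_not_dvd {ℓ : ℕ} (hℓ : ℓ.Prime) (hA : A.LiesOverPrime ℓ) (m : ℤ)
    (hm : ¬ (ℓ : ℤ) ∣ m) : IsUnit ((m : ℤ) : A) := by
  have hcop : IsCoprime (ℓ : ℤ) m :=
    (Irreducible.coprime_iff_not_dvd (Nat.prime_iff_prime_int.1 hℓ).irreducible).2 hm
  obtain ⟨a, b, hab⟩ := hcop
  have hℓnu : ((ℓ : ℤ) : A) ∈ IsLocalRing.maximalIdeal A := by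
    rw [← ValuationSubring.coe_mem_nonunits_iff]
    have : (((ℓ : ℤ) : A) : L) = (ℓ : L) := by push_cast; rfl
    rw [this]
    exact hA
  have h1 : ((b : ℤ) : A) * ((m : ℤ) : A) = 1 - ((a : ℤ) : A) * ((ℓ : ℤ) : A) := by
    have := congrArg (fun z : ℤ => (z : A)) hab
    simp only [Int.cast_add, Int.cast_mul, Int.cast_one] at this
    rw [← this]
    ring
  have h2 : IsUnit (((b : ℤ) : A) * ((m : ℤ) : A)) := by
    rw [h1]
    exact isUnit_sub_of_nonunit isUnit_one (by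
      rw [← mem_nonunits_iff, ← IsLocalRing.mem_maximalIdeal]
      exact Ideal.mul_mem_left _ _ hℓnu)
  exact isUnit_of_mul_isUnit_right h2

theorem exists_prime_dvd_pow (halg : ∀ x : L, IsAlgebraic ℤ x) {ℓ : ℕ} (hℓ : ℓ.Prime)
    (hA : A.LiesOverPrime ℓ) (x : A) (hx : ¬ IsUnit x) : ∃ n : ℕ, ((ℓ : ℤ) : A) ∣ x ^ n := by
  classical
  obtain ⟨p, hp0, hp⟩ := halg (x : L)
  have hp' : aeval (x : L) p.primPart = 0 := aeval_primPart_eq_zero hp0 hp
  have hpA : aeval x p.primPart = 0 := by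
    have : aeval (algebraMap A L x) p.primPart = 0 := hp'
    exact (aeval_algebraMap_eq_zero_iff L x p.primPart).1 this
  have hex : ∃ i, ¬ (ℓ : ℤ) ∣ p.primPart.coeff i := by
    by_contra h
    push Not at h
    have h1 : C (ℓ : ℤ) ∣ p.primPart := (C_dvd_iff_dvd_coeff _ _).2 h
    have h2 := (isPrimitive_primPart p) _ h1
    have h3 : (ℓ : ℤ).natAbs = 1 := Int.isUnit_iff_natAbs_eq.1 h2
    simp only [Int.natAbs_natCast] at h3
    exact hℓ.one_lt.ne' h3
  set i₀ := Nat.find hex with hi₀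
  have hi₀nd : ¬ (ℓ : ℤ) ∣ p.primPart.coeff i₀ := Nat.find_spec hex
  have hlt : ∀ i < i₀, (ℓ : ℤ) ∣ p.primPart.coeff i := fun i hi => by
    by_contra hcon
    exact Nat.find_min hex hi hcon
  have hxm : x ∈ IsLocalRing.maximalIdeal A := by
    rwa [IsLocalRing.mem_maximalIdeal, mem_nonunits_iff]
  set K : Ideal A := Ideal.span {((ℓ : ℤ) : A)} ⊔
    Ideal.span {x ^ i₀} * IsLocalRing.maximalIdeal A with hK
  have hi₀le : i₀ ≤ p.primPart.natDegree := by
    apply le_natDegree_of_ne_zero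
    intro h0
    exact hi₀nd (by rw [h0]; exact dvd_zero _)
  have hterm : ∀ i ∈ (Finset.range (p.primPart.natDegree + 1)).erase i₀,
      p.primPart.coeff i • x ^ i ∈ K := by
    intro i hi
    rw [Finset.mem_erase] at hi
    rcases lt_or_gt_of_ne hi.1 with h1 | h1
    · apply Ideal.mem_sup_left
      obtain ⟨t, ht⟩ := hlt i h1
      rw [ht, zsmul_eq_mul, Ideal.mem_span_singleton]
      push_cast
      exact ⟨(t : A) * x ^ i, by ring⟩
    · apply Ideal.mem_sup_right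
      rw [Ideal.mem_span_singleton_mul]
      refine ⟨p.primPart.coeff i • x ^ (i - i₀), ?_, ?_⟩
      · rw [zsmul_eq_mul]
        apply Ideal.mul_mem_left
        obtain ⟨j, hj⟩ : ∃ j, i - i₀ = j + 1 := ⟨i - i₀ - 1, by omega⟩
        rw [hj, pow_succ]
        exact Ideal.mul_mem_left _ _ hxm
      · rw [zsmul_eq_mul, zsmul_eq_mul]
        have : x ^ i = x ^ i₀ * x ^ (i - i₀) := by
          rw [← pow_add]; congr 1; omega
        rw [this]
        ring
  have hmain : p.primPart.coeff i₀ • x ^ i₀ ∈ K := by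
    have hsum := hpA
    rw [aeval_eq_sum_range, ← Finset.add_sum_erase _ _
      (show i₀ ∈ Finset.range (p.primPart.natDegree + 1) by
        rw [Finset.mem_range]; omega)] at hsum
    have hs := Ideal.sum_mem K hterm
    have h1 : p.primPart.coeff i₀ • x ^ i₀ =
        -∑ i ∈ (Finset.range (p.primPart.natDegree + 1)).erase i₀,
          p.primPart.coeff i • x ^ i := eq_neg_of_add_eq_zero_left hsum
    rw [h1]
    exact K.neg_mem hs
  obtain ⟨x₁, hx₁, x₂, hx₂, hsum⟩ := Submodule.mem_sup.1 hmain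
  obtain ⟨e, rfl⟩ := Ideal.mem_span_singleton.1 hx₁
  obtain ⟨μ, hμ, rfl⟩ := Ideal.mem_span_singleton_mul.1 hx₂
  have hμnu : ¬ IsUnit μ := by
    rwa [IsLocalRing.mem_maximalIdeal, mem_nonunits_iff] at hμ
  obtain ⟨w, hw⟩ := isUnit_sub_of_nonunit (intCast_isUnit_of_not_dvd hℓ hA _ hi₀nd) hμnu
  refine ⟨i₀, e * ↑w⁻¹, ?_⟩
  have h2 : x ^ i₀ * (w : A) = ((ℓ : ℤ) : A) * e := by
    rw [hw, zsmul_eq_mul] at *
    linear_combination -hsum
  calc x ^ i₀ = x ^ i₀ * (w : A) * ↑w⁻¹ := by rw [mul_assoc, Units.mul_inv, mul_one]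
    _ = ((ℓ : ℤ) : A) * (e * ↑w⁻¹) := by rw [h2]; ring

/-- **(AR)**: valuation subrings over a prime of a field algebraic over `ℤ` are archimedean. -/
theorem isArch_of_liesOverPrime (halg : ∀ x : L, IsAlgebraic ℤ x) {ℓ : ℕ} (hℓ : ℓ.Prime)
    (hA : A.LiesOverPrime ℓ) : IsArch A := by
  intro x hx c hc
  obtain ⟨d, hd, hcd⟩ := exists_int_dvd halg c hc
  obtain ⟨n, hn⟩ := exists_prime_dvd_pow halg hℓ hA x hx
  have hfin : FiniteMultiplicity (ℓ : ℤ) d := by
    rw [Int.finiteMultiplicity_iff]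
    refine ⟨?_, hd⟩
    simp only [Int.natAbs_natCast]
    exact hℓ.one_lt.ne'
  obtain ⟨d', hd', hnd⟩ := hfin.exists_eq_pow_mul_and_not_dvd
  set e := multiplicity (ℓ : ℤ) d with he
  obtain ⟨u, hu⟩ := intCast_isUnit_of_not_dvd hℓ hA d' hnd
  refine ⟨n * e, hcd.trans ?_⟩
  obtain ⟨t, ht⟩ := hn
  refine ⟨↑u⁻¹ * t ^ e, ?_⟩
  have h1 : ((d : ℤ) : A) = ((ℓ : ℤ) : A) ^ e * (u : A) := by
    rw [hu]
    have := congrArg (fun z : ℤ => (z : A)) hd'
    simp only [Int.cast_mul, Int.cast_pow] at this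
    exact this
  rw [h1, pow_mul, ht, mul_pow]
  have : ((ℓ : ℤ) : A) ^ e * (u : A) * (↑u⁻¹ * t ^ e) =
      ((ℓ : ℤ) : A) ^ e * t ^ e * ((u : A) * ↑u⁻¹) := by ring
  rw [this, Units.mul_inv, mul_one]

/-- (AR) for valuation subrings of `Qbar`. -/
theorem isArch_algebraicClosure_rat (A : ValuationSubring (AlgebraicClosure ℚ)) {ℓ : ℕ}
    (hℓ : ℓ.Prime) (hA : A.LiesOverPrime ℓ) : IsArch A :=
  isArch_of_liesOverPrime (fun x => (IsFractionRing.isAlgebraic_iff ℤ ℚ (AlgebraicClosure ℚ)).2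
    ((AlgebraicClosure.isAlgebraic ℚ).isAlgebraic x)) hℓ hA

end Fermat.Agent.S18.Gauss
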