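import Mathlib
import Fermat.Agent.S18.GaussDatum
import Fermat.Agent.S18.LatticeV
import Fermat.Agent.S18.Arch

/-!
# S18, piece 87-P4: the lattice lemma for the Gauss reduction datum

`gaussDatum_latticeLemma`: for the Gauss datum `R = gaussDatum H` of a pair `F ⊂ L((q))`,
`Fb ⊂ k((q))` over an archimedean valuation ring `A`:
`finrank k (R.redSub S) = finrank L S` for every finite dimensional `S ⊂ F`.
-/

set_option autoImplicit false

namespace Fermat.Agent.S18.Lat

open ModularCurve Fermat.Agent.S18.Gauss Fermat.Agent.S18 Fermat.Agent.S18.GaussD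
open Fermat.Agent.S18.RPrime

variable {L : Type*} [Field L] {A : ValuationSubring L} {k : Type*} [Field k] {π : A →+* k}
variable {F : IntermediateField L (LaurentSeries L)} {Fb : IntermediateField k (LaurentSeries k)}

/-- **87-P4**: the lattice lemma for the Gauss datum. -/
theorem gaussDatum_latticeLemma (H : Hyp A π F Fb) (hAR : IsArch A) :
    (gaussDatum H).LatticeLemma := by
  intro S hS
  obtain ⟨n, w, wb, hn, hwS, hwred, hli, hgen⟩ :=
    latticeStatement (F := F) (Fb := Fb) H.ker H.surj hAR H.scal S hS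
  have hspan : (gaussDatum H).redSub S = Submodule.span k (Set.range wb) := by
    apply le_antisymm
    · rintro x ⟨y, hyS, rfl⟩
      obtain ⟨a, -, ha⟩ := hgen (y : F) hyS _ (redV_gaussDatum_red H y)
      rw [ha]
      exact Submodule.sum_mem _ fun i _ =>
        Submodule.smul_mem _ _ (Submodule.subset_span ⟨i, rfl⟩)
    · rw [Submodule.span_le]
      rintro _ ⟨i, rfl⟩
      refine ⟨⟨w i, ⟨wb i, hwred i⟩⟩, hwS i, ?_⟩
      exact (gaussDatum_red_eq_iff H _ _).2 (hwred i)
  rw [hspan, finrank_span_eq_card hli, Fintype.card_fin, hn]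

/-- the lattice lemma for the Gauss datum over a valuation subring of `Qbar` above a prime. -/
theorem gaussDatum_latticeLemma_rat {A : ValuationSubring (AlgebraicClosure ℚ)}
    {π : A →+* k} {F : IntermediateField (AlgebraicClosure ℚ) (LaurentSeries (AlgebraicClosure ℚ))}
    (H : Hyp A π F Fb) {ℓ : ℕ} (hℓ : ℓ.Prime) (hA : A.LiesOverPrime ℓ) :
    (gaussDatum H).LatticeLemma :=
  gaussDatum_latticeLemma H (isArch_algebraicClosure_rat A hℓ hA)

end Fermat.Agent.S18.Lat
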