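import Mathlib
import Fermat.Agent.S18.Disc0Cusp
import Fermat.Agent.S18.ModularScal
import Fermat.Agent.S18.Arch
import Fermat.Agent.S18.ResAlgClosed

/-!
# S18, INSTANTIATION (helper6), part 1: the places at infinity of the modular pair

* `qPlaceBar k N` : the `q`-adic place of `modularFunctionFieldFullC k N` (any field `k`),
  `qPlaceBar_ord`;
* `infL`, `infk` : the two halves of `InfData` / `WireData.hPinf`, `hQinf` (in `WithTop ℤ`);
* `exists_nontriv`, `exists_root` : `WireData.hnontriv`, `WireData.hroot`.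
-/

set_option autoImplicit false

noncomputable section

open HahnSeries AlgebraicCurve ModularCurve

namespace Fermat.Agent.S18.MInf

open Fermat.Agent.FF Fermat.Agent.FF.H6

section Bar

variable (k : Type*) [Field k] (N : ℕ) [NeZero N]

/-- `j` as an element of the function field over `k` -/
def jFb : modularFunctionFieldFullC k N := ⟨jqModC k, jqModC_mem_full k N⟩

omit [NeZero N] in
theorem order_jFb : ((jFb k N : modularFunctionFieldFullC k N) : LaurentSeries k).order = -1 := by
  show (jqModC k).order = -1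
  have h1 : (jqModC k).coeff (-1) = 1 := coeff_jqModC_neg_one k
  have hne : jqModC k ≠ 0 := jqModC_ne_zero_of_nontrivial k
  apply le_antisymm
  · exact HahnSeries.order_le_of_coeff_ne_zero (by rw [h1]; exact one_ne_zero)
  · by_contra hlt
    push Not at hlt
    have h2 : (jqModC k).order < -1 := hlt
    have h3 := coeff_jqModC_of_lt k h2
    exact hne (HahnSeries.coeff_order_eq_zero.mp h3)

omit [NeZero N] in
theorem jFb_ne_zero : jFb k N ≠ 0 := by
  intro h
  have := congrArg (fun z : modularFunctionFieldFullC k N => (z : LaurentSeries k)) h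
  exact jqModC_ne_zero_of_nontrivial k this

/-- the `q`-order as an order function on the function field over `k` -/
def wqBar : OrdFn k (modularFunctionFieldFullC k N) where
  toFun f := (f : LaurentSeries k).order
  map_mul' f g hf hg := by
    have hf' : (f : LaurentSeries k) ≠ 0 := fun h => hf (Subtype.ext h)
    have hg' : (g : LaurentSeries k) ≠ 0 := fun h => hg (Subtype.ext h)
    show ((f : LaurentSeries k) * (g : LaurentSeries k)).order = _
    exact HahnSeries.order_mul hf' hg'
  map_add' f g _ _ hfg := by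
    have h' : (f : LaurentSeries k) + (g : LaurentSeries k) ≠ 0 :=
      fun h => hfg (Subtype.ext h)
    show _ ≤ ((f : LaurentSeries k) + (g : LaurentSeries k)).order
    exact HahnSeries.min_order_le_order_add h'
  map_const' c _ := by
    show (algebraMap k (LaurentSeries k) c).order = 0
    rw [ModularCurve.algebraMap_laurentSeries_eq_single]
    exact HahnSeries.order_C

omit [NeZero N] in
theorem wqBar_apply (f : modularFunctionFieldFullC k N) :
    wqBar k N f = (f : LaurentSeries k).order := rfl

omit [NeZero N] in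
theorem wqBar_jFb_inv : wqBar k N (jFb k N)⁻¹ = 1 := by
  rw [OrdFn.map_inv _ (jFb_ne_zero k N), wqBar_apply, order_jFb]
  norm_num

omit [NeZero N] in
theorem wqBar_pos : ∃ f : modularFunctionFieldFullC k N, f ≠ 0 ∧ 0 < wqBar k N f :=
  ⟨(jFb k N)⁻¹, inv_ne_zero (jFb_ne_zero k N), by rw [wqBar_jFb_inv]; norm_num⟩

/-- the `q`-adic place `∞̄` of the function field over `k` -/
def qPlaceBar : Place k (modularFunctionFieldFullC k N) := toPlace (wqBar k N) (wqBar_pos k N)

omit [NeZero N] in
/-- the order at `∞̄` is the `q`-order -/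
theorem qPlaceBar_ord (f : modularFunctionFieldFullC k N) (hf : f ≠ 0) :
    (qPlaceBar k N).ord f = (f : LaurentSeries k).order := by
  obtain ⟨t, ht0, -, ht⟩ := exists_mul_ord (wqBar k N) (wqBar_pos k N)
  have h1 := ht (jFb k N)⁻¹ (inv_ne_zero (jFb_ne_zero k N))
  rw [wqBar_jFb_inv] at h1
  have ht1 : t = 1 := by
    have h2 : t ∣ 1 := ⟨_, h1⟩
    exact Int.eq_one_of_dvd_one ht0.le h2
  have h3 := ht f hf
  rw [ht1, one_mul] at h3
  exact h3.symm

omit [NeZero N] in
/-- `WireData.hQinf` -/
theorem infk (y : modularFunctionFieldFullC k N) (hy : y ≠ 0) :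
    ((qPlaceBar k N).ord y : WithTop ℤ) = (y : LaurentSeries k).orderTop := by
  have hy' : (y : LaurentSeries k) ≠ 0 := fun h => hy (Subtype.ext h)
  rw [qPlaceBar_ord k N y hy, HahnSeries.order_eq_orderTop_of_ne_zero hy']

end Bar

section Zero

variable (N : ℕ) [NeZero N]

/-- `WireData.hPinf` -/
theorem infL (y : modularFunctionFieldBar N) (hy : y ≠ 0) :
    ((Disc0.qPlace N).ord y : WithTop ℤ) = (y : LaurentSeries Kbar).orderTop := by
  have hy' : (y : LaurentSeries Kbar) ≠ 0 := fun h => hy (Subtype.ext h)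
  rw [Disc0.qPlace_ord N y hy, HahnSeries.order_eq_orderTop_of_ne_zero hy']

end Zero

section Consts

variable (A : ValuationSubring Kbar) {ℓ : ℕ}

/-- `WireData.hnontriv` -/
theorem exists_nontriv (hℓ : ℓ.Prime) (hA : A.LiesOverPrime ℓ) :
    ∃ π₀ : Kbar, π₀ ≠ 0 ∧ A.valuation π₀ < 1 := by
  refine ⟨(ℓ : Kbar), by exact_mod_cast hℓ.ne_zero, ?_⟩
  exact (ValuationSubring.mem_nonunits_iff (A := A)).1 hA

/-- `WireData.hroot` -/
theorem exists_root (c : Kbar) (m : ℕ) (hm : 0 < m) : ∃ d : Kbar, d ^ m = c :=
  IsAlgClosed.exists_pow_nat_eq c hm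

end Consts

end Fermat.Agent.S18.MInf
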