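import Mathlib
import Fermat.Agent.S18.DiscL
import Fermat.Agent.S18.Disc0P1
import Fermat.Agent.S18.ModularInf
import Fermat.Agent.S18.RPrimeDrop
import Fermat.Agent.S18.LatticeR
import Fermat.Agent.S18.CTWireDefs
import Fermat.Agent.S18.Descent

/-!
# S18, INSTANTIATION (helper6), part 2: `WireData` for the modular pair and `CTModular`

* `exists_wireData` : for a level `N > 1` prime to `ℓ` and Riemann's theorem with the same genus
  on both sides, the place reduction `r` of `RPrime.rPrimeStatement` satisfies `CT.WireData`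
  (with `Pinf = Disc0.qPlace N`, `Qinf = MInf.qPlaceBar k N`);
* `ctModular_of_wire` : `CTModular A N` from the genus assembly and the CT wiring theorem.
-/

set_option autoImplicit false
set_option linter.unusedSectionVars false

noncomputable section

open HahnSeries AlgebraicCurve ModularCurve

namespace Fermat.Agent.S18.CTM

open Fermat.Agent.FF Fermat.Agent.S18.RPrime Fermat.Agent.S18.GaussD

variable (N : ℕ) [NeZero N] {ℓ : ℕ} (hℓ : ℓ.Prime) (hℓN : ¬ ℓ ∣ N)
variable (A : ValuationSubring Kbar) (hA : A.LiesOverPrime ℓ)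

/-- **WireData for the modular pair** -/
theorem exists_wireData (hN : 1 < N) {g : ℕ}
    (hK : CurveRR Kbar (modularFunctionFieldBar N) g)
    (hk : CurveRR (IsLocalRing.ResidueField A)
      (modularFunctionFieldFullC (IsLocalRing.ResidueField A) N) g) :
    ∃ r : Place Kbar (modularFunctionFieldBar N) →
        Place (IsLocalRing.ResidueField A)
          (modularFunctionFieldFullC (IsLocalRing.ResidueField A) N),
      CT.WireData g (MScal.modularHyp N hℓ hℓN A hA) r (Disc0.qPlace N)
        (MInf.qPlaceBar (IsLocalRing.ResidueField A) N) := by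
  have : Infinite (IsLocalRing.ResidueField A) := ResAC.infinite_residueField A
  obtain ⟨r, hr, hF3⟩ := RPrime.rPrimeStatement hK hk (MScal.modularDatum N hℓ hℓN A hA)
    (Lat.gaussDatum_latticeLemma_rat (MScal.modularHyp N hℓ hℓN A hA) hℓ hA)
    (MScal.modularDatum_onto N hℓ hℓN A hA)
  have hQ := MInf.infk (IsLocalRing.ResidueField A) N
  refine ⟨r, ?_⟩
  exact
    { hK := hK
      hk := hk
      hr := hr
      hF3 := hF3
      hPinf := MInf.infL N
      hQinf := hQ
      hC1 := DiscL.r_qPlace N hℓ hℓN A hA hN r hr _ hQ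
      hC5 := DiscL.qIntegrality_modular N hℓ hℓN A hA hN hK r hr _ hQ
      hP1 := Disc0.exists_place_ne N hN r _
        (fun m _ hm => DiscL.hU_modular N hℓ hℓN A hA r hr _ hQ m hm)
      harch := Gauss.isArch_algebraicClosure_rat A hℓ hA
      hnontriv := MInf.exists_nontriv A hℓ hA
      hroot := MInf.exists_root }

/-- **CT for the modular pair**, from the genus assembly and the CT wiring theorem. -/
theorem ctModular_of_wire (hN : 1 < N)
    (hgenus : ∃ g : ℕ, CurveRR Kbar (modularFunctionFieldBar N) g ∧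
      CurveRR (IsLocalRing.ResidueField A)
        (modularFunctionFieldFullC (IsLocalRing.ResidueField A) N) g)
    (hwire : ∀ (g : ℕ) (r : Place Kbar (modularFunctionFieldBar N) →
        Place (IsLocalRing.ResidueField A)
          (modularFunctionFieldFullC (IsLocalRing.ResidueField A) N)),
      CT.WireData g (MScal.modularHyp N hℓ hℓN A hA) r (Disc0.qPlace N)
        (MInf.qPlaceBar (IsLocalRing.ResidueField A) N) →
      ∀ (f : modularFunctionFieldBar N) (m : ℕ), ((m : ℕ) : IsLocalRing.ResidueField A) ≠ 0 →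
        RedV A (IsLocalRing.residue A) (modularFunctionFieldBar N)
          (modularFunctionFieldFullC (IsLocalRing.ResidueField A) N) f 1 →
        (∀ P : Place Kbar (modularFunctionFieldBar N), (m : ℤ) ∣ P.ord f) →
        ∃ h : modularFunctionFieldBar N, h ^ m = f) :
    CTModular A N := by
  obtain ⟨g, hK, hk⟩ := hgenus
  obtain ⟨r, W⟩ := exists_wireData N hℓ hℓN A hA hN hK hk
  intro f m hm hf hdiv
  exact hwire g r W f m hm hf hdiv

/-! ### the tame level -/

theorem one_lt_tameLevel (ℓ : ℕ) : 1 < tameLevel N ℓ := by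
  have h0 : tameLevel N ℓ ≠ 0 := Descent.tameLevel_ne_zero N ℓ
  have hdvd : auxLevel ℓ ∣ tameLevel N ℓ := Nat.dvd_lcm_right _ _
  have haux : 4 ≤ auxLevel ℓ := by
    unfold auxLevel
    split_ifs <;> norm_num
  have := Nat.le_of_dvd (Nat.pos_of_ne_zero h0) hdvd
  omega

include hℓ hℓN in
theorem not_dvd_tameLevel : ¬ ℓ ∣ tameLevel N ℓ := by
  intro h
  have h1 : ℓ ∣ N ∨ ℓ ∣ auxLevel ℓ := by
    have h2 : tameLevel N ℓ ∣ N * auxLevel ℓ := Nat.lcm_dvd_mul _ _
    exact (Nat.Prime.dvd_mul hℓ).1 (h.trans h2)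
  rcases h1 with h1 | h1
  · exact hℓN h1
  · unfold auxLevel at h1
    split_ifs at h1 with h2
    · subst h2
      norm_num at h1
    · have h3 : ℓ ∣ 2 ^ 2 := by simpa using h1
      have h4 := (Nat.prime_dvd_prime_iff_eq hℓ Nat.prime_two).1 (hℓ.dvd_of_dvd_pow h3)
      exact h2 h4

end Fermat.Agent.S18.CTM
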