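import Fermat.Agent.S18.CTWireAsm

/-!
# S18, piece 87-U4 (CT wiring), part 5: the CT theorem `ct_wire` for a pair `(F, Fb)`

From `WireData`: a Gauss unit `f` with reduction `1` whose divisor is divisible by `m`
(`m` prime to the residue characteristic) is an `m`-th power in `F`.
-/

set_option autoImplicit false

noncomputable section

open HahnSeries AlgebraicCurve ModularCurve

namespace Fermat.Agent.S18.CT

variable {L : Type*} [Field L] {A : ValuationSubring L} {k : Type*} [Field k] {π : A →+* k}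
  {F : IntermediateField L (LaurentSeries L)} {Fb : IntermediateField k (LaurentSeries k)}
  {g : ℕ} {H : GaussD.Hyp A π F Fb} {r : Place L F → Place k Fb}
  {Pinf : Place L F} {Qinf : Place k Fb}

section Fields

variable (W : WireData g H r Pinf Qinf) {m : ℕ} {f : F} {D : Divisor L F}
  (M : Moved A π F Fb r Qinf m f D)

theorem dS_nonneg (m : ℕ) (D : Divisor L F) : (0 : Divisor L F) ≤ dS Pinf g m D :=
  (dR_nonneg (Pinf := Pinf) (g := g) m).trans (dR_le_dS m D)

include W M in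
theorem Moved.exists_int : ∃ f' : LaurentSeries A,
    Lat.incl A f' = (f : LaurentSeries L) ∧ coeffMap π f' = 1 := by
  obtain ⟨f', h1, h2⟩ := W.hC5 f 1 M.hf (fun P hP _ => by
    rw [← M.hD P, M.hdisc P hP, mul_zero])
  exact ⟨f', h1, by rw [h2]; rfl⟩

include W M in
theorem Moved.hRa_aux : ∀ y ∈ embL (riemannRochSpace (dR Pinf g m)),
    (∀ n : ℤ, n < -((aOf g : ℕ) : ℤ) → y.coeff n = 0) →
    y ∈ embL (riemannRochSpace (dRa Pinf g)) := by
  rintro _ ⟨z, hz, rfl⟩ hlow
  refine ⟨z, ?_, rfl⟩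
  rcases eq_or_ne z 0 with rfl | hz0
  · exact Submodule.zero_mem _
  rw [RPrime.mem_L_iff hz0]
  intro P
  by_cases hP : P = Pinf
  · rw [hP, dRa_inf]
    exact le_ord_of_coeff_eq_zero W.hPinf z hz0 _ hlow
  · rw [dRa_apply P hP]
    have := (RPrime.mem_L_iff hz0).mp hz P
    rwa [dR_apply m P hP] at this

include W M in
theorem Moved.hfPS_aux : IsPS (f : LaurentSeries L) := by
  intro n hn
  apply coeff_eq_zero_of_le_ord W.hPinf f 0 _ n hn
  right
  rw [← M.hD Pinf, M.D_inf W, mul_zero]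

include M in
theorem Moved.hmul_aux : ∀ w ∈ embL (riemannRochSpace (dV Pinf g D)),
    w ^ m * (f : LaurentSeries L) ∈ embL (riemannRochSpace (dR Pinf g m)) := by
  classical
  rintro _ ⟨z, hz, rfl⟩
  refine ⟨z ^ m * f, ?_, rfl⟩
  have h1 := RPrime.pow_mem_L hz m
  have h2 := RPrime.mul_mem_L_add h1 M.f_mem
  have hdiv : dR Pinf g m = (m : ℤ) • dV Pinf g D + -((m : ℤ) • D) := by
    ext P
    simp only [dR, dV, dRa, Finsupp.add_apply, Finsupp.smul_apply, Finsupp.neg_apply,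
      smul_eq_mul, Finsupp.single_apply]
    split_ifs <;> push_cast <;> ring
  rw [hdiv]
  exact h2

include W in
theorem WireData.hconst_aux (m : ℕ) : ∀ y ∈ embL (riemannRochSpace (dR Pinf g m)),
    IsPS y → ∃ c : L, y = HahnSeries.C c := by
  rintro _ ⟨z, hz, rfl⟩ hps
  rcases eq_or_ne z 0 with rfl | hz0
  · exact ⟨0, by simp⟩
  have h0 : z ∈ riemannRochSpace (0 : Divisor L F) := by
    rw [RPrime.mem_L_iff hz0]
    intro P
    simp only [Finsupp.coe_zero, Pi.zero_apply, neg_zero]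
    by_cases hP : P = Pinf
    · rw [hP]
      exact le_ord_of_coeff_eq_zero W.hPinf z hz0 0 hps
    · have := (RPrime.mem_L_iff hz0).mp hz P
      rwa [dR_apply m P hP, neg_zero] at this
  obtain ⟨c, hc⟩ := exists_const_of_mem_L_zero W.hK h0
  exact ⟨c, by rw [hc, coe_algebraMap_eq]⟩

include W M in
theorem Moved.hred0_aux : ∀ y : LaurentSeries A,
    Lat.incl A y ∈ embL (riemannRochSpace (dR Pinf g m)) →
    (∀ n : ℤ, n ≤ 0 → π (y.coeff n) = 0) → coeffMap π y = 0 := by
  classical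
  rintro y ⟨z, hz, hzy⟩ hlow
  obtain ⟨zb, hzb, hmem⟩ :=
    W.red_mem (by rw [W.degree_dR]; exact M.three_g_lt_mul) hz hzy.symm
  rw [W.mapDomain_dR] at hmem
  by_contra hne
  have hzb0 : zb ≠ 0 := by
    rintro rfl
    apply hne
    rw [← hzb]
    rfl
  have h1 : (1 : ℤ) ≤ Qinf.ord zb := le_ord_of_coeff_eq_zero W.hQinf zb hzb0 1 (by
    intro i hi
    rw [hzb, red_coeff]
    exact hlow i (by omega))
  have h2 : zb ∈ riemannRochSpace (-(Finsupp.single Qinf (1 : ℤ)) : Divisor k Fb) := by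
    rw [RPrime.mem_L_iff hzb0]
    intro Q
    rw [Finsupp.neg_apply, neg_neg, Finsupp.single_apply]
    split_ifs with hQ
    · rw [← hQ]
      exact h1
    · have := (RPrime.mem_L_iff hzb0).mp hmem Q
      rw [Finsupp.single_apply, if_neg hQ] at this
      simpa using this
  have h3 := degree_nonneg_of_mem_L W.hk h2 hzb0
  rw [map_neg, RPrime.degree_single_one W.hk.deg_one] at h3
  omega

include W M in
theorem Moved.htop_aux : ∀ n : ℕ, aOf g < n → n ≤ m * aOf g →
    ∃ t : LaurentSeries A, Lat.incl A t ∈ embL (riemannRochSpace (dR Pinf g m)) ∧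
      (∀ i : ℤ, i < -(n : ℤ) → t.coeff i = 0) ∧ π (t.coeff (-(n : ℤ))) ≠ 0 := by
  classical
  intro n han hnm
  have hdegk : Divisor.degree (Finsupp.single Qinf (n : ℤ) : Divisor k Fb) = n :=
    RPrime.degree_single_one W.hk.deg_one _ _
  have h3g : 3 * (g : ℤ) < n := by
    have := three_g_lt_aOf (g := g)
    omega
  obtain ⟨tb, htb, htb0, hord⟩ := RPrime.exists_ord_eq W.hk
    (D := Finsupp.single Qinf (n : ℤ)) (by rw [hdegk]; omega) Qinf
  rw [Finsupp.single_apply, if_pos rfl] at hord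
  have hE : Finsupp.mapDomain r (Finsupp.single Pinf (n : ℤ) : Divisor L F) =
      Finsupp.single Qinf (n : ℤ) := by
    rw [Finsupp.mapDomain_single, W.hC1]
  obtain ⟨t, t', ht, htt', hred⟩ := W.exists_lift (E := Finsupp.single Pinf (n : ℤ))
    (by rw [RPrime.degree_single_one W.hK.deg_one]; exact h3g) (single_disc _)
    (by rw [hE]; exact htb)
  refine ⟨t', ⟨t, RPrime.L_mono (single_le_single Pinf (by exact_mod_cast hnm)) ht, htt'.symm⟩,
    ?_, ?_⟩
  · intro i hi
    have := coeff_eq_zero_of_mem_L W.hPinf ht (n := n)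
      (by rw [Finsupp.single_apply, if_pos rfl]) i hi
    rw [← htt', incl_coeff] at this
    exact Subtype.ext this
  · rw [← red_coeff, hred, ← hord]
    exact coeff_ord_ne_zero W.hQinf tb htb0

include W M in
theorem Moved.hVR_aux : ∀ y : LaurentSeries A,
    Lat.incl A y ∈ embL (riemannRochSpace (dRa Pinf g)) →
    ∃ w : LaurentSeries A, Lat.incl A w ∈ embL (riemannRochSpace (dV Pinf g D)) ∧
      coeffMap π w = coeffMap π y := by
  rintro y ⟨z, hz, hzy⟩
  obtain ⟨zb, hzb, hmem⟩ :=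
    W.red_mem (by rw [W.degree_dRa]; exact three_g_lt_aOf) hz hzy.symm
  rw [W.mapDomain_dRa, ← M.mapDomain_dV W] at hmem
  obtain ⟨w, w', hw, hww', hred⟩ :=
    W.exists_lift (by rw [M.degree_dV W]; exact three_g_lt_aOf) M.dV_disc hmem
  exact ⟨w', ⟨w, hw, hww'.symm⟩, by rw [hred, hzb]⟩

include W M in
/-- the hypotheses of the CT assembly hold. -/
theorem Moved.asmData {f' : LaurentSeries A} (hf' : Lat.incl A f' = (f : LaurentSeries L))
    (hf1 : coeffMap π f' = 1) :
    AsmData A π m (aOf g) (embL (riemannRochSpace (dV Pinf g D)))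
      (embL (riemannRochSpace (dRa Pinf g))) (embL (riemannRochSpace (dR Pinf g m)))
      (embL (riemannRochSpace (dS Pinf g m D))) f' where
  hρ := H.ker
  hm := M.hm
  harch := W.harch
  hnontriv := W.hnontriv
  hfin := by
    have := W.hK.finite (dS Pinf g m D)
    exact finite_embL _
  hprim := W.hasPrimitives M.dS_disc
  hV := embL_mono (RPrime.L_mono M.dV_le_dS)
  hR := embL_mono (RPrime.L_mono (dR_le_dS m D))
  hRa := M.hRa_aux W
  hRaR := embL_mono (RPrime.L_mono M.dRa_le_dR)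
  hf1 := hf1
  hfPS := by rw [hf']; exact M.hfPS_aux W
  hfS := by
    rw [hf']
    exact ⟨f - 1, Submodule.sub_mem _ M.f_mem_dS (RPrime.one_mem_L (dS_nonneg m D)), rfl⟩
  hR1 := ⟨1, RPrime.one_mem_L (dR_nonneg m), rfl⟩
  hmul := by rw [hf']; exact M.hmul_aux
  hconst := W.hconst_aux m
  hred0 := M.hred0_aux W
  hVord := by
    rintro _ ⟨z, hz, rfl⟩ n hn
    exact coeff_eq_zero_of_mem_L W.hPinf hz
      (by rw [dV, Finsupp.add_apply, dRa_inf, M.D_inf W, add_zero]) n hn
  hRord := by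
    rintro _ ⟨z, hz, rfl⟩ n hn
    exact coeff_eq_zero_of_mem_L W.hPinf hz (by rw [dR_inf]) n hn
  htop := M.htop_aux W
  hVR := M.hVR_aux W

end Fields

/-- **87-U4, CT for the pair `(F, Fb)`**. -/
theorem ct_wire [CharZero L] (W : WireData g H r Pinf Qinf) (f : F) (m : ℕ) (hm : (m : k) ≠ 0)
    (hf : RedV A π F Fb f 1) (hdiv : ∀ P : Place L F, (m : ℤ) ∣ P.ord f) :
    ∃ h : F, h ^ m = f := by
  have hmpos : 0 < m := Nat.pos_of_ne_zero (fun h => hm (by rw [h, Nat.cast_zero]))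
  obtain ⟨P1, hP1⟩ := W.hP1
  have hO : f ∈ (GaussD.gaussDatum H).O := (GaussD.mem_gaussDatum_O H).mpr ⟨1, hf⟩
  obtain ⟨y, u₂, D₂, hy0, hfu, hu1, hD₂, hsupp⟩ :=
    exists_moving W.hK (GaussD.gaussDatum H) W.hr W.hF3 P1 hmpos ⟨f, hO⟩
      ((GaussD.gaussDatum_red_eq_iff H _ _).mpr hf) hdiv
  have M : Moved A π F Fb r Qinf m (u₂ : F) D₂ :=
    ⟨hm, (GaussD.gaussDatum_red_eq_iff H u₂ 1).mp hu1, hD₂,
      fun P hP => hsupp P (by rw [hP]; exact fun h => hP1 h.symm)⟩
  obtain ⟨f', hf', hf1⟩ := M.exists_int W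
  obtain ⟨w, ⟨z, hz, rfl⟩, hw0, c, hc⟩ := ct_assembly (M.asmData W hf' hf1)
  have hz0 : z ≠ 0 := by
    rintro rfl
    exact hw0 rfl
  have hcF : z ^ m * (u₂ : F) = algebraMap L F c := by
    apply Subtype.ext
    rw [coe_algebraMap_eq, ← hc, hf']
    rfl
  obtain ⟨d, hd⟩ := W.hroot c m hmpos
  refine ⟨algebraMap L F d * z⁻¹ * y, ?_⟩
  have hfF : f = (u₂ : F) * (y : F) ^ m := congrArg Subtype.val hfu
  rw [hfF, mul_pow, mul_pow, ← map_pow, hd, ← hcF, inv_pow]
  field_simp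

end Fermat.Agent.S18.CT
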