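import Fermat.Agent.S18.CuspLTwist

/-!
# S18, piece 87-P3d (twist, uniform version): the action of `T` on the reduced conjugates
through ONE primitive `N`-th root of unity

* `expInf_compSL_T_zpow_prim`: in characteristic `0`, there is a primitive `N`-th root of unity
  `ζ` such that the expansion of `r ∘ T^k` is the twist of the expansion of `r` by `ζ^k`;
* `rRed_T_zpow_smul_prim`: for `ℓ ∤ N` there is a primitive `N`-th root of unity `ζb` of the
  residue field such that the reduced conjugate of `j_N` at `T^k • i` is the twist by `ζb^k` of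
  the reduced conjugate at `i`.
-/

set_option autoImplicit false
open UpperHalfPlane hiding I
open scoped MatrixGroups
open Complex Real

namespace Fermat.Agent.S18.CuspL

open Fermat.Agent.FF Fermat.Agent.S28 ModularCurve

section char0
variable (N : ℕ) [NeZero N]

theorem expInf_compSL_T_zpow_prim : ∃ ζ : Kbar, IsPrimitiveRoot ζ N ∧ ∀ (k : ℤ) (r : RN N),
    expInf N (compSL N (ModularGroup.T ^ k) r) =
      dmul (fun n => (ζ ^ k) ^ n) (expInf N r) := by
  have hN : 0 < N := Nat.pos_of_ne_zero (NeZero.ne N)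
  set ξ : ℂ := cexp (2 * π * I / (N : ℂ)) with hξ
  have hξprim : IsPrimitiveRoot ξ N := Complex.isPrimitiveRoot_exp N hN.ne'
  obtain ⟨ζ, hζ⟩ := exists_preimage_of_pow_eq_one iotaK N hN ξ hξprim.pow_eq_one
  have hζprim : IsPrimitiveRoot ζ N := by
    have h1 : IsPrimitiveRoot (iotaK ζ) N := by rw [hζ]; exact hξprim
    exact h1.of_map_of_injective iotaK_injective
  refine ⟨ζ, hζprim, fun k r => ?_⟩
  have h1 : IsExp N (iotaL (expInf N r)) (r : ℍ → ℂ) := isExpK_expInf N r
  have h2 := h1.comp_affine 1 1 k (fun τ => ModularGroup.T ^ k • τ) (fun τ => by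
    rw [ModularGroup.coe_T_zpow_smul_eq]; simp)
  have h3 : IsExp N (iotaL (expInf N (compSL N (ModularGroup.T ^ k) r)))
      (fun τ => (r : ℍ → ℂ) (ModularGroup.T ^ k • τ)) := isExpK_expInf N _
  rw [mul_one, ModularCurve.qExpand_one_apply] at h2
  have h4 := IsExp.unique hN h3 h2
  apply iotaL_injective
  rw [h4]
  ext n
  show cexp (2 * π * I * k / ((N : ℂ) * ((1 : ℕ) : ℂ))) ^ n * (iotaL (expInf N r)).coeff n =
    iotaK ((dmul (fun n => (ζ ^ k) ^ n) (expInf N r)).coeff n)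
  rw [dmul_coeff, map_mul, map_zpow₀, map_zpow₀, hζ, iotaL_coeff]
  congr 2
  rw [hξ, ← Complex.exp_int_mul]
  congr 1
  push_cast
  ring

end char0

section reduction
variable (N : ℕ) [NeZero N] {ℓ : ℕ} (hℓ : ℓ.Prime) (hℓN : ¬ ℓ ∣ N)
variable (A : ValuationSubring Kbar) (hA : A.LiesOverPrime ℓ)

include hℓ hℓN hA in
/-- the reduced conjugate of `j_N` at the coset `T^k • i` is the twist by `ζb^k` of the one at
`i`, for ONE primitive `N`-th root of unity `ζb` of the residue field -/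
theorem rRed_T_zpow_smul_prim : ∃ ζb : IsLocalRing.ResidueField A, IsPrimitiveRoot ζb N ∧
    ∀ (k : ℤ) (i : X N), rRed N A ((ModularGroup.T ^ k : SL(2, ℤ)) • i) =
      dmul (fun n => (ζb ^ k) ^ n) (rRed N A i) := by
  have hN : N ≠ 0 := NeZero.ne N
  have hN0 : 0 < N := Nat.pos_of_ne_zero hN
  obtain ⟨ζ₀, hprim₀, hζ₀⟩ := expInf_compSL_T_zpow_prim N
  set ζ : Kbar := ζ₀⁻¹ with hζdef
  have hprim : IsPrimitiveRoot ζ N := hprim₀.inv
  have hζN : ζ ^ N = 1 := hprim.pow_eq_one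
  have hζA : ζ ∈ A := mem_of_pow_eq_one A hN hζN
  have hζ0 : ζ ≠ 0 := by
    intro h
    rw [h, zero_pow hN] at hζN
    exact zero_ne_one hζN
  have hζinvA : ζ⁻¹ ∈ A := by
    apply mem_of_pow_eq_one A hN
    rw [inv_pow, hζN, inv_one]
  -- `ζ` as a unit of `A`
  let u : (A : Type)ˣ := ⟨⟨ζ, hζA⟩, ⟨ζ⁻¹, hζinvA⟩, Subtype.ext (mul_inv_cancel₀ hζ0),
    Subtype.ext (inv_mul_cancel₀ hζ0)⟩
  have hu : ∀ n : ℤ, (((u ^ n : (A : Type)ˣ) : A) : Kbar) = ζ ^ n := by
    intro n
    have h1 : ((Units.map (A.subtype : A →* Kbar) (u ^ n) : Kbarˣ) : Kbar) =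
        (((u ^ n : (A : Type)ˣ) : A) : Kbar) := rfl
    rw [← h1, map_zpow, Units.val_zpow_eq_zpow_val]
    rfl
  let ub : (IsLocalRing.ResidueField A)ˣ := Units.map (IsLocalRing.residue A : A →* _) u
  have hub : ∀ d : ℕ, ((ub : IsLocalRing.ResidueField A)) ^ d =
      IsLocalRing.residue A (⟨ζ ^ d, A.pow_mem hζA d⟩ : A) := by
    intro d
    have h1 : (⟨ζ ^ d, A.pow_mem hζA d⟩ : A) = (⟨ζ, hζA⟩ : A) ^ d := Subtype.ext (by simp)
    rw [h1, map_pow]
    rfl
  refine ⟨(ub : IsLocalRing.ResidueField A), ?_, fun k i => ?_⟩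
  · apply IsPrimitiveRoot.mk_of_lt _ hN0
    · rw [hub N]
      have h1 : (⟨ζ ^ N, A.pow_mem hζA N⟩ : A) = 1 := Subtype.ext hζN
      rw [h1, map_one]
    · intro d hd0 hdN hd1
      rw [hub d] at hd1
      have hne : ζ ^ d ≠ 1 := hprim.pow_ne_one_of_pos_of_lt hd0.ne' hdN
      have hpow : (ζ ^ d) ^ N = 1 := by rw [← pow_mul, mul_comm, pow_mul, hζN, one_pow]
      have hval := val_one_sub_eq_one A hℓ hA hℓN hpow hne
      have hmem : (1 : Kbar) - ζ ^ d ∈ A := A.sub_mem A.one_mem (A.pow_mem hζA d)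
      have hunit : IsUnit (⟨1 - ζ ^ d, hmem⟩ : A) :=
        (ValuationSubring.valuation_eq_one_iff A _).mpr hval
      have hres : IsLocalRing.residue A (⟨1 - ζ ^ d, hmem⟩ : A) = 0 := by
        have h2 : (⟨1 - ζ ^ d, hmem⟩ : A) = 1 - (⟨ζ ^ d, A.pow_mem hζA d⟩ : A) := rfl
        rw [h2, map_sub, map_one, hd1, sub_self]
      rw [IsLocalRing.residue_eq_zero_iff, IsLocalRing.mem_maximalIdeal, mem_nonunits_iff] at hres
      exact hres hunit
  · have hJ : IsInv0 N (jR N N dvd_rfl) := fun γ hγ => compSL_jR N N dvd_rfl γ hγ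
    have hg : ∀ i : X N, (QuotientGroup.mk (Quotient.out i) : X N) = i :=
      fun i => QuotientGroup.out_eq' i
    have h1 := compSL_conj N hJ (fun i => Quotient.out i) hg (ModularGroup.T ^ (-k)) i
    have h2 : (ModularGroup.T ^ (-k))⁻¹ = (ModularGroup.T ^ k : SL(2, ℤ)) := by
      rw [zpow_neg, inv_inv]
    rw [h2] at h1
    have h3 : expInf N (compSL N (Quotient.out ((ModularGroup.T ^ k : SL(2, ℤ)) • i))⁻¹
        (jR N N dvd_rfl)) =
        dmul (fun n => (ζ ^ k) ^ n)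
          (expInf N (compSL N (Quotient.out i)⁻¹ (jR N N dvd_rfl))) := by
      rw [← h1, hζ₀ (-k)]
      congr 1
      funext n
      rw [hζdef, zpow_neg, inv_zpow, inv_zpow]
      exact (inv_zpow _ _).symm
    ext n
    unfold rRed
    rw [dmul_coeff, redS_coeff, redS_coeff]
    have h4 : (⟨(expInf N (compSL N (Quotient.out ((ModularGroup.T ^ k : SL(2, ℤ)) • i))⁻¹
        (jR N N dvd_rfl))).coeff n, (mem_intSeries_iff A).mp
          (expInf_compSL_jR_mem N A N dvd_rfl _) n⟩ : A) =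
        (((u ^ k) ^ n : (A : Type)ˣ) : A) *
          ⟨(expInf N (compSL N (Quotient.out i)⁻¹ (jR N N dvd_rfl))).coeff n,
            (mem_intSeries_iff A).mp (expInf_compSL_jR_mem N A N dvd_rfl _) n⟩ := by
      apply Subtype.ext
      have h6 := congrArg (fun z => HahnSeries.coeff z n) h3
      simp only [dmul_coeff] at h6
      show (expInf N (compSL N (Quotient.out ((ModularGroup.T ^ k : SL(2, ℤ)) • i))⁻¹
        (jR N N dvd_rfl))).coeff n = ((((u ^ k) ^ n : (A : Type)ˣ) : A) : Kbar) *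
          (expInf N (compSL N (Quotient.out i)⁻¹ (jR N N dvd_rfl))).coeff n
      rw [← zpow_mul, hu (k * n), zpow_mul]
      exact h6
    rw [h4, map_mul]
    congr 1
    have h5 : IsLocalRing.residue A (((u ^ k) ^ n : (A : Type)ˣ) : A) =
        ((Units.map (IsLocalRing.residue A : A →* _) ((u ^ k) ^ n) :
          (IsLocalRing.ResidueField A)ˣ) : IsLocalRing.ResidueField A) := rfl
    rw [h5, map_zpow, map_zpow, Units.val_zpow_eq_zpow_val, Units.val_zpow_eq_zpow_val]

end reduction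

end Fermat.Agent.S18.CuspL
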