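import Fermat.Agent.S18.CuspLMod
import Fermat.Agent.S18.CuspLTwist2
import Fermat.Agent.S18.RedScal
import Fermat.Agent.S18.ResAlgClosed
import Fermat.Agent.S18.RRl.Fibres
import Fermat.Agent.FF.ModOrbits

/-!
# S18, piece 87-P3d (final): the number of places of `F̄_N` over `j̄ = ∞` is `cuspCount N`

`k = ` residue field of a valuation ring `A ⊂ ℚ̄` over `ℓ ∤ N`,
`F̄_N = modularFunctionFieldFullC k N`, `j̄ = RedScal.jF k N`.

* `card_placesOverInf_le_cuspCount`: finiteness and `≤` (no fundamental identity needed);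
* `card_placesOverInf_eq_cuspCount`: equality.
-/

set_option autoImplicit false
set_option linter.style.haveILetI false

open Polynomial IntermediateField AlgebraicCurve ModularCurve
open scoped MatrixGroups

noncomputable section

namespace Fermat.Agent.S18.CuspL

open Fermat.Agent.FF Fermat.Agent.S28

section generic

variable (k : Type*) [Field k] (N : ℕ) [NeZero N]

/-- the counting theorems over a generic field `k`, from the "conjugates" `r` -/
theorem card_placesOverInf_generic [IsAlgClosed k] [Fintype (X N)]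
    (hR : RedScal.RedLevel k N)
    (r : X N → LaurentSeries k)
    (hr1 : r ((1 : SL(2, ℤ)) : X N) = qExpand k N (jqNModC k N))
    (Φ : Polynomial (Polynomial k))
    (hΦ : Φ.map (Key.evJ (qExpand k N (jqModC k))) =
      ∏ i : X N, (Polynomial.X - Polynomial.C (r i)))
    (ζb : k) (hprim : IsPrimitiveRoot ζb N)
    (hζb : ∀ (n : ℤ) (i : X N), r ((ModularGroup.T ^ n : SL(2, ℤ)) • i) =
      dmul (fun m => (ζb ^ n) ^ m) (r i)) :
    Nat.card (placesOverInf (K := k) (RedScal.jF k N)) = cuspCount N := by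
  classical
  have hinv := adjoin_simple_inv_eq (K := k) (jFull k N)
  haveI hfd : FiniteDimensional k⟮(jFull k N)⁻¹⟯ ↥(modularFunctionFieldFullC k N) :=
    finiteDimensional_congr_intermediateField hinv.symm hR.finiteDimensional
  haveI hsep : Algebra.IsSeparable k⟮(jFull k N)⁻¹⟯ ↥(modularFunctionFieldFullC k N) :=
    FFl.isSeparable_congr_intermediateField hinv.symm hR.isSeparable
  have hx : Transcendental k (jFull k N)⁻¹ := transcendental_inv hR.transcendental
  have hfin := FFl.placesOver_finite (jFull k N)⁻¹ hx (0 : k)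
  have hsum := FFl.sum_ord_placesOver (jFull k N)⁻¹ hx (0 : k)
  have hsumA : ∑ᶠ v ∈ placesOver (jFull k N)⁻¹ (0 : k),
      v.ord ((jFull k N)⁻¹ - algebraMap k ↥(modularFunctionFieldFullC k N) 0) =
      (Module.finrank k⟮(jFull k N)⁻¹⟯ ↥(modularFunctionFieldFullC k N) : ℤ) := by
    rw [finsum_mem_eq_finite_toFinset_sum _ hfin]
    exact hsum
  have hcard : Nat.card (X N) =
      Module.finrank k⟮(jFull k N)⁻¹⟯ ↥(modularFunctionFieldFullC k N) := by
    rw [finrank_congr_intermediateField hinv, (cosetCounts N).card_X]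
    exact hR.finrank_eq.symm
  have hζN : ζb ^ N = 1 := hprim.pow_eq_one
  have h := placesOverInf_card_eq_core N (expT k N)
    (expT_algebraMap _ N) (twHom_expT _ N)
    (jFull _ N) (jNFull _ N) (order_expT_jFull _ N)
    (adjoin_jNFull_eq_top _ N hR.gen.le)
    (X N) r ((1 : SL(2, ℤ)) : X N) hr1 Φ hΦ
    (Subgroup.zpowers ModularGroup.T)
    (by
      rintro ⟨h, hh⟩ i
      obtain ⟨n, rfl⟩ := Subgroup.mem_zpowers_iff.mp hh
      refine ⟨ζb ^ n, ?_, hζb n i⟩
      rw [← zpow_natCast, ← zpow_mul, mul_comm, zpow_mul, zpow_natCast, hζN, one_zpow])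
    hfd hfin hsumA hcard
    (by
      intro i
      obtain ⟨e, he0, ⟨rr, hrr⟩, hcardO, hfix⟩ := orbit_T N i
      refine ⟨ζb, e, rr, hprim, by rw [hrr, mul_comm], hcardO, ?_⟩
      have h1 := hζb (e : ℤ) i
      have h2 : (ModularGroup.T ^ ((e : ℕ) : ℤ) : SL(2, ℤ)) • i = i := by
        rw [zpow_natCast]
        exact hfix
      have h3 : (fun m : ℤ => (ζb ^ ((e : ℕ) : ℤ)) ^ m) = fun m : ℤ => (ζb ^ e) ^ m := by
        funext m
        rw [zpow_natCast]
      rw [h2, h3] at h1
      exact h1.symm)
  rw [← (cosetCounts N).orb_T]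
  exact h

end generic

section main

set_option synthInstance.maxHeartbeats 400000

variable (N : ℕ) [NeZero N] {ℓ : ℕ} (hℓ : ℓ.Prime) (hℓN : ¬ ℓ ∣ N)
variable (A : ValuationSubring Kbar) (hA : A.LiesOverPrime ℓ)

include hℓ hℓN hA

/-- **87-P3d, upper bound** (unconditional): the fibre of `F̄_N` over `j̄ = ∞` is finite, with at
most `cuspCount N` places. -/
theorem card_placesOverInf_le_cuspCount :
    (placesOverInf (K := IsLocalRing.ResidueField A)
        (RedScal.jF (IsLocalRing.ResidueField A) N)).Finite ∧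
      Nat.card (placesOverInf (K := IsLocalRing.ResidueField A)
        (RedScal.jF (IsLocalRing.ResidueField A) N)) ≤ cuspCount N :=
  card_placesOverInf_le N hℓ hℓN A hA (RedScal.full_eq_adjoin N hℓ hℓN A hA).le

/-- **87-P3d, equality**: `F̄_N` has exactly `cuspCount N` places over `j̄ = ∞`. -/
theorem card_placesOverInf_eq_cuspCount :
    Nat.card (placesOverInf (K := IsLocalRing.ResidueField A)
      (RedScal.jF (IsLocalRing.ResidueField A) N)) = cuspCount N := by
  classical
  haveI : Fintype (X N) := Fintype.ofFinite _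
  haveI : IsAlgClosed (IsLocalRing.ResidueField A) := ResAC.isAlgClosed_residueField A
  obtain ⟨Φ, hΦ⟩ := (normPolysRed N hℓ hℓN A hA).1
  obtain ⟨ζb, hprim, hζb⟩ := rRed_T_zpow_smul_prim N hℓ hℓN A hA
  exact card_placesOverInf_generic (IsLocalRing.ResidueField A) N
    (RedScal.redLevel_residue N hℓ hℓN A hA) (rRed N A) (rRed_one N A) Φ hΦ ζb hprim hζb

end main

end Fermat.Agent.S18.CuspL
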