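import Mathlib
import Fermat.Prelude.Def_ModularCurve_GenusNumerics

/-!
# S18, piece 87-P2 (helper3): numerics at the tame auxiliary level

`nuTwo N' = 0` and `nuThree N' = 0` as soon as `4 ∣ N'` or `9 ∣ N'`; hence
`12 (genusFormula N' - 1) = ψ(N') - 6 cuspCount N'`.
-/

set_option autoImplicit false
set_option linter.style.haveILetI false

namespace Fermat.Agent.S18.Char0

open ModularCurve


theorem nuTwo_eq_zero_of_four_dvd {N : ℕ} (h : 4 ∣ N) : nuTwo N = 0 := by
  unfold nuTwo
  haveI : IsEmpty {x : ZMod N // x ^ 2 + 1 = 0} := by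
    refine ⟨fun ⟨x, hx⟩ => ?_⟩
    have := congrArg (ZMod.castHom h (ZMod 4)) hx
    simp only [map_add, map_pow, map_one, map_zero] at this
    generalize (ZMod.castHom h (ZMod 4)) x = y at this
    revert y
    decide
  exact Nat.card_of_isEmpty

theorem nuThree_eq_zero_of_two_dvd {N : ℕ} (h : 2 ∣ N) : nuThree N = 0 := by
  unfold nuThree
  haveI : IsEmpty {x : ZMod N // x ^ 2 + x + 1 = 0} := by
    refine ⟨fun ⟨x, hx⟩ => ?_⟩
    have := congrArg (ZMod.castHom h (ZMod 2)) hx
    simp only [map_add, map_pow, map_one, map_zero] at this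
    generalize (ZMod.castHom h (ZMod 2)) x = y at this
    revert y
    decide
  exact Nat.card_of_isEmpty

theorem nuTwo_eq_zero_of_three_dvd {N : ℕ} (h : 3 ∣ N) : nuTwo N = 0 := by
  unfold nuTwo
  haveI : IsEmpty {x : ZMod N // x ^ 2 + 1 = 0} := by
    refine ⟨fun ⟨x, hx⟩ => ?_⟩
    have := congrArg (ZMod.castHom h (ZMod 3)) hx
    simp only [map_add, map_pow, map_one, map_zero] at this
    generalize (ZMod.castHom h (ZMod 3)) x = y at this
    revert y
    decide
  exact Nat.card_of_isEmpty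

theorem nuThree_eq_zero_of_nine_dvd {N : ℕ} (h : 9 ∣ N) : nuThree N = 0 := by
  unfold nuThree
  haveI : IsEmpty {x : ZMod N // x ^ 2 + x + 1 = 0} := by
    refine ⟨fun ⟨x, hx⟩ => ?_⟩
    have := congrArg (ZMod.castHom h (ZMod 9)) hx
    simp only [map_add, map_pow, map_one, map_zero] at this
    generalize (ZMod.castHom h (ZMod 9)) x = y at this
    revert y
    decide
  exact Nat.card_of_isEmpty

/-- the tame auxiliary level has no elliptic points -/
theorem nu_eq_zero_of_tame {N : ℕ} (h : 4 ∣ N ∨ 9 ∣ N) : nuTwo N = 0 ∧ nuThree N = 0 := by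
  rcases h with h | h
  · exact ⟨nuTwo_eq_zero_of_four_dvd h, nuThree_eq_zero_of_two_dvd (dvd_trans (by norm_num) h)⟩
  · exact ⟨nuTwo_eq_zero_of_three_dvd (dvd_trans (by norm_num) h), nuThree_eq_zero_of_nine_dvd h⟩

/-- genus formula at a tame level: `12 (g - 1) = ψ - 6 c`. -/
theorem genusFormula_of_tame {N : ℕ} (h : 4 ∣ N ∨ 9 ∣ N) :
    12 * (genusFormula N - 1) = (dedekindPsi N : ℚ) - 6 * (cuspCount N : ℚ) := by
  obtain ⟨h2, h3⟩ := nu_eq_zero_of_tame h
  rw [genusFormula, h2, h3]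
  push_cast
  ring

end Fermat.Agent.S18.Char0
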