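import Mathlib
import Fermat.Agent.S18.Char0Num
import Fermat.Agent.FF.Interface
import Fermat.Agent.FF.Interface2
import Fermat.Agent.FF.ARH
import Fermat.Agent.FF.CountingFinal
import Fermat.Agent.FF.CosetFinal
import Fermat.Agent.FF.ModData

/-!
# S18, piece 87-P2 (helper3): characteristic `0` at the tame auxiliary level

For `N` with `4 ∣ N` or `9 ∣ N` (no elliptic points):
* `degree_canonical_of_tame` : `6 * deg (div ω) = ψ(N) - 6 * cuspCount N` for every nonzero differential;
* `card_placesOverInf`      : the number of places of `F_N` over `j = ∞` is `cuspCount N` (every `N`);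
* `finrank_jBar`            : `[F_N : ℚ̄(j)] = ψ(N)` (every `N`);
* `degree_canonical_four`, `degree_canonical_nine` : `deg (div ω) = -2` at level `4`, `9` (genus `0`).
-/

set_option autoImplicit false
set_option linter.style.haveILetI false

open AlgebraicCurve KaehlerDifferential IntermediateField
open scoped MatrixGroups

namespace Fermat.Agent.S18.Char0

open ModularCurve Fermat.Agent.FF

variable (N : ℕ) [NeZero N]

/-- the ramification data of `F_N / ℚ̄(j)` (S24 library) -/
theorem modularRamification : ModularRamification N :=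
  modularRamification_of N (Fermat.Agent.FF.H6.countingStatement _ _) (modularOrdData N)

/-- `[F_N : ℚ̄(j)] = ψ(N)`. -/
theorem finrank_jBar :
    Module.finrank (AlgebraicClosure ℚ)⟮jBar N⟯ ↥(modularFunctionFieldBar N) = dedekindPsi N := by
  rw [(modularRamification N).finrank_eq, (cosetCounts N).card_X]

/-- the number of places over `j = ∞` is the number of cusps. -/
theorem card_placesOverInf :
    Nat.card (placesOverInf (K := AlgebraicClosure ℚ) (jBar N)) = cuspCount N := by
  rw [(modularRamification N).card_inf, (cosetCounts N).orb_T]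

/-- degree of the divisor of a nonzero differential, in terms of the orbit counts (every `N`). -/
theorem degree_canonical_general (ω : Ω[↥(modularFunctionFieldBar N)⁄AlgebraicClosure ℚ]) (hω : ω ≠ 0)
    (W : Divisor (AlgebraicClosure ℚ) ↥(modularFunctionFieldBar N))
    (hW : ∀ v, W v = v.ordDifferential ω) :
    6 * Divisor.degree W = (dedekindPsi N : ℤ) - 3 * (nuTwo N : ℤ) - 4 * (nuThree N : ℤ)
      - 6 * (cuspCount N : ℤ) := by
  classical
  have hM := modularRamification N
  have hC := cosetCounts N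
  obtain ⟨-, hdeg⟩ := rhStatement (AlgebraicClosure ℚ) ↥(modularFunctionFieldBar N) (jBar N)
    hM.transc hM.findim
  have h01 : (0 : AlgebraicClosure ℚ) ≠ 1728 := by norm_num
  have hB : ∀ a, a ∉ ({0, 1728} : Finset (AlgebraicClosure ℚ)) →
      ∀ v : Place (AlgebraicClosure ℚ) ↥(modularFunctionFieldBar N),
        0 < v.ord (jBar N - algebraMap _ _ a) → v.ord (jBar N - algebraMap _ _ a) = 1 := by
    intro a ha v hv
    simp only [Finset.mem_insert, Finset.mem_singleton, not_or] at ha
    exact hM.unram a ha.1 ha.2 v hv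
  have hdeg' := hdeg {0, 1728} hB ω hω W hW
  rw [Finset.sum_pair h01, hM.finrank_eq, hM.card_zero, hM.card_1728, hM.card_inf,
    hC.card_X] at hdeg'
  have h2 := congrArg (Nat.cast : ℕ → ℤ) hC.orb_S
  have h3 := congrArg (Nat.cast : ℕ → ℤ) hC.orb_U
  have h4 := congrArg (Nat.cast : ℕ → ℤ) hC.orb_T
  push_cast at h2 h3 h4
  rw [hdeg']
  linarith

/-- **87-P2**: at a tame level (`4 ∣ N` or `9 ∣ N`), `6 * deg (div ω) = ψ(N) - 6 * cuspCount N`,
i.e. `2 g - 2 = ψ(N) / 6 - cuspCount N`. -/
theorem degree_canonical_of_tame (h : 4 ∣ N ∨ 9 ∣ N)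
    (ω : Ω[↥(modularFunctionFieldBar N)⁄AlgebraicClosure ℚ]) (hω : ω ≠ 0)
    (W : Divisor (AlgebraicClosure ℚ) ↥(modularFunctionFieldBar N))
    (hW : ∀ v, W v = v.ordDifferential ω) :
    6 * Divisor.degree W = (dedekindPsi N : ℤ) - 6 * (cuspCount N : ℤ) := by
  have h1 := degree_canonical_general N ω hω W hW
  obtain ⟨h2, h3⟩ := nu_eq_zero_of_tame h
  rw [h2, h3] at h1
  push_cast at h1
  omega

omit [NeZero N] in
theorem dedekindPsi_two : dedekindPsi 2 = 3 := by
  have h := dedekindPsi_mul_of_not_dvd 1 2 one_ne_zero Nat.prime_two (by norm_num)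
  rw [dedekindPsi_one] at h
  simpa using h

omit [NeZero N] in
theorem dedekindPsi_three : dedekindPsi 3 = 4 := by
  have h := dedekindPsi_mul_of_not_dvd 1 3 one_ne_zero Nat.prime_three (by norm_num)
  rw [dedekindPsi_one] at h
  simpa using h

omit [NeZero N] in
theorem dedekindPsi_four : dedekindPsi 4 = 6 := by
  have h := dedekindPsi_mul_of_dvd 2 2 two_ne_zero Nat.prime_two dvd_rfl
  rw [dedekindPsi_two] at h
  simpa using h

omit [NeZero N] in
theorem dedekindPsi_nine : dedekindPsi 9 = 12 := by
  have h := dedekindPsi_mul_of_dvd 3 3 three_ne_zero Nat.prime_three dvd_rfl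
  rw [dedekindPsi_three] at h
  simpa using h

omit [NeZero N] in
theorem cuspCount_four : cuspCount 4 = 3 := by decide

omit [NeZero N] in
theorem cuspCount_nine : cuspCount 9 = 4 := by decide

/-- genus `0` at level `4`: every nonzero differential has a divisor of degree `-2`. -/
theorem degree_canonical_four
    (ω : Ω[↥(modularFunctionFieldBar 4)⁄AlgebraicClosure ℚ]) (hω : ω ≠ 0)
    (W : Divisor (AlgebraicClosure ℚ) ↥(modularFunctionFieldBar 4))
    (hW : ∀ v, W v = v.ordDifferential ω) :
    Divisor.degree W = -2 := by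
  have h := degree_canonical_of_tame 4 (Or.inl dvd_rfl) ω hω W hW
  rw [dedekindPsi_four, cuspCount_four] at h
  push_cast at h
  omega

/-- genus `0` at level `9`: every nonzero differential has a divisor of degree `-2`. -/
theorem degree_canonical_nine
    (ω : Ω[↥(modularFunctionFieldBar 9)⁄AlgebraicClosure ℚ]) (hω : ω ≠ 0)
    (W : Divisor (AlgebraicClosure ℚ) ↥(modularFunctionFieldBar 9))
    (hW : ∀ v, W v = v.ordDifferential ω) :
    Divisor.degree W = -2 := by
  have h := degree_canonical_of_tame 9 (Or.inr dvd_rfl) ω hω W hW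
  rw [dedekindPsi_nine, cuspCount_nine] at h
  push_cast at h
  omega

omit [NeZero N] in
/-- the numerical identity behind Riemann-Hurwitz over `X₀(M₀)`, `M₀ = 4`:
`(c₀ - 2) * ψ(N) / ψ(M₀) = ψ(N) / 6`. -/
theorem rh_numerics_four (n : ℤ) (h : (n : ℤ) * (dedekindPsi 4 : ℤ) = (dedekindPsi N : ℤ)) :
    6 * (-2 * n + (cuspCount 4 : ℤ) * n - (cuspCount N : ℤ))
      = (dedekindPsi N : ℤ) - 6 * (cuspCount N : ℤ) := by
  rw [dedekindPsi_four] at h
  rw [cuspCount_four]
  push_cast at h ⊢
  linarith

omit [NeZero N] in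
/-- the same for `M₀ = 9`. -/
theorem rh_numerics_nine (n : ℤ) (h : (n : ℤ) * (dedekindPsi 9 : ℤ) = (dedekindPsi N : ℤ)) :
    6 * (-2 * n + (cuspCount 9 : ℤ) * n - (cuspCount N : ℤ))
      = (dedekindPsi N : ℤ) - 6 * (cuspCount N : ℤ) := by
  rw [dedekindPsi_nine] at h
  rw [cuspCount_nine]
  push_cast at h ⊢
  linarith

end Fermat.Agent.S18.Char0
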