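import Mathlib
import Fermat.Agent.S18.RPrimeDrop

/-!
# S18, piece 87-P4 (second half): `gbar ≤ g`

For a reduction datum `R` with the lattice lemma and surjective reduction, Riemann's theorem on
`F / K` with genus `g` and on `Fb / k` with genus `g'`:  `g' ≤ g`.
(The degree drop of helper8, `RPrime.degree_drop_of_lattice`, restated for two genera.)
-/

set_option autoImplicit false

open AlgebraicCurve

noncomputable section

namespace Fermat.Agent.S18.GenusLe

open Fermat.Agent.S18.RPrime

variable {K F k Fb : Type*} [Field K] [Field F] [Algebra K F]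
  [Field k] [Field Fb] [Algebra k Fb] {g g' : ℕ}

/-- **degree drop** with two genera (proof of helper8's `degree_drop_of_lattice`). -/
theorem degree_drop_two (hK : CurveRR K F g) (hk : CurveRR k Fb g')
    (R : RedDatum K F k Fb) (hlat : R.LatticeLemma) (hsurj : Function.Surjective R.red)
    (y : R.O) (hy : R.red y ≠ 0) (E : Divisor K F) (E' : Divisor k Fb)
    (hE : 0 ≤ E) (hyE : (y : F) ∈ riemannRochSpace E) (hE'0 : 0 ≤ E')
    (hE' : ∀ Q : Place k Fb, 0 < E' Q → E' Q ≤ -Q.ord (R.red y)) :
    Divisor.degree E' ≤ Divisor.degree E := by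
  classical
  obtain ⟨t, ht⟩ := exists_isSlotFamily hk hE'0 hE'
  have hlift := fun p => hsurj (t p)
  choose T hT using hlift
  obtain ⟨C, hC0, hC⟩ := exists_le_L hK
    (Submodule.span K (((slotSet E').image fun p => (T p : F) : Finset F) : Set F))
    (Module.Finite.span_of_finite K (Finset.finite_toSet _))
  have hTC : ∀ p ∈ slotSet E', (T p : F) ∈ riemannRochSpace C := fun p hp =>
    hC (Submodule.subset_span (Finset.mem_coe.mpr (Finset.mem_image_of_mem _ hp)))
  have key : ∀ l : ℕ, Divisor.degree E' * ((l : ℤ) + 1) ≤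
      l * Divisor.degree E + Divisor.degree C + 1 := by
    intro l
    have hD0 : 0 ≤ (l : ℤ) • E + C := add_nonneg (smul_nonneg (by positivity) hE) hC0
    have hfinD := hK.finite ((l : ℤ) • E + C)
    have hposD : 0 < Module.finrank K (riemannRochSpace ((l : ℤ) • E + C)) :=
      Module.finrank_pos_iff_exists_ne_zero.mpr
        ⟨⟨1, one_mem_L hD0⟩, fun h => one_ne_zero (congrArg Subtype.val h)⟩
    have hlatD := hlat _ hfinD
    have hfinΛ : Module.Finite k (R.redSub (riemannRochSpace ((l : ℤ) • E + C))) :=
      Module.finite_of_finrank_pos (by rw [hlatD]; exact hposD)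
    have hmem : ∀ p : ↥(slotSet E') × Fin (l + 1),
        R.red y ^ (p.2 : ℕ) * t p.1.1 ∈ R.redSub (riemannRochSpace ((l : ℤ) • E + C)) := by
      intro p
      refine ⟨y ^ (p.2 : ℕ) * T p.1.1, ?_, by rw [map_mul, map_pow, hT]⟩
      have h1 : ((y : F)) ^ (p.2 : ℕ) ∈ riemannRochSpace ((l : ℤ) • E) :=
        L_mono (smul_le_smul_div hE (Nat.lt_succ_iff.mp p.2.2)) (pow_mem_L hyE _)
      exact mul_mem_L_add h1 (hTC _ p.1.2)
    have hli := linearIndependent_slot hy hE'0 hE' ht l
    have hli' : LinearIndependent k (fun p : ↥(slotSet E') × Fin (l + 1) =>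
        (⟨R.red y ^ (p.2 : ℕ) * t p.1.1, hmem p⟩ :
          R.redSub (riemannRochSpace ((l : ℤ) • E + C)))) :=
      LinearIndependent.of_comp (Submodule.subtype _) hli
    have hcard := hli'.fintype_card_le_finrank
    rw [hlatD, Fintype.card_prod, Fintype.card_fin, Fintype.card_coe] at hcard
    have hdim := hK.dim_le _ hD0
    rw [map_add, map_zsmul, smul_eq_mul] at hdim
    have hb := card_slotSet hk.deg_one hE'0
    have : (((slotSet E').card * (l + 1) : ℕ) : ℤ) ≤
        (Module.finrank K (riemannRochSpace ((l : ℤ) • E + C)) : ℤ) := by exact_mod_cast hcard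
    push_cast at this
    rw [hb] at this
    omega
  exact drop_arith (degree_nonneg hK.deg_one hE) (degree_nonneg hK.deg_one hC0) key

/-- **`gbar ≤ g`** from the lattice lemma and `κ(v) = Fb`. -/
theorem genus_le_of_lattice [Infinite k] (hK : CurveRR K F g) (hk : CurveRR k Fb g')
    (R : RedDatum K F k Fb) (hlat : R.LatticeLemma) (hsurj : Function.Surjective R.red) :
    g' ≤ g := by
  classical
  obtain ⟨P₀⟩ := hK.nonempty
  set N : ℤ := 2 * g' + 2 * g + 2 with hN
  set E : Divisor K F := Finsupp.single P₀ N with hEdef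
  have hE : 0 ≤ E := by
    rw [hEdef, Finsupp.le_def]
    intro v
    simp only [Finsupp.coe_zero, Pi.zero_apply, Finsupp.single_apply]
    split_ifs <;> omega
  have hdegE : Divisor.degree E = N := by
    rw [hEdef, degree_single_one hK.deg_one]
  have hfinE := hK.finite E
  have hdimE := hK.riemann E (by rw [hdegE]; omega)
  have hlatE := hlat (riemannRochSpace E) hfinE
  have hpos : 0 < Module.finrank k (R.redSub (riemannRochSpace E)) := by
    rw [hlatE]
    have : (0 : ℤ) < (Module.finrank K (riemannRochSpace E) : ℤ) := by rw [hdimE, hdegE]; omega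
    exact_mod_cast this
  have hfinΛ : Module.Finite k (R.redSub (riemannRochSpace E)) :=
    Module.finite_of_finrank_pos hpos
  obtain ⟨E', hE', hΛ, f, hfΛ, hf0, hford⟩ :=
    exists_generic hk (R.redSub (riemannRochSpace E)) hfinΛ
  have hdrop : Divisor.degree E' ≤ Divisor.degree E := by
    rcases hf0 with hf0 | hE0
    · obtain ⟨y, hy, rfl⟩ := hfΛ
      exact degree_drop_two hK hk R hlat hsurj y hf0 E E' hE hy hE' fun Q hQ => by
        rw [hford Q hQ, neg_neg]
    · subst hE0
      have := degree_nonneg hK.deg_one hE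
      simpa using this
  have hfinE' := hk.finite E'
  have hle : (Module.finrank k (R.redSub (riemannRochSpace E)) : ℤ) ≤
      (Module.finrank k (riemannRochSpace E') : ℤ) := by
    exact_mod_cast Submodule.finrank_mono hΛ
  have hdimle := hk.dim_le E' hE'
  have hlat' : (Module.finrank k (R.redSub (riemannRochSpace E)) : ℤ) =
      Divisor.degree E + 1 - g := by rw [hlatE, hdimE]
  by_cases hbig : 2 * (g' : ℤ) - 2 < Divisor.degree E'
  · have hdimE' := hk.riemann E' hbig
    omega
  · omega

end Fermat.Agent.S18.GenusLe
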