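import Mathlib
import Fermat.Agent.S18.RRl.Char0
import Fermat.Agent.S18.RRl.GenusUnique
import Fermat.Agent.S18.Char0Genus
import Fermat.Agent.S18.RedScal
import Fermat.Agent.S18.ModularScal
import Fermat.Agent.S18.GenusLe
import Fermat.Agent.S18.LatticeR
import Fermat.Agent.S18.ResAlgClosed
import Fermat.Agent.FF.DivDj

/-!
# S18, piece 87-U3 (helper1): the genus assembly, part 1 (every level `N` prime to `ℓ`)

* `g0 N` : the genus of `F_N / ℚ̄` (`= genusl ℚ̄ j`), `curveRR_zero N`;
* `g0_formula` : `6 (2 g0 - 2) = ψ(N) - 6 cuspCount N` at a tame level, `g0_four`, `g0_nine`;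
* `gb k N` : the genus of `F̄_N / k` (`= genusl k j̄`), `curveRR_bar`;
* `gb_le_g0` : `ḡ ≤ g` (lattice lemma + degree drop), every `N` prime to `ℓ`;
* `curveRR_bar_four`, `curveRR_bar_nine` : `F̄_4`, `F̄_9` have genus `0`.
-/

set_option autoImplicit false
set_option linter.unusedSectionVars false
set_option linter.style.haveILetI false

open AlgebraicCurve IntermediateField ModularCurve

noncomputable section

namespace Fermat.Agent.S18.GenusAsm

open Fermat.Agent.FF Fermat.Agent.S28 Fermat.Agent.S18.RedScal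

section CharZero

variable (N : ℕ) [NeZero N]

/-- the genus of `F_N / ℚ̄` -/
def g0 : ℕ := RRl.genusl (AlgebraicClosure ℚ) (jBar N)

/-- Riemann's theorem for `F_N / ℚ̄`. -/
theorem curveRR_zero :
    RPrime.CurveRR (AlgebraicClosure ℚ) ↥(modularFunctionFieldBar N) (g0 N) := by
  have hM := Char0.modularRamification N
  haveI := hM.findim
  exact RRl.curveRR_charZero (jBar N) hM.transc

/-- `6 (2 g - 2) = ψ(N) - 6 c(N)` at a tame level. -/
theorem g0_formula (h : 4 ∣ N ∨ 9 ∣ N) :
    6 * (2 * (g0 N : ℤ) - 2) = (dedekindPsi N : ℤ) - 6 * (cuspCount N : ℤ) := by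
  have hM := Char0.modularRamification N
  haveI := hM.findim
  obtain ⟨W, hW⟩ := (divisorDjExists N hM)
  have h1 := RRl.degree_div_D_eq (jBar N) hM.transc W hW
  have h2 := Char0.degree_canonical_of_tame N h _ (D_jBar_ne_zero N hM) W hW
  rw [g0, ← h1]
  exact h2

/-- `F_4` has genus `0`. -/
theorem g0_four : g0 4 = 0 := by
  have h := g0_formula 4 (Or.inl dvd_rfl)
  rw [Char0.dedekindPsi_four, Char0.cuspCount_four] at h
  push_cast at h
  omega

/-- `F_9` has genus `0`. -/
theorem g0_nine : g0 9 = 0 := by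
  have h := g0_formula 9 (Or.inr dvd_rfl)
  rw [Char0.dedekindPsi_nine, Char0.cuspCount_nine] at h
  push_cast at h
  omega

end CharZero

section CharL

variable (k : Type*) [Field k] [IsAlgClosed k] (N : ℕ) [NeZero N]

/-- the genus of `F̄_N / k` -/
def gb : ℕ := RRl.genusl k (jF k N)

/-- Riemann's theorem for `F̄_N / k` (`k` algebraically closed, `ℓ ∤ N`). -/
theorem curveRR_bar (h : RedLevel k N) :
    RPrime.CurveRR k ↥(modularFunctionFieldFullC k N) (gb k N) := by
  haveI := h.finiteDimensional
  haveI := h.isSeparable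
  exact RRl.curveRR_sep (jF k N) h.transcendental

/-- the genus of `F̄_N / k` does not depend on the separating element. -/
theorem genusl_eq_gb (h : RedLevel k N) (t : ↥(modularFunctionFieldFullC k N))
    (ht : Transcendental k t) [FiniteDimensional k⟮t⟯ ↥(modularFunctionFieldFullC k N)]
    [Algebra.IsSeparable k⟮t⟯ ↥(modularFunctionFieldFullC k N)] :
    RRl.genusl k t = gb k N :=
  RRl.curveRR_genus_unique (RRl.curveRR_sep t ht) (curveRR_bar k N h)

end CharL

section Compare

variable (N : ℕ) [NeZero N] {ℓ : ℕ} (hℓ : ℓ.Prime) (hℓN : ¬ ℓ ∣ N)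
variable (A : ValuationSubring (AlgebraicClosure ℚ)) (hA : A.LiesOverPrime ℓ)

/-- the genus of the reduction `F̄_N` over the residue field of `A` -/
def gbA : ℕ :=
  haveI := ResAC.isAlgClosed_residueField A
  gb (IsLocalRing.ResidueField A) N

include hℓ hℓN hA in
/-- Riemann's theorem for `F̄_N` over the residue field of `A`. -/
theorem curveRR_barA :
    RPrime.CurveRR (IsLocalRing.ResidueField A)
      ↥(modularFunctionFieldFullC (IsLocalRing.ResidueField A) N) (gbA N A) := by
  haveI := ResAC.isAlgClosed_residueField A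
  exact curveRR_bar _ N (redLevel_residue N hℓ hℓN A hA)

include hℓ hℓN hA in
/-- **`ḡ ≤ g`** at every level prime to `ℓ`. -/
theorem gbA_le_g0 : gbA N A ≤ g0 N := by
  haveI := ResAC.isAlgClosed_residueField A
  haveI := ResAC.infinite_residueField A
  exact GenusLe.genus_le_of_lattice (curveRR_zero N) (curveRR_barA N hℓ hℓN A hA)
    (MScal.modularDatum N hℓ hℓN A hA)
    (Lat.gaussDatum_latticeLemma_rat (MScal.modularHyp N hℓ hℓN A hA) hℓ hA)
    (MScal.modularDatum_onto N hℓ hℓN A hA).surj

end Compare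

end Fermat.Agent.S18.GenusAsm
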