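import Mathlib
import Fermat.Agent.S18.RRl.RHFinal
import Fermat.Agent.S18.RRl.RThmFinal

/-!
# S18, piece 87-U3 (helper1): Riemann–Hurwitz over `k(t)` with the fibres of `j` (abstract)

`F₁ = k(t₀) ⊂ F₂` function fields over an algebraically closed field `k`, `j₁ ∈ F₁`,
`t = φ t₀`, `F₂ / k(t)` finite separable of degree `n`.  If `j₁` has at least `c₀` poles on `F₁`
and `φ j₁` has at most `c_N` poles on `F₂`, then `c₀ n - c_N ≤ 2 g - 2 + 2 n`
(`rh_tower_abstract`).

Proof: `j₁ = P(t₀)/Q(t₀)`; on the fibre of `t` over `a` the order of `j` is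
`(mult_a P - mult_a Q) ord (t - a)`, at the poles of `t` it is `(deg P - deg Q) ord t`; so the
poles of `j` are the fibres of `t` over `poleVals P Q` (and over `∞` if `deg Q < deg P`), in `F₁`
and in `F₂`; the fibres of `t₀` in `F₁` are singletons; then `RRl.rh_inequality_sep`.
-/

set_option autoImplicit false
set_option linter.unusedSectionVars false
set_option linter.style.haveILetI false

open AlgebraicCurve Polynomial IntermediateField

noncomputable section

namespace Fermat.Agent.S18.GenusGeAbs

open Fermat.Agent.FF Fermat.Agent.S18.FFl Fermat.Agent.S18.RRl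

variable {K F : Type*} [Field K] [Field F] [Algebra K F]

section Ord

/-- the order of a polynomial in `x` on the fibre of `x` over `a` -/
theorem ord_aeval_of_mem_placesOver (v : Place K F) (x : F) (a : K)
    (hv : 0 < v.ord (x - algebraMap K F a)) (p : K[X]) (hp : p ≠ 0) (hpx : aeval x p ≠ 0) :
    v.ord (aeval x p) = (p.rootMultiplicity a : ℤ) * v.ord (x - algebraMap K F a) := by
  obtain ⟨q, hpq, hq⟩ := Polynomial.exists_eq_pow_rootMultiplicity_mul_and_not_dvd p hp a
  have hqa : q.eval a ≠ 0 := fun h => hq (Polynomial.dvd_iff_isRoot.mpr h)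
  set y := x - algebraMap K F a with hy
  have h1 : aeval x q = aeval y (q.comp (Polynomial.X + Polynomial.C a)) := by
    rw [Polynomial.aeval_comp, map_add, Polynomial.aeval_X, Polynomial.aeval_C, hy, sub_add_cancel]
  have h2 : (q.comp (Polynomial.X + Polynomial.C a)).coeff 0 ≠ 0 := by
    rw [Polynomial.coeff_zero_eq_eval_zero, Polynomial.eval_comp, Polynomial.eval_add,
      Polynomial.eval_X, Polynomial.eval_C, zero_add]
    exact hqa
  have h3 : v.ord (aeval x q) = 0 := by
    rw [h1]
    exact ord_aeval_eq_zero_of_pos v hv _ h2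
  have h4 : aeval x p = y ^ p.rootMultiplicity a * aeval x q := by
    conv_lhs => rw [hpq]
    rw [map_mul, map_pow, map_sub, Polynomial.aeval_X, Polynomial.aeval_C]
  have hy0 : y ≠ 0 := by
    intro h
    rw [h, v.ord_zero] at hv
    omega
  have hq0 : aeval x q ≠ 0 := by
    intro h
    apply hpx
    rw [h4, h, mul_zero]
  rw [h4, v.ord_mul (pow_ne_zero _ hy0) hq0, h3, add_zero, ← zpow_natCast, v.ord_zpow]

open Classical in
/-- the finite values over which `P(x)/Q(x)` has poles -/
def poleVals (P Q : K[X]) : Finset K :=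
  Q.roots.toFinset.filter fun a => P.rootMultiplicity a < Q.rootMultiplicity a

theorem mem_poleVals {P Q : K[X]} (hQ : Q ≠ 0) (a : K) :
    a ∈ poleVals P Q ↔ P.rootMultiplicity a < Q.rootMultiplicity a := by
  classical
  unfold poleVals
  rw [Finset.mem_filter, Multiset.mem_toFinset, Polynomial.mem_roots hQ]
  constructor
  · exact fun h => h.2
  · intro h
    exact ⟨(Polynomial.rootMultiplicity_pos hQ).mp (by omega), h⟩

end Ord

section Fibre

variable [IsAlgClosed K] (x : F) (hx : Transcendental K x) [FiniteDimensional K⟮x⟯ F]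
  [Algebra.IsSeparable K⟮x⟯ F]

include hx

/-- the poles of `P(x)/Q(x)` are the fibres of `x` over `poleVals P Q`, and over `∞` if
`deg Q < deg P`. -/
theorem mem_placesOverInf_ratfunc_iff (P Q : K[X]) (hP : P ≠ 0) (hQ : Q ≠ 0) (v : Place K F) :
    v ∈ placesOverInf (K := K) (aeval x P / aeval x Q) ↔
      (∃ a ∈ poleVals P Q, v ∈ placesOver x a) ∨
      (Q.natDegree < P.natDegree ∧ v ∈ placesOverInf (K := K) x) := by
  have hPx : aeval x P ≠ 0 := fun h => hP ((transcendental_iff.mp hx) P h)
  have hQx : aeval x Q ≠ 0 := fun h => hQ ((transcendental_iff.mp hx) Q h)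
  have hord : v.ord (aeval x P / aeval x Q) = v.ord (aeval x P) - v.ord (aeval x Q) := by
    rw [div_eq_mul_inv, v.ord_mul hPx (inv_ne_zero hQx), v.ord_inv]
    ring
  show v.ord _ < 0 ↔ _
  rw [hord]
  rcases FFl.mem_placesOverInf_or_exists x hx v with hinf | ⟨a, ha⟩
  · have hinf' : v.ord x < 0 := hinf
    rw [ord_aeval_of_neg v hinf' P hP, ord_aeval_of_neg v hinf' Q hQ]
    constructor
    · intro h
      right
      refine ⟨?_, hinf⟩
      by_contra hle
      have hle' : (P.natDegree : ℤ) ≤ Q.natDegree := by exact_mod_cast not_lt.mp hle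
      nlinarith
    · rintro (⟨a, -, ha⟩ | ⟨hlt, -⟩)
      · exact (FFl.placesOver_inf_disjoint x v ha hinf).elim
      · have hlt' : (Q.natDegree : ℤ) < P.natDegree := by exact_mod_cast hlt
        nlinarith
  · have ha' : 0 < v.ord (x - algebraMap K F a) := ha
    rw [ord_aeval_of_mem_placesOver v x a ha' P hP hPx,
      ord_aeval_of_mem_placesOver v x a ha' Q hQ hQx]
    constructor
    · intro h
      left
      refine ⟨a, (mem_poleVals hQ a).2 ?_, ha⟩
      by_contra hle
      have hle' : (Q.rootMultiplicity a : ℤ) ≤ P.rootMultiplicity a := by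
        exact_mod_cast not_lt.mp hle
      nlinarith
    · rintro (⟨b, hb, hvb⟩ | ⟨-, hinf⟩)
      · have hab : a = b := FFl.placesOver_disjoint x v ha hvb
        subst hab
        have h1 := (mem_poleVals hQ a).1 hb
        have h2 : (P.rootMultiplicity a : ℤ) < Q.rootMultiplicity a := by exact_mod_cast h1
        nlinarith
      · exact (FFl.placesOver_inf_disjoint x v ha hinf).elim

open Classical in
/-- the finite set of poles of `P(x)/Q(x)` -/
def poleSet (P Q : K[X]) : Finset (Place K F) :=
  ((poleVals P Q).biUnion fun a => (FFl.placesOver_finite x hx a).toFinset) ∪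
    (if Q.natDegree < P.natDegree then (FFl.placesOverInf_finite x hx).toFinset else ∅)

theorem placesOverInf_ratfunc_eq (P Q : K[X]) (hP : P ≠ 0) (hQ : Q ≠ 0) :
    placesOverInf (K := K) (aeval x P / aeval x Q) = ↑(poleSet x hx P Q) := by
  classical
  ext v
  rw [mem_placesOverInf_ratfunc_iff x hx P Q hP hQ v]
  unfold poleSet
  simp only [Finset.coe_union, Finset.coe_biUnion, Set.mem_union, Set.mem_iUnion, Finset.mem_coe,
    Set.Finite.mem_toFinset, exists_prop]
  refine or_congr Iff.rfl ?_
  split_ifs with h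
  · simp [h]
  · simp [h]

theorem card_poleSet (P Q : K[X]) :
    (poleSet x hx P Q).card =
      ∑ a ∈ poleVals P Q, (FFl.placesOver_finite x hx a).toFinset.card +
        (if Q.natDegree < P.natDegree then (FFl.placesOverInf_finite x hx).toFinset.card
          else 0) := by
  classical
  unfold poleSet
  rw [Finset.card_union_of_disjoint, Finset.card_biUnion]
  · congr 1
    split_ifs <;> simp
  · intro a _ b _ hab
    rw [Function.onFun, Finset.disjoint_left]
    intro v hva hvb
    rw [Set.Finite.mem_toFinset] at hva hvb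
    exact hab (FFl.placesOver_disjoint x v hva hvb)
  · rw [Finset.disjoint_left]
    intro v hv1 hv2
    rw [Finset.mem_biUnion] at hv1
    obtain ⟨a, -, hva⟩ := hv1
    rw [Set.Finite.mem_toFinset] at hva
    split_ifs at hv2 with h
    · rw [Set.Finite.mem_toFinset] at hv2
      exact FFl.placesOver_inf_disjoint x v hva hv2
    · simp at hv2

/-- the number of poles of `P(x)/Q(x)` -/
theorem card_placesOverInf_ratfunc (P Q : K[X]) (hP : P ≠ 0) (hQ : Q ≠ 0) :
    Nat.card (placesOverInf (K := K) (aeval x P / aeval x Q)) =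
      ∑ a ∈ poleVals P Q, (FFl.placesOver_finite x hx a).toFinset.card +
        (if Q.natDegree < P.natDegree then (FFl.placesOverInf_finite x hx).toFinset.card
          else 0) := by
  rw [placesOverInf_ratfunc_eq x hx P Q hP hQ, Nat.card_coe_set_eq, Set.ncard_coe_finset,
    card_poleSet]

/-- a fibre has at most `[F : K(x)]` places -/
theorem card_placesOver_le (a : K) :
    ((FFl.placesOver_finite x hx a).toFinset.card : ℤ) ≤ (Module.finrank K⟮x⟯ F : ℤ) := by
  rw [← FFl.sum_ord_placesOver x hx a, Finset.card_eq_sum_ones]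
  push_cast
  refine Finset.sum_le_sum fun v hv => ?_
  rw [Set.Finite.mem_toFinset] at hv
  have : 0 < v.ord (x - algebraMap K F a) := hv
  omega

/-- the fibre over `∞` has at most `[F : K(x)]` places -/
theorem card_placesOverInf_le :
    ((FFl.placesOverInf_finite x hx).toFinset.card : ℤ) ≤ (Module.finrank K⟮x⟯ F : ℤ) := by
  rw [← FFl.sum_ord_placesOverInf x hx, Finset.card_eq_sum_ones]
  push_cast
  refine Finset.sum_le_sum fun v hv => ?_
  rw [Set.Finite.mem_toFinset] at hv
  have : v.ord x < 0 := hv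
  omega

end Fibre

section Main

variable {k F1 F2 : Type*} [Field k] [IsAlgClosed k] [Field F1] [Field F2] [Algebra k F1]
  [Algebra k F2]

/-- **Riemann–Hurwitz over `k(t)` in terms of the poles of `j`**: `F₁ = k(t₀)`, `φ : F₁ → F₂`,
`t = φ t₀`, `F₂ / k(t)` finite separable of degree `n`, `j₁ ∈ F₁` with at least `c₀` poles on `F₁`
and `φ j₁` with at most `c_N` poles on `F₂`.  Then `c₀ n - c_N ≤ 2 g - 2 + 2 n`. -/
theorem rh_tower_abstract (φ : F1 →ₐ[k] F2) (t0 j1 : F1) (ht0 : k⟮t0⟯ = ⊤)
    (ht : Transcendental k (φ t0)) [FiniteDimensional k⟮φ t0⟯ F2]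
    [Algebra.IsSeparable k⟮φ t0⟯ F2]
    (c0 cN : ℕ) (hc0 : c0 ≤ Nat.card (placesOverInf (K := k) j1))
    (hcN : Nat.card (placesOverInf (K := k) (φ j1)) ≤ cN) :
    (c0 : ℤ) * (Module.finrank k⟮φ t0⟯ F2 : ℤ) - cN ≤
      2 * (genusl k (φ t0) : ℤ) - 2 + 2 * (Module.finrank k⟮φ t0⟯ F2 : ℤ) := by
  classical
  have hn1 : (1 : ℤ) ≤ (Module.finrank k⟮φ t0⟯ F2 : ℤ) := by
    have : 0 < Module.finrank k⟮φ t0⟯ F2 := Module.finrank_pos
    omega
  have ht0tr : Transcendental k t0 := fun halg : IsAlgebraic k t0 => ht (halg.algHom φ)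
  haveI hfdtop : FiniteDimensional (⊤ : IntermediateField k F1) F1 :=
    Module.finite_of_finrank_pos (by rw [IntermediateField.finrank_top]; exact Nat.one_pos)
  haveI hseptop : Algebra.IsSeparable (⊤ : IntermediateField k F1) F1 := by
    refine ⟨fun y => ?_⟩
    have hy : y = algebraMap (⊤ : IntermediateField k F1) F1 ⟨y, IntermediateField.mem_top⟩ := rfl
    rw [IsSeparable, hy, minpoly.eq_X_sub_C]
    exact Polynomial.separable_X_sub_C
  haveI hfd1 : FiniteDimensional k⟮t0⟯ F1 :=
    finiteDimensional_congr_intermediateField ht0.symm hfdtop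
  haveI hsep1 : Algebra.IsSeparable k⟮t0⟯ F1 :=
    isSeparable_congr_intermediateField ht0.symm hseptop
  have hrank1 : Module.finrank k⟮t0⟯ F1 = 1 := by
    rw [finrank_congr_intermediateField ht0]
    exact IntermediateField.finrank_top
  have hRH := rh_inequality_sep (φ t0) ht
  have hg : (Module.finrank k (Fermat.Agent.RR.H1' (φ t0) (0 : Divisor k F2)) : ℤ) = (genusl k (φ t0) : ℤ) := rfl
  have hinf2 := card_placesOverInf_le (φ t0) ht
  by_cases hj0 : j1 = 0
  · subst hj0
    have hempty : placesOverInf (K := k) (0 : F1) = ∅ := by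
      ext v
      simp only [placesOverInf, Set.mem_ofPred_eq, v.ord_zero, lt_self_iff_false,
        Set.mem_empty_iff_false]
    rw [hempty] at hc0
    have hc00 : c0 = 0 := by simpa using hc0
    subst hc00
    have h1 := hRH ∅
    rw [Finset.sum_empty, hg] at h1
    push_cast
    have hcN0 : (0 : ℤ) ≤ cN := Int.natCast_nonneg _
    linarith
  · obtain ⟨P, Q, hj⟩ := (IntermediateField.mem_adjoin_simple_iff k j1).mp
      (ht0 ▸ IntermediateField.mem_top)
    have hP : P ≠ 0 := by
      rintro rfl
      apply hj0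
      rw [hj]
      simp
    have hQ : Q ≠ 0 := by
      rintro rfl
      apply hj0
      rw [hj]
      simp
    have hj2 : φ j1 = aeval (φ t0) P / aeval (φ t0) Q := by
      rw [hj, map_div₀, ← Polynomial.aeval_algHom_apply, ← Polynomial.aeval_algHom_apply]
    have hc1 := card_placesOverInf_ratfunc t0 ht0tr P Q hP hQ
    have hc2 := card_placesOverInf_ratfunc (φ t0) ht P Q hP hQ
    rw [← hj] at hc1
    rw [← hj2] at hc2
    have hS1 : ∀ a, ((FFl.placesOver_finite t0 ht0tr a).toFinset.card : ℤ) ≤ 1 := fun a => by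
      have := card_placesOver_le t0 ht0tr a
      rw [hrank1] at this
      exact_mod_cast this
    have hI1 : ((FFl.placesOverInf_finite t0 ht0tr).toFinset.card : ℤ) ≤ 1 := by
      have := card_placesOverInf_le t0 ht0tr
      rw [hrank1] at this
      exact_mod_cast this
    have hsum1 : ∑ a ∈ poleVals P Q, ((FFl.placesOver_finite t0 ht0tr a).toFinset.card : ℤ) ≤
        ((poleVals P Q).card : ℤ) := by
      calc ∑ a ∈ poleVals P Q, ((FFl.placesOver_finite t0 ht0tr a).toFinset.card : ℤ)
          ≤ ∑ _a ∈ poleVals P Q, (1 : ℤ) := Finset.sum_le_sum fun a _ => hS1 a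
        _ = ((poleVals P Q).card : ℤ) := by simp
    have h1 : (c0 : ℤ) ≤ (Nat.card (placesOverInf (K := k) j1) : ℤ) := by exact_mod_cast hc0
    rw [hc1] at h1
    have h2 : (Nat.card (placesOverInf (K := k) (φ j1)) : ℤ) ≤ (cN : ℤ) := by exact_mod_cast hcN
    rw [hc2] at h2
    have h3 := hRH (poleVals P Q)
    rw [Finset.sum_sub_distrib, Finset.sum_const, nsmul_eq_mul, hg] at h3
    have hc0nn : (0 : ℤ) ≤ c0 := Int.natCast_nonneg _
    by_cases hδ : Q.natDegree < P.natDegree
    · rw [if_pos hδ] at h1 h2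
      push_cast at h1 h2
      have h4 : (c0 : ℤ) ≤ ((poleVals P Q).card : ℤ) + 1 := by linarith
      nlinarith
    · rw [if_neg hδ] at h1 h2
      push_cast at h1 h2
      have h4 : (c0 : ℤ) ≤ ((poleVals P Q).card : ℤ) := by linarith
      nlinarith

end Main

end Fermat.Agent.S18.GenusGeAbs
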