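import Mathlib
import Fermat.Agent.S18.GenusAsm
import Fermat.Agent.S18.GenusGeAbs
import Fermat.Agent.S18.CuspLEq
import Fermat.Agent.S18.RRl.GenusZero
import Fermat.Agent.S18.Descent

/-!
# S18, piece 87-U3 (helper1): the genus assembly, `ḡ = g` at the tame level

* `fullC_mono` : `F̄_M ≤ F̄_N` for `M ∣ N`;
* `TowerStatement k M₀ N'` : the tower over `k(t̄)` (helper5, `RedTower`);
* `le_gb_generic` : `g ≤ ḡ(N')` from Riemann–Hurwitz over `k(t̄)` (generic in `k`);
* `genus_eq_of_tower`, `exists_genus_of_tower` : `∃ g, CurveRR ℚ̄ F_{N'} g ∧ CurveRR k F̄_{N'} g`.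
-/

set_option autoImplicit false
set_option linter.unusedSectionVars false
set_option linter.style.haveILetI false

open AlgebraicCurve IntermediateField ModularCurve

noncomputable section

namespace Fermat.Agent.S18.GenusFin

open Fermat.Agent.FF Fermat.Agent.S28 Fermat.Agent.S18.RedScal Fermat.Agent.S18.GenusAsm

section Generic

variable (k : Type*) [Field k]

/-- `F̄_M ≤ F̄_N` for `M ∣ N`. -/
theorem fullC_mono {M N : ℕ} [NeZero M] [NeZero N] (h : M ∣ N) :
    modularFunctionFieldFullC k M ≤ modularFunctionFieldFullC k N := by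
  apply IntermediateField.adjoin.mono
  rintro x ⟨d, hd, hdM, hx⟩
  exact ⟨d, hd, hdM.trans h, hx⟩

/-- the inclusion `F̄_M → F̄_N` -/
def inclC {M N : ℕ} [NeZero M] [NeZero N] (h : M ∣ N) :
    ↥(modularFunctionFieldFullC k M) →ₐ[k] ↥(modularFunctionFieldFullC k N) :=
  IntermediateField.inclusion (fullC_mono k h)

theorem inclC_jF {M N : ℕ} [NeZero M] [NeZero N] (h : M ∣ N) :
    inclC k h (jF k M) = jF k N := rfl

/-- **the tower over `k(t̄)`** (helper5): for a generator `t₀` of `F̄_{M₀}`, `F̄_{N'} / k(t̄)` is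
finite separable of degree `ψ(N') / ψ(M₀)`. -/
def TowerStatement (M0 N' : ℕ) [NeZero M0] [NeZero N'] (h : M0 ∣ N') : Prop :=
  ∀ t0 : ↥(modularFunctionFieldFullC k M0), Transcendental k t0 → k⟮t0⟯ = ⊤ →
    FiniteDimensional k⟮inclC k h t0⟯ ↥(modularFunctionFieldFullC k N') ∧
    Algebra.IsSeparable k⟮inclC k h t0⟯ ↥(modularFunctionFieldFullC k N') ∧
    Module.finrank k⟮inclC k h t0⟯ ↥(modularFunctionFieldFullC k N') * dedekindPsi M0
      = dedekindPsi N'

variable [IsAlgClosed k]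

/-- **`g ≤ ḡ`** at level `N'`, generic in `k`: Riemann–Hurwitz over `k(t̄)`, `t̄` a generator of
the genus `0` field `F̄_{M₀}`. -/
theorem le_gb_generic (M0 N' : ℕ) [NeZero M0] [NeZero N'] (hdvd : M0 ∣ N')
    (hM : RedLevel k M0) (hN : RedLevel k N') (hg0 : gb k M0 = 0)
    (hc0 : cuspCount M0 ≤ Nat.card (placesOverInf (K := k) (jF k M0)))
    (hcN : Nat.card (placesOverInf (K := k) (jF k N')) ≤ cuspCount N')
    (hT : TowerStatement k M0 N' hdvd)
    (hnum : ∀ n : ℤ, n * (dedekindPsi M0 : ℤ) = (dedekindPsi N' : ℤ) →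
      6 * (-2 * n + (cuspCount M0 : ℤ) * n - (cuspCount N' : ℤ))
        = (dedekindPsi N' : ℤ) - 6 * (cuspCount N' : ℤ))
    (g : ℕ) (hg : 6 * (2 * (g : ℤ) - 2) = (dedekindPsi N' : ℤ) - 6 * (cuspCount N' : ℤ)) :
    g ≤ gb k N' := by
  have hRR0 : RPrime.CurveRR k ↥(modularFunctionFieldFullC k M0) 0 := by
    have := curveRR_bar k M0 hM
    rwa [hg0] at this
  obtain ⟨P⟩ := hRR0.nonempty
  obtain ⟨t0, ht0tr, -, -, ht0⟩ := RRl.exists_gen_of_genus_zero hRR0 P
  obtain ⟨hfd, hsep, hdeg⟩ := hT t0 ht0tr ht0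
  haveI := hfd
  haveI := hsep
  have htr : Transcendental k (inclC k hdvd t0) := fun halg : IsAlgebraic k (inclC k hdvd t0) =>
    ht0tr ((isAlgebraic_algHom_iff (inclC k hdvd) (inclC k hdvd).injective).1 halg)
  have hrh := GenusGeAbs.rh_tower_abstract (inclC k hdvd) t0 (jF k M0) ht0 htr
    (cuspCount M0) (cuspCount N') hc0 (by rw [inclC_jF]; exact hcN)
  rw [genusl_eq_gb k N' hN (inclC k hdvd t0) htr] at hrh
  have h1 := hnum (Module.finrank k⟮inclC k hdvd t0⟯ ↥(modularFunctionFieldFullC k N') : ℤ)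
    (by exact_mod_cast hdeg)
  have h2 : (2 * (g : ℤ) - 2) ≤ 2 * (gb k N' : ℤ) - 2 := by
    have h3 : 6 * (2 * (g : ℤ) - 2) ≤ 6 * (2 * (gb k N' : ℤ) - 2) := by
      rw [hg, ← h1]
      linarith
    linarith
  omega

end Generic

section Residue

variable (N' : ℕ) [NeZero N'] {ℓ : ℕ} (hℓ : ℓ.Prime) (hℓN : ¬ ℓ ∣ N')
variable (A : ValuationSubring (AlgebraicClosure ℚ)) (hA : A.LiesOverPrime ℓ)

include hℓ hℓN hA

/-- **`ḡ = g`** at a level `N'` prime to `ℓ` and divisible by `4` (`ℓ` odd), given the tower. -/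
theorem genus_eq_of_tower_four (h4 : 4 ∣ N') (hℓ4 : ¬ ℓ ∣ 4)
    (hT : haveI := ResAC.isAlgClosed_residueField A
      TowerStatement (IsLocalRing.ResidueField A) 4 N' h4) :
    gbA N' A = g0 N' := by
  haveI := ResAC.isAlgClosed_residueField A
  refine le_antisymm (gbA_le_g0 N' hℓ hℓN A hA) ?_
  have hg4 : gbA 4 A = 0 := by
    have := gbA_le_g0 4 hℓ hℓ4 A hA
    rw [g0_four] at this
    omega
  exact le_gb_generic (IsLocalRing.ResidueField A) 4 N' h4
    (redLevel_residue 4 hℓ hℓ4 A hA) (redLevel_residue N' hℓ hℓN A hA) hg4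
    (CuspL.card_placesOverInf_eq_cuspCount 4 hℓ hℓ4 A hA).ge
    (CuspL.card_placesOverInf_le_cuspCount N' hℓ hℓN A hA).2 hT
    (fun n hn => Char0.rh_numerics_four N' n hn) (g0 N') (g0_formula N' (Or.inl h4))

/-- **`ḡ = g`** at a level `N'` prime to `ℓ` and divisible by `9` (`ℓ = 2`), given the tower. -/
theorem genus_eq_of_tower_nine (h9 : 9 ∣ N') (hℓ9 : ¬ ℓ ∣ 9)
    (hT : haveI := ResAC.isAlgClosed_residueField A
      TowerStatement (IsLocalRing.ResidueField A) 9 N' h9) :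
    gbA N' A = g0 N' := by
  haveI := ResAC.isAlgClosed_residueField A
  refine le_antisymm (gbA_le_g0 N' hℓ hℓN A hA) ?_
  have hg9 : gbA 9 A = 0 := by
    have := gbA_le_g0 9 hℓ hℓ9 A hA
    rw [g0_nine] at this
    omega
  exact le_gb_generic (IsLocalRing.ResidueField A) 9 N' h9
    (redLevel_residue 9 hℓ hℓ9 A hA) (redLevel_residue N' hℓ hℓN A hA) hg9
    (CuspL.card_placesOverInf_eq_cuspCount 9 hℓ hℓ9 A hA).ge
    (CuspL.card_placesOverInf_le_cuspCount N' hℓ hℓN A hA).2 hT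
    (fun n hn => Char0.rh_numerics_nine N' n hn) (g0 N') (g0_formula N' (Or.inr h9))

end Residue

end Fermat.Agent.S18.GenusFin
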