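import Mathlib
import Fermat.Agent.S18.CTModularTame
import Fermat.Agent.S18.CTWire
import Fermat.Agent.S18.GenusFinal

/-!
# S18, INSTANTIATION (helper6), part 3: `CTModular` at the tame level

* `ctModular_of_genus` : `CTModular A N` for a level `N > 1` prime to `ℓ` with `ḡ = g`;
* `ctModular_tame_of_tower` : `CTModular A (tameLevel N ℓ)` from the tower statement (helper5).
-/

set_option autoImplicit false
set_option linter.unusedSectionVars false

noncomputable section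

open HahnSeries AlgebraicCurve ModularCurve

namespace Fermat.Agent.S18.CTM

open Fermat.Agent.FF Fermat.Agent.S18.RPrime Fermat.Agent.S18.GaussD

section Level

variable (N : ℕ) [NeZero N] {ℓ : ℕ} (hℓ : ℓ.Prime) (hℓN : ¬ ℓ ∣ N)
variable (A : ValuationSubring Kbar) (hA : A.LiesOverPrime ℓ)

include hℓ hℓN hA in
/-- **CT for the modular pair** at a level `N > 1` prime to `ℓ`, from Riemann's theorem with the
same genus on both sides. -/
theorem ctModular_of_curveRR (hN : 1 < N)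
    (hgenus : ∃ g : ℕ, CurveRR Kbar (modularFunctionFieldBar N) g ∧
      CurveRR (IsLocalRing.ResidueField A)
        (modularFunctionFieldFullC (IsLocalRing.ResidueField A) N) g) :
    CTModular A N :=
  ctModular_of_wire N hℓ hℓN A hA hN hgenus
    (fun _ _ W f m hm hf hdiv => CT.ct_wire W f m hm hf hdiv)

include hℓ hℓN hA in
/-- **CT for the modular pair** at a level `N > 1` prime to `ℓ` with `ḡ = g`. -/
theorem ctModular_of_genus (hN : 1 < N) (hg : GenusAsm.gbA N A = GenusAsm.g0 N) :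
    CTModular A N :=
  ctModular_of_curveRR N hℓ hℓN A hA hN
    ⟨GenusAsm.g0 N, GenusAsm.curveRR_zero N, hg ▸ GenusAsm.curveRR_barA N hℓ hℓN A hA⟩

end Level

section Tame

variable (N : ℕ) [NeZero N] {ℓ : ℕ} (hℓ : ℓ.Prime) (hℓN : ¬ ℓ ∣ N)
variable (A : ValuationSubring Kbar) (hA : A.LiesOverPrime ℓ)

theorem four_dvd_tameLevel (h2 : ℓ ≠ 2) : 4 ∣ tameLevel N ℓ := by
  have hdvd : auxLevel ℓ ∣ tameLevel N ℓ := Nat.dvd_lcm_right _ _
  unfold auxLevel at hdvd
  rwa [if_neg h2] at hdvd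

theorem nine_dvd_tameLevel (h2 : ℓ = 2) : 9 ∣ tameLevel N ℓ := by
  have hdvd : auxLevel ℓ ∣ tameLevel N ℓ := Nat.dvd_lcm_right _ _
  unfold auxLevel at hdvd
  rwa [if_pos h2] at hdvd

include hℓ in
theorem not_dvd_four (h2 : ℓ ≠ 2) : ¬ ℓ ∣ 4 := by
  intro h
  have h3 : ℓ ∣ 2 ^ 2 := by simpa using h
  exact h2 ((Nat.prime_dvd_prime_iff_eq hℓ Nat.prime_two).1 (hℓ.dvd_of_dvd_pow h3))

theorem not_dvd_nine (h2 : ℓ = 2) : ¬ ℓ ∣ 9 := by
  subst h2
  norm_num

include hℓ hℓN hA in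
/-- **CT at the tame level**, from the tower statement over `k(t̄)`. -/
theorem ctModular_tame_of_tower
    (hT4 : ℓ ≠ 2 → ∀ h4 : 4 ∣ tameLevel N ℓ,
      haveI : NeZero (tameLevel N ℓ) := ⟨Descent.tameLevel_ne_zero N ℓ⟩
      haveI := ResAC.isAlgClosed_residueField A
      GenusFin.TowerStatement (IsLocalRing.ResidueField A) 4 (tameLevel N ℓ) h4)
    (hT9 : ℓ = 2 → ∀ h9 : 9 ∣ tameLevel N ℓ,
      haveI : NeZero (tameLevel N ℓ) := ⟨Descent.tameLevel_ne_zero N ℓ⟩
      haveI := ResAC.isAlgClosed_residueField A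
      GenusFin.TowerStatement (IsLocalRing.ResidueField A) 9 (tameLevel N ℓ) h9) :
    CTModular A (tameLevel N ℓ) := by
  have : NeZero (tameLevel N ℓ) := ⟨Descent.tameLevel_ne_zero N ℓ⟩
  have hℓN' : ¬ ℓ ∣ tameLevel N ℓ := not_dvd_tameLevel N hℓ hℓN
  have h1 : 1 < tameLevel N ℓ := one_lt_tameLevel N ℓ
  apply ctModular_of_genus (tameLevel N ℓ) hℓ hℓN' A hA h1
  by_cases h2 : ℓ = 2
  · exact GenusFin.genus_eq_of_tower_nine (tameLevel N ℓ) hℓ hℓN' A hA
      (nine_dvd_tameLevel N h2) (not_dvd_nine h2) (hT9 h2 _)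
  · exact GenusFin.genus_eq_of_tower_four (tameLevel N ℓ) hℓ hℓN' A hA
      (four_dvd_tameLevel N h2) (not_dvd_four hℓ h2) (hT4 h2 _)

end Tame

end Fermat.Agent.S18.CTM
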