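import Mathlib
import Fermat.Agent.S18.GenusFinal
import Fermat.Agent.S18.Defs

/-!
# S18, piece 87-U3 (helper1): the genus assembly at the tame level `N' = lcm(N, M₀)`

`exists_genus_of_tower` : `∃ g, CurveRR ℚ̄ F_{N'} g ∧ CurveRR k F̄_{N'} g` for `N' = tameLevel N ℓ`,
from the tower statement at `(M₀, N')`, `M₀ = auxLevel ℓ`.
-/

set_option autoImplicit false
set_option linter.unusedSectionVars false
set_option linter.style.haveILetI false

open AlgebraicCurve IntermediateField ModularCurve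

noncomputable section

namespace Fermat.Agent.S18.GenusFin

open Fermat.Agent.FF Fermat.Agent.S28 Fermat.Agent.S18.RedScal Fermat.Agent.S18.GenusAsm

section Level

variable (N' : ℕ) [NeZero N'] {ℓ : ℕ} (hℓ : ℓ.Prime) (hℓN : ¬ ℓ ∣ N')
variable (A : ValuationSubring (AlgebraicClosure ℚ)) (hA : A.LiesOverPrime ℓ)

include hℓ hℓN hA

/-- the genus assembly at a level `N'` prime to `ℓ`, from `ḡ = g`. -/
theorem exists_genus_of_eq (h : gbA N' A = g0 N') :
    ∃ g : ℕ, RPrime.CurveRR (AlgebraicClosure ℚ) (modularFunctionFieldBar N') g ∧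
      RPrime.CurveRR (IsLocalRing.ResidueField A)
        (modularFunctionFieldFullC (IsLocalRing.ResidueField A) N') g :=
  ⟨g0 N', curveRR_zero N', h ▸ curveRR_barA N' hℓ hℓN A hA⟩

/-- the genus assembly at a level `N'` prime to `ℓ`, divisible by `4` (`ℓ` odd) or by `9`
(`ℓ ≠ 3`), from the tower statements. -/
theorem exists_genus_of_tower
    (hT4 : ∀ h4 : 4 ∣ N', ¬ ℓ ∣ 4 → haveI := ResAC.isAlgClosed_residueField A
      TowerStatement (IsLocalRing.ResidueField A) 4 N' h4)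
    (hT9 : ∀ h9 : 9 ∣ N', ¬ ℓ ∣ 9 → haveI := ResAC.isAlgClosed_residueField A
      TowerStatement (IsLocalRing.ResidueField A) 9 N' h9)
    (h49 : (4 ∣ N' ∧ ¬ ℓ ∣ 4) ∨ (9 ∣ N' ∧ ¬ ℓ ∣ 9)) :
    ∃ g : ℕ, RPrime.CurveRR (AlgebraicClosure ℚ) (modularFunctionFieldBar N') g ∧
      RPrime.CurveRR (IsLocalRing.ResidueField A)
        (modularFunctionFieldFullC (IsLocalRing.ResidueField A) N') g := by
  rcases h49 with ⟨h4, hℓ4⟩ | ⟨h9, hℓ9⟩
  · exact exists_genus_of_eq N' hℓ hℓN A hA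
      (genus_eq_of_tower_four N' hℓ hℓN A hA h4 hℓ4 (hT4 h4 hℓ4))
  · exact exists_genus_of_eq N' hℓ hℓN A hA
      (genus_eq_of_tower_nine N' hℓ hℓN A hA h9 hℓ9 (hT9 h9 hℓ9))

end Level

section Tame

variable (N : ℕ) [NeZero N]

/-- `4 ∣ N'` (`ℓ` odd) or `9 ∣ N'` (`ℓ = 2`) at the tame level. -/
theorem tame_cases {ℓ : ℕ} (hℓ : ℓ.Prime) :
    (4 ∣ tameLevel N ℓ ∧ ¬ ℓ ∣ 4) ∨ (9 ∣ tameLevel N ℓ ∧ ¬ ℓ ∣ 9) := by
  have hdvd : auxLevel ℓ ∣ tameLevel N ℓ := Nat.dvd_lcm_right _ _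
  by_cases h2 : ℓ = 2
  · right
    subst h2
    refine ⟨?_, by norm_num⟩
    have : auxLevel 2 = 9 := by simp [auxLevel]
    rwa [this] at hdvd
  · left
    have haux : auxLevel ℓ = 4 := by simp [auxLevel, h2]
    rw [haux] at hdvd
    refine ⟨hdvd, fun h => ?_⟩
    have h3 : ℓ ∣ 2 ^ 2 := by simpa using h
    exact h2 ((Nat.prime_dvd_prime_iff_eq hℓ Nat.prime_two).1 (hℓ.dvd_of_dvd_pow h3))

end Tame

end Fermat.Agent.S18.GenusFin
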