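import Mathlib
import Fermat.Agent.S18.GenusFinal

/-!
# S18, piece 87-U3 (helper1): the tower `k(j̄) ⊂ k(t̄) ⊂ F̄_{N'}`

* `tower_abstract` : for `φ : F₁ → F₂`, `F₁ = k(t₀)`, `j₁ ∈ F₁`, `F₂ / k(φ j₁)` finite separable:
  `F₂ / k(φ t₀)` is finite separable and `[F₁ : k(j₁)] [F₂ : k(φ t₀)] = [F₂ : k(φ j₁)]`;
* `towerStatement` : `GenusFin.TowerStatement k M₀ N'` from `RedLevel k M₀`, `RedLevel k N'`.
-/

set_option autoImplicit false
set_option linter.unusedSectionVars false
set_option linter.style.haveILetI false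

open AlgebraicCurve IntermediateField ModularCurve

noncomputable section

namespace Fermat.Agent.S18.GenusTow

open Fermat.Agent.FF Fermat.Agent.S28 Fermat.Agent.S18.RedScal Fermat.Agent.S18.GenusAsm
  Fermat.Agent.S18.GenusFin

section Abstract

variable {k F1 F2 : Type*} [Field k] [Field F1] [Field F2] [Algebra k F1] [Algebra k F2]

theorem map_adjoin_simple (φ : F1 →ₐ[k] F2) (x : F1) : (k⟮x⟯).map φ = k⟮φ x⟯ := by
  rw [IntermediateField.adjoin_map, Set.image_singleton]

/-- separability over a larger intermediate field -/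
theorem isSeparable_of_le {E1 E2 : IntermediateField k F2} (h : E1 ≤ E2)
    [Algebra.IsSeparable E1 F2] : Algebra.IsSeparable E2 F2 := by
  letI : Algebra E1 E2 := (IntermediateField.inclusion h).toRingHom.toAlgebra
  haveI : IsScalarTower E1 E2 F2 := IsScalarTower.of_algebraMap_eq fun _ => rfl
  exact Algebra.isSeparable_tower_top_of_isSeparable E1 E2 F2

/-- **the tower**, abstract form. -/
theorem tower_abstract (φ : F1 →ₐ[k] F2) (t0 j1 : F1) (ht0 : k⟮t0⟯ = ⊤)
    [FiniteDimensional k⟮φ j1⟯ F2] [Algebra.IsSeparable k⟮φ j1⟯ F2] :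
    FiniteDimensional k⟮φ t0⟯ F2 ∧ Algebra.IsSeparable k⟮φ t0⟯ F2 ∧
      Module.finrank k⟮j1⟯ F1 * Module.finrank k⟮φ t0⟯ F2 = Module.finrank k⟮φ j1⟯ F2 := by
  have hle : k⟮φ j1⟯ ≤ k⟮φ t0⟯ := by
    rw [← map_adjoin_simple φ j1, ← map_adjoin_simple φ t0, ht0]
    exact IntermediateField.map_mono φ le_top
  have h1 : relfinrank k⟮φ j1⟯ k⟮φ t0⟯ = Module.finrank k⟮j1⟯ F1 := by
    rw [← map_adjoin_simple φ j1, ← map_adjoin_simple φ t0, ht0,
      IntermediateField.relfinrank_map_map, IntermediateField.relfinrank_top_right]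
  have h2 := IntermediateField.relfinrank_mul_finrank_top hle
  rw [h1] at h2
  have hpos : 0 < Module.finrank k⟮φ j1⟯ F2 := Module.finrank_pos
  have hpos2 : 0 < Module.finrank k⟮φ t0⟯ F2 := by
    rcases Nat.eq_zero_or_pos (Module.finrank k⟮φ t0⟯ F2) with h | h
    · rw [h, mul_zero] at h2
      omega
    · exact h
  exact ⟨Module.finite_of_finrank_pos hpos2, isSeparable_of_le hle, h2⟩

end Abstract

section Modular

variable (k : Type*) [Field k]

/-- **the tower statement** for `M₀ ∣ N'` (both prime to the characteristic). -/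
theorem towerStatement (M0 N' : ℕ) [NeZero M0] [NeZero N'] (hdvd : M0 ∣ N')
    (hM : RedLevel k M0) (hN : RedLevel k N') : TowerStatement k M0 N' hdvd := by
  intro t0 _ ht0
  haveI : FiniteDimensional k⟮inclC k hdvd (jF k M0)⟯ ↥(modularFunctionFieldFullC k N') :=
    hN.finiteDimensional
  haveI : Algebra.IsSeparable k⟮inclC k hdvd (jF k M0)⟯ ↥(modularFunctionFieldFullC k N') :=
    hN.isSeparable
  obtain ⟨h1, h2, h3⟩ := tower_abstract (inclC k hdvd) t0 (jF k M0) ht0
  refine ⟨h1, h2, ?_⟩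
  have h4 : Module.finrank k⟮inclC k hdvd (jF k M0)⟯ ↥(modularFunctionFieldFullC k N')
      = dedekindPsi N' := hN.finrank_eq
  rw [hM.finrank_eq, h4] at h3
  rw [mul_comm]
  exact h3

end Modular

end Fermat.Agent.S18.GenusTow
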