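import Mathlib
import Fermat.Agent.S18.GenusTame
import Fermat.Agent.S18.GenusTower
import Fermat.Agent.S18.CTModularTame

/-!
# S18, piece 87-U3 (helper1): THE GENUS ASSEMBLY (unconditional)

* `exists_genus` : for `N'` prime to `ℓ` with `4 ∣ N'` (`ℓ` odd) or `9 ∣ N'` (`ℓ ≠ 3`):
  `∃ g, CurveRR ℚ̄ F_{N'} g ∧ CurveRR k F̄_{N'} g` (`k` the residue field of `A`);
* `genus_eq` : `gbA N' A = g0 N'`;
* `exists_genus_tame` : the same at `N' = tameLevel N ℓ` (= `hgenus` of `CTM.ctModular_of_wire`).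
-/

set_option autoImplicit false
set_option linter.unusedSectionVars false
set_option linter.style.haveILetI false

open AlgebraicCurve IntermediateField ModularCurve

noncomputable section

namespace Fermat.Agent.S18.GenusFin

open Fermat.Agent.FF Fermat.Agent.S28 Fermat.Agent.S18.RedScal Fermat.Agent.S18.GenusAsm

section Level

variable (N' : ℕ) [NeZero N'] {ℓ : ℕ} (hℓ : ℓ.Prime) (hℓN : ¬ ℓ ∣ N')
variable (A : ValuationSubring (AlgebraicClosure ℚ)) (hA : A.LiesOverPrime ℓ)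

include hℓ hℓN hA

/-- **`ḡ = g`** at every level prime to `ℓ` divisible by `4` (`ℓ` odd) or `9` (`ℓ ≠ 3`). -/
theorem genus_eq (h49 : (4 ∣ N' ∧ ¬ ℓ ∣ 4) ∨ (9 ∣ N' ∧ ¬ ℓ ∣ 9)) : gbA N' A = g0 N' := by
  haveI := ResAC.isAlgClosed_residueField A
  rcases h49 with ⟨h4, hℓ4⟩ | ⟨h9, hℓ9⟩
  · exact genus_eq_of_tower_four N' hℓ hℓN A hA h4 hℓ4
      (GenusTow.towerStatement _ 4 N' h4 (redLevel_residue 4 hℓ hℓ4 A hA)
        (redLevel_residue N' hℓ hℓN A hA))
  · exact genus_eq_of_tower_nine N' hℓ hℓN A hA h9 hℓ9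
      (GenusTow.towerStatement _ 9 N' h9 (redLevel_residue 9 hℓ hℓ9 A hA)
        (redLevel_residue N' hℓ hℓN A hA))

/-- **87-U3, the genus assembly**: the function fields `F_{N'} / ℚ̄` and `F̄_{N'} / k` satisfy
Riemann's theorem with the SAME genus. -/
theorem exists_genus (h49 : (4 ∣ N' ∧ ¬ ℓ ∣ 4) ∨ (9 ∣ N' ∧ ¬ ℓ ∣ 9)) :
    ∃ g : ℕ, RPrime.CurveRR (AlgebraicClosure ℚ) (modularFunctionFieldBar N') g ∧
      RPrime.CurveRR (IsLocalRing.ResidueField A)
        (modularFunctionFieldFullC (IsLocalRing.ResidueField A) N') g :=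
  exists_genus_of_eq N' hℓ hℓN A hA (genus_eq N' hℓ hℓN A hA h49)

end Level

section Tame

variable (N : ℕ) [NeZero N] {ℓ : ℕ} (hℓ : ℓ.Prime) (hℓN : ¬ ℓ ∣ N)
variable (A : ValuationSubring (AlgebraicClosure ℚ)) (hA : A.LiesOverPrime ℓ)

include hℓ hℓN hA

/-- **87-U3 at the tame level** `N' = lcm(N, M₀)`. -/
theorem exists_genus_tame [NeZero (tameLevel N ℓ)] :
    ∃ g : ℕ, RPrime.CurveRR (AlgebraicClosure ℚ) (modularFunctionFieldBar (tameLevel N ℓ)) g ∧
      RPrime.CurveRR (IsLocalRing.ResidueField A)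
        (modularFunctionFieldFullC (IsLocalRing.ResidueField A) (tameLevel N ℓ)) g :=
  exists_genus (tameLevel N ℓ) hℓ (CTM.not_dvd_tameLevel N hℓ hℓN) A hA (tame_cases N hℓ)

end Tame

end Fermat.Agent.S18.GenusFin
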