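import Fermat.Agent.S18.CTBasic

/-!
# S18, piece 87-P6 (CT), part 3: `m`-th roots of power series `≡ 1 mod π`

`exists_root`: `f ∈ 1 + q L[[q]]`, `f ≡ 1 mod π`, `m` a unit of `A`, `L` of characteristic `0`
`⟹` there is a power series `h` with `h ^ m = f` and `h ≡ 1 mod π`.
-/

set_option autoImplicit false

noncomputable section

open HahnSeries

namespace Fermat.Agent.S18.CT

variable {L : Type*} [Field L]

section PS

variable [CharZero L]

open PowerSeries in
theorem binom_pow (r : ℚ) (n : ℕ) :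
    (PowerSeries.binomialSeries L r) ^ n = PowerSeries.binomialSeries L ((n : ℚ) * r) := by
  induction n with
  | zero => simp
  | succ n ih =>
    rw [pow_succ, ih, ← binomialSeries_add]
    congr 1
    push_cast
    ring

open PowerSeries in
theorem exists_ps_root (m : ℕ) (hm : m ≠ 0) (p : PowerSeries L)
    (hp : PowerSeries.constantCoeff p = 1) :
    ∃ g : PowerSeries L, g ^ m = p ∧ PowerSeries.constantCoeff g = 1 := by
  have hsub : HasSubst (p - 1) := HasSubst.of_constantCoeff_zero' (by simp [hp])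
  have hB : (binomialSeries L ((m : ℚ)⁻¹)) ^ m = 1 + X := by
    rw [binom_pow, mul_inv_cancel₀ (Nat.cast_ne_zero.mpr hm)]
    have := binomialSeries_nat (R := ℚ) (A := L) 1
    simpa using this
  obtain ⟨g₀, hg₀⟩ : ∃ g₀ : PowerSeries L, g₀ ^ m = p := by
    refine ⟨(binomialSeries L ((m : ℚ)⁻¹)).subst (p - 1), ?_⟩
    rw [← subst_pow hsub, hB, subst_add hsub, subst_X hsub]
    have h1 : (1 : PowerSeries L).subst (p - 1) = 1 := by
      have := map_one (substAlgHom (R := L) hsub)
      rwa [coe_substAlgHom] at this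
    rw [h1]
    ring
  obtain ⟨ζ, hζ⟩ : ∃ ζ, ζ = PowerSeries.constantCoeff g₀ := ⟨_, rfl⟩
  have hζm : ζ ^ m = 1 := by
    rw [hζ, ← map_pow, hg₀, hp]
  have hζ0 : ζ ≠ 0 := by
    rintro rfl
    rw [zero_pow hm] at hζm
    exact zero_ne_one hζm
  refine ⟨PowerSeries.C ζ⁻¹ * g₀, ?_, ?_⟩
  · rw [mul_pow, hg₀, ← map_pow, inv_pow, hζm, inv_one, map_one, one_mul]
  · rw [map_mul, PowerSeries.constantCoeff_C, ← hζ, inv_mul_cancel₀ hζ0]

end PS

/-- a Laurent series without polar part is a power series. -/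
theorem IsPS.exists_ps {y : LaurentSeries L} (hy : IsPS y) :
    ∃ p : PowerSeries L, HahnSeries.ofPowerSeries ℤ L p = y ∧
      PowerSeries.constantCoeff p = y.coeff 0 := by
  refine ⟨PowerSeries.mk fun n => y.coeff n, ?_, ?_⟩
  · ext i
    rw [PowerSeries.coeff_coe]
    split_ifs with hi
    · exact (hy i hi).symm
    · rw [PowerSeries.coeff_mk]
      congr 1
      omega
  · rw [← PowerSeries.coeff_zero_eq_constantCoeff_apply, PowerSeries.coeff_mk]
    rfl

theorem isPS_ofPowerSeries (p : PowerSeries L) : IsPS (HahnSeries.ofPowerSeries ℤ L p) := by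
  intro n hn
  rw [PowerSeries.coeff_coe, if_pos hn]

/-- the subring of power series inside Laurent series. -/
def psSub : Subring (LaurentSeries L) where
  carrier := {y | IsPS y}
  mul_mem' := fun hx hy => IsPS.mul hx hy
  one_mem' := isPS_one
  add_mem' := by
    intro x y hx hy n hn
    rw [HahnSeries.coeff_add, hx n hn, hy n hn, add_zero]
  zero_mem' := by
    intro n _
    rfl
  neg_mem' := by
    intro x hx n hn
    rw [HahnSeries.coeff_neg, hx n hn, neg_zero]

theorem mem_psSub {y : LaurentSeries L} : y ∈ psSub (L := L) ↔ IsPS y := Iff.rfl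

/-- the coefficient of a product at the sum of the lower bounds. -/
theorem coeff_mul_at_bounds {x y : LaurentSeries L} {a b : ℤ}
    (hx : ∀ n : ℤ, n < a → x.coeff n = 0) (hy : ∀ n : ℤ, n < b → y.coeff n = 0) :
    (x * y).coeff (a + b) = x.coeff a * y.coeff b := by
  rw [HahnSeries.coeff_mul]
  by_cases h0 : x.coeff a * y.coeff b = 0
  · rw [h0]
    refine Finset.sum_eq_zero fun ij hij => ?_
    rw [Finset.mem_antidiagonal] at hij
    obtain ⟨-, -, hsum⟩ := hij
    rcases lt_trichotomy ij.1 a with h1 | h1 | h1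
    · rw [hx _ h1, zero_mul]
    · have h2 : ij.2 = b := by omega
      rw [h1, h2, h0]
    · have h2 : ij.2 < b := by omega
      rw [hy _ h2, mul_zero]
  · have hxa : x.coeff a ≠ 0 := left_ne_zero_of_mul h0
    have hyb : y.coeff b ≠ 0 := right_ne_zero_of_mul h0
    rw [Finset.sum_eq_single (a, b)]
    · intro ij hij hne
      rw [Finset.mem_antidiagonal] at hij
      obtain ⟨-, -, hsum⟩ := hij
      rcases lt_trichotomy ij.1 a with h1 | h1 | h1
      · rw [hx _ h1, zero_mul]
      · exfalso
        apply hne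
        have h2 : ij.2 = b := by omega
        exact Prod.ext h1 h2
      · have h2 : ij.2 < b := by omega
        rw [hy _ h2, mul_zero]
    · intro hnot
      exfalso
      apply hnot
      rw [Finset.mem_antidiagonal]
      exact ⟨hxa, hyb, rfl⟩

theorem IsPS.coeff_zero_mul {x y : LaurentSeries L} (hx : IsPS x) (hy : IsPS y) :
    (x * y).coeff 0 = x.coeff 0 * y.coeff 0 := by
  have := coeff_mul_at_bounds (a := 0) (b := 0) hx hy
  simpa using this

theorem IsPS.coeff_zero_pow {x : LaurentSeries L} (hx : IsPS x) (n : ℕ) :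
    (x ^ n).coeff 0 = x.coeff 0 ^ n := by
  induction n with
  | zero => simp
  | succ n ih => rw [pow_succ, (hx.pow n).coeff_zero_mul hx, ih, pow_succ]

/-- truncation below `n`. -/
def truncLT (n : ℤ) (y : LaurentSeries L) : LaurentSeries L where
  coeff i := if i < n then y.coeff i else 0
  isPWO_support' := by
    refine y.isPWO_support.mono ?_
    intro i hi
    simp only [Function.mem_support, ne_eq, ite_eq_right_iff, Classical.not_imp] at hi
    exact hi.2

theorem truncLT_coeff (n : ℤ) (y : LaurentSeries L) (i : ℤ) :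
    (truncLT n y).coeff i = if i < n then y.coeff i else 0 := rfl

variable {A : ValuationSubring L}

/-- **congruence of the root**: `h ^ m = f`, `h, f ∈ 1 + q L[[q]]`, `f ≡ 1 mod π`, `m ∈ A^×`
imply `h ≡ 1 mod π`. -/
theorem dv_root_sub_one {π : L} (hπA : π ∈ A) (hπ0 : π ≠ 0) {m : ℕ} (hm : (m : L) ≠ 0)
    (hmA : ((m : L))⁻¹ ∈ A) {f h : LaurentSeries L} (hh : h ^ m = f) (hhPS : IsPS h)
    (hh0 : h.coeff 0 = 1) (hf : Dv A π (f - 1)) : Dv A π (h - 1) := by
  obtain ⟨e, he⟩ : ∃ e, e = h - 1 := ⟨_, rfl⟩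
  have hePS : IsPS e := by
    rw [he]
    exact (psSub (L := L)).sub_mem hhPS isPS_one
  have he0 : e.coeff 0 = 0 := by
    rw [he, HahnSeries.coeff_sub, hh0, HahnSeries.coeff_one, if_pos rfl, sub_self]
  rw [← he, dv_iff]
  suffices H : ∀ n : ℕ, ∀ i : ℤ, i < n → π⁻¹ * e.coeff i ∈ A by
    intro i
    exact H (i.toNat + 1) i (by omega)
  intro n
  induction n with
  | zero =>
    intro i hi
    rw [hePS i (by simpa using hi), mul_zero]
    exact A.zero_mem
  | succ n ih =>
    intro i hi
    rcases lt_or_eq_of_le (show i ≤ (n : ℤ) by push_cast at hi; omega) with hlt | heq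
    · exact ih i hlt
    subst heq
    rcases Nat.eq_zero_or_pos n with hn0 | hnpos
    · subst hn0
      simp only [Nat.cast_zero]
      rw [he0, mul_zero]
      exact A.zero_mem
    -- the main case
    obtain ⟨e', he'⟩ : ∃ e', e' = truncLT (n : ℤ) e := ⟨_, rfl⟩
    obtain ⟨e'', he''⟩ : ∃ e'', e'' = e - e' := ⟨_, rfl⟩
    have he'dv : Dv A π e' := by
      rw [dv_iff]
      intro j
      rw [he', truncLT_coeff]
      split_ifs with hj
      · exact ih j hj
      · rw [mul_zero]; exact A.zero_mem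
    have he'I : e' ∈ intSub A := he'dv.int hπA hπ0
    have he'PS : IsPS e' := by
      intro j hj
      rw [he', truncLT_coeff]
      split_ifs
      · exact hePS j hj
      · rfl
    have he'0 : e'.coeff 0 = 0 := by
      rw [he', truncLT_coeff, if_pos (by exact_mod_cast hnpos), he0]
    have he''low : ∀ j : ℤ, j < n → e''.coeff j = 0 := by
      intro j hj
      rw [he'', HahnSeries.coeff_sub, he', truncLT_coeff, if_pos hj, sub_self]
    have he''n : e''.coeff n = e.coeff n := by
      rw [he'', HahnSeries.coeff_sub, he', truncLT_coeff, if_neg (lt_irrefl _), sub_zero]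
    have he''PS : IsPS e'' := fun j hj => he''low j (by omega)
    obtain ⟨X, hX⟩ : ∃ X, X = 1 + e' := ⟨_, rfl⟩
    have hXPS : IsPS X := by
      rw [hX]
      exact (psSub (L := L)).add_mem isPS_one he'PS
    have hXI : X ∈ intSub A := by
      rw [hX]
      exact (intSub A).add_mem (intSub A).one_mem he'I
    have hX0 : X.coeff 0 = 1 := by
      rw [hX, HahnSeries.coeff_add, he'0, HahnSeries.coeff_one, if_pos rfl, add_zero]
    have hhX : h = X + e'' := by
      rw [hX, he'', he]
      ring
    obtain ⟨k, hk⟩ := Polynomial.powAddExpansion (⟨X, hXPS⟩ : psSub (L := L)) ⟨e'', he''PS⟩ m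
    have hk' : h ^ m = X ^ m + (m : LaurentSeries L) * X ^ (m - 1) * e'' +
        (k : LaurentSeries L) * e'' ^ 2 := by
      have := congrArg Subtype.val hk
      rw [hhX]
      simpa using this
    -- coefficient `n` of the three terms
    have hc3 : ((k : LaurentSeries L) * e'' ^ 2).coeff n = 0 := by
      have h2 : ∀ j : ℤ, j < (n : ℤ) + n → (e'' ^ 2).coeff j = 0 := by
        intro j hj
        rw [sq]
        exact coeff_mul_eq_zero_of_lt he''low he''low hj
      exact coeff_mul_eq_zero_of_lt (a := 0) (b := (n : ℤ) + n) k.2 h2 (by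
        have : (0 : ℤ) < n := by exact_mod_cast hnpos
        omega)
    have hc2 : ((m : LaurentSeries L) * X ^ (m - 1) * e'').coeff n = (m : L) * e.coeff n := by
      have hmX : IsPS ((m : LaurentSeries L) * X ^ (m - 1)) :=
        (psSub (L := L)).mul_mem (natCast_mem _ m) (hXPS.pow _)
      have h3 := coeff_mul_at_bounds (a := 0) (b := (n : ℤ)) hmX he''low
      rw [zero_add] at h3
      rw [h3, he''n]
      congr 1
      have h4 : ((m : LaurentSeries L) * X ^ (m - 1)).coeff 0 =
          (m : LaurentSeries L).coeff 0 * (X ^ (m - 1)).coeff 0 :=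
        IsPS.coeff_zero_mul (natCast_mem (psSub (L := L)) m) (hXPS.pow _)
      rw [h4, hXPS.coeff_zero_pow, hX0, one_pow, mul_one]
      have h5 : (m : LaurentSeries L) = HahnSeries.C (m : L) := (map_natCast _ m).symm
      rw [h5, HahnSeries.C_apply, HahnSeries.coeff_single_same]
    have hn0 : (n : ℤ) ≠ 0 := by
      have : (0 : ℤ) < n := by exact_mod_cast hnpos
      omega
    have hc1 : π⁻¹ * (X ^ m).coeff n ∈ A := by
      obtain ⟨q, hq⟩ := sub_dvd_pow_sub_pow (⟨X, hXI⟩ : intSub A) 1 m
      have hq' : X ^ m - 1 = (X - 1) * (q : LaurentSeries L) := by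
        have := congrArg Subtype.val hq
        simpa using this
      have hX1 : Dv A π (X - 1) := by
        have : X - 1 = e' := by rw [hX]; ring
        rw [this]
        exact he'dv
      have h6 : Dv A π (X ^ m - 1) := by
        rw [hq']
        exact hX1.mul_int q.2
      have h7 := dv_iff.mp h6 n
      rwa [HahnSeries.coeff_sub, HahnSeries.coeff_one, if_neg hn0, sub_zero] at h7
    have hcf : π⁻¹ * f.coeff n ∈ A := by
      have h7 := dv_iff.mp hf n
      rwa [HahnSeries.coeff_sub, HahnSeries.coeff_one, if_neg hn0, sub_zero] at h7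
    have hsum : f.coeff n = (X ^ m).coeff n + (m : L) * e.coeff n := by
      rw [← hh, hk', HahnSeries.coeff_add, HahnSeries.coeff_add, hc2, hc3, add_zero]
    have hfinal : π⁻¹ * e.coeff n =
        ((m : L))⁻¹ * (π⁻¹ * f.coeff n - π⁻¹ * (X ^ m).coeff n) := by
      rw [hsum]
      field_simp
      ring
    rw [hfinal]
    exact A.mul_mem _ _ hmA (A.toSubring.sub_mem hcf hc1)

/-- **root extraction**. -/
theorem exists_root [CharZero L] {π : L} (hπA : π ∈ A) (hπ0 : π ≠ 0) {m : ℕ} (hm : (m : L) ≠ 0)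
    (hmA : ((m : L))⁻¹ ∈ A) {f : LaurentSeries L} (hfPS : IsPS f) (hf0 : f.coeff 0 = 1)
    (hf : Dv A π (f - 1)) :
    ∃ h : LaurentSeries L, h ^ m = f ∧ IsPS h ∧ Dv A π (h - 1) := by
  obtain ⟨p, hp, hp0⟩ := hfPS.exists_ps
  have hm' : m ≠ 0 := by
    rintro rfl
    exact hm (by simp)
  obtain ⟨g, hg, hg0⟩ := exists_ps_root m hm' p (by rw [hp0, hf0])
  obtain ⟨h, hh⟩ : ∃ h, h = HahnSeries.ofPowerSeries ℤ L g := ⟨_, rfl⟩
  have hhm : h ^ m = f := by
    rw [hh, ← map_pow, hg, hp]
  have hhPS : IsPS h := by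
    rw [hh]
    exact isPS_ofPowerSeries g
  have hh0 : h.coeff 0 = 1 := by
    rw [hh]
    have := PowerSeries.coeff_coe g 0
    rw [this, if_neg (lt_irrefl _)]
    simpa using hg0
  exact ⟨h, hhm, hhPS, dv_root_sub_one hπA hπ0 hm hmA hhm hhPS hh0 hf⟩

end Fermat.Agent.S18.CT
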