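import Fermat.Agent.S18.CTCore
import Fermat.Agent.S18.CTRoot
import Fermat.Agent.S18.Lattice
import Fermat.Agent.S18.GaussLemma

/-!
# S18, piece 87-P6 (CT), part 4: auxiliary lemmas for the assembly

Bridges between `LaurentSeries A` and integral elements of `LaurentSeries L`, divisibility of
series with zero reduction, choice of a common `π`.
-/

set_option autoImplicit false

noncomputable section

open HahnSeries ModularCurve

namespace Fermat.Agent.S18.CT

variable {L : Type*} [Field L] {A : ValuationSubring L} {k : Type*} [Field k]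

theorem incl_mem_intSub (y : LaurentSeries A) : Lat.incl A y ∈ intSub A := by
  intro n
  rw [coeffMap_coeff]
  exact (y.coeff n).2

theorem exists_incl_of_mem_intSub {y : LaurentSeries L} (hy : y ∈ intSub A) :
    ∃ y' : LaurentSeries A, Lat.incl A y' = y := by
  refine ⟨{ coeff := fun n => ⟨y.coeff n, hy n⟩,
            isPWO_support' := y.isPWO_support.mono ?_ }, ?_⟩
  · intro n hn
    simp only [Function.mem_support, ne_eq] at hn ⊢
    intro h0
    apply hn
    exact Subtype.ext h0
  · ext n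
    rw [coeffMap_coeff]
    rfl

theorem incl_coeff (y : LaurentSeries A) (n : ℤ) : (Lat.incl A y).coeff n = (y.coeff n : L) :=
  rfl

theorem red_coeff (ρ : A →+* k) (y : LaurentSeries A) (n : ℤ) :
    (coeffMap ρ y).coeff n = ρ (y.coeff n) := rfl

/-- units of `A` are exactly the elements with nonzero image. -/
theorem isUnit_of_red_ne_zero {ρ : A →+* k} (hρ : ∀ x : A, ¬ IsUnit x → ρ x = 0) {x : A}
    (hx : ρ x ≠ 0) : IsUnit x := by
  by_contra h
  exact hx (hρ x h)

theorem inv_mem_of_isUnit {x : A} (hx : IsUnit x) : ((x : L))⁻¹ ∈ A := by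
  obtain ⟨u, rfl⟩ := hx
  have h1 : ((u : A) : L) * (((u⁻¹ : Aˣ) : A) : L) = 1 := by
    have h := Units.mul_inv u
    have h' := congrArg (fun z : A => (z : L)) h
    exact h'
  have h2 : (((u : A) : L))⁻¹ = (((u⁻¹ : Aˣ) : A) : L) :=
    inv_eq_of_mul_eq_one_right h1
  rw [h2]
  exact ((u⁻¹ : Aˣ) : A).2

theorem not_isUnit_of_inv_not_mem {c : L} (hc : c ∈ A) (hinv : c⁻¹ ∉ A) :
    ¬ IsUnit (⟨c, hc⟩ : A) := by
  intro h
  exact hinv (inv_mem_of_isUnit h)

/-- "`y` is `c` times an integral series" (allows `c = 0`). -/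
def DvZ (A : ValuationSubring L) (c : L) (y : LaurentSeries L) : Prop :=
  ∃ z ∈ intSub A, y = c • z

theorem DvZ.dv {c π : L} (hc : c * π⁻¹ ∈ A) {y : LaurentSeries L}
    (hy : DvZ A c y) : Dv A π y := by
  obtain ⟨z, hz, rfl⟩ := hy
  unfold Dv
  rw [smul_smul]
  have : π⁻¹ * c = c * π⁻¹ := mul_comm _ _
  rw [this]
  exact smul_mem_intSub hc hz

/-- a series of `Sbig` with zero reduction is divisible by a non-unit. -/
theorem exists_dvZ_of_red_eq_zero {ρ : A →+* k}
    {S : Submodule L (LaurentSeries L)} (hprim : Lat.HasPrimitives A ρ S)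
    {d : LaurentSeries A} (hdS : Lat.incl A d ∈ S) (hd0 : coeffMap ρ d = 0) :
    ∃ c : L, A.valuation c < 1 ∧ DvZ A c (Lat.incl A d) := by
  by_cases h0 : Lat.incl A d = 0
  · exact ⟨0, by simp, 0, (intSub A).zero_mem, by rw [h0, smul_zero]⟩
  obtain ⟨c', hc'0, y', hy', hy'0⟩ := hprim _ hdS h0
  have hc'A : c' ∉ A := by
    intro hc'
    apply hy'0
    have h1 : y' = (⟨c', hc'⟩ : A) • d := by
      apply Lat.incl_injective A
      rw [hy', Lat.incl_smul]
    rw [h1, Lat.red_smul, hd0, smul_zero]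
  have hcA : c'⁻¹ ∈ A := by
    rcases A.mem_or_inv_mem c' with h | h
    · exact absurd h hc'A
    · exact h
  refine ⟨c'⁻¹, ?_, Lat.incl A y', incl_mem_intSub y', ?_⟩
  · rcases lt_or_eq_of_le ((A.valuation_le_one_iff _).mpr hcA) with h | h
    · exact h
    · exfalso
      apply hc'A
      have h2 : A.valuation c' = 1 := by
        have h3 : A.valuation c' * A.valuation c'⁻¹ = 1 := by
          rw [← map_mul, mul_inv_cancel₀ hc'0, map_one]
        rwa [h, mul_one] at h3
      exact (A.valuation_le_one_iff _).mp (le_of_eq h2)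
  · rw [hy', smul_smul, inv_mul_cancel₀ hc'0, one_smul]

/-- a common divisor `π` (nonzero, non-unit) of finitely many non-units. -/
theorem exists_common_pi {ι : Type*} [Fintype ι] (c : ι → L) (hc : ∀ i, A.valuation (c i) < 1)
    (hnontriv : ∃ π₀ : L, π₀ ≠ 0 ∧ A.valuation π₀ < 1) :
    ∃ π : L, π ≠ 0 ∧ A.valuation π < 1 ∧ ∀ i, c i * π⁻¹ ∈ A := by
  classical
  obtain ⟨π₀, hπ₀0, hπ₀⟩ := hnontriv
  obtain ⟨o₀, -, ho₀⟩ := Finset.exists_max_image (Finset.univ : Finset (Option ι))
    (fun o => A.valuation (o.elim π₀ c)) ⟨none, Finset.mem_univ _⟩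
  obtain ⟨π, hπ⟩ : ∃ π, π = o₀.elim π₀ c := ⟨_, rfl⟩
  have hπ0 : π ≠ 0 := by
    intro h0
    have := ho₀ none (Finset.mem_univ _)
    simp only [Option.elim_none] at this
    rw [← hπ, h0, map_zero] at this
    exact hπ₀0 ((map_eq_zero _).mp (le_antisymm this zero_le))
  have hπlt : A.valuation π < 1 := by
    rw [hπ]
    cases o₀ with
    | none => exact hπ₀
    | some i => exact hc i
  refine ⟨π, hπ0, hπlt, fun i => ?_⟩
  have := ho₀ (some i) (Finset.mem_univ _)
  simp only [Option.elim_some] at this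
  rw [← hπ] at this
  rw [← A.valuation_le_one_iff, map_mul, map_inv₀]
  have hvπ : A.valuation π ≠ 0 := (map_ne_zero _).mpr hπ0
  rw [mul_inv_le_iff₀ (zero_lt_iff.mpr hvπ), one_mul]
  exact this

/-- the valuation form of the archimedean property. -/
theorem harch_of_isArch (hA : Gauss.IsArch A) {π : L} (hπ0 : π ≠ 0) (hπ : A.valuation π < 1)
    (c : L) : ∃ j : ℕ, A.valuation (c * π ^ j) < 1 := by
  have hπA : π ∈ A := (A.valuation_le_one_iff _).mp hπ.le
  by_cases hc : c ∈ A
  · refine ⟨1, ?_⟩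
    rw [pow_one, map_mul]
    calc A.valuation c * A.valuation π ≤ 1 * A.valuation π := by
          gcongr
          exact (A.valuation_le_one_iff _).mpr hc
      _ = A.valuation π := one_mul _
      _ < 1 := hπ
  · have hcinv : c⁻¹ ∈ A := by
      rcases A.mem_or_inv_mem c with h | h
      · exact absurd h hc
      · exact h
    have hc0 : c ≠ 0 := by
      rintro rfl
      exact hc A.zero_mem
    have hπnu : ¬ IsUnit (⟨π, hπA⟩ : A) := by
      intro hu
      have := inv_mem_of_isUnit hu
      have h1 : A.valuation π⁻¹ ≤ 1 := (A.valuation_le_one_iff _).mpr this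
      rw [map_inv₀] at h1
      have hvπ : A.valuation π ≠ 0 := (map_ne_zero _).mpr hπ0
      have h2 : 1 ≤ A.valuation π := by
        rwa [inv_le_one₀ (zero_lt_iff.mpr hvπ)] at h1
      exact absurd hπ (not_lt.mpr h2)
    obtain ⟨n, b, hb⟩ := hA ⟨π, hπA⟩ hπnu ⟨c⁻¹, hcinv⟩ (by
      intro h0
      have := congrArg Subtype.val h0
      simp only [ZeroMemClass.coe_zero] at this
      exact hc0 (inv_eq_zero.mp this))
    have hb' : π ^ n = c⁻¹ * (b : L) := by
      have := congrArg Subtype.val hb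
      simpa using this
    refine ⟨n + 1, ?_⟩
    have h3 : c * π ^ (n + 1) = (b : L) * π := by
      rw [pow_succ, hb', ← mul_assoc, ← mul_assoc, mul_inv_cancel₀ hc0, one_mul]
    rw [h3, map_mul]
    calc A.valuation (b : L) * A.valuation π ≤ 1 * A.valuation π := by
          gcongr
          exact (A.valuation_le_one_iff _).mpr b.2
      _ = A.valuation π := one_mul _
      _ < 1 := hπ

end Fermat.Agent.S18.CT
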