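import Fermat.Agent.S18.CTAsmAux

/-!
# S18, piece 87-P6 (CT), part 5: the assembly `ct_assembly`

All hypotheses are statements about `q`-expansions (`AsmData`).  Intended use: after MOVING,
`V = L(a∞ + D)`, `Ra = L(a∞)`, `R = L(ma∞)`, `Sbig ⊇ V, R, f - 1` finite dimensional with
primitives (C5), `div f = m D`, `f` `q`-integral with reduction `1`.
Conclusion: some nonzero `w ∈ V` has `w ^ m * f` constant.
-/

set_option autoImplicit false

noncomputable section

open HahnSeries ModularCurve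

namespace Fermat.Agent.S18.CT

variable {L : Type*} [Field L] {A : ValuationSubring L} {k : Type*} [Field k]

/-- hypotheses of the CT assembly (all in terms of `q`-expansions). -/
structure AsmData (A : ValuationSubring L) (ρ : A →+* k) (m a : ℕ)
    (V Ra R Sbig : Submodule L (LaurentSeries L)) (f : LaurentSeries A) : Prop where
  hρ : ∀ x : A, ¬ IsUnit x → ρ x = 0
  hm : (m : k) ≠ 0
  harch : Gauss.IsArch A
  hnontriv : ∃ π₀ : L, π₀ ≠ 0 ∧ A.valuation π₀ < 1
  hfin : FiniteDimensional L Sbig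
  hprim : Lat.HasPrimitives A ρ Sbig
  hV : V ≤ Sbig
  hR : R ≤ Sbig
  hRa : ∀ y ∈ R, (∀ n : ℤ, n < -(a : ℤ) → y.coeff n = 0) → y ∈ Ra
  hRaR : Ra ≤ R
  hf1 : coeffMap ρ f = 1
  hfPS : IsPS (Lat.incl A f)
  hfS : Lat.incl A f - 1 ∈ Sbig
  hR1 : (1 : LaurentSeries L) ∈ R
  hmul : ∀ w ∈ V, w ^ m * Lat.incl A f ∈ R
  hconst : ∀ y ∈ R, IsPS y → ∃ c : L, y = HahnSeries.C c
  hred0 : ∀ y : LaurentSeries A, Lat.incl A y ∈ R → (∀ n : ℤ, n ≤ 0 → ρ (y.coeff n) = 0) →
    coeffMap ρ y = 0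
  hVord : ∀ w ∈ V, ∀ n : ℤ, n < -(a : ℤ) → w.coeff n = 0
  hRord : ∀ y ∈ R, ∀ n : ℤ, n < -((m * a : ℕ) : ℤ) → y.coeff n = 0
  htop : ∀ n : ℕ, a < n → n ≤ m * a → ∃ t : LaurentSeries A, Lat.incl A t ∈ R ∧
    (∀ i : ℤ, i < -(n : ℤ) → t.coeff i = 0) ∧ ρ (t.coeff (-(n : ℤ))) ≠ 0
  hVR : ∀ y : LaurentSeries A, Lat.incl A y ∈ Ra →
    ∃ w : LaurentSeries A, Lat.incl A w ∈ V ∧ coeffMap ρ w = coeffMap ρ y

variable {ρ : A →+* k} {m a : ℕ} {V Ra R Sbig : Submodule L (LaurentSeries L)}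
  {f : LaurentSeries A}

theorem Dv.sum {c : L} {ι : Type*} (s : Finset ι) (y : ι → LaurentSeries L)
    (hy : ∀ i ∈ s, Dv A c (y i)) : Dv A c (∑ i ∈ s, y i) := by
  unfold Dv at *
  rw [Finset.smul_sum]
  exact (intSub A).sum_mem hy

theorem dv_smul_of_mem {π α : L} (hα : π⁻¹ * α ∈ A) {y : LaurentSeries L} (hy : y ∈ intSub A) :
    Dv A π (α • y) := by
  unfold Dv
  rw [smul_smul]
  exact smul_mem_intSub hα hy

/-- `hint` of the core, from primitives and `hred0`. -/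
theorem AsmData.hint (D : AsmData A ρ m a V Ra R Sbig f) {y : LaurentSeries L} (hyR : y ∈ R)
    (hy : ∀ n : ℤ, n ≤ 0 → y.coeff n ∈ A) : y ∈ intSub A := by
  by_cases h0 : y = 0
  · rw [h0]; exact (intSub A).zero_mem
  obtain ⟨c, hc0, y', hy', hy'0⟩ := D.hprim y (D.hR hyR) h0
  by_cases hcinv : c⁻¹ ∈ A
  · have : y = c⁻¹ • Lat.incl A y' := by
      rw [hy', smul_smul, inv_mul_cancel₀ hc0, one_smul]
    rw [this]
    exact smul_mem_intSub hcinv (incl_mem_intSub y')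
  · exfalso
    have hcA : c ∈ A := by
      rcases A.mem_or_inv_mem c with h | h
      · exact h
      · exact absurd h hcinv
    have hcnu : ¬ IsUnit (⟨c, hcA⟩ : A) := not_isUnit_of_inv_not_mem hcA hcinv
    apply hy'0
    refine D.hred0 y' (by rw [hy']; exact R.smul_mem c hyR) ?_
    intro n hn
    have h1 : y'.coeff n = (⟨c, hcA⟩ : A) * ⟨y.coeff n, hy n hn⟩ := by
      apply Subtype.ext
      have := congrArg (fun z : LaurentSeries L => z.coeff n) hy'
      simp only [HahnSeries.coeff_smul, smul_eq_mul] at this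
      rw [incl_coeff] at this
      rw [this]
      rfl
    rw [h1, map_mul, D.hρ _ hcnu, zero_mul]

/-- lifting from `R` to `V` modulo `π`, by induction on the pole order. -/
theorem AsmData.lift_aux (D : AsmData A ρ m a V Ra R Sbig f) {π : L} (hπA : π ∈ A)
    (hπ0 : π ≠ 0)
    (hbase : ∀ y ∈ Ra, y ∈ intSub A → ∃ w ∈ V, w ∈ intSub A ∧ Dv A π (w - y)) :
    ∀ d : ℕ, a + d ≤ m * a → ∀ y ∈ R, y ∈ intSub A →
      (∀ n : ℤ, n < -((a + d : ℕ) : ℤ) → y.coeff n = 0) →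
      (∀ n : ℤ, n < -(a : ℤ) → π⁻¹ * y.coeff n ∈ A) →
      ∃ w ∈ V, w ∈ intSub A ∧ Dv A π (w - y) := by
  intro d
  induction d with
  | zero =>
    intro _ y hyR hyI hy0 _
    exact hbase y (D.hRa y hyR (by simpa using hy0)) hyI
  | succ d ih =>
    intro hd y hyR hyI hy0 hyπ
    obtain ⟨t, htR, htlow, htu⟩ := D.htop (a + (d + 1)) (by omega) hd
    obtain ⟨N, hN⟩ : ∃ N : ℤ, N = -((a + (d + 1) : ℕ) : ℤ) := ⟨_, rfl⟩
    rw [← hN] at htlow htu hy0
    have hNa : N < -(a : ℤ) := by rw [hN]; push_cast; omega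
    have hu : IsUnit (t.coeff N) := isUnit_of_red_ne_zero D.hρ htu
    have huinv : ((t.coeff N : A) : L)⁻¹ ∈ A := inv_mem_of_isUnit hu
    have hu0 : ((t.coeff N : A) : L) ≠ 0 := by
      intro h0
      apply htu
      have : t.coeff N = 0 := Subtype.ext h0
      rw [this, map_zero]
    obtain ⟨α, hα⟩ : ∃ α : L, α = y.coeff N * ((t.coeff N : A) : L)⁻¹ := ⟨_, rfl⟩
    have hαπ : π⁻¹ * α ∈ A := by
      rw [hα, ← mul_assoc]
      exact A.mul_mem _ _ (hyπ N hNa) huinv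
    have hαA : α ∈ A := by
      have : α = π * (π⁻¹ * α) := by
        rw [← mul_assoc, mul_inv_cancel₀ hπ0, one_mul]
      rw [this]
      exact A.mul_mem _ _ hπA hαπ
    have htI : Lat.incl A t ∈ intSub A := incl_mem_intSub t
    obtain ⟨y₁, hy₁⟩ : ∃ y₁, y₁ = y - α • Lat.incl A t := ⟨_, rfl⟩
    have hy₁R : y₁ ∈ R := by
      rw [hy₁]
      exact R.sub_mem hyR (R.smul_mem α htR)
    have hy₁I : y₁ ∈ intSub A := by
      rw [hy₁]
      exact (intSub A).sub_mem hyI (smul_mem_intSub hαA htI)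
    have hy₁coeff : ∀ n : ℤ, y₁.coeff n = y.coeff n - α * ((t.coeff n : A) : L) := by
      intro n
      rw [hy₁, HahnSeries.coeff_sub, HahnSeries.coeff_smul, smul_eq_mul, incl_coeff]
    have hy₁0 : ∀ n : ℤ, n < -((a + d : ℕ) : ℤ) → y₁.coeff n = 0 := by
      intro n hn
      rw [hy₁coeff]
      have hnN : n ≤ N := by rw [hN]; push_cast at hn ⊢; omega
      rcases lt_or_eq_of_le hnN with h | h
      · rw [hy0 n h, htlow n h]
        simp
      · rw [h, hα, mul_assoc, inv_mul_cancel₀ hu0, mul_one, sub_self]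
    have hy₁π : ∀ n : ℤ, n < -(a : ℤ) → π⁻¹ * y₁.coeff n ∈ A := by
      intro n hn
      rw [hy₁coeff, mul_sub, ← mul_assoc]
      exact A.toSubring.sub_mem (hyπ n hn) (A.mul_mem _ _ hαπ (t.coeff n).2)
    obtain ⟨w, hwV, hwI, hwdv⟩ := ih (by omega) y₁ hy₁R hy₁I hy₁0 hy₁π
    refine ⟨w, hwV, hwI, ?_⟩
    have : w - y = (w - y₁) - α • Lat.incl A t := by
      rw [hy₁]
      ring
    rw [this]
    exact hwdv.sub (dv_smul_of_mem hαπ htI)

/-- **CT assembly.** -/
theorem ct_assembly [CharZero L] (D : AsmData A ρ m a V Ra R Sbig f) :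
    ∃ w ∈ V, w ≠ 0 ∧ ∃ c : L, w ^ m * Lat.incl A f = HahnSeries.C c := by
  have := D.hfin
  -- `m` is a unit of `A`
  have hmunit : IsUnit ((m : ℕ) : A) :=
    isUnit_of_red_ne_zero D.hρ (by rw [map_natCast]; exact D.hm)
  have hmA : ((m : L))⁻¹ ∈ A := by
    have := inv_mem_of_isUnit hmunit
    simpa using this
  have hm0 : m ≠ 0 := by
    rintro rfl
    exact D.hm (by simp)
  have hmL : (m : L) ≠ 0 := Nat.cast_ne_zero.mpr hm0
  -- lattice basis of `Ra`
  have : FiniteDimensional L Ra := Submodule.finiteDimensional_of_le (D.hRaR.trans D.hR)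
  obtain ⟨b, hbRa, -, hbgen⟩ := Lat.exists_int_basis D.hρ Ra
    (Lat.HasPrimitives.mono A ρ D.hprim (D.hRaR.trans D.hR))
  choose wl hwlV hwlred using fun j => D.hVR (b j) (hbRa j)
  have hdiff : ∀ j, ∃ c : L, A.valuation c < 1 ∧ DvZ A c (Lat.incl A (wl j - b j)) := fun j =>
    exists_dvZ_of_red_eq_zero D.hprim
      (by rw [map_sub]; exact Sbig.sub_mem (D.hV (hwlV j)) (D.hR (D.hRaR (hbRa j))))
      (by rw [map_sub, hwlred j, sub_self])
  choose cd hcd hcdDv using hdiff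
  obtain ⟨cf, hcf, hcfDv⟩ : ∃ c : L, A.valuation c < 1 ∧ DvZ A c (Lat.incl A (f - 1)) :=
    exists_dvZ_of_red_eq_zero D.hprim (by rw [map_sub, map_one]; exact D.hfS)
      (by rw [map_sub, D.hf1, map_one, sub_self])
  obtain ⟨π, hπ0, hπlt, hπdiv⟩ := exists_common_pi
    (fun o : Option (Fin (Module.finrank L Ra)) => o.elim cf cd)
    (by
      intro o
      cases o with
      | none => exact hcf
      | some j => exact hcd j) D.hnontriv
  have hπA : π ∈ A := (A.valuation_le_one_iff _).mp hπlt.le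
  have hdvj : ∀ j, Dv A π (Lat.incl A (wl j) - Lat.incl A (b j)) := fun j => by
    have := (hcdDv j).dv (hπdiv (some j))
    rwa [map_sub] at this
  have hdvf : Dv A π (Lat.incl A f - 1) := by
    have := hcfDv.dv (hπdiv none)
    rwa [map_sub, map_one] at this
  -- normalisation of `f`
  obtain ⟨c₀, hc₀⟩ : ∃ c₀ : L, c₀ = (Lat.incl A f).coeff 0 := ⟨_, rfl⟩
  have hc₀u : IsUnit (f.coeff 0) := isUnit_of_red_ne_zero D.hρ (by
    have := congrArg (fun z : LaurentSeries k => z.coeff 0) D.hf1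
    simp only [red_coeff, HahnSeries.coeff_one, if_pos] at this
    rw [this]
    exact one_ne_zero)
  have hc₀inv : c₀⁻¹ ∈ A := by
    rw [hc₀, incl_coeff]
    exact inv_mem_of_isUnit hc₀u
  have hc₀0 : c₀ ≠ 0 := by
    rw [hc₀, incl_coeff]
    intro h0
    have : f.coeff 0 = 0 := Subtype.ext h0
    rw [this] at hc₀u
    exact not_isUnit_zero hc₀u
  have hc₀1 : π⁻¹ * (c₀ - 1) ∈ A := by
    have := dv_iff.mp hdvf 0
    rwa [HahnSeries.coeff_sub, HahnSeries.coeff_one, if_pos rfl, ← hc₀] at this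
  obtain ⟨f₃, hf₃⟩ : ∃ f₃, f₃ = c₀⁻¹ • Lat.incl A f := ⟨_, rfl⟩
  have hf₃PS : IsPS f₃ := by
    intro n hn
    rw [hf₃, HahnSeries.coeff_smul, D.hfPS n hn, smul_zero]
  have hf₃0 : f₃.coeff 0 = 1 := by
    rw [hf₃, HahnSeries.coeff_smul, ← hc₀, smul_eq_mul, inv_mul_cancel₀ hc₀0]
  have hf₃dv : Dv A π (f₃ - 1) := by
    have h1 : f₃ - 1 = c₀⁻¹ • ((Lat.incl A f - 1) - (c₀ - 1) • (1 : LaurentSeries L)) := by
      rw [hf₃]
      ext n
      simp only [HahnSeries.coeff_sub, HahnSeries.coeff_smul, smul_eq_mul, HahnSeries.coeff_one]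
      split_ifs
      · field_simp
        ring
      · ring
    rw [h1]
    refine Dv.smul hc₀inv (hdvf.sub (dv_smul_of_mem hc₀1 (intSub A).one_mem))
  obtain ⟨h, hh, hhPS, hh1⟩ := exists_root hπA hπ0 hmL hmA hf₃PS hf₃0 hf₃dv
  -- the base of the lifting
  have hbase : ∀ y ∈ Ra, y ∈ intSub A → ∃ w ∈ V, w ∈ intSub A ∧ Dv A π (w - y) := by
    intro y hyRa hyI
    obtain ⟨y', rfl⟩ := exists_incl_of_mem_intSub hyI
    obtain ⟨c, hc⟩ := hbgen y' hyRa
    refine ⟨Lat.incl A (∑ j, c j • wl j), ?_, incl_mem_intSub _, ?_⟩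
    · rw [Lat.incl_sum]
      exact V.sum_mem fun j _ => V.smul_mem _ (hwlV j)
    · rw [hc, Lat.incl_sum, Lat.incl_sum, ← Finset.sum_sub_distrib]
      refine Dv.sum _ _ fun j _ => ?_
      rw [← smul_sub]
      exact Dv.smul (c j).2 (hdvj j)
  -- the data of the core
  have hD : CTData A π m a V.toAddSubgroup R.toAddSubgroup f₃ h :=
    { hπA := hπA
      hπ0 := hπ0
      hm := hmL
      hmA := hmA
      hVC := fun c w hw => by
        rw [HahnSeries.C_mul_eq_smul]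
        exact V.smul_mem c hw
      hRC := fun c y hy => by
        rw [HahnSeries.C_mul_eq_smul]
        exact R.smul_mem c hy
      hh := hh
      hh0 := hhPS
      hh1 := hh1
      hR1 := D.hR1
      hmul := fun w hw => by
        have := R.smul_mem c₀⁻¹ (D.hmul w hw)
        rw [hf₃]
        have e : w ^ m * c₀⁻¹ • Lat.incl A f = c₀⁻¹ • (w ^ m * Lat.incl A f) := by
          rw [← HahnSeries.C_mul_eq_smul, ← HahnSeries.C_mul_eq_smul]
          ring
        rw [e]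
        exact this
      hint := fun y hy hy0 => D.hint hy hy0
      hVord := D.hVord
      hlift := fun y hyR hyI hyπ =>
        D.lift_aux hπA hπ0 hbase (m * a - a) (by
          have : a ≤ m * a := Nat.le_mul_of_pos_left a (Nat.pos_of_ne_zero hm0)
          omega) y hyR hyI (by
          intro n hn
          refine D.hRord y hyR n ?_
          have : a ≤ m * a := Nat.le_mul_of_pos_left a (Nat.pos_of_ne_zero hm0)
          have e : a + (m * a - a) = m * a := by omega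
          rwa [e] at hn) hyπ }
  obtain ⟨w, hwV, hw0, hwPS⟩ := ct_core hD (fun c => harch_of_isArch D.harch hπ0 hπlt c)
  refine ⟨w, hwV, hw0, ?_⟩
  have hG : (w * h) ^ m = c₀⁻¹ • (w ^ m * Lat.incl A f) := by
    rw [mul_pow, hh, hf₃, ← HahnSeries.C_mul_eq_smul, ← HahnSeries.C_mul_eq_smul]
    ring
  have hGR : (w * h) ^ m ∈ R := by
    rw [hG]
    exact R.smul_mem _ (D.hmul w hwV)
  obtain ⟨c, hc⟩ := D.hconst _ hGR (hwPS.pow m)
  refine ⟨c₀ * c, ?_⟩
  have : w ^ m * Lat.incl A f = c₀ • ((w * h) ^ m) := by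
    rw [hG, smul_smul, mul_inv_cancel₀ hc₀0, one_smul]
  rw [this, hc, ← HahnSeries.C_mul_eq_smul, ← map_mul]

end Fermat.Agent.S18.CT
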