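import Fermat.Agent.S18.CTBasic

/-!
# S18, piece 87-P6 (CT core), part 2: the obstruction induction

`ct_core`: pure Laurent-series algebra.  `V = L(a∞ - D)`, `R = L(ma∞)`, `f = h ^ m` with
`h ≡ 1 mod π` a power series.  If reduction mod `π` lifts from `R` to `V` (`hlift`) then some
nonzero `w ∈ V` has `w * h` without polar part (so `w ^ m * f` is a constant).
-/

set_option autoImplicit false

noncomputable section

open HahnSeries

namespace Fermat.Agent.S18.CT

variable {L : Type*} [Field L]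

/-- the hypotheses of the CT core. -/
structure CTData (A : ValuationSubring L) (π : L) (m a : ℕ)
    (V R : AddSubgroup (LaurentSeries L)) (f h : LaurentSeries L) : Prop where
  hπA : π ∈ A
  hπ0 : π ≠ 0
  hm : (m : L) ≠ 0
  hmA : ((m : L))⁻¹ ∈ A
  hVC : ∀ (c : L) (w : LaurentSeries L), w ∈ V → HahnSeries.C c * w ∈ V
  hRC : ∀ (c : L) (y : LaurentSeries L), y ∈ R → HahnSeries.C c * y ∈ R
  hh : h ^ m = f
  hh0 : IsPS h
  hh1 : Dv A π (h - 1)
  hR1 : (1 : LaurentSeries L) ∈ R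
  hmul : ∀ w ∈ V, w ^ m * f ∈ R
  hint : ∀ y ∈ R, (∀ n : ℤ, n ≤ 0 → y.coeff n ∈ A) → y ∈ intSub A
  hVord : ∀ w ∈ V, ∀ n : ℤ, n < -(a : ℤ) → w.coeff n = 0
  hlift : ∀ y ∈ R, y ∈ intSub A → (∀ n : ℤ, n < -(a : ℤ) → π⁻¹ * y.coeff n ∈ A) →
    ∃ w ∈ V, w ∈ intSub A ∧ Dv A π (w - y)

variable {A : ValuationSubring L} {π : L} {m a : ℕ} {V R : AddSubgroup (LaurentSeries L)}
  {f h : LaurentSeries L}

theorem CTData.smul_mem_V (D : CTData A π m a V R f h) (c : L) {w : LaurentSeries L}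
    (hw : w ∈ V) : c • w ∈ V := by
  rw [← HahnSeries.C_mul_eq_smul]
  exact D.hVC c w hw

theorem CTData.smul_mem_R (D : CTData A π m a V R f h) (c : L) {y : LaurentSeries L}
    (hy : y ∈ R) : c • y ∈ R := by
  rw [← HahnSeries.C_mul_eq_smul]
  exact D.hRC c y hy

theorem CTData.h_int (D : CTData A π m a V R f h) : h ∈ intSub A := by
  have : h = (h - 1) + 1 := by ring
  rw [this]
  exact (intSub A).add_mem (D.hh1.int D.hπA D.hπ0) (intSub A).one_mem

/-- the induction predicate. -/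
def Good (A : ValuationSubring L) (π : L) (V : AddSubgroup (LaurentSeries L))
    (h : LaurentSeries L) (j : ℕ) (w : LaurentSeries L) : Prop :=
  w ∈ V ∧ w ∈ intSub A ∧ Dv A π (w - 1) ∧ Dv A (π ^ j) (negPart (w * h))

theorem negPart_one : negPart (1 : LaurentSeries L) = 0 :=
  isPS_iff_negPart.mp isPS_one

theorem negPart_C (c : L) : negPart (HahnSeries.C c : LaurentSeries L) = 0 := by
  have : (HahnSeries.C c : LaurentSeries L) = c • 1 := by
    rw [← HahnSeries.C_mul_eq_smul, mul_one]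
  rw [this, negPart_smul, negPart_one, smul_zero]

theorem natCast_mul_eq (m : ℕ) (y : LaurentSeries L) :
    (m : LaurentSeries L) * y = (m : L) • y := by
  rw [← HahnSeries.C_mul_eq_smul, map_natCast]

theorem Dv.smul_mul {c d : L} (hd0 : d ≠ 0) {y : LaurentSeries L} (hy : Dv A c y) :
    Dv A (d * c) (d • y) := by
  unfold Dv at *
  have : (d * c)⁻¹ • d • y = c⁻¹ • y := by
    rw [smul_smul]
    congr 1
    rw [mul_inv]
    field_simp
  rw [this]
  exact hy

theorem exists_good_one (D : CTData A π m a V R f h) : ∃ w, Good A π V h 1 w := by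
  obtain ⟨w, hwV, hwI, hw1⟩ := D.hlift 1 D.hR1 (intSub A).one_mem (by
    intro n hn
    have hn0 : n ≠ 0 := by
      have : (0 : ℤ) ≤ a := Int.natCast_nonneg a
      omega
    rw [HahnSeries.coeff_one, if_neg hn0, mul_zero]
    exact A.zero_mem)
  refine ⟨w, hwV, hwI, hw1, ?_⟩
  have h1 : w * h - 1 = (w - 1) * h + (h - 1) := by ring
  have h2 : Dv A π (w * h - 1) := by
    rw [h1]
    exact (hw1.mul_int D.h_int).add D.hh1
  have h3 : negPart (w * h) = negPart (w * h - 1) := by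
    rw [negPart_sub, negPart_one, sub_zero]
  rw [h3, pow_one]
  exact h2.negPart

theorem good_step (D : CTData A π m a V R f h) {j : ℕ} (hj : 1 ≤ j) {w : LaurentSeries L}
    (hw : Good A π V h j w) : ∃ w', Good A π V h (j + 1) w' := by
  obtain ⟨hwV, hwI, hw1, hwN⟩ := hw
  have hπj0 : π ^ j ≠ 0 := pow_ne_zero _ D.hπ0
  have hπjA : π ^ j ∈ A := pow_mem_A D.hπA j
  have hhI : h ∈ intSub A := D.h_int
  obtain ⟨u, hu⟩ : ∃ u, u = w * h := ⟨_, rfl⟩
  have huI : u ∈ intSub A := by rw [hu]; exact (intSub A).mul_mem hwI hhI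
  have hu1 : Dv A π (u - 1) := by
    have : u - 1 = (w - 1) * h + (h - 1) := by rw [hu]; ring
    rw [this]
    exact (hw1.mul_int hhI).add D.hh1
  obtain ⟨Y, hY⟩ : ∃ Y, Y = negPart u := ⟨_, rfl⟩
  obtain ⟨X, hX⟩ : ∃ X, X = u - Y := ⟨_, rfl⟩
  have hYj : Dv A (π ^ j) Y := by rw [hY, hu]; exact hwN
  have hY1 : Dv A π Y := by
    have := Dv.pow_le D.hπA D.hπ0 hj hYj
    rwa [pow_one] at this
  have hYI : Y ∈ intSub A := by rw [hY]; exact negPart_mem_intSub huI
  have hXI : X ∈ intSub A := by rw [hX]; exact (intSub A).sub_mem huI hYI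
  have hXPS : IsPS X := by rw [hX, hY]; exact isPS_sub_negPart u
  have hX1 : Dv A π (X - 1) := by
    have : X - 1 = (u - 1) - Y := by rw [hX]; ring
    rw [this]
    exact hu1.sub hY1
  have huXY : u = X + Y := by rw [hX]; ring
  -- binomial expansion inside the subring of integral series
  obtain ⟨k, hk⟩ := Polynomial.powAddExpansion (⟨X, hXI⟩ : intSub A) ⟨Y, hYI⟩ m
  have hk' : u ^ m = X ^ m + (m : LaurentSeries L) * X ^ (m - 1) * Y + (k : LaurentSeries L) * Y ^ 2 := by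
    have := congrArg Subtype.val hk
    rw [huXY]
    simpa using this
  obtain ⟨q, hq⟩ := sub_dvd_pow_sub_pow (⟨X, hXI⟩ : intSub A) 1 (m - 1)
  have hq' : X ^ (m - 1) - 1 = (X - 1) * (q : LaurentSeries L) := by
    have := congrArg Subtype.val hq
    simpa using this
  have hXm : Dv A π (X ^ (m - 1) - 1) := by
    rw [hq']
    exact hX1.mul_int q.2
  obtain ⟨E, hE⟩ : ∃ E, E = (m : LaurentSeries L) * ((X ^ (m - 1) - 1) * Y) +
      (k : LaurentSeries L) * Y ^ 2 := ⟨_, rfl⟩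
  have hmI : (m : LaurentSeries L) ∈ intSub A := natCast_mem _ m
  have hEdv : Dv A (π ^ (j + 1)) E := by
    rw [hE]
    refine Dv.add ?_ ?_
    · refine Dv.int_mul hmI ?_
      have := hXm.mul hYj
      rwa [← pow_succ'] at this
    · refine Dv.int_mul k.2 ?_
      have h2 : Dv A (π ^ j * π ^ j) (Y ^ 2) := by
        rw [sq]
        exact hYj.mul hYj
      rw [← _root_.pow_add] at h2
      exact Dv.pow_le D.hπA D.hπ0 (by omega) h2
  have hEj : Dv A (π ^ j) E := Dv.pow_le D.hπA D.hπ0 (Nat.le_succ j) hEdv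
  have hG : u ^ m = X ^ m + (m : L) • Y + E := by
    rw [hk', hE, ← natCast_mul_eq]
    ring
  have hGR : u ^ m ∈ R := by
    rw [hu, mul_pow, D.hh]
    exact D.hmul w hwV
  have hYneg : negPart Y = Y := by rw [hY]; exact negPart_negPart u
  have hnegG : negPart (u ^ m) = (m : L) • Y + negPart E := by
    rw [hG, negPart_add, negPart_add, isPS_iff_negPart.mp (hXPS.pow m), zero_add, negPart_smul,
      hYneg]
  have hnegGdv : Dv A (π ^ j) (negPart (u ^ m)) := by
    rw [hnegG]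
    refine Dv.add ?_ hEj.negPart
    have hmA' : (m : L) ∈ A := natCast_mem _ m
    exact Dv.smul hmA' hYj
  -- peeling
  obtain ⟨G₀, hG₀⟩ : ∃ G₀, G₀ = (u ^ m).coeff 0 := ⟨_, rfl⟩
  obtain ⟨G', hG'⟩ : ∃ G', G' = (π ^ j)⁻¹ • (u ^ m - HahnSeries.C G₀) := ⟨_, rfl⟩
  have hCR : (HahnSeries.C G₀ : LaurentSeries L) ∈ R := by
    have := D.hRC G₀ 1 D.hR1
    rwa [mul_one] at this
  have hG'R : G' ∈ R := by
    rw [hG']
    exact D.smul_mem_R _ (R.sub_mem hGR hCR)
  have hG'neg : negPart G' = (π ^ j)⁻¹ • negPart (u ^ m) := by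
    rw [hG', negPart_smul, negPart_sub, negPart_C, sub_zero]
  have hG'coeff : ∀ n : ℤ, n < 0 → G'.coeff n = (π ^ j)⁻¹ * (negPart (u ^ m)).coeff n := by
    intro n hn
    have := congrArg (fun z : LaurentSeries L => z.coeff n) hG'neg
    simpa [hn] using this
  have hG'I : G' ∈ intSub A := by
    refine D.hint G' hG'R ?_
    intro n hn
    rcases lt_or_eq_of_le hn with hn' | hn'
    · rw [hG'coeff n hn']
      exact dv_iff.mp hnegGdv n
    · rw [hn', hG', HahnSeries.coeff_smul, HahnSeries.coeff_sub, ← hG₀, HahnSeries.C_apply,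
        HahnSeries.coeff_single_same, sub_self, smul_zero]
      exact A.zero_mem
  obtain ⟨y, hy⟩ : ∃ y, y = ((m : L))⁻¹ • G' := ⟨_, rfl⟩
  have hyR : y ∈ R := by rw [hy]; exact D.smul_mem_R _ hG'R
  have hyI : y ∈ intSub A := by rw [hy]; exact smul_mem_intSub D.hmA hG'I
  have hu_low : ∀ n : ℤ, n < -(a : ℤ) → u.coeff n = 0 := by
    intro n hn
    rw [hu]
    exact coeff_mul_eq_zero_of_lt (a := -(a : ℤ)) (b := 0) (D.hVord w hwV) D.hh0 (by simpa using hn)
  have hy_low : ∀ n : ℤ, n < -(a : ℤ) → π⁻¹ * y.coeff n ∈ A := by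
    intro n hn
    have hn0 : n < 0 := by
      have : (0 : ℤ) ≤ a := Int.natCast_nonneg a
      omega
    have h1 : (negPart (u ^ m)).coeff n = E.coeff n := by
      rw [hnegG, HahnSeries.coeff_add, HahnSeries.coeff_smul, negPart_coeff_of_neg E hn0, hY,
        negPart_coeff_of_neg u hn0, hu_low n hn, smul_zero, zero_add]
    have h2 : π⁻¹ * y.coeff n = ((m : L))⁻¹ * ((π ^ (j + 1))⁻¹ * E.coeff n) := by
      rw [hy, HahnSeries.coeff_smul, smul_eq_mul, hG'coeff n hn0, h1, pow_succ, mul_inv]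
      ring
    rw [h2]
    exact A.mul_mem _ _ D.hmA (dv_iff.mp hEdv n)
  obtain ⟨w₁, hw₁V, hw₁I, hw₁y⟩ := D.hlift y hyR hyI hy_low
  refine ⟨w - π ^ j • w₁, V.sub_mem hwV (D.smul_mem_V _ hw₁V),
    (intSub A).sub_mem hwI (smul_mem_intSub hπjA hw₁I), ?_, ?_⟩
  · have : w - π ^ j • w₁ - 1 = (w - 1) - π ^ j • w₁ := by ring
    rw [this]
    refine hw1.sub ?_
    have h3 : Dv A (π ^ j) (π ^ j • w₁) := dv_smul_self hπj0 hw₁I
    have := Dv.pow_le D.hπA D.hπ0 hj h3
    rwa [pow_one] at this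
  · -- the polar part of `w' h`
    obtain ⟨z, hz⟩ : ∃ z, z = (w₁ - y) + w₁ * (h - 1) := ⟨_, rfl⟩
    have hzdv : Dv A π z := by
      rw [hz]
      exact hw₁y.add (Dv.int_mul hw₁I D.hh1)
    have hw₁h : w₁ * h = y + z := by rw [hz]; ring
    have h4 : (w - π ^ j • w₁) * h = u - π ^ j • (w₁ * h) := by
      rw [hu, sub_mul, ← HahnSeries.C_mul_eq_smul, ← HahnSeries.C_mul_eq_smul, mul_assoc]
    have h5 : π ^ j • negPart y = Y + ((m : L))⁻¹ • negPart E := by
      rw [hy, negPart_smul, hG'neg, hnegG]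
      obtain ⟨NE, hNE⟩ : ∃ NE, NE = negPart E := ⟨_, rfl⟩
      rw [← hNE]
      ext n
      simp only [HahnSeries.coeff_smul, HahnSeries.coeff_add, smul_eq_mul]
      have hm := D.hm
      field_simp
    have h6 : negPart ((w - π ^ j • w₁) * h) =
        -(((m : L))⁻¹ • negPart E) - π ^ j • negPart z := by
      rw [h4, negPart_sub, negPart_smul, hw₁h, negPart_add, smul_add, h5, ← hY]
      ring
    rw [h6]
    refine Dv.sub (Dv.neg (Dv.smul D.hmA hEdv.negPart)) ?_
    have := Dv.smul_mul hπj0 hzdv.negPart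
    rwa [← pow_succ] at this

theorem exists_good (D : CTData A π m a V R f h) :
    ∀ j : ℕ, 1 ≤ j → ∃ w, Good A π V h j w := by
  intro j hj
  induction j, hj using Nat.le_induction with
  | base => exact exists_good_one D
  | succ j hj ih =>
    obtain ⟨w, hw⟩ := ih
    exact good_step D hj hw

/-- `V` as an `L`-subspace. -/
def CTData.VSub (D : CTData A π m a V R f h) : Submodule L (LaurentSeries L) where
  carrier := V
  add_mem' := V.add_mem
  zero_mem' := V.zero_mem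
  smul_mem' := fun c _ hw => D.smul_mem_V c hw

/-- the polar coefficients of `w * h`, as a linear map. -/
def polarMap (a : ℕ) (h : LaurentSeries L) : LaurentSeries L →ₗ[L] (Fin a → L) where
  toFun w := fun i => (w * h).coeff (-((i : ℕ) + 1 : ℤ))
  map_add' w w' := by
    ext i
    simp only [add_mul, HahnSeries.coeff_add, Pi.add_apply]
  map_smul' c w := by
    ext i
    simp only [RingHom.id_apply, Pi.smul_apply, smul_eq_mul]
    rw [← HahnSeries.C_mul_eq_smul, mul_assoc, HahnSeries.C_mul_eq_smul, HahnSeries.coeff_smul,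
      smul_eq_mul]

theorem polarMap_apply (a : ℕ) (h w : LaurentSeries L) (i : Fin a) :
    polarMap a h w i = (w * h).coeff (-((i : ℕ) + 1 : ℤ)) := rfl

/-- **CT core**: some nonzero `w ∈ V` has `w * h` without polar part. -/
theorem ct_core (D : CTData A π m a V R f h)
    (harch : ∀ c : L, ∃ j : ℕ, A.valuation (c * π ^ j) < 1) :
    ∃ w ∈ V, w ≠ 0 ∧ IsPS (w * h) := by
  by_contra hcon
  push Not at hcon
  have hπle : A.valuation π ≤ 1 := (A.valuation_le_one_iff π).mpr D.hπA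
  have hπlt : A.valuation π < 1 := by
    obtain ⟨j, hj⟩ := harch 1
    rw [one_mul, map_pow] at hj
    rcases lt_or_eq_of_le hπle with h1 | h1
    · exact h1
    · rw [h1, one_pow] at hj
      exact absurd hj (lt_irrefl _)
  obtain ⟨Φ, hΦ⟩ : ∃ Φ : D.VSub →ₗ[L] (Fin a → L), Φ = (polarMap a h).comp D.VSub.subtype :=
    ⟨_, rfl⟩
  have hΦapply : ∀ (w : D.VSub) (i : Fin a),
      Φ w i = ((w : LaurentSeries L) * h).coeff (-((i : ℕ) + 1 : ℤ)) := by
    intro w i
    rw [hΦ]
    rfl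
  have hker : LinearMap.ker Φ = ⊥ := by
    rw [LinearMap.ker_eq_bot']
    intro w hw
    by_contra hw0
    have hwV : (w : LaurentSeries L) ∈ V := w.2
    have hw0' : (w : LaurentSeries L) ≠ 0 := fun h0 => hw0 (Subtype.ext h0)
    refine hcon w hwV hw0' ?_
    intro n hn
    by_cases hna : n < -(a : ℤ)
    · exact coeff_mul_eq_zero_of_lt (a := -(a : ℤ)) (b := 0) (D.hVord _ hwV) D.hh0
        (by simpa using hna)
    · have hi : (-n - 1).toNat < a := by omega
      have := congrFun hw ⟨(-n - 1).toNat, hi⟩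
      rw [hΦapply] at this
      have hn' : (-(((⟨(-n - 1).toNat, hi⟩ : Fin a) : ℕ) + 1 : ℤ)) = n := by
        simp only
        omega
      rw [hn'] at this
      simpa using this
  obtain ⟨Ψ, hΨ⟩ := Φ.exists_leftInverse_of_injective hker
  obtain ⟨c, hc⟩ : ∃ c : Fin a → L, c = fun i =>
      ((Ψ (fun j => if i = j then 1 else 0) : D.VSub) : LaurentSeries L).coeff 0 := ⟨_, rfl⟩
  have hcoeff : ∀ w : D.VSub, (w : LaurentSeries L).coeff 0 = ∑ i, Φ w i * c i := by
    intro w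
    have h1 : w = Ψ (Φ w) := by
      have := congrArg (fun g : D.VSub →ₗ[L] D.VSub => g w) hΨ
      simpa using this.symm
    have h2 : Ψ (Φ w) = ∑ i, Φ w i • Ψ (fun j => if i = j then 1 else 0) :=
      LinearMap.pi_apply_eq_sum_univ Ψ (Φ w)
    have h3 : (w : LaurentSeries L) =
        ∑ i, Φ w i • ((Ψ (fun j => if i = j then 1 else 0) : D.VSub) : LaurentSeries L) := by
      conv_lhs => rw [h1, h2]
      rw [Submodule.coe_sum]
      rfl
    conv_lhs => rw [h3]
    rw [HahnSeries.coeff_sum]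
    refine Finset.sum_congr rfl fun i _ => ?_
    rw [HahnSeries.coeff_smul, smul_eq_mul, hc]
  obtain ⟨M, hM⟩ : ∃ M : L, ∀ i, A.valuation (c i) ≤ A.valuation M := by
    by_cases hne : (Finset.univ : Finset (Fin a)).Nonempty
    · obtain ⟨i₀, -, hi₀⟩ := Finset.exists_max_image Finset.univ
        (fun i => A.valuation (c i)) hne
      exact ⟨c i₀, fun i => hi₀ i (Finset.mem_univ i)⟩
    · refine ⟨0, fun i => ?_⟩
      exact absurd ⟨i, Finset.mem_univ i⟩ hne
  obtain ⟨j, hj⟩ := harch M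
  obtain ⟨w, hwV, hwI, hw1, hwN⟩ := exists_good D (j + 1) (by omega)
  have hval1 : A.valuation (w.coeff 0) = 1 := by
    have h1 := dv_iff.mp hw1 0
    rw [HahnSeries.coeff_sub, HahnSeries.coeff_one, if_pos rfl] at h1
    have h2 : A.valuation (w.coeff 0 - 1) < 1 := by
      have h3 : w.coeff 0 - 1 = π * (π⁻¹ * (w.coeff 0 - 1)) := by
        rw [← mul_assoc, mul_inv_cancel₀ D.hπ0, one_mul]
      rw [h3, map_mul]
      have h4 : A.valuation (π⁻¹ * (w.coeff 0 - 1)) ≤ 1 := (A.valuation_le_one_iff _).mpr h1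
      calc A.valuation π * A.valuation (π⁻¹ * (w.coeff 0 - 1))
          ≤ A.valuation π * 1 := by gcongr
        _ = A.valuation π := mul_one _
        _ < 1 := hπlt
    have h5 : w.coeff 0 = 1 + (w.coeff 0 - 1) := by ring
    rw [h5]
    exact Valuation.map_one_add_of_lt _ h2
  have hvalΦ : ∀ i : Fin a, A.valuation (Φ ⟨w, hwV⟩ i) ≤ A.valuation (π ^ (j + 1)) := by
    intro i
    rw [hΦapply]
    have hneg : (-((i : ℕ) + 1 : ℤ)) < 0 := by omega
    have h1 := dv_iff.mp hwN (-((i : ℕ) + 1 : ℤ))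
    rw [negPart_coeff_of_neg _ hneg] at h1
    have h2 : A.valuation ((π ^ (j + 1))⁻¹ * (w * h).coeff (-((i : ℕ) + 1 : ℤ))) ≤ 1 :=
      (A.valuation_le_one_iff _).mpr h1
    have hπj0 : π ^ (j + 1) ≠ 0 := pow_ne_zero _ D.hπ0
    have h3 : (w * h).coeff (-((i : ℕ) + 1 : ℤ)) =
        π ^ (j + 1) * ((π ^ (j + 1))⁻¹ * (w * h).coeff (-((i : ℕ) + 1 : ℤ))) := by
      rw [← mul_assoc, mul_inv_cancel₀ hπj0, one_mul]
    show A.valuation ((w * h).coeff (-((i : ℕ) + 1 : ℤ))) ≤ _
    rw [h3, map_mul]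
    calc A.valuation (π ^ (j + 1)) * A.valuation ((π ^ (j + 1))⁻¹ * (w * h).coeff (-((i : ℕ) + 1 : ℤ)))
        ≤ A.valuation (π ^ (j + 1)) * 1 := by gcongr
      _ = A.valuation (π ^ (j + 1)) := mul_one _
  have hsum : A.valuation (∑ i, Φ ⟨w, hwV⟩ i * c i) ≤ A.valuation (π ^ (j + 1)) * A.valuation M := by
    refine Valuation.map_sum_le _ fun i _ => ?_
    rw [map_mul]
    exact mul_le_mul' (hvalΦ i) (hM i)
  have hlt : A.valuation (π ^ (j + 1)) * A.valuation M < 1 := by
    rw [pow_succ, map_mul, mul_assoc, mul_comm (A.valuation π), ← mul_assoc, ← map_mul,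
      mul_comm (π ^ j) M]
    calc A.valuation (M * π ^ j) * A.valuation π
        ≤ A.valuation (M * π ^ j) * 1 := by gcongr
      _ = A.valuation (M * π ^ j) := mul_one _
      _ < 1 := hj
  have := hcoeff ⟨w, hwV⟩
  have hfin : A.valuation (w.coeff 0) < 1 := by
    have h1 : (w.coeff 0) = ∑ i, Φ ⟨w, hwV⟩ i * c i := this
    rw [h1]
    exact lt_of_le_of_lt hsum hlt
  rw [hval1] at hfin
  exact lt_irrefl _ hfin

end Fermat.Agent.S18.CT
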