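import Fermat.Agent.S18.CTWireAux

/-!
# S18, piece 87-U4 (CT wiring), part 4: `AsmData` from `WireData` (after MOVING)

`f` a Gauss unit with reduction `1`, `div f = m D`, `D` supported off the residue disc of `∞bar`.
With `a = 3 g + 1`:  `V = L(a ∞ + D)`, `Ra = L(a ∞)`, `R = L(m a ∞)`,
`Sbig = L(m a ∞ + m |D|)`.
-/

set_option autoImplicit false

noncomputable section

open HahnSeries AlgebraicCurve ModularCurve

namespace Fermat.Agent.S18.CT

variable {L : Type*} [Field L] {A : ValuationSubring L} {k : Type*} [Field k] {π : A →+* k}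
  {F : IntermediateField L (LaurentSeries L)} {Fb : IntermediateField k (LaurentSeries k)}

/-- `|D|` -/
def absDiv (D : Divisor L F) : Divisor L F := D.mapRange (fun n => |n|) (by simp)

theorem absDiv_apply (D : Divisor L F) (P : Place L F) : absDiv D P = |D P| := by
  simp [absDiv]

/-- the data after MOVING. -/
structure Moved (A : ValuationSubring L) (π : A →+* k)
    (F : IntermediateField L (LaurentSeries L)) (Fb : IntermediateField k (LaurentSeries k))
    (r : Place L F → Place k Fb) (Qinf : Place k Fb) (m : ℕ) (f : F) (D : Divisor L F) :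
    Prop where
  hm : (m : k) ≠ 0
  hf : RedV A π F Fb f 1
  hD : ∀ P : Place L F, (m : ℤ) * D P = P.ord f
  hdisc : ∀ P : Place L F, r P = Qinf → D P = 0

variable {g : ℕ} {H : GaussD.Hyp A π F Fb} {r : Place L F → Place k Fb}
  {Pinf : Place L F} {Qinf : Place k Fb}

/-- the pole order `a = 3 g + 1` -/
def aOf (g : ℕ) : ℕ := 3 * g + 1

def dRa (Pinf : Place L F) (g : ℕ) : Divisor L F := Finsupp.single Pinf ((aOf g : ℕ) : ℤ)

def dV (Pinf : Place L F) (g : ℕ) (D : Divisor L F) : Divisor L F := dRa Pinf g + D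

def dR (Pinf : Place L F) (g m : ℕ) : Divisor L F :=
  Finsupp.single Pinf ((m * aOf g : ℕ) : ℤ)

def dS (Pinf : Place L F) (g m : ℕ) (D : Divisor L F) : Divisor L F :=
  dR Pinf g m + (m : ℤ) • absDiv D

section Fields

variable (W : WireData g H r Pinf Qinf) {m : ℕ} {f : F} {D : Divisor L F}
  (M : Moved A π F Fb r Qinf m f D)

include M in
theorem Moved.m_pos : 0 < m :=
  Nat.pos_of_ne_zero (fun h => M.hm (by rw [h, Nat.cast_zero]))

include M in
theorem Moved.f_ne_zero : f ≠ 0 := GaussD.ne_zero_of_redV M.hf one_ne_zero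

include W M in
theorem Moved.D_inf : D Pinf = 0 := M.hdisc Pinf W.hC1

include W M in
theorem Moved.degree_D : Divisor.degree D = 0 := degree_eq_zero_of_mul W.hK M.m_pos M.hD

include W M in
theorem Moved.mapDomain_D : Finsupp.mapDomain r D = 0 := by
  have hO : f ∈ (GaussD.gaussDatum H).O := (GaussD.mem_gaussDatum_O H).mpr ⟨1, M.hf⟩
  exact mapDomain_eq_zero_of_unit (GaussD.gaussDatum H) W.hr M.m_pos ⟨f, hO⟩
    ((GaussD.gaussDatum_red_eq_iff H _ _).mpr M.hf) M.hD

include W in
theorem WireData.redQ_of_mem {E : Divisor L F}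
    (hE : ∀ P : Place L F, r P = Qinf → P ≠ Pinf → E P ≤ 0) {z : F} {zb : Fb}
    (hz : z ∈ riemannRochSpace E) (hred : RedV A π F Fb z zb) :
    RedQ A π (z : LaurentSeries L) (zb : LaurentSeries k) := by
  apply W.hC5 z zb hred
  intro P hP hne
  rcases eq_or_ne z 0 with rfl | h0
  · rw [Place.ord_zero]
  · have h1 := (RPrime.mem_L_iff h0).mp hz P
    have h2 := hE P hP hne
    omega

include W in
theorem WireData.hasPrimitives {E : Divisor L F}
    (hE : ∀ P : Place L F, r P = Qinf → P ≠ Pinf → E P ≤ 0) :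
    Lat.HasPrimitives A π (embL (riemannRochSpace E)) := by
  rintro s ⟨z, hz, rfl⟩ hs0
  have hz0 : z ≠ 0 := by
    rintro rfl
    exact hs0 rfl
  obtain ⟨c, hc, zb, hzb, hred⟩ := H.scal z hz0
  obtain ⟨y, hy, hyb⟩ := W.redQ_of_mem hE ((riemannRochSpace E).smul_mem c hz) hred
  refine ⟨c, hc, y, ?_, ?_⟩
  · rw [← coe_smul_eq]
    exact hy
  · rw [hyb]
    intro h
    exact hzb (Subtype.ext h)

include W in
theorem WireData.exists_lift {E : Divisor L F} (hdeg : 3 * (g : ℤ) < Divisor.degree E)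
    (hE : ∀ P : Place L F, r P = Qinf → P ≠ Pinf → E P ≤ 0) {zb : Fb}
    (hzb : zb ∈ riemannRochSpace (Finsupp.mapDomain r E)) :
    ∃ (z : F) (y : LaurentSeries A), z ∈ riemannRochSpace E ∧
      Lat.incl A y = (z : LaurentSeries L) ∧ coeffMap π y = (zb : LaurentSeries k) := by
  rw [← W.hF3 E hdeg] at hzb
  obtain ⟨z, hz, hred⟩ := exists_redV_of_mem_redSub H hzb
  obtain ⟨y, hy, hyb⟩ := W.redQ_of_mem hE hz hred
  exact ⟨z, y, hz, hy, hyb⟩

include W in
theorem WireData.red_mem {E : Divisor L F} (hdeg : 3 * (g : ℤ) < Divisor.degree E)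
    {z : F} (hz : z ∈ riemannRochSpace E) {y : LaurentSeries A}
    (hy : Lat.incl A y = (z : LaurentSeries L)) :
    ∃ zb : Fb, (zb : LaurentSeries k) = coeffMap π y ∧
      zb ∈ riemannRochSpace (Finsupp.mapDomain r E) := by
  obtain ⟨zb, hzb, hred⟩ := exists_redV_of_incl H hy
  refine ⟨zb, hzb, ?_⟩
  rw [← W.hF3 E hdeg]
  exact mem_redSub_of_redV H hz hred

/-! ### the divisors -/

theorem dRa_apply (P : Place L F) (hP : P ≠ Pinf) : dRa Pinf g P = 0 := by
  classical
  rw [dRa, Finsupp.single_apply, if_neg (fun h => hP h.symm)]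

theorem dRa_inf : dRa Pinf g Pinf = (aOf g : ℕ) := by
  classical
  rw [dRa, Finsupp.single_apply, if_pos rfl]

theorem dR_apply (m : ℕ) (P : Place L F) (hP : P ≠ Pinf) : dR Pinf g m P = 0 := by
  classical
  rw [dR, Finsupp.single_apply, if_neg (fun h => hP h.symm)]

theorem dR_inf (m : ℕ) : dR Pinf g m Pinf = ((m * aOf g : ℕ) : ℤ) := by
  classical
  rw [dR, Finsupp.single_apply, if_pos rfl]

include W in
theorem WireData.degree_dRa : Divisor.degree (dRa Pinf g) = (aOf g : ℕ) := by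
  rw [dRa, RPrime.degree_single_one W.hK.deg_one]

include W in
theorem WireData.degree_dR (m : ℕ) : Divisor.degree (dR Pinf g m) = ((m * aOf g : ℕ) : ℤ) := by
  rw [dR, RPrime.degree_single_one W.hK.deg_one]

include W M in
theorem Moved.degree_dV : Divisor.degree (dV Pinf g D) = (aOf g : ℕ) := by
  rw [dV, map_add, W.degree_dRa, M.degree_D W, add_zero]

include W in
theorem WireData.mapDomain_dRa :
    Finsupp.mapDomain r (dRa Pinf g) = Finsupp.single Qinf ((aOf g : ℕ) : ℤ) := by
  rw [dRa, Finsupp.mapDomain_single, W.hC1]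

include W in
theorem WireData.mapDomain_dR (m : ℕ) :
    Finsupp.mapDomain r (dR Pinf g m) = Finsupp.single Qinf ((m * aOf g : ℕ) : ℤ) := by
  rw [dR, Finsupp.mapDomain_single, W.hC1]

include W M in
theorem Moved.mapDomain_dV :
    Finsupp.mapDomain r (dV Pinf g D) = Finsupp.single Qinf ((aOf g : ℕ) : ℤ) := by
  rw [dV, Finsupp.mapDomain_add, W.mapDomain_dRa, M.mapDomain_D W, add_zero]

theorem three_g_lt_aOf : 3 * (g : ℤ) < ((aOf g : ℕ) : ℤ) := by
  rw [aOf]
  push_cast
  omega

include M in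
theorem Moved.aOf_le : aOf g ≤ m * aOf g := Nat.le_mul_of_pos_left _ M.m_pos

include M in
theorem Moved.three_g_lt_mul : 3 * (g : ℤ) < ((m * aOf g : ℕ) : ℤ) := by
  have h1 := three_g_lt_aOf (g := g)
  have h2 := M.aOf_le (g := g)
  omega

theorem dRa_disc : ∀ P : Place L F, r P = Qinf → P ≠ Pinf → dRa Pinf g P ≤ 0 :=
  fun P _ hne => (dRa_apply P hne).le

theorem dR_disc (m : ℕ) : ∀ P : Place L F, r P = Qinf → P ≠ Pinf → dR Pinf g m P ≤ 0 :=
  fun P _ hne => (dR_apply m P hne).le

theorem single_disc (n : ℤ) :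
    ∀ P : Place L F, r P = Qinf → P ≠ Pinf → (Finsupp.single Pinf n : Divisor L F) P ≤ 0 := by
  classical
  intro P _ hne
  rw [Finsupp.single_apply, if_neg (fun h => hne h.symm)]

include M in
theorem Moved.dV_disc : ∀ P : Place L F, r P = Qinf → P ≠ Pinf → dV Pinf g D P ≤ 0 := by
  intro P hP hne
  rw [dV, Finsupp.add_apply, dRa_apply P hne, M.hdisc P hP]
  simp

include M in
theorem Moved.dS_disc : ∀ P : Place L F, r P = Qinf → P ≠ Pinf → dS Pinf g m D P ≤ 0 := by
  intro P hP hne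
  rw [dS, Finsupp.add_apply, dR_apply m P hne, Finsupp.smul_apply, absDiv_apply, M.hdisc P hP]
  simp

include M in
theorem Moved.dV_le_dS : dV Pinf g D ≤ dS Pinf g m D := by
  classical
  rw [Finsupp.le_def]
  intro P
  have hm : (1 : ℤ) ≤ m := by exact_mod_cast M.m_pos
  have h1 : D P ≤ (m : ℤ) * |D P| := by
    have := le_abs_self (D P)
    have h0 := abs_nonneg (D P)
    nlinarith
  have h2 : ((aOf g : ℕ) : ℤ) ≤ ((m * aOf g : ℕ) : ℤ) := by exact_mod_cast M.aOf_le
  rw [dV, dS, dRa, dR, Finsupp.add_apply, Finsupp.add_apply, Finsupp.smul_apply, absDiv_apply,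
    smul_eq_mul, Finsupp.single_apply, Finsupp.single_apply]
  split_ifs <;> omega

theorem dR_le_dS (m : ℕ) (D : Divisor L F) : dR Pinf g m ≤ dS Pinf g m D := by
  rw [Finsupp.le_def]
  intro P
  rw [dS, Finsupp.add_apply, Finsupp.smul_apply, absDiv_apply, smul_eq_mul]
  have h0 := abs_nonneg (D P)
  have : (0 : ℤ) ≤ (m : ℤ) * |D P| := mul_nonneg (by positivity) h0
  omega

include M in
theorem Moved.dRa_le_dR : dRa Pinf g ≤ dR Pinf g m :=
  single_le_single Pinf (by exact_mod_cast M.aOf_le)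

theorem dR_nonneg (m : ℕ) : (0 : Divisor L F) ≤ dR Pinf g m :=
  single_nonneg' Pinf (by positivity)

include M in
theorem Moved.f_mem : f ∈ riemannRochSpace (-((m : ℤ) • D)) := by
  rw [RPrime.mem_L_iff M.f_ne_zero]
  intro P
  rw [Finsupp.neg_apply, Finsupp.smul_apply, smul_eq_mul, M.hD P]
  omega

include M in
theorem Moved.f_mem_dS : f ∈ riemannRochSpace (dS Pinf g m D) := by
  apply RPrime.L_mono _ M.f_mem
  rw [Finsupp.le_def]
  intro P
  rw [dS, Finsupp.add_apply, Finsupp.smul_apply, absDiv_apply, smul_eq_mul, Finsupp.neg_apply,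
    Finsupp.smul_apply, smul_eq_mul]
  have h1 := Finsupp.le_def.mp (dR_nonneg (Pinf := Pinf) (g := g) m) P
  simp only [Finsupp.coe_zero, Pi.zero_apply] at h1
  have h2 := neg_abs_le (D P)
  have hm : (0 : ℤ) ≤ m := by positivity
  nlinarith

end Fields

end Fermat.Agent.S18.CT
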