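import Fermat.Agent.S18.MaxPrinciple
import Fermat.Agent.S18.RPrimeDrop

/-!
# S18, piece 87-U4 (CT wiring), part 2: MOVING

`f` a unit of the valuation ring with reduction `1` and `div f = m D`.  For every place `P1` there
is `y ≠ 0` such that `f₂ = f / y ^ m` is again a unit with reduction `1`, `div f₂ = m D₂`, and
`D₂` is supported in the residue disc `r⁻¹(r P1)` of `P1`.
-/

set_option autoImplicit false

open AlgebraicCurve

noncomputable section

namespace Fermat.Agent.S18.CT

variable {K F k Fb : Type*} [Field K] [Field F] [Algebra K F]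
  [Field k] [Field Fb] [Algebra k Fb] {g : ℕ}

/-- `D / m` -/
def divDiv (D : Divisor K F) (m : ℕ) : Divisor K F :=
  D.mapRange (fun n => n / (m : ℤ)) (by simp)

theorem divDiv_apply (D : Divisor K F) (m : ℕ) (P : Place K F) :
    divDiv D m P = D P / (m : ℤ) := by
  simp [divDiv]

theorem exists_div_root (hK : RPrime.CurveRR K F g) {f : F} {m : ℕ}
    (hdiv : ∀ P : Place K F, (m : ℤ) ∣ P.ord f) :
    ∃ D : Divisor K F, ∀ P : Place K F, (m : ℤ) * D P = P.ord f := by
  refine ⟨divDiv (RPrime.divOf hK f) m, fun P => ?_⟩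
  rw [divDiv_apply, RPrime.divOf_apply]
  exact Int.mul_ediv_cancel' (hdiv P)

theorem degree_eq_zero_of_mul (hK : RPrime.CurveRR K F g) {f : F} {m : ℕ} (hm : 0 < m)
    {D : Divisor K F} (hD : ∀ P : Place K F, (m : ℤ) * D P = P.ord f) :
    Divisor.degree D = 0 := by
  have h1 : Divisor.degree ((m : ℤ) • D) = 0 :=
    RPrime.degree_eq_zero_of_div hK (f := f) (fun v => by
      rw [Finsupp.smul_apply, smul_eq_mul, hD])
  rw [map_zsmul, smul_eq_mul] at h1
  have hm' : (m : ℤ) ≠ 0 := by exact_mod_cast hm.ne'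
  exact (mul_eq_zero.mp h1).resolve_left hm'

theorem mapDomain_eq_zero_of_unit (R : RPrime.RedDatum K F k Fb) {r : Place K F → Place k Fb}
    (hr : RPrime.DivCompatR R r) {m : ℕ} (hm : 0 < m) (u : R.O) (hu1 : R.red u = 1)
    {D : Divisor K F} (hD : ∀ P : Place K F, (m : ℤ) * D P = P.ord (u : F)) :
    Finsupp.mapDomain r D = 0 := by
  have hunit : IsUnit u := R.isUnit_of_red_ne_zero u (by rw [hu1]; exact one_ne_zero)
  have hm' : (m : ℤ) ≠ 0 := by exact_mod_cast hm.ne'
  ext Q
  have h1 := hr u hunit ((m : ℤ) • D) (fun P => by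
    rw [Finsupp.smul_apply, smul_eq_mul, hD]) Q
  rw [hu1, Place.ord_one, Finsupp.mapDomain_smul, Finsupp.smul_apply, smul_eq_mul] at h1
  simpa using (mul_eq_zero.mp h1).resolve_left hm'

/-- an effective divisor whose push-forward vanishes at `Q` vanishes on `r⁻¹(Q)`. -/
theorem eq_zero_of_mapDomain_eq_zero (r : Place K F → Place k Fb) {E : Divisor K F}
    (hE : 0 ≤ E) {Q : Place k Fb} (hQ : Finsupp.mapDomain r E Q = 0) (P : Place K F)
    (hP : r P = Q) : E P = 0 := by
  classical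
  rw [RPrime.mapDomain_apply_eq_sum] at hQ
  have hnn : ∀ P' ∈ E.support, 0 ≤ (if r P' = Q then E P' else 0) := by
    intro P' _
    split_ifs
    · exact Finsupp.le_def.mp hE P'
    · exact le_rfl
  by_cases hPs : P ∈ E.support
  · have := (Finset.sum_eq_zero_iff_of_nonneg hnn).mp hQ P hPs
    rwa [if_pos hP] at this
  · simpa using hPs

/-- **MOVING**. -/
theorem exists_moving (hK : RPrime.CurveRR K F g)
    (R : RPrime.RedDatum K F k Fb) {r : Place K F → Place k Fb}
    (hr : RPrime.DivCompatR R r)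
    (hF3 : ∀ E : Divisor K F, 3 * (g : ℤ) < Divisor.degree E →
      R.redSub (riemannRochSpace E) = riemannRochSpace (Finsupp.mapDomain r E))
    (P1 : Place K F) {m : ℕ} (hm : 0 < m) (u : R.O) (hu1 : R.red u = 1)
    (hdiv : ∀ P : Place K F, (m : ℤ) ∣ P.ord (u : F)) :
    ∃ (y u₂ : R.O) (D₂ : Divisor K F), (y : F) ≠ 0 ∧ u = u₂ * y ^ m ∧ R.red u₂ = 1 ∧
      (∀ P : Place K F, (m : ℤ) * D₂ P = P.ord (u₂ : F)) ∧
      (∀ P : Place K F, r P ≠ r P1 → D₂ P = 0) := by
  classical
  obtain ⟨D, hD⟩ := exists_div_root hK hdiv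
  have hdegD : Divisor.degree D = 0 := degree_eq_zero_of_mul hK hm hD
  have hrD : Finsupp.mapDomain r D = 0 := mapDomain_eq_zero_of_unit R hr hm u hu1 hD
  -- the divisor `E = n P1 - D`
  obtain ⟨n, hn⟩ : ∃ n : ℕ, 3 * (g : ℤ) < (n : ℤ) := ⟨3 * g + 1, by push_cast; omega⟩
  set E : Divisor K F := Finsupp.single P1 (n : ℤ) - D with hE
  have hdegE : Divisor.degree E = n := by
    rw [hE, map_sub, RPrime.degree_single_one hK.deg_one, hdegD, sub_zero]
  have hrE : Finsupp.mapDomain r E = Finsupp.single (r P1) (n : ℤ) := by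
    rw [hE, RPrime.mapDomain_sub', hrD, sub_zero, Finsupp.mapDomain_single]
  have h1mem : (1 : Fb) ∈ riemannRochSpace (Finsupp.mapDomain r E) := by
    rw [hrE]
    apply RPrime.one_mem_L
    rw [Finsupp.le_def]
    intro Q
    rw [Finsupp.single_apply]
    simp only [Finsupp.coe_zero, Pi.zero_apply]
    split_ifs
    · exact_mod_cast Nat.zero_le n
    · exact le_rfl
  rw [← hF3 E (by rw [hdegE]; exact hn)] at h1mem
  obtain ⟨y, hyE, hy1⟩ := h1mem
  have hyunit : IsUnit y := R.isUnit_of_red_ne_zero y (by rw [hy1]; exact one_ne_zero)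
  have hy0 : (y : F) ≠ 0 := RPrime.coe_ne_zero_of_isUnit hyunit
  obtain ⟨yi, hyi⟩ := hyunit
  -- the inverse
  set z : R.O := ((yi⁻¹ : R.Oˣ) : R.O) with hz
  have hzy : z * y = 1 := by rw [hz, ← hyi]; exact yi.inv_mul
  have hredz : R.red z = 1 := by
    have := congrArg R.red hzy
    rwa [map_mul, hy1, mul_one, map_one] at this
  have hzF : (z : F) = (y : F)⁻¹ := by
    have := congrArg (Subtype.val) hzy
    simp only [MulMemClass.coe_mul, OneMemClass.coe_one] at this
    exact eq_inv_of_mul_eq_one_left this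
  set u₂ : R.O := u * z ^ m with hu₂
  set D₂ : Divisor K F := D - RPrime.divOf hK (y : F) with hD₂
  have hu0 : (u : F) ≠ 0 :=
    RPrime.coe_ne_zero_of_isUnit (R.isUnit_of_red_ne_zero u (by rw [hu1]; exact one_ne_zero))
  have hz0 : (z : F) ≠ 0 := by rw [hzF]; exact inv_ne_zero hy0
  refine ⟨y, u₂, D₂, hy0, ?_, ?_, ?_, ?_⟩
  · rw [hu₂, mul_assoc, ← mul_pow, hzy, one_pow, mul_one]
  · rw [hu₂, map_mul, map_pow, hu1, hredz, one_pow, mul_one]
  · intro P
    have : ((u₂ : R.O) : F) = (u : F) * (z : F) ^ m := rfl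
    rw [this, P.ord_mul hu0 (pow_ne_zero _ hz0), RPrime.ord_pow, hzF, P.ord_inv, hD₂,
      Finsupp.sub_apply, RPrime.divOf_apply, ← hD P]
    ring
  · intro P hP
    have hle : ∀ v : Place K F, D₂ v ≤ (Finsupp.single P1 (n : ℤ) : Divisor K F) v := by
      intro v
      have := (RPrime.mem_L_iff hy0).mp hyE v
      rw [hE, Finsupp.sub_apply] at this
      rw [hD₂, Finsupp.sub_apply, RPrime.divOf_apply]
      omega
    set E' : Divisor K F := Finsupp.single P1 (n : ℤ) - D₂ with hE'
    have hE'0 : 0 ≤ E' := by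
      rw [Finsupp.le_def]
      intro v
      rw [hE', Finsupp.sub_apply]
      have := hle v
      simp only [Finsupp.coe_zero, Pi.zero_apply]
      omega
    have hrDy : Finsupp.mapDomain r (RPrime.divOf hK (y : F)) = 0 := by
      ext Q
      have := hr y (hyi ▸ yi.isUnit) (RPrime.divOf hK (y : F))
        (fun P' => RPrime.divOf_apply hK _ P') Q
      rw [this, hy1, Place.ord_one]
      rfl
    have hrE' : Finsupp.mapDomain r E' = Finsupp.single (r P1) (n : ℤ) := by
      rw [hE', hD₂, RPrime.mapDomain_sub', RPrime.mapDomain_sub', hrD, hrDy, sub_zero, sub_zero,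
        Finsupp.mapDomain_single]
    have h0 : Finsupp.mapDomain r E' (r P) = 0 := by
      rw [hrE', Finsupp.single_apply, if_neg (fun h => hP h.symm)]
    have h1 := eq_zero_of_mapDomain_eq_zero r hE'0 h0 P rfl
    rw [hE', Finsupp.sub_apply, Finsupp.single_apply,
      if_neg (fun h : P1 = P => hP (by rw [h]))] at h1
    omega

end Fermat.Agent.S18.CT
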