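import Fermat.Agent.S18.CTWireDefs
import Fermat.Agent.S18.CTWireMove

/-!
# S18, piece 87-U4 (CT wiring), part 3: auxiliary lemmas

`q`-orders at the place at infinity, constants, `q`-integral elements of `F`.
-/

set_option autoImplicit false

noncomputable section

open HahnSeries AlgebraicCurve ModularCurve

namespace Fermat.Agent.S18.CT

section Curve

variable {K E : Type*} [Field K] [Field E] [Algebra K E] {g : ℕ}

/-- `L(0)` consists of constants. -/
theorem exists_const_of_mem_L_zero (hK : RPrime.CurveRR K E g) {w : E}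
    (hw : w ∈ riemannRochSpace (0 : Divisor K E)) : ∃ c : K, w = algebraMap K E c := by
  have hfin := hK.finite (0 : Divisor K E)
  have h1mem : (1 : E) ∈ riemannRochSpace (0 : Divisor K E) := RPrime.one_mem_L le_rfl
  have hne : (⟨1, h1mem⟩ : riemannRochSpace (0 : Divisor K E)) ≠ 0 := fun h =>
    one_ne_zero (congrArg Subtype.val h)
  have hle := hK.dim_le (0 : Divisor K E) le_rfl
  rw [map_zero, zero_add] at hle
  have hpos : 0 < Module.finrank K (riemannRochSpace (0 : Divisor K E)) :=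
    Module.finrank_pos_iff_exists_ne_zero.mpr ⟨_, hne⟩
  have h1 : Module.finrank K (riemannRochSpace (0 : Divisor K E)) = 1 := by omega
  obtain ⟨c, hc⟩ := exists_smul_eq_of_finrank_eq_one h1 hne ⟨w, hw⟩
  refine ⟨c, ?_⟩
  have := congrArg Subtype.val hc
  simp only [Submodule.coe_smul] at this
  rw [← this, Algebra.smul_def, mul_one]

/-- a nonzero element of `L(E)` has `deg E ≥ 0`. -/
theorem degree_nonneg_of_mem_L (hK : RPrime.CurveRR K E g) {D : Divisor K E} {w : E}
    (hw : w ∈ riemannRochSpace D) (hw0 : w ≠ 0) : 0 ≤ Divisor.degree D := by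
  have h1 : 0 ≤ RPrime.divOf hK w + D := by
    rw [Finsupp.le_def]
    intro v
    have := (RPrime.mem_L_iff hw0).mp hw v
    simp only [Finsupp.coe_zero, Pi.zero_apply, Finsupp.add_apply, RPrime.divOf_apply]
    omega
  have h2 := RPrime.degree_nonneg hK.deg_one h1
  rwa [map_add, RPrime.degree_divOf, zero_add] at h2

theorem single_le_single (P : Place K E) {a b : ℤ} (h : a ≤ b) :
    (Finsupp.single P a : Divisor K E) ≤ Finsupp.single P b := by
  classical
  rw [Finsupp.le_def]
  intro v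
  rw [Finsupp.single_apply, Finsupp.single_apply]
  split_ifs
  · exact h
  · exact le_rfl

theorem single_nonneg' (P : Place K E) {a : ℤ} (h : 0 ≤ a) :
    (0 : Divisor K E) ≤ Finsupp.single P a := by
  have := single_le_single P h
  rwa [Finsupp.single_zero] at this

end Curve

section Inf

variable {L : Type*} [Field L] {F : IntermediateField L (LaurentSeries L)} {Pinf : Place L F}

theorem coeff_eq_zero_of_le_ord
    (hP : ∀ y : F, y ≠ 0 → (Pinf.ord y : WithTop ℤ) = (y : LaurentSeries L).orderTop)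
    (z : F) (n : ℤ) (hz : z = 0 ∨ n ≤ Pinf.ord z) (i : ℤ) (hi : i < n) :
    (z : LaurentSeries L).coeff i = 0 := by
  rcases eq_or_ne z 0 with rfl | hz0
  · simp
  · apply HahnSeries.coeff_eq_zero_of_lt_orderTop
    rw [← hP z hz0]
    have := hz.resolve_left hz0
    exact_mod_cast lt_of_lt_of_le hi this

theorem le_ord_of_coeff_eq_zero
    (hP : ∀ y : F, y ≠ 0 → (Pinf.ord y : WithTop ℤ) = (y : LaurentSeries L).orderTop)
    (z : F) (hz0 : z ≠ 0) (n : ℤ) (h : ∀ i : ℤ, i < n → (z : LaurentSeries L).coeff i = 0) :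
    n ≤ Pinf.ord z := by
  by_contra hlt
  push Not at hlt
  exact HahnSeries.coeff_orderTop_ne (hP z hz0).symm (h _ hlt)

theorem coeff_ord_ne_zero
    (hP : ∀ y : F, y ≠ 0 → (Pinf.ord y : WithTop ℤ) = (y : LaurentSeries L).orderTop)
    (z : F) (hz0 : z ≠ 0) : (z : LaurentSeries L).coeff (Pinf.ord z) ≠ 0 :=
  HahnSeries.coeff_orderTop_ne (hP z hz0).symm

/-- membership in `L(n ∞ + E₀)` bounds the `q`-order. -/
theorem coeff_eq_zero_of_mem_L
    (hP : ∀ y : F, y ≠ 0 → (Pinf.ord y : WithTop ℤ) = (y : LaurentSeries L).orderTop)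
    {D : Divisor L F} {z : F} (hz : z ∈ riemannRochSpace D) {n : ℤ} (hn : D Pinf ≤ n)
    (i : ℤ) (hi : i < -n) : (z : LaurentSeries L).coeff i = 0 := by
  apply coeff_eq_zero_of_le_ord hP z (-n) ?_ i hi
  rcases eq_or_ne z 0 with h0 | h0
  · exact Or.inl h0
  · right
    have := (RPrime.mem_L_iff h0).mp hz Pinf
    omega

end Inf

section Gauss

variable {L : Type*} [Field L] {A : ValuationSubring L} {k : Type*} [Field k] {π : A →+* k}
  {F : IntermediateField L (LaurentSeries L)} {Fb : IntermediateField k (LaurentSeries k)}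

/-- a `q`-integral element of `F` is Gauss-integral and its `q`-reduction lies in `Fb`. -/
theorem exists_redV_of_incl (H : GaussD.Hyp A π F Fb) {z : F} {y : LaurentSeries A}
    (hy : Lat.incl A y = (z : LaurentSeries L)) :
    ∃ zb : Fb, (zb : LaurentSeries k) = coeffMap π y ∧ RedV A π F Fb z zb := by
  have hmem : Lat.incl A y ∈ F := by rw [hy]; exact z.2
  have hb : coeffMap π y ∈ Fb := Lat.red_mem_of_scal H.ker H.scal hmem
  exact ⟨⟨coeffMap π y, hb⟩, rfl, GaussD.redV_of_redQ ⟨y, hy, rfl⟩⟩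

theorem mem_redSub_of_redV (H : GaussD.Hyp A π F Fb) {S : Submodule L F} {z : F} {zb : Fb}
    (hz : z ∈ S) (hred : RedV A π F Fb z zb) : zb ∈ (GaussD.gaussDatum H).redSub S := by
  have hO : z ∈ (GaussD.gaussDatum H).O := (GaussD.mem_gaussDatum_O H).mpr ⟨zb, hred⟩
  exact ⟨⟨z, hO⟩, hz, (GaussD.gaussDatum_red_eq_iff H _ _).mpr hred⟩

theorem exists_redV_of_mem_redSub (H : GaussD.Hyp A π F Fb) {S : Submodule L F} {zb : Fb}
    (h : zb ∈ (GaussD.gaussDatum H).redSub S) : ∃ z : F, z ∈ S ∧ RedV A π F Fb z zb := by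
  obtain ⟨y, hy, rfl⟩ := h
  exact ⟨y, hy, GaussD.redV_gaussDatum_red H y⟩

end Gauss

end Fermat.Agent.S18.CT
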