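import Mathlib

/-!
# S18, piece 87-P3d (algebra): embeddings of a simple extension `F = E(y)`

* `exists_lift`: a root `ρ` of the minimal polynomial of `y` gives a ring homomorphism
  `σ : F → L'` extending `φ : E → L'` with `σ y = ρ`;
* `ringHom_ext_of_adjoin`: two ring homomorphisms which agree on `E` and at `y` are equal.
-/

set_option autoImplicit false

open Polynomial IntermediateField

namespace Fermat.Agent.S18.CuspL

variable {E F L' : Type*} [Field E] [Field F] [Field L'] [Algebra E F]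

theorem ringHom_ext_of_adjoin (y : F) (hgen : E⟮y⟯ = ⊤) (σ σ' : F →+* L')
    (hE : ∀ e, σ (algebraMap E F e) = σ' (algebraMap E F e)) (hy : σ y = σ' y) : σ = σ' := by
  let S : Subfield F := RingHom.eqLocusField σ σ'
  let T : IntermediateField E F := S.toIntermediateField (fun e => hE e)
  have h1 : E⟮y⟯ ≤ T := by
    rw [adjoin_simple_le_iff]
    exact hy
  rw [hgen] at h1
  ext f
  exact h1 (IntermediateField.mem_top (x := f))

theorem exists_lift (φ : E →+* L') (y : F) (hy : IsIntegral E y) (hgen : E⟮y⟯ = ⊤) (ρ : L')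
    (hρ : ((minpoly E y).map φ).eval ρ = 0) :
    ∃ σ : F →+* L', (∀ e, σ (algebraMap E F e) = φ e) ∧ σ y = ρ := by
  let _ : Algebra E L' := φ.toAlgebra
  have hφ : algebraMap E L' = φ := rfl
  have hmem : ρ ∈ (minpoly E y).aroots L' := by
    rw [mem_aroots]
    refine ⟨minpoly.ne_zero hy, ?_⟩
    rw [aeval_def, ← eval_map, hφ]
    exact hρ
  let τ : E⟮y⟯ →ₐ[E] L' := (algHomAdjoinIntegralEquiv E hy).symm ⟨ρ, hmem⟩
  have hτ : τ (AdjoinSimple.gen E y) = ρ := algHomAdjoinIntegralEquiv_symm_apply_gen E hy ⟨ρ, hmem⟩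
  let e1 : F ≃ₐ[E] (⊤ : IntermediateField E F) := (IntermediateField.topEquiv (F := E) (E := F)).symm
  let e2 : (⊤ : IntermediateField E F) ≃ₐ[E] E⟮y⟯ := IntermediateField.equivOfEq hgen.symm
  let σ : F →ₐ[E] L' := τ.comp ((e2 : (⊤ : IntermediateField E F) →ₐ[E] E⟮y⟯).comp
    (e1 : F →ₐ[E] (⊤ : IntermediateField E F)))
  refine ⟨σ.toRingHom, fun e => ?_, ?_⟩
  · exact σ.commutes e
  · show τ (e2 (e1 y)) = ρ
    rw [← hτ]
    congr 1

end Fermat.Agent.S18.CuspL
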