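import Mathlib

/-!
# S18, piece 87-P3d (algebra): minimal polynomials over `E` of elements whose conjugate
expansions are units

`F / E` an algebraic field extension, `σ i : F → k((t))` a family of embeddings which all restrict
to the same `φ : E → k((t))` and which exhaust the `E`-embeddings of `F` into an algebraic closure
of `k((t))`.  If all `σ i f` have order `0`, then the coefficients of the minimal polynomial of
`f` over `E` have expansions of order `≥ 0`, and the constant coefficient has order `0`.
-/

set_option autoImplicit false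

open Polynomial

namespace Fermat.Agent.S18.CuspL

variable {k : Type*} [Field k]

theorem order_mul_nonneg' {x y : LaurentSeries k} (hx : 0 ≤ x.order) (hy : 0 ≤ y.order) :
    0 ≤ (x * y).order := by
  by_cases hx0 : x = 0
  · rw [hx0, zero_mul, HahnSeries.order_zero]
  by_cases hy0 : y = 0
  · rw [hy0, mul_zero, HahnSeries.order_zero]
  rw [HahnSeries.order_mul hx0 hy0]
  exact add_nonneg hx hy

theorem order_sub_nonneg' {x y : LaurentSeries k} (hx : 0 ≤ x.order) (hy : 0 ≤ y.order) :
    0 ≤ (x - y).order := by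
  by_cases h : x - y = 0
  · rw [h, HahnSeries.order_zero]
  have h1 : x + -y ≠ 0 := by rwa [← sub_eq_add_neg]
  have h2 := HahnSeries.min_order_le_order_add h1
  rw [HahnSeries.order_neg, ← sub_eq_add_neg] at h2
  exact le_trans (le_min hx hy) h2

/-- coefficients of `∏ (X - u)` for units `u` of `k[[t]]` -/
theorem prod_X_sub_C_coeff_order (U : Multiset (LaurentSeries k))
    (hU : ∀ u ∈ U, u ≠ 0 ∧ u.order = 0) :
    (∀ n, 0 ≤ ((U.map fun u => (X - C u : (LaurentSeries k)[X])).prod.coeff n).order) ∧
      ((U.map fun u => (X - C u : (LaurentSeries k)[X])).prod.coeff 0) ≠ 0 ∧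
      ((U.map fun u => (X - C u : (LaurentSeries k)[X])).prod.coeff 0).order = 0 := by
  induction U using Multiset.induction_on with
  | empty =>
    refine ⟨fun n => ?_, ?_, ?_⟩
    · simp only [Multiset.map_zero, Multiset.prod_zero, coeff_one]
      split_ifs
      · rw [HahnSeries.order_one]
      · rw [HahnSeries.order_zero]
    · simp
    · simp [HahnSeries.order_one]
  | cons a U ih =>
    obtain ⟨h1, h2, h3⟩ := ih (fun u hu => hU u (Multiset.mem_cons_of_mem hu))
    obtain ⟨ha0, ha⟩ := hU a (Multiset.mem_cons_self a U)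
    set p := (U.map fun u => (X - C u : (LaurentSeries k)[X])).prod with hp
    have hprod : ((a ::ₘ U).map fun u => (X - C u : (LaurentSeries k)[X])).prod =
        p * (X - C a) := by
      rw [Multiset.map_cons, Multiset.prod_cons, mul_comm]
    rw [hprod]
    have hc0 : (p * (X - C a)).coeff 0 = -(p.coeff 0 * a) := by
      rw [mul_coeff_zero]
      simp
    refine ⟨fun n => ?_, ?_, ?_⟩
    · rcases n with _ | n
      · rw [hc0, HahnSeries.order_neg]
        exact order_mul_nonneg' (h1 0) ha.ge
      · rw [coeff_mul_X_sub_C]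
        exact order_sub_nonneg' (h1 n) (order_mul_nonneg' (h1 (n + 1)) ha.ge)
    · rw [hc0]
      exact neg_ne_zero.mpr (mul_ne_zero h2 ha0)
    · rw [hc0, HahnSeries.order_neg, HahnSeries.order_mul h2 ha0, h3, ha, add_zero]

/-- **Minimal polynomials of elements with unit conjugates.** -/
theorem minpoly_coeff_order {E F : Type*} [Field E] [Field F] [Algebra E F]
    [Algebra.IsAlgebraic E F]
    (φ : E →+* LaurentSeries k) {I : Type*} (σ : I → F →+* LaurentSeries k)
    (hex : ∀ ψ : F →+* AlgebraicClosure (LaurentSeries k),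
      (∀ e, ψ (algebraMap E F e) =
        algebraMap (LaurentSeries k) (AlgebraicClosure (LaurentSeries k)) (φ e)) →
      ∃ i, ∀ f, ψ f = algebraMap (LaurentSeries k) (AlgebraicClosure (LaurentSeries k)) (σ i f))
    (f : F) (hf : f ≠ 0) (h0 : ∀ i, (σ i f).order = 0) :
    (∀ n, 0 ≤ (φ ((minpoly E f).coeff n)).order) ∧ (φ ((minpoly E f).coeff 0)).order = 0 := by
  classical
  let _ : Algebra E (LaurentSeries k) := φ.toAlgebra
  have hφ : algebraMap E (LaurentSeries k) = φ := rfl
  set Ω := AlgebraicClosure (LaurentSeries k) with hΩ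
  set ι : LaurentSeries k →+* Ω := algebraMap (LaurentSeries k) Ω with hι
  have hιinj : Function.Injective ι := (algebraMap (LaurentSeries k) Ω).injective
  have htower : algebraMap E Ω = ι.comp φ :=
    IsScalarTower.algebraMap_eq E (LaurentSeries k) Ω
  set P := minpoly E f with hP
  have hint : IsIntegral E f := Algebra.IsIntegral.isIntegral f
  have hPmonic : P.Monic := minpoly.monic hint
  -- the roots of `P` in `Ω`
  have hroots : ∀ ρ ∈ (P.map (algebraMap E Ω)).roots,
      ∃ u : LaurentSeries k, ι u = ρ ∧ u ≠ 0 ∧ u.order = 0 := by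
    intro ρ hρ
    have h1 : ρ ∈ (minpoly E f).rootSet Ω := by
      rw [Polynomial.rootSet, Polynomial.aroots]
      simpa using hρ
    rw [← Algebra.IsAlgebraic.range_eval_eq_rootSet_minpoly (F := E) (K := F) (A := Ω) f] at h1
    obtain ⟨ψ, hψ⟩ := h1
    obtain ⟨i, hi⟩ := hex ψ.toRingHom (fun e => by
      have := ψ.commutes e
      simp only [AlgHom.toRingHom_eq_coe, RingHom.coe_coe]
      rw [this, htower]
      rfl)
    refine ⟨σ i f, ?_, ?_, h0 i⟩
    · rw [← hψ]
      exact (hi f).symm
    · exact fun h => hf ((σ i).injective (by rw [h, map_zero]))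
  have hsplit : (P.map (algebraMap E Ω)).Splits := IsAlgClosed.splits _
  have hprod := hsplit.eq_prod_roots_of_monic (hPmonic.map _)
  let u : Ω → LaurentSeries k := fun ρ =>
    if h : ∃ u : LaurentSeries k, ι u = ρ ∧ u ≠ 0 ∧ u.order = 0 then h.choose else 1
  have hu : ∀ ρ ∈ (P.map (algebraMap E Ω)).roots, ι (u ρ) = ρ ∧ u ρ ≠ 0 ∧ (u ρ).order = 0 := by
    intro ρ hρ
    have h := hroots ρ hρ
    simp only [u, dif_pos h]
    exact h.choose_spec
  set R := (P.map (algebraMap E Ω)).roots with hR
  have hPL : P.map φ = ((R.map u).map fun v => (X - C v : (LaurentSeries k)[X])).prod := by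
    apply Polynomial.map_injective ι hιinj
    rw [Polynomial.map_map, ← htower, hprod, Polynomial.map_multiset_prod, Multiset.map_map,
      Multiset.map_map]
    congr 1
    apply Multiset.map_congr rfl
    intro ρ hρ
    simp only [Function.comp_apply, Polynomial.map_sub, Polynomial.map_X, Polynomial.map_C]
    rw [(hu ρ hρ).1]
  have hU : ∀ v ∈ R.map u, v ≠ 0 ∧ v.order = 0 := by
    intro v hv
    obtain ⟨ρ, hρ, rfl⟩ := Multiset.mem_map.mp hv
    exact (hu ρ hρ).2
  obtain ⟨h1, -, h3⟩ := prod_X_sub_C_coeff_order (R.map u) hU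
  rw [← hPL] at h1 h3
  simp only [Polynomial.coeff_map] at h1 h3
  exact ⟨h1, h3⟩

end Fermat.Agent.S18.CuspL
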