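import Fermat.Agent.S28.Core
import Fermat.Agent.FF.ModField

/-!
# S18, piece 87-P3d (twist): the action of `T` on the reduced conjugates

* `twHom ζ`: the ring automorphism `t ↦ ζ t` of `R((t))` (coefficientwise `c_n ↦ ζ^n c_n`);
  it preserves the order and fixes `qExpand R N x` when `ζ ^ N = 1`;
* `expInf_compSL_T_zpow`: in characteristic `0`, the expansion of `r ∘ T^k` is the twist of the
  expansion of `r` by an `N`-th root of unity;
* `rRed_T_zpow_smul`: the reduced conjugate of `j_N` at the coset `T^k • i` is the twist of the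
  reduced conjugate at `i`.
-/

set_option autoImplicit false
open UpperHalfPlane hiding I
open scoped MatrixGroups
open Complex Real

namespace Fermat.Agent.S18.CuspL

open Fermat.Agent.FF Fermat.Agent.S28 ModularCurve

section twist
variable {R : Type*} [Field R]

theorem dmul_zpow_mul (ζ : R) (hζ : ζ ≠ 0) (x y : LaurentSeries R) :
    dmul (fun n => ζ ^ n) (x * y) = dmul (fun n => ζ ^ n) x * dmul (fun n => ζ ^ n) y := by
  ext n
  rw [dmul_coeff, HahnSeries.coeff_mul, HahnSeries.coeff_mul, Finset.mul_sum]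
  refine Finset.sum_congr ?_ ?_
  · ext ij
    simp only [Finset.mem_antidiagonal, HahnSeries.mem_support, dmul_coeff, ne_eq,
      mul_eq_zero, zpow_ne_zero _ hζ, false_or]
  · intro ij hij
    have h := (Finset.mem_antidiagonal.mp hij).2.2
    rw [dmul_coeff, dmul_coeff, ← h, zpow_add₀ hζ]
    ring

/-- the twist `t ↦ ζ t` -/
noncomputable def twHom (ζ : R) (hζ : ζ ≠ 0) : LaurentSeries R →+* LaurentSeries R where
  toFun := dmul (fun n => ζ ^ n)
  map_one' := by
    ext n
    rw [dmul_coeff, HahnSeries.coeff_one]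
    split_ifs with h
    · rw [h, zpow_zero, mul_one]
    · rw [mul_zero]
  map_mul' := dmul_zpow_mul ζ hζ
  map_zero' := by
    ext n
    simp
  map_add' x y := by
    ext n
    simp [mul_add]

@[simp] theorem twHom_coeff (ζ : R) (hζ : ζ ≠ 0) (x : LaurentSeries R) (n : ℤ) :
    (twHom ζ hζ x).coeff n = ζ ^ n * x.coeff n := rfl

theorem twHom_apply (ζ : R) (hζ : ζ ≠ 0) (x : LaurentSeries R) :
    twHom ζ hζ x = dmul (fun n => ζ ^ n) x := rfl

theorem order_twHom (ζ : R) (hζ : ζ ≠ 0) (x : LaurentSeries R) :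
    (twHom ζ hζ x).order = x.order := by
  by_cases hx : x = 0
  · rw [hx, map_zero]
  exact dmul_order _ (fun n => zpow_ne_zero n hζ) x hx

theorem twHom_qExpand (ζ : R) (hζ : ζ ≠ 0) (N : ℕ) [NeZero N] (hN : ζ ^ N = 1)
    (x : LaurentSeries R) : twHom ζ hζ (qExpand R N x) = qExpand R N x := by
  ext n
  rw [twHom_coeff]
  by_cases h : (N : ℤ) ∣ n
  · obtain ⟨m, rfl⟩ := h
    rw [zpow_mul, zpow_natCast, hN, one_zpow, one_mul]
  · rw [qExpand_coeff_of_not_dvd N x h, mul_zero]

/-- a series fixed by the twist with a primitive `N`-th root of unity raised to the power `e`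
lives in `t^(N/e)`: its order is divisible by `r` when `r * e = N` -/
theorem dvd_order_of_twHom_eq (ζ : R) (hζ : ζ ≠ 0) {N : ℕ} (hN : 0 < N)
    (hprim : IsPrimitiveRoot ζ N)
    {r e : ℕ} (hre : r * e = N) {x : LaurentSeries R}
    (hx : twHom (ζ ^ e) (pow_ne_zero e hζ) x = x) : (r : ℤ) ∣ x.order := by
  by_cases hx0 : x = 0
  · rw [hx0, HahnSeries.order_zero]
    exact dvd_zero _
  have h1 := congrArg (fun z => HahnSeries.coeff z x.order) hx
  simp only [twHom_coeff] at h1
  have h2 : x.coeff x.order ≠ 0 := HahnSeries.coeff_order_eq_zero.not.mpr hx0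
  have h3 : (ζ ^ e) ^ x.order = 1 := by
    have := mul_right_cancel₀ h2 (h1.trans (one_mul _).symm)
    exact this
  rw [← zpow_natCast, ← zpow_mul] at h3
  have h4 := (hprim.zpow_eq_one_iff_dvd _).mp h3
  rw [← hre] at h4
  push_cast at h4
  have he0 : (e : ℤ) ≠ 0 := by
    intro h
    have : e = 0 := by exact_mod_cast h
    rw [← hre, this, mul_zero] at hN
    exact lt_irrefl _ hN
  rw [mul_comm (r : ℤ) (e : ℤ)] at h4
  exact (mul_dvd_mul_iff_left he0).mp h4

end twist

section char0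
variable (N : ℕ) [NeZero N]

/-- in characteristic `0`: the expansion of `r ∘ T^k` is a twist of the expansion of `r` -/
theorem expInf_compSL_T_zpow (k : ℤ) : ∃ ζ : Kbar, ζ ^ N = 1 ∧ ∀ r : RN N,
    expInf N (compSL N (ModularGroup.T ^ k) r) = dmul (fun n => ζ ^ n) (expInf N r) := by
  have hN : 0 < N := Nat.pos_of_ne_zero (NeZero.ne N)
  set ξ : ℂ := cexp (2 * π * I * k / ((N : ℂ) * ((1 : ℕ) : ℂ))) with hξ
  have hξN : ξ ^ N = 1 := by
    rw [hξ, ← Complex.exp_nat_mul, Complex.exp_eq_one_iff]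
    refine ⟨k, ?_⟩
    have : (N : ℂ) ≠ 0 := by exact_mod_cast hN.ne'
    push_cast
    field_simp
  obtain ⟨ζ, hζ⟩ := exists_preimage_of_pow_eq_one iotaK N hN ξ hξN
  refine ⟨ζ, ?_, fun r => ?_⟩
  · apply iotaK_injective
    rw [map_pow, hζ, hξN, map_one]
  · have h1 : IsExp N (iotaL (expInf N r)) (r : ℍ → ℂ) := isExpK_expInf N r
    have h2 := h1.comp_affine 1 1 k (fun τ => ModularGroup.T ^ k • τ) (fun τ => by
      rw [ModularGroup.coe_T_zpow_smul_eq]; simp)
    have h3 : IsExp N (iotaL (expInf N (compSL N (ModularGroup.T ^ k) r)))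
        (fun τ => (r : ℍ → ℂ) (ModularGroup.T ^ k • τ)) := isExpK_expInf N _
    rw [mul_one, ModularCurve.qExpand_one_apply] at h2
    have h4 := IsExp.unique hN h3 h2
    apply iotaL_injective
    rw [h4]
    ext n
    show ξ ^ n * (iotaL (expInf N r)).coeff n =
      iotaK ((dmul (fun n => ζ ^ n) (expInf N r)).coeff n)
    rw [dmul_coeff, map_mul, map_zpow₀, hζ, iotaL_coeff]

end char0

section reduction
variable (N : ℕ) [NeZero N] {ℓ : ℕ} (hℓ : ℓ.Prime) (hℓN : ¬ ℓ ∣ N)
variable (A : ValuationSubring Kbar) (hA : A.LiesOverPrime ℓ)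

/-- the reduced conjugate of `j_N` at the coset `T^k • i` is a twist of the one at `i` -/
theorem rRed_T_zpow_smul (k : ℤ) : ∃ ζb : IsLocalRing.ResidueField A, ζb ^ N = 1 ∧
    ∀ i : X N, rRed N A ((ModularGroup.T ^ k : SL(2, ℤ)) • i) =
      dmul (fun n => ζb ^ n) (rRed N A i) := by
  have hN : N ≠ 0 := NeZero.ne N
  obtain ⟨ζ, hζN, hζ⟩ := expInf_compSL_T_zpow N (-k)
  have hζA : ζ ∈ A := mem_of_pow_eq_one A hN hζN
  have hζ0 : ζ ≠ 0 := by
    rintro rfl
    rw [zero_pow hN] at hζN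
    exact zero_ne_one hζN
  have hζinvA : ζ⁻¹ ∈ A := by
    apply mem_of_pow_eq_one A hN
    rw [inv_pow, hζN, inv_one]
  -- `ζ` as a unit of `A`
  let u : (A : Type)ˣ := ⟨⟨ζ, hζA⟩, ⟨ζ⁻¹, hζinvA⟩, Subtype.ext (mul_inv_cancel₀ hζ0),
    Subtype.ext (inv_mul_cancel₀ hζ0)⟩
  have hu : ∀ n : ℤ, (((u ^ n : (A : Type)ˣ) : A) : Kbar) = ζ ^ n := by
    intro n
    have h1 : ((Units.map (A.subtype : A →* Kbar) (u ^ n) : Kbarˣ) : Kbar) =
        (((u ^ n : (A : Type)ˣ) : A) : Kbar) := rfl
    rw [← h1, map_zpow, Units.val_zpow_eq_zpow_val]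
    rfl
  let ub : (IsLocalRing.ResidueField A)ˣ := Units.map (IsLocalRing.residue A : A →* _) u
  refine ⟨(ub : IsLocalRing.ResidueField A), ?_, fun i => ?_⟩
  · have h1 : ((ub ^ N : (IsLocalRing.ResidueField A)ˣ) : IsLocalRing.ResidueField A) = 1 := by
      have h2 : u ^ N = 1 := by
        apply Units.ext
        apply Subtype.ext
        have := hu (N : ℤ)
        rw [zpow_natCast, zpow_natCast] at this
        rw [this, hζN]
        rfl
      show ((Units.map (IsLocalRing.residue A : A →* _) u ^ N :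
        (IsLocalRing.ResidueField A)ˣ) : IsLocalRing.ResidueField A) = 1
      rw [← map_pow, h2, map_one]
      rfl
    rwa [Units.val_pow_eq_pow_val] at h1
  · have hJ : IsInv0 N (jR N N dvd_rfl) := fun γ hγ => compSL_jR N N dvd_rfl γ hγ
    have hg : ∀ i : X N, (QuotientGroup.mk (Quotient.out i) : X N) = i :=
      fun i => QuotientGroup.out_eq' i
    have h1 := compSL_conj N hJ (fun i => Quotient.out i) hg (ModularGroup.T ^ (-k)) i
    have h2 : (ModularGroup.T ^ (-k))⁻¹ = (ModularGroup.T ^ k : SL(2, ℤ)) := by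
      rw [zpow_neg, inv_inv]
    rw [h2] at h1
    have h3 : expInf N (compSL N (Quotient.out ((ModularGroup.T ^ k : SL(2, ℤ)) • i))⁻¹
        (jR N N dvd_rfl)) =
        dmul (fun n => ζ ^ n) (expInf N (compSL N (Quotient.out i)⁻¹ (jR N N dvd_rfl))) := by
      rw [← h1, hζ]
    ext n
    unfold rRed
    rw [dmul_coeff, redS_coeff, redS_coeff]
    have h4 : (⟨(expInf N (compSL N (Quotient.out ((ModularGroup.T ^ k : SL(2, ℤ)) • i))⁻¹
        (jR N N dvd_rfl))).coeff n, (mem_intSeries_iff A).mp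
          (expInf_compSL_jR_mem N A N dvd_rfl _) n⟩ : A) =
        ((u ^ n : (A : Type)ˣ) : A) *
          ⟨(expInf N (compSL N (Quotient.out i)⁻¹ (jR N N dvd_rfl))).coeff n,
            (mem_intSeries_iff A).mp (expInf_compSL_jR_mem N A N dvd_rfl _) n⟩ := by
      apply Subtype.ext
      have h6 := congrArg (fun z => HahnSeries.coeff z n) h3
      simp only [dmul_coeff] at h6
      show (expInf N (compSL N (Quotient.out ((ModularGroup.T ^ k : SL(2, ℤ)) • i))⁻¹
        (jR N N dvd_rfl))).coeff n = (((u ^ n : (A : Type)ˣ) : A) : Kbar) *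
          (expInf N (compSL N (Quotient.out i)⁻¹ (jR N N dvd_rfl))).coeff n
      rw [hu n]
      exact h6
    rw [h4, map_mul]
    congr 1
    have h5 : IsLocalRing.residue A ((u ^ n : (A : Type)ˣ) : A) =
        ((Units.map (IsLocalRing.residue A : A →* _) (u ^ n) :
          (IsLocalRing.ResidueField A)ˣ) : IsLocalRing.ResidueField A) := rfl
    rw [h5, map_zpow, Units.val_zpow_eq_zpow_val]

end reduction

end Fermat.Agent.S18.CuspL
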