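import Fermat.Agent.S18.CuspLCount
import Fermat.Agent.S18.CuspLMinpoly
import Fermat.Agent.S18.CuspLTwist
import Fermat.Agent.S18.CuspLLift

/-!
# S18, piece 87-P3d (core): places over `j = ∞` of a field `F = k(j, y)` embedded in `k((t))`

Abstract form, over any field `k`: `F` is a field with an embedding `ι₀ : F → k((t))` whose image
is fixed by the twists `t ↦ ζ t`, `ζ ^ N = 1`; `jb ∈ F` has a pole of order `N` in `t`;
`F = k(jb, yb)`; the "conjugates" `r i ∈ k((t))` of `yb` are the roots of a polynomial with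
coefficients in `k[jb]`, and are permuted by a group `H` acting through twists.
Then the number of places of `F` over `jb = ∞` is at most the number of `H`-orbits
(`placesOverInf_card_le_core`).
-/

set_option autoImplicit false
set_option linter.style.haveILetI false

open Polynomial IntermediateField AlgebraicCurve ModularCurve

noncomputable section

namespace Fermat.Agent.S18.CuspL

open Fermat.Agent.FF Fermat.Agent.S28

section ordHom

variable {k F : Type*} [Field k] [Field F] [Algebra k F]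

/-- the order function `f ↦ ord_t (σ f)` of a `k`-embedding `σ : F → k((t))` -/
def ordOfHom (σ : F →+* LaurentSeries k)
    (hσ : ∀ c : k, σ (algebraMap k F c) = HahnSeries.C c) : OrdFn k F where
  toFun f := (σ f).order
  map_mul' f g hf hg := by
    rw [map_mul]
    exact HahnSeries.order_mul ((map_ne_zero σ).mpr hf) ((map_ne_zero σ).mpr hg)
  map_add' f g hf hg hfg := by
    rw [map_add]
    exact HahnSeries.min_order_le_order_add (by rw [← map_add]; exact (map_ne_zero σ).mpr hfg)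
  map_const' c hc := by
    rw [hσ]
    exact HahnSeries.order_C

theorem ordOfHom_apply (σ : F →+* LaurentSeries k)
    (hσ : ∀ c : k, σ (algebraMap k F c) = HahnSeries.C c) (f : F) :
    ordOfHom σ hσ f = (σ f).order := rfl

theorem ordFn_ext' {w w' : OrdFn k F} (h : ∀ f, w f = w' f) : w = w' := by
  cases w with
  | mk f1 a1 b1 c1 =>
    cases w' with
    | mk f2 a2 b2 c2 =>
      have : f1 = f2 := funext h
      subst this
      rfl

theorem order_inv_laurent {x : LaurentSeries k} (hx : x ≠ 0) : (x⁻¹).order = -x.order := by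
  have h1 : x * x⁻¹ = 1 := mul_inv_cancel₀ hx
  have h2 := congrArg HahnSeries.order h1
  rw [HahnSeries.order_mul hx (inv_ne_zero hx), HahnSeries.order_one] at h2
  omega

end ordHom

section generation

variable {k L : Type*} [Field k] [Field L] [Algebra k L]

/-- generation over `k(a)` by `b`, from generation over `k` by `a` and `b` -/
theorem adjoin_eq_top_of_le (F' : IntermediateField k L) (a b : L) (ha : a ∈ F') (hb : b ∈ F')
    (hgen : F' ≤ IntermediateField.adjoin k {a, b}) :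
    (k⟮(⟨a, ha⟩ : F')⁻¹⟯)⟮(⟨b, hb⟩ : F')⟯ = ⊤ := by
  rw [eq_top_iff]
  intro f _
  set T : IntermediateField k F' :=
    ((k⟮(⟨a, ha⟩ : F')⁻¹⟯)⟮(⟨b, hb⟩ : F')⟯).restrictScalars k with hT
  have hj : (⟨a, ha⟩ : F') ∈ T := by
    rw [hT, IntermediateField.mem_restrictScalars]
    have h0 : (⟨a, ha⟩ : F') ∈ k⟮(⟨a, ha⟩ : F')⁻¹⟯ := by
      have h := inv_mem (mem_adjoin_simple_self k (⟨a, ha⟩ : F')⁻¹)
      rwa [inv_inv] at h
    have h1 : (⟨a, ha⟩ : F') = algebraMap k⟮(⟨a, ha⟩ : F')⁻¹⟯ F' ⟨⟨a, ha⟩, h0⟩ := rfl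
    rw [h1]
    exact IntermediateField.algebraMap_mem _ _
  have hy : (⟨b, hb⟩ : F') ∈ T := by
    rw [hT, IntermediateField.mem_restrictScalars]
    exact mem_adjoin_simple_self _ _
  have h2 : IntermediateField.adjoin k {a, b} ≤ IntermediateField.lift T := by
    rw [IntermediateField.adjoin_le_iff]
    rintro x (rfl | rfl)
    · exact ⟨⟨_, ha⟩, hj, rfl⟩
    · exact ⟨⟨_, hb⟩, hy, rfl⟩
  obtain ⟨g, hg, hgf⟩ := h2 (hgen f.2)
  have : g = f := Subtype.ext hgf
  rw [← this]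
  exact hg

end generation

section core

universe u v

variable {k : Type u} {F : Type v} [Field k] [Field F] [Algebra k F]

theorem hom_aeval_eq {E L' : Type*} [Field E] [Field L'] [Algebra E F] (ψ : F →+* L')
    (P : Polynomial E) (f : F) :
    ψ (Polynomial.aeval f P) = (P.map (ψ.comp (algebraMap E F))).eval (ψ f) := by
  rw [Polynomial.aeval_def, Polynomial.hom_eval₂, Polynomial.eval_map]

theorem eval_map_hom_apply {E L' L'' : Type*} [Field E] [Field L'] [Field L'']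
    (φ : E →+* L') (τ : L' →+* L'') (P : Polynomial E) (ρ : L') :
    (P.map (τ.comp φ)).eval (τ ρ) = τ ((P.map φ).eval ρ) := by
  rw [← Polynomial.map_map, Polynomial.eval_map, Polynomial.eval₂_at_apply]

/-- **The order functions at the cusps.**  -/
theorem exists_cusp_ordFn (N : ℕ) [NeZero N]
    (ι₀ : F →+* LaurentSeries k) (hι₀C : ∀ c : k, ι₀ (algebraMap k F c) = HahnSeries.C c)
    (hι₀tw : ∀ (ζ : k) (hζ : ζ ≠ 0), ζ ^ N = 1 → ∀ f, twHom ζ hζ (ι₀ f) = ι₀ f)
    (jb yb : F) (hjb : (ι₀ jb).order = -(N : ℤ))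
    (hgen : (k⟮jb⁻¹⟯)⟮yb⟯ = ⊤)
    (I : Type) [Fintype I] (r : I → LaurentSeries k) (i₀ : I) (hr0 : r i₀ = ι₀ yb)
    (Φ : Polynomial (Polynomial k))
    (hΦ : Φ.map (Key.evJ (ι₀ jb)) = ∏ i : I, (Polynomial.X - Polynomial.C (r i)))
    (H : Type) [Group H] [MulAction H I]
    (htw : ∀ (h : H) (i : I), ∃ ζ : k, ζ ^ N = 1 ∧ r (h • i) = dmul (fun n => ζ ^ n) (r i)) :
    ∃ w : I → OrdFn k F,
      Transcendental k jb⁻¹ ∧
      (∀ i, w i (jb⁻¹ - algebraMap k F 0) = N) ∧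
      (∀ (h : H) (i : I), w (h • i) = w i) ∧
      (∀ f : F, f ≠ 0 → (∀ i, w i f = 0) →
        ∃ P : Polynomial ↥k⟮jb⁻¹⟯, P.Monic ∧ Polynomial.aeval f P = 0 ∧ P.coeff 0 ≠ 0 ∧
        (∀ i n, P.coeff n ≠ 0 → 0 ≤ w i (P.coeff n : F)) ∧ (∀ i, w i (P.coeff 0 : F) = 0)) ∧
      (∀ i (ζ : k) (hζ : ζ ≠ 0), ζ ^ N = 1 → dmul (fun n => ζ ^ n) (r i) = r i →
        ∀ f, ∃ u : LaurentSeries k, twHom ζ hζ u = u ∧ w i f = u.order) := by
  classical
  have hN0 : 0 < N := Nat.pos_of_ne_zero (NeZero.ne N)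
  have hNZ : (0 : ℤ) < N := by exact_mod_cast hN0
  have hjb0 : ι₀ jb ≠ 0 := by
    intro h
    rw [h, HahnSeries.order_zero] at hjb
    omega
  have hjblt : (ι₀ jb).order < 0 := by rw [hjb]; omega
  -- transcendence
  have htr : Transcendental k jb := by
    intro halg
    obtain ⟨P, hP0, hP⟩ := halg
    have h1 : Key.evJ (ι₀ jb) P = 0 := by
      have h2 := congrArg ι₀ hP
      rw [map_zero] at h2
      rw [← h2]
      show Polynomial.aeval (ι₀ jb) P = ι₀ (Polynomial.aeval jb P)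
      rw [Polynomial.aeval_def, Polynomial.aeval_def, Polynomial.hom_eval₂]
      congr 1
      ext c
      rw [RingHom.comp_apply, hι₀C, Key.algebraMap_laurent]
    exact hP0 (Key.evJ_injective hjblt (h1.trans (map_zero _).symm))
  have hx : Transcendental k jb⁻¹ := transcendental_inv htr
  -- `E = k(1/j)`, `φ`
  have hjE : jb ∈ k⟮jb⁻¹⟯ := by
    have h := inv_mem (mem_adjoin_simple_self k jb⁻¹)
    rwa [inv_inv] at h
  set φ : k⟮jb⁻¹⟯ →+* LaurentSeries k := ι₀.comp (algebraMap k⟮jb⁻¹⟯ F) with hφ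
  set evE : Polynomial k →+* k⟮jb⁻¹⟯ :=
    (Polynomial.aeval (⟨jb, hjE⟩ : k⟮jb⁻¹⟯)).toRingHom with hevE
  have hcomp : φ.comp evE = Key.evJ (ι₀ jb) := by
    apply Polynomial.ringHom_ext
    · intro c
      rw [Key.evJ_C]
      show φ (Polynomial.aeval (⟨jb, hjE⟩ : k⟮jb⁻¹⟯) (Polynomial.C c)) = _
      rw [Polynomial.aeval_C]
      exact hι₀C c
    · rw [Key.evJ_X]
      show φ (Polynomial.aeval (⟨jb, hjE⟩ : k⟮jb⁻¹⟯) Polynomial.X) = _
      rw [Polynomial.aeval_X]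
      rfl
  set ΦE : Polynomial k⟮jb⁻¹⟯ := Φ.map evE with hΦE
  have hΦEmap : ΦE.map φ = ∏ i : I, (Polynomial.X - Polynomial.C (r i)) := by
    rw [hΦE, Polynomial.map_map, hcomp, hΦ]
  have hΦE0 : ΦE ≠ 0 := by
    intro h
    rw [h, Polynomial.map_zero] at hΦEmap
    have hmon := Polynomial.monic_prod_of_monic Finset.univ (fun i : I => Polynomial.X - Polynomial.C (r i))
      (fun i _ => Polynomial.monic_X_sub_C _)
    rw [← hΦEmap] at hmon
    exact hmon.ne_zero rfl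
  have hroot : Polynomial.aeval yb ΦE = 0 := by
    apply ι₀.injective
    rw [map_zero, hom_aeval_eq ι₀ ΦE yb, hΦEmap, Polynomial.eval_prod]
    apply Finset.prod_eq_zero (Finset.mem_univ i₀)
    rw [Polynomial.eval_sub, Polynomial.eval_X, Polynomial.eval_C, hr0, sub_self]
  have hyint : IsIntegral k⟮jb⁻¹⟯ yb := isAlgebraic_iff_isIntegral.mp ⟨ΦE, hΦE0, hroot⟩
  haveI halg : Algebra.IsAlgebraic k⟮jb⁻¹⟯ F := by
    constructor
    intro f
    have hf : f ∈ (k⟮jb⁻¹⟯)⟮yb⟯ := by rw [hgen]; exact IntermediateField.mem_top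
    haveI := IntermediateField.isAlgebraic_adjoin_simple hyint
    have h1 := Algebra.IsAlgebraic.isAlgebraic (R := k⟮jb⁻¹⟯) (⟨f, hf⟩ : (k⟮jb⁻¹⟯)⟮yb⟯)
    exact (IntermediateField.isAlgebraic_iff (S := (k⟮jb⁻¹⟯)⟮yb⟯)).mp h1
  set m := minpoly k⟮jb⁻¹⟯ yb with hm
  have hmdvd : m ∣ ΦE := minpoly.dvd _ _ hroot
  -- admissible indices and the embeddings
  let Adm : I → Prop := fun i => (m.map φ).eval (r i) = 0
  have hlift : ∀ i, Adm i → ∃ σ : F →+* LaurentSeries k,
      (∀ e, σ (algebraMap k⟮jb⁻¹⟯ F e) = φ e) ∧ σ yb = r i :=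
    fun i hi => exists_lift φ yb hyint hgen (r i) hi
  let σ' : I → (F →+* LaurentSeries k) :=
    fun i => if h : Adm i then Classical.choose (hlift i h) else ι₀
  have hσE : ∀ i e, σ' i (algebraMap k⟮jb⁻¹⟯ F e) = φ e := by
    intro i e
    by_cases h : Adm i
    · simp only [σ', dif_pos h]
      exact (Classical.choose_spec (hlift i h)).1 e
    · simp only [σ', dif_neg h]
      rfl
  have hσy : ∀ i, Adm i → σ' i yb = r i := by
    intro i h
    simp only [σ', dif_pos h]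
    exact (Classical.choose_spec (hlift i h)).2
  have hσn : ∀ i, ¬ Adm i → σ' i = ι₀ := by
    intro i h
    simp only [σ', dif_neg h]
  have hσC : ∀ i (c : k), σ' i (algebraMap k F c) = HahnSeries.C c := by
    intro i c
    have h1 : algebraMap k F c = algebraMap k⟮jb⁻¹⟯ F (algebraMap k k⟮jb⁻¹⟯ c) := rfl
    rw [h1, hσE]
    exact hι₀C c
  -- all embeddings over `E`
  have hex : ∀ ψ : F →+* AlgebraicClosure (LaurentSeries k),
      (∀ e, ψ (algebraMap k⟮jb⁻¹⟯ F e) =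
        algebraMap (LaurentSeries k) (AlgebraicClosure (LaurentSeries k)) (φ e)) →
      ∃ i, ∀ f, ψ f =
        algebraMap (LaurentSeries k) (AlgebraicClosure (LaurentSeries k)) (σ' i f) := by
    intro ψ hψ
    set ι : LaurentSeries k →+* AlgebraicClosure (LaurentSeries k) := algebraMap _ _ with hι
    have hψφ : ψ.comp (algebraMap k⟮jb⁻¹⟯ F) = ι.comp φ := RingHom.ext hψ
    have h1 : (m.map (ι.comp φ)).eval (ψ yb) = 0 := by
      rw [← hψφ, ← hom_aeval_eq ψ m yb, minpoly.aeval, map_zero]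
    have h2 : (ΦE.map (ι.comp φ)).eval (ψ yb) = 0 := by
      obtain ⟨q, hq⟩ := hmdvd
      rw [hq, Polynomial.map_mul, Polynomial.eval_mul, h1, zero_mul]
    rw [← Polynomial.map_map, hΦEmap, Polynomial.map_prod, Polynomial.eval_prod] at h2
    obtain ⟨i, -, hi⟩ := Finset.prod_eq_zero_iff.mp h2
    rw [Polynomial.map_sub, Polynomial.map_X, Polynomial.map_C, Polynomial.eval_sub,
      Polynomial.eval_X, Polynomial.eval_C, sub_eq_zero] at hi
    have hAdm : Adm i := by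
      show (m.map φ).eval (r i) = 0
      apply ι.injective
      rw [map_zero, ← eval_map_hom_apply φ ι m (r i), ← hi]
      exact h1
    refine ⟨i, fun f => ?_⟩
    have h3 : ψ = ι.comp (σ' i) := ringHom_ext_of_adjoin yb hgen ψ (ι.comp (σ' i))
      (fun e => by
        rw [hψ e]
        show ι (φ e) = ι (σ' i (algebraMap k⟮jb⁻¹⟯ F e))
        rw [hσE])
      (by
        show ψ yb = ι (σ' i yb)
        rw [hσy i hAdm, hi])
    rw [h3]
    rfl
  -- the order functions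
  let w : I → OrdFn k F := fun i => ordOfHom (σ' i) (hσC i)
  refine ⟨w, hx, ?_, ?_, ?_, ?_⟩
  · intro i
    rw [map_zero, sub_zero]
    show ((σ' i) jb⁻¹).order = N
    have hxE : jb⁻¹ = algebraMap k⟮jb⁻¹⟯ F ⟨jb⁻¹, mem_adjoin_simple_self k jb⁻¹⟩ := rfl
    rw [hxE, hσE]
    show (ι₀ jb⁻¹).order = N
    rw [map_inv₀, order_inv_laurent hjb0, hjb, neg_neg]
  · intro h i
    obtain ⟨ζ, hζN, hζ⟩ := htw h i
    have hζ0 : ζ ≠ 0 := by
      rintro rfl
      rw [zero_pow (NeZero.ne N)] at hζN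
      exact zero_ne_one hζN
    have htwφ : (twHom ζ hζ0).comp φ = φ := RingHom.ext fun e => hι₀tw ζ hζ0 hζN _
    have hAdm : Adm (h • i) ↔ Adm i := by
      show (m.map φ).eval (r (h • i)) = 0 ↔ (m.map φ).eval (r i) = 0
      rw [hζ, ← twHom_apply ζ hζ0]
      have h1 : (m.map φ).eval (twHom ζ hζ0 (r i)) = twHom ζ hζ0 ((m.map φ).eval (r i)) := by
        conv_lhs => rw [← htwφ]
        exact eval_map_hom_apply φ (twHom ζ hζ0) m (r i)
      rw [h1, map_eq_zero]
    apply ordFn_ext'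
    intro f
    show (σ' (h • i) f).order = (σ' i f).order
    by_cases hA : Adm i
    · have hA' := hAdm.mpr hA
      have h2 : σ' (h • i) = (twHom ζ hζ0).comp (σ' i) :=
        ringHom_ext_of_adjoin yb hgen _ _
          (fun e => by
            show σ' (h • i) (algebraMap k⟮jb⁻¹⟯ F e) =
              twHom ζ hζ0 (σ' i (algebraMap k⟮jb⁻¹⟯ F e))
            rw [hσE, hσE]
            exact (hι₀tw ζ hζ0 hζN _).symm)
          (by
            show σ' (h • i) yb = twHom ζ hζ0 (σ' i yb)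
            rw [hσy _ hA', hσy _ hA, hζ]
            rfl)
      rw [h2]
      exact order_twHom ζ hζ0 _
    · have hA' : ¬ Adm (h • i) := fun h' => hA (hAdm.mp h')
      rw [hσn _ hA, hσn _ hA']
  · intro f hf h0
    obtain ⟨h1, h2⟩ := minpoly_coeff_order φ σ' hex f hf (fun i => h0 i)
    have hint : IsIntegral k⟮jb⁻¹⟯ f := Algebra.IsIntegral.isIntegral f
    refine ⟨minpoly k⟮jb⁻¹⟯ f, minpoly.monic hint, minpoly.aeval _ _,
      minpoly.coeff_zero_ne_zero hint hf, fun i n _ => ?_, fun i => ?_⟩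
    · show 0 ≤ (σ' i (algebraMap k⟮jb⁻¹⟯ F ((minpoly k⟮jb⁻¹⟯ f).coeff n))).order
      rw [hσE]
      exact h1 n
    · show (σ' i (algebraMap k⟮jb⁻¹⟯ F ((minpoly k⟮jb⁻¹⟯ f).coeff 0))).order = 0
      rw [hσE]
      exact h2
  · intro i ζ hζ0 hζN hfix f
    refine ⟨σ' i f, ?_, rfl⟩
    by_cases hA : Adm i
    · have h2 : (twHom ζ hζ0).comp (σ' i) = σ' i :=
        ringHom_ext_of_adjoin yb hgen _ _
          (fun e => by
            show twHom ζ hζ0 (σ' i (algebraMap k⟮jb⁻¹⟯ F e)) = σ' i (algebraMap k⟮jb⁻¹⟯ F e)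
            rw [hσE]
            exact hι₀tw ζ hζ0 hζN _)
          (by
            show twHom ζ hζ0 (σ' i yb) = σ' i yb
            rw [hσy _ hA, twHom_apply, hfix])
      exact RingHom.congr_fun h2 f
    · rw [hσn _ hA]
      exact hι₀tw ζ hζ0 hζN f

/-- **Upper bound**: the number of places over `jb = ∞` is at most the number of orbits. -/
theorem placesOverInf_card_le_core (N : ℕ) [NeZero N]
    (ι₀ : F →+* LaurentSeries k) (hι₀C : ∀ c : k, ι₀ (algebraMap k F c) = HahnSeries.C c)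
    (hι₀tw : ∀ (ζ : k) (hζ : ζ ≠ 0), ζ ^ N = 1 → ∀ f, twHom ζ hζ (ι₀ f) = ι₀ f)
    (jb yb : F) (hjb : (ι₀ jb).order = -(N : ℤ))
    (hgen : (k⟮jb⁻¹⟯)⟮yb⟯ = ⊤)
    (I : Type) [Fintype I] (r : I → LaurentSeries k) (i₀ : I) (hr0 : r i₀ = ι₀ yb)
    (Φ : Polynomial (Polynomial k))
    (hΦ : Φ.map (Key.evJ (ι₀ jb)) = ∏ i : I, (Polynomial.X - Polynomial.C (r i)))
    (H : Type) [Group H] [MulAction H I]
    (htw : ∀ (h : H) (i : I), ∃ ζ : k, ζ ^ N = 1 ∧ r (h • i) = dmul (fun n => ζ ^ n) (r i)) :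
    (placesOverInf (K := k) jb).Finite ∧
      Nat.card (placesOverInf (K := k) jb) ≤ Nat.card (MulAction.orbitRel.Quotient H I) := by
  obtain ⟨w, hx, hwy, hinv, hP, -⟩ :=
    exists_cusp_ordFn N ι₀ hι₀C hι₀tw jb yb hjb hgen I r i₀ hr0 Φ hΦ H htw
  haveI : Nonempty I := ⟨i₀⟩
  rw [placesOverInf_eq]
  exact placesOver_finite_and_card_le jb⁻¹ hx 0 I H N w (Nat.pos_of_ne_zero (NeZero.ne N))
    hwy hinv hP

/-- **Equality**, given the fundamental identity for the fibre over `jb = ∞`, the degree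
`[F : k(jb)] = #I` and the stabilisers of the twists. -/
theorem placesOverInf_card_eq_core (N : ℕ) [NeZero N]
    (ι₀ : F →+* LaurentSeries k) (hι₀C : ∀ c : k, ι₀ (algebraMap k F c) = HahnSeries.C c)
    (hι₀tw : ∀ (ζ : k) (hζ : ζ ≠ 0), ζ ^ N = 1 → ∀ f, twHom ζ hζ (ι₀ f) = ι₀ f)
    (jb yb : F) (hjb : (ι₀ jb).order = -(N : ℤ))
    (hgen : (k⟮jb⁻¹⟯)⟮yb⟯ = ⊤)
    (I : Type) [Fintype I] (r : I → LaurentSeries k) (i₀ : I) (hr0 : r i₀ = ι₀ yb)
    (Φ : Polynomial (Polynomial k))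
    (hΦ : Φ.map (Key.evJ (ι₀ jb)) = ∏ i : I, (Polynomial.X - Polynomial.C (r i)))
    (H : Type) [Group H] [MulAction H I]
    (htw : ∀ (h : H) (i : I), ∃ ζ : k, ζ ^ N = 1 ∧ r (h • i) = dmul (fun n => ζ ^ n) (r i))
    (hfd : FiniteDimensional k⟮jb⁻¹⟯ F)
    (hfin : (placesOver jb⁻¹ (0 : k)).Finite)
    (hsumA : ∑ᶠ v ∈ placesOver jb⁻¹ (0 : k), v.ord (jb⁻¹ - algebraMap k F 0) =
      (Module.finrank k⟮jb⁻¹⟯ F : ℤ))
    (hcard : Nat.card I = Module.finrank k⟮jb⁻¹⟯ F)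
    (hstab : ∀ i, ∃ (ζ : k) (e rr : ℕ), IsPrimitiveRoot ζ N ∧ rr * e = N ∧
      Nat.card (MulAction.orbit H i) = e ∧ dmul (fun n => (ζ ^ e) ^ n) (r i) = r i) :
    Nat.card (placesOverInf (K := k) jb) = Nat.card (MulAction.orbitRel.Quotient H I) := by
  obtain ⟨w, hx, hwy, hinv, hP, hfix⟩ :=
    exists_cusp_ordFn N ι₀ hι₀C hι₀tw jb yb hjb hgen I r i₀ hr0 Φ hΦ H htw
  have hN0 : 0 < N := Nat.pos_of_ne_zero (NeZero.ne N)
  rw [placesOverInf_eq]
  refine (H6.counting_core jb⁻¹ hx hfd 0 hfin hsumA I H N w hcard hN0 hwy hinv ?_ hP).1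
  intro i
  obtain ⟨ζ, e, rr, hprim, hre, hcardO, hfixr⟩ := hstab i
  have hζ0 : ζ ≠ 0 := hprim.ne_zero (NeZero.ne N)
  refine ⟨rr, by rw [hcardO, hre], fun f _ => ?_⟩
  have hζe : (ζ ^ e) ^ N = 1 := by rw [← pow_mul, mul_comm, pow_mul, hprim.pow_eq_one, one_pow]
  obtain ⟨u, hu, hwu⟩ := hfix i (ζ ^ e) (pow_ne_zero e hζ0) hζe hfixr f
  rw [hwu]
  exact dvd_order_of_twHom_eq ζ hζ0 hN0 hprim hre hu

end core

end Fermat.Agent.S18.CuspL
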