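import Fermat.Agent.FF.Counting

/-!
# S18, piece 87-P3d (abstract part): places in a fibre are dominated by orbits of order functions

A characteristic-free variant of the counting lemma of the S24 library
(`Fermat.Agent.FF.H6.counting_core`): *without* the fundamental identity one still gets that the
fibre of `x` over `a` is finite, with at most as many places as there are orbits of `H` on the
index set `I` of the order functions.
-/

set_option autoImplicit false

open AlgebraicCurve IntermediateField

namespace Fermat.Agent.S18.CuspL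

open Fermat.Agent.FF Fermat.Agent.FF.H6

variable {K F : Type*} [Field K] [Field F] [Algebra K F]

/-- every place in the fibre of `x` over `a` is the place of one of the order functions `w i` -/
theorem exists_toPlace_eq (x : F) (hx : Transcendental K x) (a : K)
    (I : Type) [Fintype I] [Nonempty I] (m : ℕ) (w : I → OrdFn K F)
    (hm : 0 < m)
    (hwy : ∀ i, w i (x - algebraMap K F a) = m)
    (hw : ∀ i, ∃ f : F, f ≠ 0 ∧ 0 < w i f)
    (hP : ∀ f : F, f ≠ 0 → (∀ i, w i f = 0) →
      ∃ P : Polynomial ↥K⟮x⟯, P.Monic ∧ Polynomial.aeval f P = 0 ∧ P.coeff 0 ≠ 0 ∧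
        (∀ i k, P.coeff k ≠ 0 → 0 ≤ w i (P.coeff k : F)) ∧ (∀ i, w i (P.coeff 0 : F) = 0))
    (v : Place K F) (hv : v ∈ placesOver x a) :
    ∃ i, toPlace (w i) (hw i) = v := by
  classical
  set y := x - algebraMap K F a with hy
  have hy0 : y ≠ 0 := by
    intro h
    apply hx
    have : x = algebraMap K F a := sub_eq_zero.mp h
    rw [this]
    exact isAlgebraic_algebraMap a
  have hmZ : (0 : ℤ) < m := by exact_mod_cast hm
  set g : I → Place K F := fun i => toPlace (w i) (hw i) with hg
  choose t ht0 htπ ht using fun i => exists_mul_ord (w i) (hw i)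
  have hgy : ∀ i, 0 < (g i).ord y := by
    intro i
    have h1 := ht i y hy0
    rw [hwy i] at h1
    by_contra hcon
    rw [not_lt] at hcon
    have : t i * (toPlace (w i) (hw i)).ord y ≤ 0 := mul_nonpos_of_nonneg_of_nonpos (ht0 i).le hcon
    linarith
  by_contra hcon
  rw [not_exists] at hcon
  have hvs : v ∉ Finset.univ.image g := by
    intro h
    obtain ⟨i, -, hi⟩ := Finset.mem_image.mp h
    exact hcon i hi
  obtain ⟨f, hf0, hfv, hfs⟩ := separation v (Finset.univ.image g) hvs
  have hwf : ∀ i, w i f = 0 := by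
    intro i
    rw [ht i f hf0]
    have : (toPlace (w i) (hw i)).ord f = 0 :=
      hfs (g i) (Finset.mem_image_of_mem g (Finset.mem_univ i))
    rw [this, mul_zero]
  obtain ⟨P, -, hPf, hP0, hPk, hPc⟩ := hP f hf0 hwf
  have hvy : 0 < v.ord y := hv
  have hcoeff : ∀ k, P.coeff k ≠ 0 → 0 ≤ v.ord (P.coeff k : F) := by
    intro k hk
    have hkF : ((P.coeff k : K⟮x⟯) : F) ≠ 0 := by
      intro h
      exact hk (Subtype.ext h)
    obtain ⟨c, hc⟩ := exists_ord_of_mem_adjoin x a (P.coeff k : F) (P.coeff k).2 hkF
    obtain i := Classical.arbitrary I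
    have h1 := hPk i k hk
    rw [ht i _ hkF] at h1
    have h2 : 0 ≤ (toPlace (w i) (hw i)).ord (P.coeff k : F) := by
      by_contra hneg
      rw [not_le] at hneg
      have := mul_neg_of_pos_of_neg (ht0 i) hneg
      linarith
    have h3 := hc (g i) (hgy i)
    have hc0 : 0 ≤ c := by
      by_contra hneg
      rw [not_le] at hneg
      have := mul_neg_of_neg_of_pos hneg (hgy i)
      have h2' : 0 ≤ (g i).ord (P.coeff k : F) := h2
      linarith
    rw [hc v hvy]
    exact mul_nonneg hc0 hvy.le
  have hcoeff0 : v.ord (P.coeff 0 : F) = 0 := by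
    have hkF : ((P.coeff 0 : K⟮x⟯) : F) ≠ 0 := by
      intro h
      exact hP0 (Subtype.ext h)
    obtain ⟨c, hc⟩ := exists_ord_of_mem_adjoin x a (P.coeff 0 : F) (P.coeff 0).2 hkF
    obtain i := Classical.arbitrary I
    have h1 := hPc i
    rw [ht i _ hkF] at h1
    have h2 : (toPlace (w i) (hw i)).ord (P.coeff 0 : F) = 0 := by
      rcases mul_eq_zero.mp h1 with h | h
      · exact absurd h (ht0 i).ne'
      · exact h
    have h3 := hc (g i) (hgy i)
    have h2' : (g i).ord (P.coeff 0 : F) = 0 := h2
    rw [h2'] at h3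
    have hc0 : c = 0 := by
      rcases mul_eq_zero.mp h3.symm with h | h
      · exact h
      · exact absurd h (hgy i).ne'
    rw [hc v hvy, hc0, zero_mul]
  have hsumP : (P.coeff 0 : F) + ∑ k ∈ Finset.range P.natDegree,
      ((P.coeff (k + 1) : K⟮x⟯) : F) * f ^ (k + 1) = 0 := by
    have h1 : Polynomial.aeval f P = ∑ k ∈ Finset.range (P.natDegree + 1),
        ((P.coeff k : K⟮x⟯) : F) * f ^ k := by
      rw [Polynomial.aeval_eq_sum_range]
      refine Finset.sum_congr rfl fun k _ => ?_
      rw [Algebra.smul_def]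
      rfl
    rw [h1, Finset.sum_range_succ'] at hPf
    rw [← hPf]
    simp only [pow_zero, mul_one]
    ring
  have hmax : InMax (ofPlace v) (∑ k ∈ Finset.range P.natDegree,
      ((P.coeff (k + 1) : K⟮x⟯) : F) * f ^ (k + 1)) := by
    apply inMax_sum
    intro k _
    by_cases hk : P.coeff (k + 1) = 0
    · left
      rw [hk]
      simp
    · rw [mul_comm]
      apply inMax_mul
      · right
        show 0 < v.ord (f ^ (k + 1))
        rw [ord_pow']
        have : (0 : ℤ) < ((k + 1 : ℕ) : ℤ) := by exact_mod_cast Nat.succ_pos k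
        exact mul_pos this hfv
      · right
        exact hcoeff (k + 1) hk
  have hc0max : InMax (ofPlace v) (P.coeff 0 : F) := by
    have : ((P.coeff 0 : K⟮x⟯) : F) = -(∑ k ∈ Finset.range P.natDegree,
        ((P.coeff (k + 1) : K⟮x⟯) : F) * f ^ (k + 1)) := by
      linear_combination hsumP
    rw [this]
    exact inMax_neg _ hmax
  rcases hc0max with h | h
  · exact hP0 (Subtype.ext h)
  · have h' : 0 < v.ord (P.coeff 0 : F) := h
    rw [hcoeff0] at h'
    exact lt_irrefl _ h'

/-- **Counting, upper bound** (no fundamental identity needed): the fibre of `x` over `a` is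
finite and has at most as many places as there are `H`-orbits on `I`. -/
theorem placesOver_finite_and_card_le (x : F) (hx : Transcendental K x) (a : K)
    (I : Type) [Fintype I] [Nonempty I] (H : Type) [Group H] [MulAction H I] (m : ℕ)
    (w : I → OrdFn K F)
    (hm : 0 < m)
    (hwy : ∀ i, w i (x - algebraMap K F a) = m)
    (hinv : ∀ (h : H) (i : I), w (h • i) = w i)
    (hP : ∀ f : F, f ≠ 0 → (∀ i, w i f = 0) →
      ∃ P : Polynomial ↥K⟮x⟯, P.Monic ∧ Polynomial.aeval f P = 0 ∧ P.coeff 0 ≠ 0 ∧
        (∀ i k, P.coeff k ≠ 0 → 0 ≤ w i (P.coeff k : F)) ∧ (∀ i, w i (P.coeff 0 : F) = 0)) :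
    (placesOver x a).Finite ∧
      Nat.card (placesOver x a) ≤ Nat.card (MulAction.orbitRel.Quotient H I) := by
  classical
  have hy0 : x - algebraMap K F a ≠ 0 := by
    intro h
    apply hx
    have : x = algebraMap K F a := sub_eq_zero.mp h
    rw [this]
    exact isAlgebraic_algebraMap a
  have hmZ : (0 : ℤ) < m := by exact_mod_cast hm
  have hw : ∀ i, ∃ f : F, f ≠ 0 ∧ 0 < w i f :=
    fun i => ⟨x - algebraMap K F a, hy0, by rw [hwy i]; exact hmZ⟩
  set g : I → Place K F := fun i => toPlace (w i) (hw i) with hg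
  have hginv : ∀ (h : H) (i : I), g (h • i) = g i := by
    intro h i
    apply Place.ext
    show valSubring (w (h • i)) = valSubring (w i)
    rw [hinv h i]
  -- `g` factors through the orbit space
  let gq : MulAction.orbitRel.Quotient H I → Place K F :=
    Quotient.lift g (by
      rintro i j ⟨h, rfl⟩
      exact hginv h j)
  have hsub : placesOver x a ⊆ Set.range gq := by
    intro v hv
    obtain ⟨i, hi⟩ := exists_toPlace_eq x hx a I m w hm hwy hw hP v hv
    exact ⟨Quotient.mk'' i, hi⟩
  have hfinR : (Set.range gq).Finite := Set.finite_range gq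
  refine ⟨hfinR.subset hsub, ?_⟩
  calc Nat.card (placesOver x a) ≤ Nat.card (Set.range gq) :=
        Nat.card_mono hfinR hsub
    _ ≤ Nat.card (MulAction.orbitRel.Quotient H I) := by
        have : Nat.card (Set.range gq) = (Set.range gq).ncard := Nat.card_coe_set_eq _
        rw [this]
        have h2 := Set.ncard_image_le (f := gq) (Set.finite_univ (α := MulAction.orbitRel.Quotient H I))
        rw [Set.image_univ, Set.ncard_univ] at h2
        exact h2

end Fermat.Agent.S18.CuspL
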