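import Fermat.Agent.S18.CuspLCore
import Fermat.Agent.S28.Core
import Fermat.Agent.FF.CosetFinal

/-!
# S18, piece 87-P3d: the places of `F̄_N` over `j̄ = ∞`

`k = ` residue field of a valuation ring `A ⊂ ℚ̄` over `ℓ ∤ N`,
`F̄_N = modularFunctionFieldFullC k N`.  Given generation `F̄_N = k(j̄, j̄_N)`:

* `card_placesOverInf_le`: the fibre over `j̄ = ∞` is finite with at most `cuspCount N` places.
-/

set_option autoImplicit false
set_option linter.style.haveILetI false

open Polynomial IntermediateField AlgebraicCurve ModularCurve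
open scoped MatrixGroups

noncomputable section

namespace Fermat.Agent.S18.CuspL

open Fermat.Agent.FF Fermat.Agent.S28

section setup

variable (k : Type*) [Field k] (N : ℕ) [NeZero N]

/-- `j`, as an element of the full function field of level `N` -/
def jFull : modularFunctionFieldFullC k N := ⟨jqModC k, jqModC_mem_full k N⟩

/-- `j_N = j(q^N)`, as an element of the full function field of level `N` -/
def jNFull : modularFunctionFieldFullC k N :=
  ⟨qExpand k N (jqModC k), jqModCd_mem_full k N dvd_rfl⟩

/-- expansion in `t = q^(1/N)` -/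
def expT : modularFunctionFieldFullC k N →+* LaurentSeries k :=
  (qExpand k N).comp (algebraMap (modularFunctionFieldFullC k N) (LaurentSeries k))

theorem expT_apply (f : modularFunctionFieldFullC k N) :
    expT k N f = qExpand k N (f : LaurentSeries k) := rfl

theorem expT_algebraMap (c : k) :
    expT k N (algebraMap k (modularFunctionFieldFullC k N) c) = HahnSeries.C c := by
  rw [expT_apply]
  show qExpand k N (algebraMap k (LaurentSeries k) c) = HahnSeries.C c
  rw [Key.algebraMap_laurent]
  show qExpand k N (HahnSeries.single 0 c) = HahnSeries.single 0 c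
  rw [qExpand_single, mul_zero]

theorem expT_jFull : expT k N (jFull k N) = qExpand k N (jqModC k) := rfl

theorem expT_jNFull : expT k N (jNFull k N) = qExpand k N (jqNModC k N) := rfl

theorem order_expT_jFull : (expT k N (jFull k N)).order = -(N : ℤ) := by
  rw [expT_jFull, order_qExpand, order_jqModC']
  ring

theorem twHom_expT (ζ : k) (hζ : ζ ≠ 0) (hN : ζ ^ N = 1) (f : modularFunctionFieldFullC k N) :
    twHom ζ hζ (expT k N f) = expT k N f := by
  rw [expT_apply]
  exact twHom_qExpand ζ hζ N hN _

/-- generation over `k(j)` by `j_N` -/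
theorem adjoin_jNFull_eq_top (hgen : modularFunctionFieldFullC k N ≤ modularFunctionFieldC k N) :
    (k⟮(jFull k N)⁻¹⟯)⟮jNFull k N⟯ = ⊤ :=
  adjoin_eq_top_of_le (modularFunctionFieldFullC k N) (jqModC k) (qExpand k N (jqModC k))
    (jqModC_mem_full k N) (jqModCd_mem_full k N dvd_rfl) hgen

end setup

section main

set_option synthInstance.maxHeartbeats 400000

variable (N : ℕ) [NeZero N] {ℓ : ℕ} (hℓ : ℓ.Prime) (hℓN : ¬ ℓ ∣ N)
variable (A : ValuationSubring Kbar) (hA : A.LiesOverPrime ℓ)

include hℓ hℓN hA in
/-- **87-P3d, upper bound**: the fibre of `F̄_N` over `j̄ = ∞` is finite, with at most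
`cuspCount N` places. -/
theorem card_placesOverInf_le
    (hgen : modularFunctionFieldFullC (IsLocalRing.ResidueField A) N ≤
      modularFunctionFieldC (IsLocalRing.ResidueField A) N) :
    (placesOverInf (K := IsLocalRing.ResidueField A)
        (jFull (IsLocalRing.ResidueField A) N)).Finite ∧
      Nat.card (placesOverInf (K := IsLocalRing.ResidueField A)
        (jFull (IsLocalRing.ResidueField A) N)) ≤ cuspCount N := by
  classical
  haveI : Fintype (X N) := Fintype.ofFinite _
  obtain ⟨Φ, hΦ⟩ := (normPolysRed N hℓ hℓN A hA).1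
  have h := placesOverInf_card_le_core N (expT (IsLocalRing.ResidueField A) N)
    (expT_algebraMap _ N) (twHom_expT _ N)
    (jFull _ N) (jNFull _ N) (order_expT_jFull _ N) (adjoin_jNFull_eq_top _ N hgen)
    (X N) (rRed N A) ((1 : SL(2, ℤ)) : X N) (rRed_one N A) Φ hΦ
    (Subgroup.zpowers ModularGroup.T)
    (by
      rintro ⟨h, hh⟩ i
      obtain ⟨n, rfl⟩ := Subgroup.mem_zpowers_iff.mp hh
      obtain ⟨ζ, hζN, hζ⟩ := rRed_T_zpow_smul N A n
      exact ⟨ζ, hζN, hζ i⟩)
  rw [← (cosetCounts N).orb_T]
  exact h

end main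

end Fermat.Agent.S18.CuspL
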