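/-
S18 swarm, piece 87-P7 (helper2), part 2: tools inside the S24 library `FF/Mod*`.

* `Descent.sigmaL_PhiN_of_mem` : `Φ_{N'}` is `Γ₀(N)`-invariant on `F_N ⊂ F_N'` (`N ∣ N'`);
* `Descent.twist_const`        : if `y ∘ T^k = c • y` then `c = ζ ^ ord_∞ y`, `ζ = exp (2πi k / N')`.
-/
import Mathlib
import Fermat.Agent.FF.ModDist
import Fermat.Agent.FF.ModFin
import Fermat.Agent.FF.ModCusp

set_option autoImplicit false

noncomputable section

open UpperHalfPlane hiding I
open Function Complex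
open scoped Real MatrixGroups Manifold

namespace Fermat.Agent.S18.Descent

open Fermat.Agent.FF

section Invariance

variable (N N' : ℕ) [NeZero N] [NeZero N']

omit [NeZero N] [NeZero N'] in
theorem genSet_mono (h : N ∣ N') : genSet N ⊆ genSet N' := by
  rintro x ⟨d, hd, hdN, rfl⟩
  exact ⟨d, hd, hdN.trans h, rfl⟩

/-- elements of `ℚ̄[j(dτ), d ∣ N]` are expansions of `Γ₀(N)`-invariant elements of `RN N'`. -/
theorem exists_inv_of_mem_adjoin (h : N ∣ N') (a : LaurentSeries Kbar)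
    (ha : a ∈ Algebra.adjoin Kbar (genSet N)) :
    ∃ r : RN N', expInf N' r = ModularCurve.qExpand Kbar N' a ∧
      ∀ γ ∈ CongruenceSubgroup.Gamma0 N, compSL N' γ r = r := by
  induction ha using Algebra.adjoin_induction with
  | mem x hx =>
    obtain ⟨d, hd, hdN, rfl⟩ := hx
    refine ⟨jR N' d (hdN.trans h), expInf_jR N' d _, fun γ hγ => ?_⟩
    apply RN.ext
    intro τ
    exact jFun_scale_eq_of_mem_Gamma0 N d hdN γ hγ (fun τ => scaleH d (γ • τ)) (scaleH d)
      (fun τ => rfl) (fun τ => rfl) τ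
  | algebraMap c =>
    refine ⟨algebraMap Kbar (RN N') c, ?_, fun γ _ => compSL_algebraMap γ c⟩
    rw [expInf_algebraMap, ModularCurve.algebraMap_laurentSeries_eq_single]
    exact (ModularCurve.qExpand_C (R := Kbar) (N := N') c).symm
  | add x y _ _ hx hy =>
    obtain ⟨r, hr, hri⟩ := hx
    obtain ⟨t, ht, hti⟩ := hy
    exact ⟨r + t, by rw [map_add, map_add, hr, ht],
      fun γ hγ => by rw [map_add, hri γ hγ, hti γ hγ]⟩
  | mul x y _ _ hx hy =>
    obtain ⟨r, hr, hri⟩ := hx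
    obtain ⟨t, ht, hti⟩ := hy
    exact ⟨r * t, by rw [map_mul, map_mul, hr, ht],
      fun γ hγ => by rw [map_mul, hri γ hγ, hti γ hγ]⟩

/-- **`Γ₀(N)`-invariance on the subfield** `F_N ⊂ F_N'`. -/
theorem sigmaL_PhiN_of_mem (h : N ∣ N') (f : FN N')
    (hf : (f : LaurentSeries Kbar) ∈ ModularCurve.modularFunctionFieldBar N)
    (γ : SL(2, ℤ)) (hγ : γ ∈ CongruenceSubgroup.Gamma0 N) :
    sigmaL N' γ (PhiN N' f) = PhiN N' f := by
  obtain ⟨a, ha, b, hb, -, hab⟩ := exists_div_of_FN N ⟨(f : LaurentSeries Kbar), hf⟩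
  have ha' : a ∈ Algebra.adjoin Kbar (genSet N') := Algebra.adjoin_mono (genSet_mono N N' h) ha
  have hb' : b ∈ Algebra.adjoin Kbar (genSet N') := Algebra.adjoin_mono (genSet_mono N N' h) hb
  rw [PhiN_div N' f a b ha' hb' hab, map_div₀, sigmaL_algebraMap, sigmaL_algebraMap]
  obtain ⟨ra, hra, hrai⟩ := exists_inv_of_mem_adjoin N N' h a ha
  obtain ⟨rb, hrb, hrbi⟩ := exists_inv_of_mem_adjoin N N' h b hb
  have ea : evS N' ⟨a, adjoin_le_realSub N' ha'⟩ = ra := evS_eq N' hra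
  have eb : evS N' ⟨b, adjoin_le_realSub N' hb'⟩ = rb := evS_eq N' hrb
  rw [ea, eb, hrai γ hγ, hrbi γ hγ]

end Invariance

section Twist

variable {N' : ℕ} [NeZero N']

/-- the analytic core of `twist_const`. -/
theorem zpow_order_sub_of_translate_twist {N : ℕ} (hN : 0 < N) (k : ℕ)
    {xA xB : LaurentSeries ℂ} {A B : UpperHalfPlane → ℂ} (hA : IsExp N xA A) (hB : IsExp N xB B)
    (hxA : xA ≠ 0) (hxB : xB ≠ 0) (c : ℂ)
    (φ : UpperHalfPlane → UpperHalfPlane)
    (hφ : ∀ τ : UpperHalfPlane, ((φ τ : UpperHalfPlane) : ℂ) = τ + k)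
    (hinv : ∀ τ, A (φ τ) * B τ = c * (A τ * B (φ τ))) :
    c = cexp (2 * π * I * k / (N : ℂ)) ^ (xA.order - xB.order) := by
  obtain ⟨ζ, hζ⟩ : ∃ ζ : ℂ, ζ = cexp (2 * π * I * k / (N : ℂ)) := ⟨_, rfl⟩
  have hζ0 : ζ ≠ 0 := by rw [hζ]; exact Complex.exp_ne_zero _
  have hc : ∀ n : ℤ, ζ ^ n ≠ 0 := fun n => zpow_ne_zero n hζ0
  have htr : ∀ {x : LaurentSeries ℂ} {h : UpperHalfPlane → ℂ}, IsExp N x h →
      IsExp N (dmul (fun n => ζ ^ n) x) (fun τ => h (φ τ)) := by
    intro x h hx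
    have := hx.comp_affine 1 1 (k : ℤ) φ (fun τ => by rw [hφ]; simp)
    simp only [mul_one, Nat.cast_one, ModularCurve.qExpand_one_apply, Int.cast_natCast] at this
    rw [hζ]
    exact this
  have h1 : IsExp N (dmul (fun n => ζ ^ n) xA * xB) (fun τ => A (φ τ) * B τ) := (htr hA).mul hB
  have h2 : IsExp N (HahnSeries.C c * (xA * dmul (fun n => ζ ^ n) xB))
      (fun τ => c * (A τ * B (φ τ))) := (hA.mul (htr hB)).const_mul c
  have h3 : dmul (fun n => ζ ^ n) xA * xB = HahnSeries.C c * (xA * dmul (fun n => ζ ^ n) xB) :=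
    (h1.congr hinv).unique hN h2
  have h4 : (dmul (fun n => ζ ^ n) xA * xB).coeff (xA.order + xB.order)
      = (HahnSeries.C c * (xA * dmul (fun n => ζ ^ n) xB)).coeff (xA.order + xB.order) := by
    rw [h3]
  have e1 : (dmul (fun n => ζ ^ n) xA * xB).coeff (xA.order + xB.order)
      = ζ ^ xA.order * xA.leadingCoeff * xB.leadingCoeff := by
    have := HahnSeries.coeff_mul_order_add_order (dmul (fun n => ζ ^ n) xA) xB
    rw [dmul_order _ hc xA hxA, dmul_leadingCoeff _ hc xA hxA] at this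
    exact this
  have e2 : (xA * dmul (fun n => ζ ^ n) xB).coeff (xA.order + xB.order)
      = xA.leadingCoeff * (ζ ^ xB.order * xB.leadingCoeff) := by
    have := HahnSeries.coeff_mul_order_add_order xA (dmul (fun n => ζ ^ n) xB)
    rw [dmul_order _ hc xB hxB, dmul_leadingCoeff _ hc xB hxB] at this
    exact this
  rw [e1, HahnSeries.C_mul_eq_smul, HahnSeries.coeff_smul, e2, smul_eq_mul] at h4
  have ha : xA.leadingCoeff ≠ 0 := HahnSeries.leadingCoeff_ne_zero.mpr hxA
  have hb : xB.leadingCoeff ≠ 0 := HahnSeries.leadingCoeff_ne_zero.mpr hxB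
  have h5 : ζ ^ xA.order = c * ζ ^ xB.order := by
    have : (ζ ^ xA.order - c * ζ ^ xB.order) * (xA.leadingCoeff * xB.leadingCoeff) = 0 := by
      linear_combination h4
    rcases mul_eq_zero.mp this with h | h
    · exact sub_eq_zero.mp h
    · exact absurd h (mul_ne_zero ha hb)
  rw [← hζ, zpow_sub₀ hζ0, h5, mul_div_assoc, div_self (hc _), mul_one]

/-- **twisted invariance at the cusp**: `y ∘ T^k = c • y` forces `c = ζ ^ ord_∞ y`. -/
theorem twist_const (k : ℕ) {y : LN N'} (hy : y ≠ 0) (c : Kbar)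
    (h : sigmaL N' (ModularGroup.T ^ k) y = algebraMap Kbar (LN N') c * y) :
    iotaK c = cexp (2 * π * I * k / (N' : ℂ)) ^ (ordCusp N' y) := by
  have hN : 0 < N' := Nat.pos_of_ne_zero (NeZero.ne N')
  obtain ⟨A, B, hB, rfl⟩ := IsFractionRing.div_surjective (A := RN N') y
  have hB0 : B ≠ 0 := nonZeroDivisors.ne_zero hB
  have hA0 : A ≠ 0 := by
    rintro rfl
    exact hy (by simp)
  have hinjL := IsFractionRing.injective (RN N') (LN N')
  have hbL : algebraMap (RN N') (LN N') B ≠ 0 := fun h0 => hB0 (hinjL (by rw [h0, map_zero]))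
  have hσb : algebraMap (RN N') (LN N') (compSL N' (ModularGroup.T ^ k) B) ≠ 0 := by
    intro h0
    have := hinjL (h0.trans (map_zero _).symm)
    exact hB0 (compSL_injective _ (this.trans (map_zero _).symm))
  rw [map_div₀, sigmaL_algebraMap, sigmaL_algebraMap,
    IsScalarTower.algebraMap_apply Kbar (RN N') (LN N'), ← mul_div_assoc,
    div_eq_div_iff hσb hbL, ← map_mul, ← map_mul, ← map_mul] at h
  have h1 : compSL N' (ModularGroup.T ^ k) A * B =
      algebraMap Kbar (RN N') c * A * compSL N' (ModularGroup.T ^ k) B := hinjL h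
  have hinv : ∀ τ : ℍ, (A : ℍ → ℂ) ((ModularGroup.T ^ k : SL(2, ℤ)) • τ) * (B : ℍ → ℂ) τ =
      iotaK c * ((A : ℍ → ℂ) τ * (B : ℍ → ℂ) ((ModularGroup.T ^ k : SL(2, ℤ)) • τ)) := by
    intro τ
    have h2 := congrArg (fun r : RN N' => (r : ℍ → ℂ) τ) h1
    simp only [Subring.coe_mul, Pi.mul_apply, compSL_apply, algebraMap_RN_apply] at h2
    rw [h2]
    ring
  have hxA : iotaL (expInf N' A) ≠ 0 := fun h0 =>
    hA0 (expInf_injective N' (iotaL_injective (by rw [h0, map_zero, map_zero])))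
  have hxB : iotaL (expInf N' B) ≠ 0 := fun h0 =>
    hB0 (expInf_injective N' (iotaL_injective (by rw [h0, map_zero, map_zero])))
  have key := zpow_order_sub_of_translate_twist hN k (isExpK_expInf N' A) (isExpK_expInf N' B)
    hxA hxB (iotaK c) (fun τ => (ModularGroup.T ^ k : SL(2, ℤ)) • τ) (fun τ => by
      have := ModularGroup.coe_T_zpow_smul_eq (z := τ) (n := (k : ℤ))
      rw [zpow_natCast] at this
      rw [this]
      push_cast
      ring) hinv
  rw [iotaL_order, iotaL_order] at key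
  rw [ordCusp_div hA0 hB0]
  exact key

end Twist

end Fermat.Agent.S18.Descent
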