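/-
S18 swarm, piece 87-P7 (helper2), part 3: the cusp `1/c` of `X₀(N')`.

`γ = [[1,0],[c,1]]`, `Ψ = σ_γ ∘ Φ_{N'} : F_N' → Frac (modRing N')`, `θ = σ_{T^W}`.
* `theta_Psi_of_mem` : `θ` fixes `Ψ(F_N)` when `N ∣ c² W`;
* `ordCusp_Psi_Jd`   : `ord_∞ Ψ(j(d τ)) = - N'/d` when `gcd(c, d) = 1`.
-/
import Mathlib
import Fermat.Agent.S18.DescentInv
import Fermat.Agent.FF.DictBridge

set_option autoImplicit false

noncomputable section

open UpperHalfPlane hiding I
open Function Complex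
open scoped Real MatrixGroups Manifold

namespace Fermat.Agent.S18.Descent

open Fermat.Agent.FF

/-- the matrix `[[1,0],[c,1]]`. -/
def lowMat (c : ℤ) : SL(2, ℤ) :=
  ⟨!![1, 0; c, 1], by rw [Matrix.det_fin_two_of]; ring⟩

/-- the conjugate `γ T^W γ⁻¹` of `T^W` by `γ = lowMat c`. -/
def conjMat (c : ℤ) (W : ℕ) : SL(2, ℤ) :=
  ⟨!![1 - c * W, W; -(c * c * W), 1 + c * W], by rw [Matrix.det_fin_two_of]; ring⟩

theorem lowMat_mul_T_pow (c : ℤ) (W : ℕ) :
    lowMat c * ModularGroup.T ^ W = conjMat c W * lowMat c := by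
  apply Subtype.ext
  rw [Matrix.SpecialLinearGroup.coe_mul, Matrix.SpecialLinearGroup.coe_mul, ← zpow_natCast,
    ModularGroup.coe_T_zpow]
  show !![1, 0; c, 1] * !![1, (W : ℤ); 0, 1] =
    !![1 - c * W, W; -(c * c * W), 1 + c * W] * !![1, 0; c, 1]
  rw [Matrix.mul_fin_two, Matrix.mul_fin_two]
  congr 1
  ext i j
  fin_cases i <;> fin_cases j <;> simp <;> ring

theorem conjMat_mem (N : ℕ) (c : ℤ) (W : ℕ) (h : (N : ℤ) ∣ c * c * W) :
    conjMat c W ∈ CongruenceSubgroup.Gamma0 N := by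
  rw [CongruenceSubgroup.Gamma0_mem]
  show ((-(c * c * W) : ℤ) : ZMod N) = 0
  rw [ZMod.intCast_zmod_eq_zero_iff_dvd]
  exact (dvd_neg).mpr h

section Psi

variable (N N' : ℕ) [NeZero N] [NeZero N']

/-- the embedding of `F_N'` at the cusp `γ∞`, `γ = lowMat c`. -/
def Psi (c : ℤ) : FN N' →+* LN N' := (sigmaL N' (lowMat c)).comp (PhiN N')

omit [NeZero N] in
theorem Psi_apply (c : ℤ) (f : FN N') : Psi N' c f = sigmaL N' (lowMat c) (PhiN N' f) := rfl

omit [NeZero N] in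
theorem Psi_const (c : ℤ) (a : Kbar) :
    Psi N' c (algebraMap Kbar (FN N') a) = algebraMap Kbar (LN N') a := by
  rw [Psi_apply, PhiN_map_const, sigmaL_const]

/-- `θ = σ_{T^W}` fixes `Ψ(F_N)`. -/
theorem theta_Psi_of_mem (h : N ∣ N') (c : ℤ) (W : ℕ) (hc : (N : ℤ) ∣ c * c * W) (f : FN N')
    (hf : (f : LaurentSeries Kbar) ∈ ModularCurve.modularFunctionFieldBar N) :
    sigmaL N' (ModularGroup.T ^ W) (Psi N' c f) = Psi N' c f := by
  rw [Psi_apply, ← sigmaL_mul, lowMat_mul_T_pow, sigmaL_mul,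
    sigmaL_PhiN_of_mem N N' h f hf _ (conjMat_mem N c W hc)]

end Psi

section Order

theorem order_qExpand {R : Type*} [CommRing R] (e : ℕ) [NeZero e] (x : LaurentSeries R)
    (hx : x ≠ 0) : (ModularCurve.qExpand R e x).order = e * x.order := by
  have he : (e : ℤ) ≠ 0 := by exact_mod_cast NeZero.ne e
  have hepos : (0 : ℤ) < e := by exact_mod_cast Nat.pos_of_ne_zero (NeZero.ne e)
  apply order_eq_of_coeff
  · rw [ModularCurve.qExpand_coeff_mul]
    exact HahnSeries.coeff_order_eq_zero.not.mpr hx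
  · intro m hm
    by_cases hdvd : (e : ℤ) ∣ m
    · obtain ⟨m', rfl⟩ := hdvd
      rw [ModularCurve.qExpand_coeff_mul]
      apply HahnSeries.coeff_eq_zero_of_lt_order
      exact lt_of_mul_lt_mul_left hm hepos.le
    · exact ModularCurve.qExpand_coeff_of_not_dvd (N := e) x hdvd

theorem order_coeffEmb_jq : (ModularCurve.coeffEmb ℂ ModularCurve.jq).order = -1 := by
  apply order_eq_of_coeff
  · rw [ModularCurve.coeffEmb_coeff, ModularCurve.coeff_jq_neg_one]
    simp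
  · intro m hm
    rw [ModularCurve.coeffEmb_coeff, ModularCurve.coeff_jq_of_lt hm, map_zero]

theorem coeffEmb_jq_ne_zero : ModularCurve.coeffEmb ℂ ModularCurve.jq ≠ 0 := by
  intro h
  have := congrArg (fun x : LaurentSeries ℂ => x.coeff (-1)) h
  simp only [ModularCurve.coeffEmb_coeff, ModularCurve.coeff_jq_neg_one, HahnSeries.coeff_zero,
    map_one] at this
  exact one_ne_zero this

variable (N' : ℕ) [NeZero N']

/-- the order at `∞` of `j(d γ τ)`, `γ = lowMat c`, `gcd(c, d) = 1`, `N' = d e`. -/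
theorem order_expInf_compSL_jR (c : ℤ) (d e : ℕ) [NeZero d] [NeZero e] (hde : N' = d * e)
    (hcop : IsCoprime c (d : ℤ)) :
    compSL N' (lowMat c) (jR N' d (Dvd.intro e hde.symm)) ≠ 0 ∧
    (expInf N' (compSL N' (lowMat c) (jR N' d (Dvd.intro e hde.symm)))).order = -(e : ℤ) := by
  have hN : 0 < N' := Nat.pos_of_ne_zero (NeZero.ne N')
  have hdpos : 0 < d := Nat.pos_of_ne_zero (NeZero.ne d)
  obtain ⟨δ, a, d', b, ha, hd', had, h10, hact⟩ := exists_hnf_scale d hdpos (lowMat c)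
  -- `a = 1`
  have ha1 : a = 1 := by
    have h1 : ((a : ℤ)) ∣ c := by
      have : (lowMat c) 1 0 = c := rfl
      rw [this] at h10
      exact Dvd.intro_left _ h10.symm
    have h2 : ((a : ℤ)) ∣ (d : ℤ) := by
      exact_mod_cast Dvd.intro _ had
    have h3 : IsUnit (a : ℤ) := hcop.isUnit_of_dvd' h1 h2
    have h4 := Int.isUnit_iff.mp h3
    rcases h4 with h4 | h4
    · exact_mod_cast h4
    · exfalso
      have : (0 : ℤ) < a := by exact_mod_cast ha
      omega
  subst ha1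
  rw [one_mul] at had
  subst had
  set r := compSL N' (lowMat c) (jR N' d' (Dvd.intro e hde.symm)) with hr
  have hj : ∀ τ, jFun (affineMap 1 d' b ha hd' τ) = (r : ℍ → ℂ) τ := by
    intro τ
    show _ = jFun (scaleH d' (lowMat c • τ))
    rw [hact τ (scaleH d' (lowMat c • τ)) rfl, jFun_smul]
  have h2 := (isExp_jFun_affine 1 d' e b ha hd').congr hj
  have hlev : 1 * d' * e = N' := by rw [one_mul, hde]
  rw [hlev, ModularCurve.qExpand_one_apply] at h2
  have h3 : iotaL (expInf N' r) = ModularCurve.qExpand ℂ e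
      (dmul (fun n => cexp (2 * π * I * b / (((1 : ℕ) : ℂ) * d')) ^ n)
        (ModularCurve.coeffEmb ℂ ModularCurve.jq)) :=
    IsExp.unique hN (isExpK_expInf N' r) h2
  have hc0 : ∀ n : ℤ, cexp (2 * π * I * b / (((1 : ℕ) : ℂ) * d')) ^ n ≠ 0 :=
    fun n => zpow_ne_zero _ (Complex.exp_ne_zero _)
  have hdm0 : dmul (fun n => cexp (2 * π * I * b / (((1 : ℕ) : ℂ) * d')) ^ n)
      (ModularCurve.coeffEmb ℂ ModularCurve.jq) ≠ 0 := by
    intro h0
    have := dmul_order _ hc0 _ coeffEmb_jq_ne_zero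
    rw [h0, order_coeffEmb_jq, HahnSeries.order_zero] at this
    omega
  have hord : (expInf N' r).order = -(e : ℤ) := by
    rw [← iotaL_order, h3, order_qExpand e _ hdm0, dmul_order _ hc0 _ coeffEmb_jq_ne_zero,
      order_coeffEmb_jq]
    ring
  refine ⟨?_, hord⟩
  intro h0
  rw [h0, map_zero, HahnSeries.order_zero] at hord
  have : (0 : ℤ) < e := by exact_mod_cast Nat.pos_of_ne_zero (NeZero.ne e)
  omega

/-- `ord_∞ Ψ(j(dτ)) = - N'/d`. -/
theorem ordCusp_Psi_Jd (c : ℤ) (d e : ℕ) [NeZero d] [NeZero e] (hde : N' = d * e)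
    (hcop : IsCoprime c (d : ℤ)) :
    ordCusp N' (Psi N' c (JdF N' d (Dvd.intro e hde.symm))) = -(e : ℤ) := by
  obtain ⟨h0, hord⟩ := order_expInf_compSL_jR N' c d e hde hcop
  rw [Psi_apply, PhiN_Jd N' d (Dvd.intro e hde.symm) _ (JdF_coe N' d _), sigmaL_algebraMap,
    ordCusp_algebraMap h0, hord]

end Order

end Fermat.Agent.S18.Descent
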