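/-
S18 swarm, piece 87-U5 (lead), part (C4): the **algebraic maximum principle**, abstract form.

`R : RedDatum K F k Fb`, `r : Place K F → Place k Fb` compatible with divisors of `v`-units.
If `u ∈ O` has no poles in the fibre `r⁻¹(r P)`, then its value `a = u(P)` lies in `O` (is
integral) and the reduction of `u - a` vanishes at `r P`.
-/
import Mathlib
import Fermat.Agent.S18.RPrimeDefs
import Fermat.Agent.FF.OrdFnBasic

set_option autoImplicit false
set_option linter.unusedSectionVars false

open AlgebraicCurve Fermat.Agent.S18.RPrime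

noncomputable section

namespace Fermat.Agent.S18.Disc

variable {K F k Fb : Type*} [Field K] [Field F] [Algebra K F]
  [Field k] [Field Fb] [Algebra k Fb]

/-- divisor compatibility of `r` (the first clause of `RPrimeStatement`). -/
def DivCompat (R : RedDatum K F k Fb) (r : Place K F → Place k Fb) : Prop :=
  ∀ y : R.O, IsUnit y → ∀ D : Divisor K F, (∀ P : Place K F, D P = P.ord (y : F)) →
    ∀ Q : Place k Fb, Finsupp.mapDomain r D Q = Q.ord (R.red y)

/-- principal divisors exist (a clause of `CurveRR`). -/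
def HasDiv (K F : Type*) [Field K] [Field F] [Algebra K F] : Prop :=
  ∀ f : F, f ≠ 0 → ∃ D : Divisor K F, ∀ v : Place K F, D v = v.ord f

theorem hasDiv_of_curveRR {g : ℕ} (h : CurveRR K F g) : HasDiv K F := fun f hf => by
  obtain ⟨D, hD, _⟩ := h.exists_div f hf
  exact ⟨D, hD⟩

theorem mapDomain_apply_eq_sum (r : Place K F → Place k Fb) (D : Divisor K F)
    (Q : Place k Fb) [DecidableEq (Place k Fb)] :
    Finsupp.mapDomain r D Q = ∑ P ∈ D.support, if r P = Q then D P else 0 := by
  classical
  rw [Finsupp.mapDomain, Finsupp.sum_apply, Finsupp.sum]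
  refine Finset.sum_congr rfl fun P _ => ?_
  rw [Finsupp.single_apply]

theorem red_eq_zero_of_not_isUnit (R : RedDatum K F k Fb) (y : R.O) (hy : ¬ IsUnit y) :
    R.red y = 0 := by
  by_contra h
  exact hy (R.isUnit_of_red_ne_zero y h)

/-- **key**: a `v`-unit `y` without poles in the fibre of `r P`, with a zero at `P`: its
reduction has a zero at `r P`. -/
theorem ord_red_pos (hdiv : HasDiv K F) (R : RedDatum K F k Fb) (r : Place K F → Place k Fb)
    (hr : DivCompat R r) (y : R.O) (hy : IsUnit y) (P : Place K F) (hP : 0 < P.ord (y : F))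
    (hreg : ∀ P' : Place K F, r P' = r P → 0 ≤ P'.ord (y : F)) :
    0 < (r P).ord (R.red y) := by
  classical
  have hy0 : (y : F) ≠ 0 := by
    intro h
    rw [h, P.ord_zero] at hP
    omega
  obtain ⟨D, hD⟩ := hdiv (y : F) hy0
  rw [← hr y hy D hD (r P), mapDomain_apply_eq_sum]
  have hPs : P ∈ D.support := by
    rw [Finsupp.mem_support_iff, hD]
    omega
  have hnn : ∀ P' ∈ D.support, 0 ≤ (if r P' = r P then D P' else 0) := by
    intro P' _
    split_ifs with h
    · rw [hD]; exact hreg P' h
    · exact le_rfl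
  have hle := Finset.single_le_sum hnn hPs
  rw [if_pos rfl, hD] at hle
  omega

/-- **(C4), integrality**: if `u ∈ O` has no poles in the fibre of `r P` and takes the value `a`
at `P`, then `a` is integral (lies in `O`). -/
theorem value_mem (hdiv : HasDiv K F) (R : RedDatum K F k Fb) (r : Place K F → Place k Fb)
    (hr : DivCompat R r) (u : R.O) (P : Place K F)
    (hreg : ∀ P' : Place K F, r P' = r P → 0 ≤ P'.ord (u : F)) (a : K)
    (ha : (u : F) = algebraMap K F a ∨ 0 < P.ord ((u : F) - algebraMap K F a)) :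
    algebraMap K F a ∈ R.O := by
  by_contra hmem
  have ha0 : algebraMap K F a ≠ 0 := fun h => hmem (h ▸ R.O.zero_mem)
  have ha0' : a ≠ 0 := fun h => ha0 (by rw [h, map_zero])
  have hinv : (algebraMap K F a)⁻¹ ∈ R.O := (R.O.mem_or_inv_mem _).resolve_left hmem
  set b : R.O := ⟨(algebraMap K F a)⁻¹, hinv⟩ with hb
  have hbnu : ¬ IsUnit b := by
    intro hu
    apply hmem
    obtain ⟨c, hc⟩ := hu.exists_right_inv
    have h1 : (b : F) * (c : F) = 1 := by
      have := congrArg Subtype.val hc
      simpa using this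
    have h2 : (c : F) = algebraMap K F a := by
      have : (b : F) = (algebraMap K F a)⁻¹ := rfl
      rw [this] at h1
      field_simp at h1
      exact h1
    rw [← h2]
    exact c.2
  have hredb : R.red b = 0 := red_eq_zero_of_not_isUnit R b hbnu
  set y : R.O := 1 - b * u with hy
  have hredy : R.red y = 1 := by
    rw [hy, map_sub, map_mul, map_one, hredb, zero_mul, sub_zero]
  have hyu : IsUnit y := R.isUnit_of_red_ne_zero y (by rw [hredy]; exact one_ne_zero)
  have hycoe : (y : F) = 1 - (algebraMap K F a)⁻¹ * (u : F) := rfl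
  have hyfac : (y : F) = -(algebraMap K F a⁻¹) * ((u : F) - algebraMap K F a) := by
    rw [hycoe, map_inv₀]
    field_simp
    ring
  have hune : (u : F) ≠ algebraMap K F a := by
    intro h
    apply hmem
    rw [← h]
    exact u.2
  have hPpos : 0 < P.ord ((u : F) - algebraMap K F a) := ha.resolve_left hune
  have hsub0 : (u : F) - algebraMap K F a ≠ 0 := sub_ne_zero.mpr hune
  have hc0 : -(algebraMap K F a⁻¹) ≠ 0 := by
    rw [neg_ne_zero]
    simpa using ha0'
  have hordc : ∀ P' : Place K F, P'.ord (-(algebraMap K F a⁻¹)) = 0 := by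
    intro P'
    have : -(algebraMap K F a⁻¹) = algebraMap K F (-a⁻¹) := by rw [map_neg]
    rw [this]
    exact Fermat.Agent.FF.H6.ord_algebraMap P' _
  have hyP : 0 < P.ord (y : F) := by
    rw [hyfac, P.ord_mul hc0 hsub0, hordc, zero_add]
    exact hPpos
  have hyreg : ∀ P' : Place K F, r P' = r P → 0 ≤ P'.ord (y : F) := by
    intro P' hP'
    apply Fermat.Agent.FF.H6.ord_nonneg_of_mem
    rw [hycoe]
    have hu' : (u : F) ∈ P'.toValuationSubring :=
      Fermat.Agent.FF.H6.mem_of_ord_nonneg P' (hreg P' hP')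
    have hc' : (algebraMap K F a)⁻¹ ∈ P'.toValuationSubring := by
      rw [← map_inv₀]
      exact P'.algebraMap_mem' _
    exact sub_mem (one_mem _) (mul_mem hc' hu')
  have key := ord_red_pos hdiv R r hr y hyu P hyP hyreg
  rw [hredy, Place.ord_one] at key
  exact lt_irrefl _ key

/-- **(C4), reduction**: if moreover `a ∈ O`, the reduction of `u - a` vanishes at `r P`. -/
theorem red_sub_value (hdiv : HasDiv K F) (R : RedDatum K F k Fb)
    (r : Place K F → Place k Fb) (hr : DivCompat R r) (u : R.O) (P : Place K F)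
    (hreg : ∀ P' : Place K F, r P' = r P → 0 ≤ P'.ord (u : F)) (a : K)
    (ha : (u : F) = algebraMap K F a ∨ 0 < P.ord ((u : F) - algebraMap K F a))
    (hmem : algebraMap K F a ∈ R.O) :
    R.red (u - ⟨algebraMap K F a, hmem⟩) = 0 ∨
      0 < (r P).ord (R.red (u - ⟨algebraMap K F a, hmem⟩)) := by
  set y : R.O := u - ⟨algebraMap K F a, hmem⟩ with hy
  by_cases hred : R.red y = 0
  · exact Or.inl hred
  right
  have hyu : IsUnit y := R.isUnit_of_red_ne_zero y hred
  have hycoe : (y : F) = (u : F) - algebraMap K F a := rfl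
  have hy0 : (y : F) ≠ 0 := by
    intro h
    apply hred
    have : y = 0 := Subtype.ext h
    rw [this, map_zero]
  have hP : 0 < P.ord (y : F) := by
    rw [hycoe]
    refine ha.resolve_left fun h => hy0 ?_
    rw [hycoe, h, sub_self]
  refine ord_red_pos hdiv R r hr y hyu P hP fun P' hP' => ?_
  apply Fermat.Agent.FF.H6.ord_nonneg_of_mem
  rw [hycoe]
  exact sub_mem (Fermat.Agent.FF.H6.mem_of_ord_nonneg P' (hreg P' hP')) (P'.algebraMap_mem' _)

end Fermat.Agent.S18.Disc
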