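import Mathlib

/-!
# S18, piece 87-P3 (c) (helper5): the tower `k(j) ⊂ k(t) ⊂ E`

`φ : E₀ → E` an embedding of extensions of `k`, `j₀ t₀ : E₀` with `E₀ = k(t₀)`.
If `j₀` is transcendental, `[E₀ : k(j₀)] = m`, and `E / k(φ j₀)` is finite separable of degree `n`,
then `φ t₀` is transcendental, `E / k(φ t₀)` is finite separable and `m * [E : k(φ t₀)] = n`.
-/

set_option autoImplicit false
set_option linter.style.haveILetI false
set_option linter.unusedSectionVars false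

open Polynomial IntermediateField

noncomputable section

namespace Fermat.Agent.S18.RedTower

variable {k E₀ E : Type*} [Field k] [Field E₀] [Field E] [Algebra k E₀] [Algebra k E]

theorem map_adjoin_simple (φ : E₀ →ₐ[k] E) (a : E₀) : (k⟮a⟯).map φ = k⟮φ a⟯ := by
  rw [IntermediateField.adjoin_map, Set.image_singleton]

theorem adjoin_le_adjoin (φ : E₀ →ₐ[k] E) (j₀ t₀ : E₀) (ht₀ : k⟮t₀⟯ = ⊤) :
    k⟮φ j₀⟯ ≤ k⟮φ t₀⟯ := by
  rw [IntermediateField.adjoin_simple_le_iff, ← map_adjoin_simple φ t₀, ht₀]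
  exact (IntermediateField.mem_map _).mpr ⟨j₀, IntermediateField.mem_top, rfl⟩

theorem relfinrank_eq (φ : E₀ →ₐ[k] E) (j₀ t₀ : E₀) (ht₀ : k⟮t₀⟯ = ⊤) :
    IntermediateField.relfinrank k⟮φ j₀⟯ k⟮φ t₀⟯ = Module.finrank k⟮j₀⟯ E₀ := by
  rw [← map_adjoin_simple φ j₀, ← map_adjoin_simple φ t₀, IntermediateField.relfinrank_map_map,
    ht₀, IntermediateField.relfinrank_top_right]

/-- the tower law -/
theorem finrank_mul (φ : E₀ →ₐ[k] E) (j₀ t₀ : E₀) (ht₀ : k⟮t₀⟯ = ⊤) :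
    Module.finrank k⟮j₀⟯ E₀ * Module.finrank k⟮φ t₀⟯ E = Module.finrank k⟮φ j₀⟯ E := by
  rw [← relfinrank_eq φ j₀ t₀ ht₀]
  exact IntermediateField.relfinrank_mul_finrank_top (adjoin_le_adjoin φ j₀ t₀ ht₀)

theorem finiteDimensional (φ : E₀ →ₐ[k] E) (j₀ t₀ : E₀) (ht₀ : k⟮t₀⟯ = ⊤)
    (hn : 0 < Module.finrank k⟮φ j₀⟯ E) : FiniteDimensional k⟮φ t₀⟯ E := by
  apply Module.finite_of_finrank_pos
  have h := finrank_mul φ j₀ t₀ ht₀
  rcases Nat.eq_zero_or_pos (Module.finrank k⟮φ t₀⟯ E) with h0 | h0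
  · rw [h0, mul_zero] at h
    omega
  · exact h0

theorem isSeparable (φ : E₀ →ₐ[k] E) (j₀ t₀ : E₀) (ht₀ : k⟮t₀⟯ = ⊤)
    [Algebra.IsSeparable k⟮φ j₀⟯ E] : Algebra.IsSeparable k⟮φ t₀⟯ E := by
  have hle := adjoin_le_adjoin φ j₀ t₀ ht₀
  letI : Algebra k⟮φ j₀⟯ k⟮φ t₀⟯ := (IntermediateField.inclusion hle).toRingHom.toAlgebra
  haveI : IsScalarTower k⟮φ j₀⟯ k⟮φ t₀⟯ E :=
    IsScalarTower.of_algebraMap_eq (fun x => rfl)
  exact Algebra.isSeparable_tower_top_of_isSeparable k⟮φ j₀⟯ k⟮φ t₀⟯ E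

theorem transcendental (φ : E₀ →ₐ[k] E) (j₀ t₀ : E₀) (ht₀ : k⟮t₀⟯ = ⊤)
    (hj : Transcendental k j₀) : Transcendental k (φ t₀) := by
  intro halg
  apply hj
  have h1 : IsAlgebraic k t₀ := (isAlgebraic_algHom_iff φ φ.injective).mp halg
  haveI : Algebra.IsAlgebraic k k⟮t₀⟯ :=
    IntermediateField.isAlgebraic_adjoin_simple h1.isIntegral
  have hmem : j₀ ∈ k⟮t₀⟯ := by rw [ht₀]; exact IntermediateField.mem_top
  have h2 : IsAlgebraic k (⟨j₀, hmem⟩ : k⟮t₀⟯) := Algebra.IsAlgebraic.isAlgebraic _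
  exact (isAlgebraic_algHom_iff (IntermediateField.val k⟮t₀⟯)
    (IntermediateField.val k⟮t₀⟯).injective (a := (⟨j₀, hmem⟩ : k⟮t₀⟯))).mpr h2

end Fermat.Agent.S18.RedTower
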