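import Mathlib
import Fermat.Prelude.Def_AlgebraicCurve_DivisorPushPull
import Fermat.Agent.S18.RRl.RHFinal
import Fermat.Agent.S18.RRl.Fibres
import Fermat.Agent.S18.RedTower

/-!
# S18, piece 87 (d) (helper5): the Riemann–Hurwitz inequality over a rational subfield

`k` algebraically closed, `F₀ ⊂ F` function fields over `k`, `F₀ = k(t₀)` rational, `j₀ ∈ F₀`
transcendental, `F / k(j)` finite separable (`j`, `t` the images of `j₀`, `t₀` in `F`).  Then

  `#{poles of j₀ in F₀} * n - #{poles of j in F} ≤ 2 g - 2 + 2 n`,   `n = [F : k(t)]`,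
  `g = dim H¹(0)`.

(The fibres of `t` over the `t₀`-values of the poles of `j₀` are disjoint sets of poles of `j`;
then `rh_inequality_sep`.)
-/

set_option autoImplicit false
set_option linter.style.haveILetI false
set_option linter.unusedSectionVars false

open AlgebraicCurve Polynomial IntermediateField Module Fermat.Agent.FF Fermat.Agent.RR

noncomputable section

namespace Fermat.Agent.S18.GenusGe

section Integral

variable {k F₀ F : Type*} [Field k] [Field F₀] [Field F] [Algebra k F₀] [Algebra k F]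
  [Algebra F₀ F] [IsScalarTower k F₀ F]

/-- `k(φ j₀)` is contained in the image of `F₀`. -/
theorem adjoin_le_range (j₀ : F₀) :
    k⟮algebraMap F₀ F j₀⟯ ≤ (IsScalarTower.toAlgHom k F₀ F).fieldRange := by
  rw [IntermediateField.adjoin_simple_le_iff]
  exact ⟨j₀, rfl⟩

/-- `F` is integral over `F₀` if it is finite over `k(φ j₀)`. -/
theorem isIntegral_of_finite (j₀ : F₀) [FiniteDimensional k⟮algebraMap F₀ F j₀⟯ F] :
    Algebra.IsIntegral F₀ F := by
  refine ⟨fun x => ?_⟩
  have hx : IsIntegral k⟮algebraMap F₀ F j₀⟯ x := IsIntegral.of_finite _ x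
  obtain ⟨p, hpm, hp⟩ := hx
  have hl : p.map (algebraMap k⟮algebraMap F₀ F j₀⟯ F) ∈ Polynomial.lifts (algebraMap F₀ F) := by
    rw [Polynomial.lifts_iff_coeff_lifts]
    intro n
    rw [Polynomial.coeff_map]
    obtain ⟨y, hy⟩ := adjoin_le_range (k := k) j₀ (p.coeff n).2
    exact ⟨y, hy⟩
  obtain ⟨q, hq, -, hqm⟩ := Polynomial.lifts_and_natDegree_eq_and_monic hl (hpm.map _)
  refine ⟨q, hqm, ?_⟩
  rw [← Polynomial.eval_map, hq, Polynomial.eval_map]
  exact hp

end Integral

section Rational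

variable {k F₀ : Type*} [Field k] [Field F₀] [Algebra k F₀] [IsAlgClosed k]

theorem finiteDimensional_of_top (t₀ : F₀) (ht₀ : k⟮t₀⟯ = ⊤) : FiniteDimensional k⟮t₀⟯ F₀ := by
  apply Module.finite_of_finrank_pos
  rw [ht₀, IntermediateField.finrank_top]
  exact Nat.one_pos

theorem finrank_of_top (t₀ : F₀) (ht₀ : k⟮t₀⟯ = ⊤) : Module.finrank k⟮t₀⟯ F₀ = 1 := by
  rw [ht₀, IntermediateField.finrank_top]

theorem isSeparable_of_top (t₀ : F₀) (ht₀ : k⟮t₀⟯ = ⊤) : Algebra.IsSeparable k⟮t₀⟯ F₀ := by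
  refine ⟨fun x => ?_⟩
  have hx : x ∈ k⟮t₀⟯ := by rw [ht₀]; exact IntermediateField.mem_top
  exact isSeparable_algebraMap (⟨x, hx⟩ : k⟮t₀⟯)

variable (t₀ : F₀) (ht₀ : k⟮t₀⟯ = ⊤) (htr : Transcendental k t₀)
include ht₀ htr

/-- the fibres of `t₀` on `F₀ = k(t₀)` have at most one element -/
theorem fibre_subsingleton (c : k) {v v' : Place k F₀} (hv : v ∈ placesOver t₀ c)
    (hv' : v' ∈ placesOver t₀ c) : v = v' := by
  classical
  haveI := finiteDimensional_of_top t₀ ht₀
  haveI := isSeparable_of_top t₀ ht₀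
  by_contra hne
  have hsum := FFl.sum_ord_placesOver t₀ htr c
  rw [finrank_of_top t₀ ht₀] at hsum
  have hsub : ({v, v'} : Finset (Place k F₀)) ⊆ (FFl.placesOver_finite t₀ htr c).toFinset := by
    intro u hu
    rw [Finset.mem_insert, Finset.mem_singleton] at hu
    rw [Set.Finite.mem_toFinset]
    rcases hu with rfl | rfl
    · exact hv
    · exact hv'
  have hle := Finset.sum_le_sum_of_subset_of_nonneg hsub
    (f := fun u : Place k F₀ => u.ord (t₀ - algebraMap k F₀ c)) (fun u hu _ => by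
      have h0 : u ∈ placesOver t₀ c := (Set.Finite.mem_toFinset _).mp hu
      have : 0 < u.ord (t₀ - algebraMap k F₀ c) := h0
      exact this.le)
  rw [Finset.sum_pair hne, hsum] at hle
  have h1 : 0 < v.ord (t₀ - algebraMap k F₀ c) := hv
  have h2 : 0 < v'.ord (t₀ - algebraMap k F₀ c) := hv'
  push_cast at hle
  omega

/-- `t₀` has at most one pole on `F₀ = k(t₀)` -/
theorem fibreInf_subsingleton {v v' : Place k F₀} (hv : v.ord t₀ < 0) (hv' : v'.ord t₀ < 0) :
    v = v' := by
  classical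
  haveI := finiteDimensional_of_top t₀ ht₀
  haveI := isSeparable_of_top t₀ ht₀
  by_contra hne
  have hsum := FFl.sum_ord_placesOverInf t₀ htr
  rw [finrank_of_top t₀ ht₀] at hsum
  have hsub : ({v, v'} : Finset (Place k F₀)) ⊆ (FFl.placesOverInf_finite t₀ htr).toFinset := by
    intro u hu
    rw [Finset.mem_insert, Finset.mem_singleton] at hu
    rw [Set.Finite.mem_toFinset]
    rcases hu with rfl | rfl
    · exact hv
    · exact hv'
  have hle := Finset.sum_le_sum_of_subset_of_nonneg hsub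
    (f := fun u : Place k F₀ => -u.ord t₀) (fun u hu _ => by
      have h0 : u ∈ placesOverInf (K := k) t₀ := (Set.Finite.mem_toFinset _).mp hu
      have : u.ord t₀ < 0 := h0
      omega)
  rw [Finset.sum_pair hne, hsum] at hle
  push_cast at hle
  omega

end Rational

section Tower

variable {k F₀ F : Type*} [Field k] [IsAlgClosed k] [Field F₀] [Field F] [Algebra k F₀]
  [Algebra k F] [Algebra F₀ F] [IsScalarTower k F₀ F] [Algebra.IsIntegral F₀ F]

theorem ord_map_neg_iff (w : Place k F) (f : F₀) :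
    w.ord (algebraMap F₀ F f) < 0 ↔ (w.restrict F₀).ord f < 0 := by
  rw [w.ord_restrict f]
  have he : (0 : ℤ) < (Place.ramificationIndex (F := F₀) w : ℤ) := by
    exact_mod_cast w.ramificationIndex_pos (F := F₀)
  constructor
  · intro h
    by_contra h1
    push Not at h1
    have := mul_nonneg he.le h1
    omega
  · intro h
    exact mul_neg_of_pos_of_neg he h

theorem ord_map_pos_iff (w : Place k F) (f : F₀) :
    0 < w.ord (algebraMap F₀ F f) ↔ 0 < (w.restrict F₀).ord f := by
  rw [w.ord_restrict f]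
  have he : (0 : ℤ) < (Place.ramificationIndex (F := F₀) w : ℤ) := by
    exact_mod_cast w.ramificationIndex_pos (F := F₀)
  constructor
  · intro h
    by_contra h1
    push Not at h1
    have := mul_nonpos_of_nonneg_of_nonpos he.le h1
    omega
  · intro h
    exact mul_pos he h

theorem map_sub_const (t₀ : F₀) (c : k) :
    algebraMap F₀ F t₀ - algebraMap k F c = algebraMap F₀ F (t₀ - algebraMap k F₀ c) := by
  rw [map_sub, ← IsScalarTower.algebraMap_apply]

variable (j₀ t₀ : F₀) (ht₀ : k⟮t₀⟯ = ⊤) (htr₀ : Transcendental k t₀)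

omit [IsAlgClosed k] [Algebra.IsIntegral F₀ F] in
include ht₀ in
theorem tower_transcendental (hj : Transcendental k j₀) :
    Transcendental k (algebraMap F₀ F t₀) :=
  RedTower.transcendental (IsScalarTower.toAlgHom k F₀ F) j₀ t₀ ht₀ hj

omit [IsAlgClosed k] [Algebra.IsIntegral F₀ F] in
include ht₀ in
theorem tower_finrank_mul :
    Module.finrank k⟮j₀⟯ F₀ * Module.finrank k⟮algebraMap F₀ F t₀⟯ F =
      Module.finrank k⟮algebraMap F₀ F j₀⟯ F :=
  RedTower.finrank_mul (IsScalarTower.toAlgHom k F₀ F) j₀ t₀ ht₀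

omit [IsAlgClosed k] [Algebra.IsIntegral F₀ F] in
include ht₀ in
theorem tower_finiteDimensional (hn : 0 < Module.finrank k⟮algebraMap F₀ F j₀⟯ F) :
    FiniteDimensional k⟮algebraMap F₀ F t₀⟯ F :=
  RedTower.finiteDimensional (IsScalarTower.toAlgHom k F₀ F) j₀ t₀ ht₀ hn

omit [IsAlgClosed k] [Algebra.IsIntegral F₀ F] in
include ht₀ in
theorem tower_isSeparable [hs : Algebra.IsSeparable k⟮algebraMap F₀ F j₀⟯ F] :
    Algebra.IsSeparable k⟮algebraMap F₀ F t₀⟯ F :=
  haveI : Algebra.IsSeparable k⟮(IsScalarTower.toAlgHom k F₀ F) j₀⟯ F := hs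
  RedTower.isSeparable (IsScalarTower.toAlgHom k F₀ F) j₀ t₀ ht₀

include ht₀ htr₀ in
/-- **Riemann–Hurwitz over a rational subfield**. -/
theorem rh_tower (hj₀fin : (placesOverInf (K := k) j₀).Finite)
    (hjfin : (placesOverInf (K := k) (algebraMap F₀ F j₀)).Finite)
    (ht : Transcendental k (algebraMap F₀ F t₀)) [FiniteDimensional k⟮algebraMap F₀ F t₀⟯ F]
    [Algebra.IsSeparable k⟮algebraMap F₀ F t₀⟯ F] :
    (hj₀fin.toFinset.card : ℤ) * (finrank k⟮algebraMap F₀ F t₀⟯ F : ℤ)
        - (hjfin.toFinset.card : ℤ) ≤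
      2 * (finrank k (H1' (algebraMap F₀ F t₀) (0 : Divisor k F)) : ℤ) - 2
        + 2 * (finrank k⟮algebraMap F₀ F t₀⟯ F : ℤ) := by
  classical
  haveI := finiteDimensional_of_top t₀ ht₀
  haveI := isSeparable_of_top t₀ ht₀
  set t : F := algebraMap F₀ F t₀ with ht_def
  set n : ℤ := (finrank k⟮t⟯ F : ℤ) with hn_def
  -- the value of `t₀` at a place
  have hval : ∀ v : Place k F₀, 0 ≤ v.ord t₀ → ∃ c : k, v ∈ placesOver t₀ c := fun v hv =>
    FFl.exists_mem_placesOver_of_mem t₀ htr₀ v
      (FFl.mem_of_ord_nonneg v (FFl.ne_zero_of_transcendental t₀ htr₀) hv)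
  let val : Place k F₀ → k := fun v =>
    if h : 0 ≤ v.ord t₀ then Classical.choose (hval v h) else 0
  have hvalspec : ∀ v : Place k F₀, 0 ≤ v.ord t₀ → v ∈ placesOver t₀ (val v) := by
    intro v hv
    have : val v = Classical.choose (hval v hv) := dif_pos hv
    rw [this]
    exact Classical.choose_spec (hval v hv)
  let g : Place k F₀ → Finset (Place k F) := fun v =>
    if v.ord t₀ < 0 then (FFl.placesOverInf_finite t ht).toFinset
    else (FFl.placesOver_finite t ht (val v)).toFinset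
  have hg_inf : ∀ v : Place k F₀, v.ord t₀ < 0 →
      g v = (FFl.placesOverInf_finite t ht).toFinset := fun v hv => if_pos hv
  have hg_fin : ∀ v : Place k F₀, ¬ v.ord t₀ < 0 →
      g v = (FFl.placesOver_finite t ht (val v)).toFinset := fun v hv => if_neg hv
  -- (i) `g v ⊆ S`
  have hsub : ∀ v ∈ hj₀fin.toFinset, g v ⊆ hjfin.toFinset := by
    intro v hv w hw
    have hvj0 : v ∈ placesOverInf (K := k) j₀ := (Set.Finite.mem_toFinset _).mp hv
    have hvj : v.ord j₀ < 0 := hvj0
    rw [Set.Finite.mem_toFinset]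
    show w.ord (algebraMap F₀ F j₀) < 0
    rw [ord_map_neg_iff]
    by_cases hvt : v.ord t₀ < 0
    · rw [hg_inf v hvt, Set.Finite.mem_toFinset] at hw
      have hw' : w.ord (algebraMap F₀ F t₀) < 0 := hw
      rw [ord_map_neg_iff] at hw'
      rw [fibreInf_subsingleton t₀ ht₀ htr₀ hw' hvt]
      exact hvj
    · rw [hg_fin v hvt, Set.Finite.mem_toFinset] at hw
      have hw' : 0 < w.ord (t - algebraMap k F (val v)) := hw
      rw [ht_def, map_sub_const, ord_map_pos_iff] at hw'
      have hvv := hvalspec v (not_lt.mp hvt)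
      rw [fibre_subsingleton t₀ ht₀ htr₀ (val v) (v := w.restrict F₀) (v' := v) hw' hvv]
      exact hvj
  -- (ii) disjointness
  have hdisj : ∀ v ∈ hj₀fin.toFinset, ∀ v' ∈ hj₀fin.toFinset, v ≠ v' →
      Disjoint (g v) (g v') := by
    intro v _ v' _ hne
    rw [Finset.disjoint_left]
    intro w hw hw'
    by_cases hvt : v.ord t₀ < 0
    · by_cases hvt' : v'.ord t₀ < 0
      · exact hne (fibreInf_subsingleton t₀ ht₀ htr₀ hvt hvt')
      · rw [hg_inf v hvt, Set.Finite.mem_toFinset] at hw
        rw [hg_fin v' hvt', Set.Finite.mem_toFinset] at hw'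
        exact FFl.placesOver_inf_disjoint t w hw' hw
    · by_cases hvt' : v'.ord t₀ < 0
      · rw [hg_fin v hvt, Set.Finite.mem_toFinset] at hw
        rw [hg_inf v' hvt', Set.Finite.mem_toFinset] at hw'
        exact FFl.placesOver_inf_disjoint t w hw hw'
      · rw [hg_fin v hvt, Set.Finite.mem_toFinset] at hw
        rw [hg_fin v' hvt', Set.Finite.mem_toFinset] at hw'
        have hcc : val v = val v' := FFl.placesOver_disjoint t w hw hw'
        have h1 := hvalspec v (not_lt.mp hvt)
        have h2 := hvalspec v' (not_lt.mp hvt')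
        rw [← hcc] at h2
        exact hne (fibre_subsingleton t₀ ht₀ htr₀ (val v) h1 h2)
  -- (iii) the union bound
  have hcard : ∑ v ∈ hj₀fin.toFinset, ((g v).card : ℤ) ≤ (hjfin.toFinset.card : ℤ) := by
    have h1 : (hj₀fin.toFinset.biUnion g).card = ∑ v ∈ hj₀fin.toFinset, (g v).card :=
      Finset.card_biUnion (fun v hv v' hv' hne => hdisj v hv v' hv' hne)
    have h2 : (hj₀fin.toFinset.biUnion g).card ≤ hjfin.toFinset.card :=
      Finset.card_le_card (Finset.biUnion_subset.mpr hsub)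
    rw [← Nat.cast_sum, ← h1]
    exact_mod_cast h2
  -- the fibre over `∞` has at most `n` places
  have hinf_le : ((FFl.placesOverInf_finite t ht).toFinset.card : ℤ) ≤ n := by
    have hsum := FFl.sum_ord_placesOverInf t ht
    rw [← hn_def] at hsum
    rw [← hsum, Finset.card_eq_sum_ones, Nat.cast_sum]
    apply Finset.sum_le_sum
    intro u hu
    have h0 : u ∈ placesOverInf (K := k) t := (Set.Finite.mem_toFinset _).mp hu
    have : u.ord t < 0 := h0
    push_cast
    omega
  -- Riemann–Hurwitz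
  have hRH := RRl.rh_inequality_sep t ht
    ((hj₀fin.toFinset.filter fun v => ¬ v.ord t₀ < 0).image val)
  rw [← hn_def] at hRH
  -- the sum over the finite part
  have hinj : Set.InjOn val (hj₀fin.toFinset.filter fun v => ¬ v.ord t₀ < 0 : Finset _) := by
    intro v hv v' hv' hvv
    have hv1 := (Finset.mem_filter.mp hv).2
    have hv1' := (Finset.mem_filter.mp hv').2
    have h1 := hvalspec v (not_lt.mp hv1)
    have h2 := hvalspec v' (not_lt.mp hv1')
    rw [← hvv] at h2
    exact fibre_subsingleton t₀ ht₀ htr₀ (val v) h1 h2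
  have hsum_fin : ∑ c ∈ (hj₀fin.toFinset.filter fun v => ¬ v.ord t₀ < 0).image val,
      (n - ((FFl.placesOver_finite t ht c).toFinset.card : ℤ)) =
      ∑ v ∈ hj₀fin.toFinset.filter fun v => ¬ v.ord t₀ < 0, (n - ((g v).card : ℤ)) := by
    rw [Finset.sum_image hinj]
    refine Finset.sum_congr rfl fun v hv => ?_
    rw [hg_fin v (Finset.mem_filter.mp hv).2]
  -- the sum over the infinite part
  have hsum_inf : ∑ v ∈ hj₀fin.toFinset.filter fun v => v.ord t₀ < 0, (n - ((g v).card : ℤ)) ≤
      n - ((FFl.placesOverInf_finite t ht).toFinset.card : ℤ) := by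
    have hcongr : ∑ v ∈ hj₀fin.toFinset.filter fun v => v.ord t₀ < 0, (n - ((g v).card : ℤ)) =
        ∑ _v ∈ hj₀fin.toFinset.filter fun v => v.ord t₀ < 0,
          (n - ((FFl.placesOverInf_finite t ht).toFinset.card : ℤ)) :=
      Finset.sum_congr rfl fun v hv => by rw [hg_inf v (Finset.mem_filter.mp hv).2]
    rw [hcongr, Finset.sum_const, nsmul_eq_mul]
    have hle1 : (hj₀fin.toFinset.filter fun v => v.ord t₀ < 0).card ≤ 1 := by
      rw [Finset.card_le_one]
      intro v hv v' hv'
      exact fibreInf_subsingleton t₀ ht₀ htr₀ (Finset.mem_filter.mp hv).2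
        (Finset.mem_filter.mp hv').2
    have hle1' : ((hj₀fin.toFinset.filter fun v => v.ord t₀ < 0).card : ℤ) ≤ 1 := by
      exact_mod_cast hle1
    have hnn : (0 : ℤ) ≤ n - ((FFl.placesOverInf_finite t ht).toFinset.card : ℤ) := by omega
    have h0 : (0 : ℤ) ≤ ((hj₀fin.toFinset.filter fun v => v.ord t₀ < 0).card : ℤ) :=
      Int.natCast_nonneg _
    nlinarith
  have hsplit := Finset.sum_filter_add_sum_filter_not hj₀fin.toFinset (fun v => v.ord t₀ < 0)
    (fun v => n - ((g v).card : ℤ))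
  have htotal : ∑ v ∈ hj₀fin.toFinset, (n - ((g v).card : ℤ)) =
      (hj₀fin.toFinset.card : ℤ) * n - ∑ v ∈ hj₀fin.toFinset, ((g v).card : ℤ) := by
    rw [Finset.sum_sub_distrib, Finset.sum_const, nsmul_eq_mul]
  rw [hsum_fin] at hRH
  linarith

end Tower

end Fermat.Agent.S18.GenusGe
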