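import Mathlib
import Fermat.Agent.S18.GenusGe
import Fermat.Agent.S18.GenusAsm
import Fermat.Agent.S18.RedScal
import Fermat.Agent.S18.RRl.GenusZero

/-!
# S18, piece 87 (d) (helper5): `ḡ ≥ g` — the Riemann–Hurwitz inequality for `F̄_{N'} / F̄_{M₀}`

Generic in the algebraically closed field `k`: `M₀ ∣ N'`, `RedLevel k M₀`, `RedLevel k N'`,
`F̄_{M₀}` of genus `0`.  Then with `n = ψ(N') / ψ(M₀)`:

  `#{poles of j̄ in F̄_{M₀}} * n - #{poles of j̄ in F̄_{N'}} ≤ 2 ḡ(N') - 2 + 2 n`.
-/

set_option autoImplicit false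
set_option linter.style.haveILetI false
set_option linter.unusedSectionVars false

open AlgebraicCurve Polynomial IntermediateField Module Fermat.Agent.FF Fermat.Agent.RR
open ModularCurve Fermat.Agent.S18.RedScal

noncomputable section

namespace Fermat.Agent.S18.GenusGe

section Modular

variable (k : Type*) [Field k] [IsAlgClosed k] {M₀ N' : ℕ} [NeZero M₀] [NeZero N']

set_option maxHeartbeats 1600000 in
/-- **Riemann–Hurwitz for `F̄_{N'} / k(t₀)`**, `t₀` a generator of `F̄_{M₀}`. -/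
theorem rh_modular_of_gen (hdvd : M₀ ∣ N') (hM : RedLevel k M₀) (hN : RedLevel k N')
    (t₀ : ↥(modularFunctionFieldFullC k M₀)) (htr₀ : Transcendental k t₀) (ht₀ : k⟮t₀⟯ = ⊤)
    (c₀ cN : ℕ) (hc₀ : c₀ ≤ Nat.card (placesOverInf (K := k) (jF k M₀)))
    (hcN : (placesOverInf (K := k) (jF k N')).Finite ∧
      Nat.card (placesOverInf (K := k) (jF k N')) ≤ cN) :
    ∃ n : ℕ, dedekindPsi M₀ * n = dedekindPsi N' ∧
      (c₀ : ℤ) * n - cN ≤ 2 * (GenusAsm.gb k N' : ℤ) - 2 + 2 * n := by
  have hle : modularFunctionFieldFullC k M₀ ≤ modularFunctionFieldFullC k N' :=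
    full_degeneracyC_le k hdvd
  letI alg : Algebra ↥(modularFunctionFieldFullC k M₀) ↥(modularFunctionFieldFullC k N') :=
    (IntermediateField.inclusion hle).toRingHom.toAlgebra
  haveI tower : IsScalarTower k ↥(modularFunctionFieldFullC k M₀)
      ↥(modularFunctionFieldFullC k N') :=
    IsScalarTower.of_algebraMap_eq (fun c => rfl)
  have ej : algebraMap ↥(modularFunctionFieldFullC k M₀) ↥(modularFunctionFieldFullC k N')
      (jF k M₀) = jF k N' := rfl
  haveI fdM := hM.finiteDimensional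
  haveI sepM := hM.isSeparable
  haveI fdj : FiniteDimensional
      k⟮algebraMap ↥(modularFunctionFieldFullC k M₀) ↥(modularFunctionFieldFullC k N') (jF k M₀)⟯
      ↥(modularFunctionFieldFullC k N') := by
    rw [ej]
    exact hN.finiteDimensional
  haveI sepj : Algebra.IsSeparable
      k⟮algebraMap ↥(modularFunctionFieldFullC k M₀) ↥(modularFunctionFieldFullC k N') (jF k M₀)⟯
      ↥(modularFunctionFieldFullC k N') := by
    rw [ej]
    exact hN.isSeparable
  haveI int : Algebra.IsIntegral ↥(modularFunctionFieldFullC k M₀)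
      ↥(modularFunctionFieldFullC k N') := isIntegral_of_finite (k := k) (jF k M₀)
  have ht := tower_transcendental (F := ↥(modularFunctionFieldFullC k N')) (jF k M₀) t₀ ht₀
    hM.transcendental
  have hfinN : Module.finrank
      k⟮algebraMap ↥(modularFunctionFieldFullC k M₀) ↥(modularFunctionFieldFullC k N') (jF k M₀)⟯
      ↥(modularFunctionFieldFullC k N') = dedekindPsi N' := by
    rw [ej]
    exact hN.finrank_eq
  haveI fdt := tower_finiteDimensional (F := ↥(modularFunctionFieldFullC k N')) (jF k M₀) t₀ ht₀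
    (by rw [hfinN]; exact Fermat.Agent.S28.dedekindPsi_pos N')
  haveI sept := tower_isSeparable (F := ↥(modularFunctionFieldFullC k N')) (jF k M₀) t₀ ht₀
  have hmul := tower_finrank_mul (F := ↥(modularFunctionFieldFullC k N')) (jF k M₀) t₀ ht₀
  rw [hfinN, hM.finrank_eq] at hmul
  have hfin0 : (placesOverInf (K := k) (jF k M₀)).Finite :=
    FFl.placesOverInf_finite (jF k M₀) hM.transcendental
  have hjfin : (placesOverInf (K := k)
      (algebraMap ↥(modularFunctionFieldFullC k M₀) ↥(modularFunctionFieldFullC k N')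
        (jF k M₀))).Finite := by
    rw [ej]
    exact hcN.1
  have hRH := rh_tower (jF k M₀) t₀ ht₀ htr₀ hfin0 hjfin ht
  have hg : (finrank k (H1' (algebraMap ↥(modularFunctionFieldFullC k M₀)
      ↥(modularFunctionFieldFullC k N') t₀)
        (0 : Divisor k ↥(modularFunctionFieldFullC k N'))) : ℤ) =
      (GenusAsm.gb k N' : ℤ) := by
    have := GenusAsm.genusl_eq_gb k N' hN _ ht
    rw [← this]
    rfl
  have hcard0 : Nat.card (placesOverInf (K := k) (jF k M₀)) = hfin0.toFinset.card := by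
    rw [Nat.card_coe_set_eq, Set.ncard_eq_toFinset_card _ hfin0]
  have hcardN : Nat.card (placesOverInf (K := k) (jF k N')) = hjfin.toFinset.card := by
    rw [Nat.card_coe_set_eq, Set.ncard_eq_toFinset_card _ hcN.1]
    rfl
  refine ⟨_, hmul, ?_⟩
  have h1 : (c₀ : ℤ) ≤ (hfin0.toFinset.card : ℤ) := by
    rw [← hcard0]
    exact_mod_cast hc₀
  have h2 : (hjfin.toFinset.card : ℤ) ≤ (cN : ℤ) := by
    rw [← hcardN]
    exact_mod_cast hcN.2
  rw [hg] at hRH
  have hn0 : (0 : ℤ) ≤ (Module.finrank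
      k⟮algebraMap ↥(modularFunctionFieldFullC k M₀) ↥(modularFunctionFieldFullC k N') t₀⟯
      ↥(modularFunctionFieldFullC k N') : ℤ) :=
    Int.natCast_nonneg _
  nlinarith

/-- **`ḡ ≥ g`, generic form**: Riemann–Hurwitz for `F̄_{N'}` over the genus-`0` field `F̄_{M₀}`. -/
theorem rh_modular (hdvd : M₀ ∣ N') (hM : RedLevel k M₀) (hN : RedLevel k N')
    (h0 : RPrime.CurveRR k ↥(modularFunctionFieldFullC k M₀) 0)
    (c₀ cN : ℕ) (hc₀ : c₀ ≤ Nat.card (placesOverInf (K := k) (jF k M₀)))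
    (hcN : (placesOverInf (K := k) (jF k N')).Finite ∧
      Nat.card (placesOverInf (K := k) (jF k N')) ≤ cN) :
    ∃ n : ℕ, dedekindPsi M₀ * n = dedekindPsi N' ∧
      (c₀ : ℤ) * n - cN ≤ 2 * (GenusAsm.gb k N' : ℤ) - 2 + 2 * n := by
  haveI fdM := hM.finiteDimensional
  haveI sepM := hM.isSeparable
  obtain ⟨P, -⟩ := FFl.placesOverInf_nonempty (K := k) (jF k M₀) hM.transcendental
  obtain ⟨t₀, htr₀, -, -, ht₀⟩ := RRl.exists_gen_of_genus_zero h0 P
  exact rh_modular_of_gen k hdvd hM hN t₀ htr₀ ht₀ c₀ cN hc₀ hcN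

end Modular

end Fermat.Agent.S18.GenusGe
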