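/-
S18 swarm, piece 87-P8 (lead): glue with the prelude.
From `h : ReductionInputsModL A N`, `m • z = 0` and `reductionModL A N z = 0` to the divisor
statement that the swarm proves (`CoreDivisorStatement`), and back.
-/
import Mathlib
import Fermat.Prelude.Def_ModularCurve_ReductionModL

set_option autoImplicit false
set_option synthInstance.maxHeartbeats 400000

open AlgebraicCurve

namespace Fermat.Agent.S18

open ModularCurve

/-- The divisor form of S18: a divisor `D` of degree `0` with `m D` principal (`ℓ ∤ m`) whose
image under a place reduction `r` is principal, is principal. -/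
def CoreDivisorStatement (N : ℕ) [NeZero N] (ℓ : ℕ)
    (A : ValuationSubring (AlgebraicClosure ℚ)) : Prop :=
  ∀ (r : Place (AlgebraicClosure ℚ) (modularFunctionFieldBar N) →
      Place (IsLocalRing.ResidueField A) (modularFunctionFieldFullC (IsLocalRing.ResidueField A) N)),
    IsPlaceReductionModL A N r → PrincipalGeneratedByIntegral A (IsLocalRing.residue A) N →
    ∀ (D : Divisor (AlgebraicClosure ℚ) (modularFunctionFieldBar N)) (m : ℕ), ¬ ℓ ∣ m →
      Divisor.degree D = 0 → Divisor.IsPrincipal (m • D) →
      Divisor.IsPrincipal (Finsupp.mapDomain r D) → Divisor.IsPrincipal D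

/-- **87-P8** the glue: S18 from its divisor form. -/
theorem glue_of_core (N : ℕ) [NeZero N] {ℓ : ℕ}
    (A : ValuationSubring (AlgebraicClosure ℚ))
    (hcore : CoreDivisorStatement N ℓ A)
    (h : ModularCurve.ReductionInputsModL A N) (m : ℕ) (hm : ¬ ℓ ∣ m) (z : ModularCurve.JZero N)
    (hmz : m • z = 0) (hz : ModularCurve.reductionModL A N z = 0) :
    z = 0 := by
  obtain ⟨D, rfl⟩ := Pic0.mk_surjective z
  have hr := isPlaceReductionModL_placeReductionModL h
  have hgen : PrincipalGeneratedByIntegral A (IsLocalRing.residue A) N := h.choose_spec.2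
  -- `m D` is principal
  have h1 : Divisor.IsPrincipal (m • (D : Divisor (AlgebraicClosure ℚ) (modularFunctionFieldBar N))) := by
    have h2 : (Pic0.mk (m • D) : Pic0 (AlgebraicClosure ℚ) (modularFunctionFieldBar N)) = 0 := by
      rw [← hmz]; rfl
    have h3 := (QuotientAddGroup.eq_zero_iff (m • D)).1 h2
    rw [AddSubgroup.mem_addSubgroupOf] at h3
    exact h3
  -- the reduction of `D` is principal
  have h4 : Divisor.IsPrincipal (Finsupp.mapDomain (placeReductionModL h)
      (D : Divisor (AlgebraicClosure ℚ) (modularFunctionFieldBar N))) := by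
    rw [reductionModL_mk h D] at hz
    have h3 := (QuotientAddGroup.eq_zero_iff _).1 hz
    rw [AddSubgroup.mem_addSubgroupOf] at h3
    exact h3
  have h5 := hcore _ hr hgen D m hm (Divisor.mem_degZero.1 D.2) h1 h4
  exact (QuotientAddGroup.eq_zero_iff D).2 (by
    rw [AddSubgroup.mem_addSubgroupOf]; exact h5)

end Fermat.Agent.S18
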