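/-
S18 swarm, piece 87-P8 (lead): the transfer step of the glue, in abstract form.

`F ⊂ F'` function fields over `K`, `Fb ⊂ Fb'` function fields over `k`, place maps
`r : Place K F → Place k Fb`, `r' : Place K F' → Place k Fb'`.  If `r'_* ∘ pullback` and
`pullback ∘ r_*` agree on a set of divisors generating the principal divisors of `F`, then for
every divisor `D` of `F` with `m D` principal (`m ≠ 0`) and `r_* D` principal, the divisor
`r'_* (pullback D)` is principal.  No pointwise comparison of `r` and `r'` is needed.
-/
import Mathlib
import Fermat.Prelude.Def_AlgebraicCurve_DivisorPushPull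

set_option autoImplicit false

open AlgebraicCurve

namespace Fermat.Agent.S18

section Transfer

variable {K F F' : Type*} [Field K] [Field F] [Field F'] [Algebra K F] [Algebra K F']
  [Algebra F F'] [IsScalarTower K F F'] [Algebra.IsIntegral F F'] [HasPrincipalDivisors K F']
variable {k Fb Fb' : Type*} [Field k] [Field Fb] [Field Fb'] [Algebra k Fb] [Algebra k Fb']
  [Algebra Fb Fb'] [IsScalarTower k Fb Fb'] [Algebra.IsIntegral Fb Fb']
  [HasPrincipalDivisors k Fb']

/-- the two ways round the square agree on the subgroup generated by `S`. -/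
theorem glueTransfer_eq_of_mem_closure
    (r : Place K F → Place k Fb) (r' : Place K F' → Place k Fb')
    (S : Set (Divisor K F))
    (hcompat : ∀ E ∈ S, Finsupp.mapDomain r' (Divisor.pullback F' E) =
      Divisor.pullback Fb' (Finsupp.mapDomain r E))
    {E : Divisor K F} (hE : E ∈ AddSubgroup.closure S) :
    Finsupp.mapDomain r' (Divisor.pullback F' E) =
      Divisor.pullback Fb' (Finsupp.mapDomain r E) := by
  have key : ((Finsupp.mapDomain.addMonoidHom r').comp (Divisor.pullback (K := K) (F := F) F'))
      E = ((Divisor.pullback (K := k) (F := Fb) Fb').comp (Finsupp.mapDomain.addMonoidHom r)) E := by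
    induction hE using AddSubgroup.closure_induction with
    | mem E hE => exact hcompat E hE
    | zero => simp
    | add E E' _ _ hE hE' => rw [map_add, map_add, hE, hE']
    | neg E _ hE => rw [map_neg, map_neg, hE]
  exact key

/-- **transfer**: `m D` principal, `r_* D` principal  ⟹  `r'_* (pullback D)` principal. -/
theorem glueTransfer_isPrincipal
    (r : Place K F → Place k Fb) (r' : Place K F' → Place k Fb')
    (S : Set (Divisor K F))
    (hS : Divisor.principal (K := K) (F := F) ≤ AddSubgroup.closure S)
    (hcompat : ∀ E ∈ S, Finsupp.mapDomain r' (Divisor.pullback F' E) =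
      Divisor.pullback Fb' (Finsupp.mapDomain r E))
    (D : Divisor K F) (m : ℕ) (hm : m ≠ 0) (hmD : Divisor.IsPrincipal (m • D))
    (hrD : Divisor.IsPrincipal (Finsupp.mapDomain r D)) :
    Divisor.IsPrincipal (Finsupp.mapDomain r' (Divisor.pullback F' D)) := by
  have h1 := glueTransfer_eq_of_mem_closure r r' S hcompat (hS hmD)
  have h2 : m • Finsupp.mapDomain r' (Divisor.pullback F' D) =
      m • Divisor.pullback Fb' (Finsupp.mapDomain r D) := by
    have e1 : Finsupp.mapDomain r' (Divisor.pullback F' (m • D)) =
        m • Finsupp.mapDomain r' (Divisor.pullback F' D) := by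
      rw [map_nsmul]
      exact map_nsmul (Finsupp.mapDomain.addMonoidHom r') _ _
    have e2 : Divisor.pullback Fb' (Finsupp.mapDomain r (m • D)) =
        m • Divisor.pullback Fb' (Finsupp.mapDomain r D) := by
      have : Finsupp.mapDomain r (m • D) = m • Finsupp.mapDomain r D :=
        map_nsmul (Finsupp.mapDomain.addMonoidHom r) _ _
      rw [this, map_nsmul]
    rw [← e1, ← e2, h1]
  have h3 : Finsupp.mapDomain r' (Divisor.pullback F' D) =
      Divisor.pullback Fb' (Finsupp.mapDomain r D) := by
    ext Q
    have h4 := DFunLike.congr_fun h2 Q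
    simp only [Finsupp.smul_apply, nsmul_eq_mul] at h4
    have hm' : (m : ℤ) ≠ 0 := by exact_mod_cast hm
    exact mul_left_cancel₀ hm' h4
  rw [h3]
  exact Divisor.isPrincipal_pullback hrD

/-- the pullback of `D` with `m D = div f` satisfies `m (pullback D) = div f` upstairs. -/
theorem glueTransfer_nsmul_pullback_isPrincipal
    (D : Divisor K F) (m : ℕ) (hmD : Divisor.IsPrincipal (m • D)) :
    Divisor.IsPrincipal (m • Divisor.pullback F' D) := by
  rw [← map_nsmul]
  exact Divisor.isPrincipal_pullback hmD

end Transfer

end Fermat.Agent.S18
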