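import Mathlib
import Fermat.Agent.S18.MaxPrinciple

/-!
# S18, piece 87-U5 (C2), (C3): no cancellation

If `y` is a unit of `R.O` and the degree of the poles of `red y` is (at least) the degree of the
poles of `y`, then `r_* (y)_∞ = (red y)_∞` and `r_* (y)_0 = (red y)_0`: a zero and a pole of `y`
never reduce to the same place.  In particular, if `red y` has a simple pole at `Q = r P` and `y`
has a pole at `P`, then `P` is the only zero or pole of `y` in the residue disc `r⁻¹(Q)`.
-/

set_option autoImplicit false

open AlgebraicCurve

noncomputable section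

namespace Fermat.Agent.S18.RPrime

variable {K F k Fb : Type*} [Field K] [Field F] [Algebra K F]
  [Field k] [Field Fb] [Algebra k Fb] {g g' : ℕ}

section

variable (hK : CurveRR K F g) (hk : CurveRR k Fb g') (R : RedDatum K F k Fb)
  {r : Place K F → Place k Fb} (hr : DivCompatR R r)

include hr in
theorem mapDomain_divOf_eq {y : R.O} (hy : IsUnit y) :
    Finsupp.mapDomain r (divOf hK (y : F)) = divOf hk (R.red y) := by
  ext Q
  rw [hr y hy (divOf hK (y : F)) (fun P => divOf_apply hK _ P) Q, divOf_apply]

include hr in
/-- **no cancellation** -/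
theorem mapDomain_polePart_eq {y : R.O} (hy : IsUnit y)
    (hdeg : Divisor.degree (polePart (divOf hK (y : F))) ≤
      Divisor.degree (polePart (divOf hk (R.red y)))) :
    Finsupp.mapDomain r (polePart (divOf hK (y : F))) = polePart (divOf hk (R.red y)) ∧
      Finsupp.mapDomain r (zeroPart (divOf hK (y : F))) = zeroPart (divOf hk (R.red y)) := by
  have hcompat := mapDomain_divOf_eq hK hk R hr hy
  have h1 : Finsupp.mapDomain r (zeroPart (divOf hK (y : F))) -
      Finsupp.mapDomain r (polePart (divOf hK (y : F))) =
      zeroPart (divOf hk (R.red y)) - polePart (divOf hk (R.red y)) := by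
    rw [← mapDomain_sub', zeroPart_sub_polePart, zeroPart_sub_polePart, hcompat]
  have hX : Finsupp.mapDomain r (polePart (divOf hK (y : F))) - polePart (divOf hk (R.red y)) =
      Finsupp.mapDomain r (zeroPart (divOf hK (y : F))) - zeroPart (divOf hk (R.red y)) := by
    rw [sub_eq_sub_iff_add_eq_add]
    have := sub_eq_sub_iff_add_eq_add.mp h1
    rw [add_comm, this, add_comm]
  have hX0 : 0 ≤ Finsupp.mapDomain r (polePart (divOf hK (y : F))) -
      polePart (divOf hk (R.red y)) := by
    rw [Finsupp.le_def]
    intro Q
    by_cases hQ : 0 < polePart (divOf hk (R.red y)) Q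
    · -- then the zero part vanishes at `Q`
      rw [hX]
      have hz : zeroPart (divOf hk (R.red y)) Q = 0 := by
        rw [polePart_apply] at hQ
        rw [zeroPart_apply]
        have : divOf hk (R.red y) Q < 0 := by
          by_contra h
          rw [max_eq_right (by omega)] at hQ
          exact lt_irrefl _ hQ
        exact max_eq_right this.le
      rw [Finsupp.sub_apply, hz, sub_zero]
      exact Finsupp.le_def.mp (mapDomain_nonneg r (zeroPart_nonneg _)) Q
    · have hp : polePart (divOf hk (R.red y)) Q = 0 := by
        have := Finsupp.le_def.mp (polePart_nonneg (divOf hk (R.red y))) Q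
        simp only [Finsupp.coe_zero, Pi.zero_apply] at this
        omega
      rw [Finsupp.sub_apply, hp, sub_zero]
      exact Finsupp.le_def.mp (mapDomain_nonneg r (polePart_nonneg _)) Q
  have hXdeg : Divisor.degree (Finsupp.mapDomain r (polePart (divOf hK (y : F))) -
      polePart (divOf hk (R.red y))) = 0 := by
    have h2 := degree_nonneg hk.deg_one hX0
    rw [map_sub, degree_mapDomain hK.deg_one hk.deg_one] at h2 ⊢
    omega
  have hXz := eq_zero_of_degree_eq_zero hk.deg_one hX0 hXdeg
  refine ⟨sub_eq_zero.mp hXz, ?_⟩
  rw [hX] at hXz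
  exact sub_eq_zero.mp hXz

include hr in
/-- **(C2) + (C3)**: if `red y` has a simple pole at `Q = r P` and `y` has a pole at `P`, then
`y` has neither zero nor pole at the other places of the residue disc of `P`. -/
theorem ord_eq_zero_of_simple_pole {y : R.O} (hy : IsUnit y)
    (hdeg : Divisor.degree (polePart (divOf hK (y : F))) ≤
      Divisor.degree (polePart (divOf hk (R.red y))))
    (P : Place K F) (hP : P.ord (y : F) < 0) (hQ : (r P).ord (R.red y) = -1)
    (P' : Place K F) (hP' : P' ≠ P) (hrP' : r P' = r P) : P'.ord (y : F) = 0 := by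
  classical
  obtain ⟨hpole, hzero⟩ := mapDomain_polePart_eq hK hk R hr hy hdeg
  -- no zero in the fibre
  have hz : zeroPart (divOf hK (y : F)) P' = 0 := by
    have h1 := congrArg (fun D => D (r P)) hzero
    simp only [zeroPart_apply (divOf hk (R.red y)), divOf_apply, hQ] at h1
    rw [max_eq_right (by norm_num), mapDomain_apply_eq_sum] at h1
    by_contra hne
    have hmem : P' ∈ (zeroPart (divOf hK (y : F))).support := Finsupp.mem_support_iff.mpr hne
    have hnn : ∀ P'' ∈ (zeroPart (divOf hK (y : F))).support,
        0 ≤ (if r P'' = r P then zeroPart (divOf hK (y : F)) P'' else 0) := by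
      intro P'' _
      split_ifs
      · exact Finsupp.le_def.mp (zeroPart_nonneg _) P''
      · exact le_rfl
    have := Finset.single_le_sum hnn hmem
    rw [if_pos hrP', h1] at this
    have h2 := Finsupp.le_def.mp (zeroPart_nonneg (divOf hK (y : F))) P'
    simp only [Finsupp.coe_zero, Pi.zero_apply] at h2
    omega
  -- the poles in the fibre
  have hp : polePart (divOf hK (y : F)) P' = 0 := by
    have h1 := congrArg (fun D => D (r P)) hpole
    simp only [polePart_apply (divOf hk (R.red y)), divOf_apply, hQ] at h1
    rw [max_eq_left (by norm_num), mapDomain_apply_eq_sum] at h1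
    have hPpole : 1 ≤ polePart (divOf hK (y : F)) P := by
      rw [polePart_apply, divOf_apply]
      exact le_max_of_le_left (by omega)
    have hPmem : P ∈ (polePart (divOf hK (y : F))).support :=
      Finsupp.mem_support_iff.mpr (by omega)
    by_contra hne
    have hmem : P' ∈ ((polePart (divOf hK (y : F))).support.erase P) :=
      Finset.mem_erase.mpr ⟨hP', Finsupp.mem_support_iff.mpr hne⟩
    have hnn : ∀ P'' ∈ ((polePart (divOf hK (y : F))).support.erase P),
        0 ≤ (if r P'' = r P then polePart (divOf hK (y : F)) P'' else 0) := by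
      intro P'' _
      split_ifs
      · exact Finsupp.le_def.mp (polePart_nonneg _) P''
      · exact le_rfl
    have h3 := Finset.single_le_sum hnn hmem
    rw [if_pos hrP'] at h3
    rw [← Finset.add_sum_erase _ _ hPmem, if_pos rfl] at h1
    have h2 := Finsupp.le_def.mp (polePart_nonneg (divOf hK (y : F))) P'
    simp only [Finsupp.coe_zero, Pi.zero_apply] at h2
    omega
  rw [zeroPart_apply, divOf_apply] at hz
  rw [polePart_apply, divOf_apply] at hp
  have h1 := le_max_left (P'.ord (y : F)) 0
  have h2 := le_max_left (-P'.ord (y : F)) 0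
  omega

end

end Fermat.Agent.S18.RPrime
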