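import Fermat.Agent.S28.Core
import Fermat.Agent.S28.BridgeFM
import Fermat.Agent.S28.Gen

/-!
# S18 (item 87), piece 87-P3 (a), (b): the reduced modular function field in characteristic `ℓ`

`k` a field, `j̄ = jqModC k`, `j̄_N = jqNModC k N` in `k((q))`, `K_j = k(j̄)`.

Abstract part (any field `k`), from the two inputs
* `CoreQ k N`: `1, j̄_N, …, j̄_N^(ψ(N)-1)` are linearly independent over `k[j̄]`,
* `ModPoly k N Φ`: `Φ ∈ k[X][Y]` is monic of degree `ψ(N)` in `Y`, `Φ(j̄, j̄_N) = 0`, and `Φ(j̄, Y)`
  is separable: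

* `minpoly_eq`: the minimal polynomial of `j̄_N` over `k(j̄)` is `Φ(j̄, Y)`;
* `finrank_adjoin`: `[k(j̄)(j̄_N) : k(j̄)] = ψ(N)`;
* `isSeparable_jN`: `j̄_N` is separable over `k(j̄)`.

For `k` the residue field of a valuation subring `A` of `ℚ̄` over `ℓ ∤ N` both inputs hold
(S28 library): `coreQ_residue`, `exists_modPoly_residue`.
-/

set_option autoImplicit false
set_option linter.style.haveILetI false
set_option linter.unusedSectionVars false
open scoped MatrixGroups
open Polynomial

noncomputable section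

namespace Fermat.Agent.S18.RedDeg
open Fermat.Agent.FF ModularCurve Fermat.Agent.S28

section general
variable (k : Type*) [Field k] (N : ℕ) [NeZero N]

/-- evaluation of `k[X]` at `j̄` (variable `q`) -/
def evQ : Polynomial k →+* LaurentSeries k := (Polynomial.aeval (jqModC k)).toRingHom

theorem evQ_X : evQ k X = jqModC k := by simp [evQ]

theorem evQ_C (c : k) : evQ k (C c) = HahnSeries.C c := by
  simp [evQ, Key.algebraMap_laurent]

theorem evQ_eq_evJ : evQ k = Key.evJ (jqModC k) := by
  apply Polynomial.ringHom_ext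
  · intro c
    rw [evQ_C, Key.evJ_C]
  · rw [evQ_X, Key.evJ_X]

theorem evQ_injective : Function.Injective (evQ k) := by
  rw [evQ_eq_evJ]
  apply Key.evJ_injective
  have := order_jbarT 1 k
  rwa [qExpand_one_apply] at this

/-- `q ↦ q^N` commutes with the evaluation at `j̄`. -/
theorem qExpand_comp_evQ :
    (qExpand k N).comp (evQ k) = Key.evJ (qExpand k N (jqModC k)) := by
  apply Polynomial.ringHom_ext
  · intro c
    rw [RingHom.comp_apply, evQ_C, qExpand_C, Key.evJ_C]
  · rw [RingHom.comp_apply, evQ_X, Key.evJ_X]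

/-- **CORE** in the variable `q`, over `k`. -/
def CoreQ : Prop :=
  ∀ P : Polynomial (Polynomial k), P.natDegree < dedekindPsi N →
    P.eval₂ (evQ k) (jqNModC k N) = 0 → P = 0

theorem coreQ_of_coreOverT (h : CoreOverT k N) : CoreQ k N := by
  intro P hdeg hP
  apply h P hdeg
  have h1 := congrArg (qExpand k N) hP
  rw [map_zero, Polynomial.hom_eval₂, qExpand_comp_evQ] at h1
  exact h1

/-- the reduced modular polynomial -/
structure ModPoly (Φ : Polynomial (Polynomial k)) : Prop where
  monic : Φ.Monic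
  natDegree : Φ.natDegree = dedekindPsi N
  root : Φ.eval₂ (evQ k) (jqNModC k N) = 0
  separable : (Φ.map (evQ k)).Separable

/-- the field `k(j̄) ⊂ k((q))` -/
abbrev Kj : IntermediateField k (LaurentSeries k) :=
  IntermediateField.adjoin k {jqModC k}

/-- `j̄` as an element of `k(j̄)` -/
def jK : Kj k := ⟨jqModC k, IntermediateField.mem_adjoin_simple_self _ _⟩

/-- evaluation of `k[X]` at `j̄`, with values in `k(j̄)` -/
def evK : Polynomial k →+* Kj k := (Polynomial.aeval (jK k)).toRingHom

theorem algebraMap_comp_evK :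
    (algebraMap (Kj k) (LaurentSeries k)).comp (evK k) = evQ k := by
  apply Polynomial.ringHom_ext
  · intro c
    simp [evK, evQ]
  · simp [evK, evQ, jK]

theorem coe_evK (p : Polynomial k) : ((evK k p : Kj k) : LaurentSeries k) = evQ k p := by
  have := congrArg (fun f => f p) (algebraMap_comp_evK k)
  exact this

theorem evK_injective : Function.Injective (evK k) := by
  intro p q h
  apply evQ_injective k
  rw [← coe_evK, ← coe_evK, h]

/-- every element of `k(j̄)` is a quotient of polynomials in `j̄`. -/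
theorem exists_evK_mul_eq (x : Kj k) : ∃ r s : Polynomial k, s ≠ 0 ∧ evK k s * x = evK k r := by
  obtain ⟨r, s, h⟩ := (IntermediateField.mem_adjoin_simple_iff k (x : LaurentSeries k)).mp x.2
  by_cases hs : s = 0
  · refine ⟨0, 1, one_ne_zero, ?_⟩
    have hx : (x : LaurentSeries k) = 0 := by rw [h, hs]; simp
    have hx' : x = 0 := Subtype.ext hx
    rw [hx']
    simp
  · refine ⟨r, s, hs, ?_⟩
    apply Subtype.ext
    have hs' : evQ k s ≠ 0 := fun h0 => hs (evQ_injective k (by rw [h0, map_zero]))
    rw [MulMemClass.coe_mul, coe_evK, coe_evK, h]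
    have e1 : (Polynomial.aeval (jqModC k)) r = evQ k r := rfl
    have e2 : (Polynomial.aeval (jqModC k)) s = evQ k s := rfl
    rw [e1, e2, mul_div_cancel₀ _ hs']

/-- clearing denominators of a polynomial over `k(j̄)` -/
theorem exists_clear (q : Polynomial (Kj k)) : ∃ (b : Polynomial k) (P : Polynomial (Polynomial k)),
    b ≠ 0 ∧ P.map (evK k) = C (evK k b) * q := by
  induction q using Polynomial.induction_on' with
  | add q₁ q₂ h₁ h₂ =>
    obtain ⟨b₁, P₁, hb₁, hP₁⟩ := h₁
    obtain ⟨b₂, P₂, hb₂, hP₂⟩ := h₂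
    refine ⟨b₁ * b₂, C b₂ * P₁ + C b₁ * P₂, mul_ne_zero hb₁ hb₂, ?_⟩
    rw [Polynomial.map_add, Polynomial.map_mul, Polynomial.map_mul, Polynomial.map_C,
      Polynomial.map_C, hP₁, hP₂, map_mul, C_mul]
    ring
  | monomial n x =>
    obtain ⟨r, s, hs, h⟩ := exists_evK_mul_eq k x
    refine ⟨s, monomial n r, hs, ?_⟩
    rw [Polynomial.map_monomial, ← h, C_mul_monomial]

theorem evK_ne_zero {b : Polynomial k} (hb : b ≠ 0) : evK k b ≠ 0 :=
  fun h0 => hb (evK_injective k (by rw [h0, map_zero]))

variable {k N}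

/-- **linear independence over `k(j̄)`**: a polynomial over `k(j̄)` of degree `< ψ(N)` vanishing
at `j̄_N` is zero. -/
theorem eq_zero_of_aeval_eq_zero (hc : CoreQ k N) (q : Polynomial (Kj k))
    (hdeg : q.natDegree < dedekindPsi N) (hq : Polynomial.aeval (jqNModC k N) q = 0) : q = 0 := by
  obtain ⟨b, P, hb, hP⟩ := exists_clear k q
  have hb' := evK_ne_zero k hb
  have hdegP : P.natDegree < dedekindPsi N := by
    rw [← Polynomial.natDegree_map_eq_of_injective (evK_injective k) P, hP,
      Polynomial.natDegree_C_mul hb']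
    exact hdeg
  have hroot : P.eval₂ (evQ k) (jqNModC k N) = 0 := by
    rw [← algebraMap_comp_evK, ← Polynomial.eval₂_map, hP, Polynomial.eval₂_mul,
      Polynomial.eval₂_C]
    have : Polynomial.eval₂ (algebraMap (Kj k) (LaurentSeries k)) (jqNModC k N) q = 0 := hq
    rw [this, mul_zero]
  have hP0 := hc P hdegP hroot
  rw [hP0, Polynomial.map_zero] at hP
  rcases mul_eq_zero.mp hP.symm with h | h
  · exact absurd (Polynomial.C_eq_zero.mp h) hb'
  · exact h

/-- `Φ(j̄, Y)` as a polynomial over `k(j̄)` -/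
def PhiK (Φ : Polynomial (Polynomial k)) : Polynomial (Kj k) := Φ.map (evK k)

theorem PhiK_monic {Φ : Polynomial (Polynomial k)} (h : ModPoly k N Φ) : (PhiK Φ).Monic :=
  h.monic.map _

theorem PhiK_natDegree {Φ : Polynomial (Polynomial k)} (h : ModPoly k N Φ) :
    (PhiK Φ).natDegree = dedekindPsi N := by
  rw [PhiK, Polynomial.natDegree_map_eq_of_injective (evK_injective k), h.natDegree]

theorem PhiK_aeval {Φ : Polynomial (Polynomial k)} (h : ModPoly k N Φ) :
    Polynomial.aeval (jqNModC k N) (PhiK Φ) = 0 := by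
  have : Polynomial.eval₂ (algebraMap (Kj k) (LaurentSeries k)) (jqNModC k N) (PhiK Φ) = 0 := by
    rw [PhiK, Polynomial.eval₂_map, algebraMap_comp_evK]
    exact h.root
  exact this

theorem PhiK_separable {Φ : Polynomial (Polynomial k)} (h : ModPoly k N Φ) :
    (PhiK Φ).Separable := by
  have h1 : ((PhiK Φ).map (algebraMap (Kj k) (LaurentSeries k))).Separable := by
    rw [PhiK, Polynomial.map_map, algebraMap_comp_evK]
    exact h.separable
  exact (Polynomial.separable_map _).mp h1

/-- the minimal polynomial of `j̄_N` over `k(j̄)` is `Φ(j̄, Y)`. -/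
theorem minpoly_eq (hc : CoreQ k N) {Φ : Polynomial (Polynomial k)} (h : ModPoly k N Φ) :
    minpoly (Kj k) (jqNModC k N) = PhiK Φ := by
  symm
  apply minpoly.unique' (Kj k) (jqNModC k N) (PhiK_monic h) (PhiK_aeval h)
  intro q hq
  by_cases hq0 : q = 0
  · exact Or.inl hq0
  · right
    intro hroot
    apply hq0
    apply eq_zero_of_aeval_eq_zero hc q _ hroot
    have h1 := Polynomial.natDegree_lt_natDegree hq0 hq
    rwa [PhiK_natDegree h] at h1

theorem isIntegral_jN {Φ : Polynomial (Polynomial k)} (h : ModPoly k N Φ) :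
    IsIntegral (Kj k) (jqNModC k N) :=
  ⟨PhiK Φ, PhiK_monic h, PhiK_aeval h⟩

/-- `[k(j̄)(j̄_N) : k(j̄)] = ψ(N)` -/
theorem finrank_adjoin (hc : CoreQ k N) {Φ : Polynomial (Polynomial k)} (h : ModPoly k N Φ) :
    Module.finrank (Kj k) (IntermediateField.adjoin (Kj k) {jqNModC k N}) = dedekindPsi N := by
  rw [IntermediateField.adjoin.finrank (isIntegral_jN h), minpoly_eq hc h, PhiK_natDegree h]

/-- `j̄_N` is separable over `k(j̄)` -/
theorem isSeparable_jN (hc : CoreQ k N) {Φ : Polynomial (Polynomial k)} (h : ModPoly k N Φ) :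
    IsSeparable (Kj k) (jqNModC k N) := by
  unfold IsSeparable
  rw [minpoly_eq hc h]
  exact PhiK_separable h

end general

section residue
variable (N : ℕ) [NeZero N] {ℓ : ℕ} (hℓ : ℓ.Prime) (hℓN : ¬ ℓ ∣ N)
variable (A : ValuationSubring Kbar) (hA : A.LiesOverPrime ℓ)

include hℓ hℓN hA in
/-- **CORE over the residue field** in the variable `q`. -/
theorem coreQ_residue : CoreQ (IsLocalRing.ResidueField A) N := by
  classical
  letI : Fintype (FF.X N) := Fintype.ofFinite _
  exact coreQ_of_coreOverT _ N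
    (coreOverT_of_normPolysRed N hℓ hℓN A hA (normPolysRed N hℓ hℓN A hA))

theorem evJ_qExpand_injective (k : Type*) [Field k] :
    Function.Injective (Key.evJ (qExpand k N (jqModC k))) :=
  Key.evJ_injective (order_jbarT N k)

include hℓ hℓN hA in
/-- the reduced modular polynomial over the residue field -/
theorem exists_modPoly_residue :
    ∃ Φ : Polynomial (Polynomial (IsLocalRing.ResidueField A)),
      ModPoly (IsLocalRing.ResidueField A) N Φ := by
  classical
  letI : Fintype (FF.X N) := Fintype.ofFinite _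
  obtain ⟨⟨Φ, hΦ⟩, -⟩ := normPolysRed N hℓ hℓN A hA
  have hinj := evJ_qExpand_injective N (IsLocalRing.ResidueField A)
  have hcomp := qExpand_comp_evQ (IsLocalRing.ResidueField A) N
  refine ⟨Φ, ⟨?_, ?_, ?_, ?_⟩⟩
  · apply Polynomial.monic_of_injective hinj
    rw [hΦ]
    exact Polynomial.monic_prod_of_monic _ _ fun i _ => Polynomial.monic_X_sub_C _
  · rw [← Polynomial.natDegree_map_eq_of_injective hinj Φ, hΦ,
      Polynomial.natDegree_prod_of_monic _ _ fun i _ => Polynomial.monic_X_sub_C _]
    simp only [Polynomial.natDegree_X_sub_C, Finset.sum_const, Finset.card_univ, smul_eq_mul,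
      mul_one]
    rw [← Nat.card_eq_fintype_card]
    exact card_X_eq N
  · apply qExpand_injective (R := IsLocalRing.ResidueField A) (N := N)
    rw [map_zero, Polynomial.hom_eval₂, hcomp, ← Polynomial.eval_map, hΦ,
      Polynomial.eval_prod]
    apply Finset.prod_eq_zero (Finset.mem_univ ((1 : SL(2, ℤ)) : FF.X N))
    rw [Polynomial.eval_sub, Polynomial.eval_X, Polynomial.eval_C, rRed_one, sub_eq_zero]
  · have h1 : ((Φ.map (evQ (IsLocalRing.ResidueField A))).map
        (qExpand (IsLocalRing.ResidueField A) N)).Separable := by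
      rw [Polynomial.map_map, hcomp, hΦ]
      exact Polynomial.separable_prod_X_sub_C_iff.mpr (rRed_injective N hℓ hℓN A hA)
    exact (Polynomial.separable_map _).mp h1

end residue

end Fermat.Agent.S18.RedDeg
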